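import Mathlib

/-!
# (I2), file A: the intrinsic cusp pairing on an abstract group (helper25)

Part A of `I2_PROOF25.md`.  Pure algebra, no matrices.

* `IsAddHom φ` : `φ : G → R` is additive (`φ (a * b) = φ a + φ b`).
* `IsPrimitive φ ψ κ` : `κ (a * b) = κ a + κ b - φ a * ψ b` (`dκ = φ ∪ ψ`).
* (A1) `IsPrimitive.map_one`, `map_inv`, `sub`, `add_left`, `add_right`, ...
* (A2) `IsPrimitive.conj`, `IsPrimitive.map_pow` : a primitive is conjugation invariant and
  additive on elements killed by `φ` and `ψ`.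
* (A5) `isPrimitive_cores` : for `H ≤ G` of finite index, `x` additive on `G`, `y` additive on `H`,
  `κ'` a primitive of `(x|H, y)` on `H`, the function `cores κ' + lam` is a primitive of
  `(x, cores y)` on `G` (cochain-level projection formula), and `cores_add_lam_of_normal`:
  its value at an element acting trivially on `G ⧸ H`.
-/

set_option linter.unusedSectionVars false

namespace Fermat.Agent.ES.I2.CuspPairing25

variable {G : Type*} [Group G] {R : Type*} [CommRing R]

/-- additive functions `G → R` (homomorphisms to the additive group of `R`). -/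
def IsAddHom (φ : G → R) : Prop := ∀ a b, φ (a * b) = φ a + φ b

namespace IsAddHom

variable {φ ψ : G → R}

theorem map_one (h : IsAddHom φ) : φ 1 = 0 := by
  have := h 1 1
  rw [mul_one] at this
  linear_combination -this

theorem map_inv (h : IsAddHom φ) (g : G) : φ g⁻¹ = -φ g := by
  have := h g g⁻¹
  rw [mul_inv_cancel, h.map_one] at this
  linear_combination -this

theorem map_conj (h : IsAddHom φ) (g c : G) : φ (g * c * g⁻¹) = φ c := by
  rw [h, h, h.map_inv]; ring

theorem map_pow (h : IsAddHom φ) (c : G) (n : ℕ) : φ (c ^ n) = n * φ c := by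
  induction n with
  | zero => simp [h.map_one]
  | succ n ih => rw [pow_succ, h, ih]; push_cast; ring

theorem add (h : IsAddHom φ) (h' : IsAddHom ψ) : IsAddHom (φ + ψ) := by
  intro a b; simp only [Pi.add_apply, h a b, h' a b]; ring

theorem smul (h : IsAddHom φ) (r : R) : IsAddHom (r • φ) := by
  intro a b; simp only [Pi.smul_apply, smul_eq_mul, h a b]; ring

theorem zero : IsAddHom (0 : G → R) := by
  intro a b; simp

end IsAddHom

/-- `κ` is a primitive of the `2`-cocycle `φ ∪ ψ`. -/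
def IsPrimitive (φ ψ κ : G → R) : Prop := ∀ a b, κ (a * b) = κ a + κ b - φ a * ψ b

namespace IsPrimitive

variable {φ ψ φ' ψ' κ κ' : G → R}

theorem map_one (h : IsPrimitive φ ψ κ) (hφ : IsAddHom φ) : κ 1 = 0 := by
  have := h 1 1
  rw [mul_one, hφ.map_one] at this
  linear_combination -this

/-- (A1) -/
theorem map_inv (h : IsPrimitive φ ψ κ) (hφ : IsAddHom φ) (hψ : IsAddHom ψ) (g : G) :
    κ g + κ g⁻¹ = -(φ g * ψ g) := by
  have := h g g⁻¹
  rw [mul_inv_cancel, h.map_one hφ, hψ.map_inv] at this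
  linear_combination -this

/-- two primitives differ by an additive function. -/
theorem sub (h : IsPrimitive φ ψ κ) (h' : IsPrimitive φ ψ κ') : IsAddHom (κ - κ') := by
  intro a b
  simp only [Pi.sub_apply, h a b, h' a b]; ring

theorem add_isAddHom (h : IsPrimitive φ ψ κ) {χ : G → R} (hχ : IsAddHom χ) :
    IsPrimitive φ ψ (κ + χ) := by
  intro a b
  simp only [Pi.add_apply, h a b, hχ a b]; ring

theorem add_left (h : IsPrimitive φ ψ κ) (h' : IsPrimitive φ' ψ κ') :
    IsPrimitive (φ + φ') ψ (κ + κ') := by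
  intro a b
  simp only [Pi.add_apply, h a b, h' a b]; ring

theorem add_right (h : IsPrimitive φ ψ κ) (h' : IsPrimitive φ ψ' κ') :
    IsPrimitive φ (ψ + ψ') (κ + κ') := by
  intro a b
  simp only [Pi.add_apply, h a b, h' a b]; ring

theorem smul_left (h : IsPrimitive φ ψ κ) (r : R) : IsPrimitive (r • φ) ψ (r • κ) := by
  intro a b
  simp only [Pi.smul_apply, smul_eq_mul, h a b]; ring

theorem smul_right (h : IsPrimitive φ ψ κ) (r : R) : IsPrimitive φ (r • ψ) (r • κ) := by
  intro a b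
  simp only [Pi.smul_apply, smul_eq_mul, h a b]; ring

theorem zero_left (ψ : G → R) : IsPrimitive (0 : G → R) ψ 0 := by
  intro a b; simp

theorem zero_right (φ : G → R) : IsPrimitive φ (0 : G → R) 0 := by
  intro a b; simp

/-- the symmetric part is always a coboundary: `-φ ψ` is a primitive of `φ ∪ ψ + ψ ∪ φ`,
stated as: if `κ` is a primitive of `(φ, ψ)` then `-(φ ψ) - κ` is a primitive of `(ψ, φ)`. -/
theorem swap (h : IsPrimitive φ ψ κ) (hφ : IsAddHom φ) (hψ : IsAddHom ψ) :
    IsPrimitive ψ φ (fun g => -(φ g * ψ g) - κ g) := by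
  intro a b
  simp only [h a b, hφ a b, hψ a b]; ring

/-- (A3) with `2` invertible, `-φ²/2` is a primitive of `(φ, φ)`. -/
theorem self [Invertible (2 : R)] (hφ : IsAddHom φ) :
    IsPrimitive φ φ (fun g => -(⅟ (2 : R)) * (φ g * φ g)) := by
  intro a b
  simp only [hφ a b]
  have h2 : (⅟ (2 : R)) * 2 = 1 := invOf_mul_self (2 : R)
  linear_combination (-(φ a * φ b)) * h2

/-- (A2) a primitive is conjugation invariant on elements killed by `φ` and `ψ`. -/
theorem conj (h : IsPrimitive φ ψ κ) (hφ : IsAddHom φ) (hψ : IsAddHom ψ) {c : G}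
    (hc : φ c = 0) (hc' : ψ c = 0) (g : G) : κ (g * c * g⁻¹) = κ c := by
  have h1 := h (g * c) g⁻¹
  have h2 := h g c
  have h3 := h.map_inv hφ hψ g
  rw [h1, h2, hφ, hc, hψ.map_inv, hc']
  linear_combination h3

theorem conj' (h : IsPrimitive φ ψ κ) (hφ : IsAddHom φ) (hψ : IsAddHom ψ) {c : G}
    (hc : φ c = 0) (hc' : ψ c = 0) (g : G) : κ (g⁻¹ * c * g) = κ c := by
  simpa using h.conj hφ hψ hc hc' g⁻¹

/-- (A2) a primitive is additive on powers of an element killed by `φ` and `ψ`. -/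
theorem map_pow (h : IsPrimitive φ ψ κ) (hφ : IsAddHom φ) {c : G}
    (hc : φ c = 0) (n : ℕ) : κ (c ^ n) = n * κ c := by
  induction n with
  | zero => simp [h.map_one hφ]
  | succ n ih =>
    rw [pow_succ, h, ih, hφ.map_pow, hc]
    push_cast; ring

end IsPrimitive

/-! ### (A5): transfer of primitives -/

section Transfer

variable (H : Subgroup G)

/-- a section of `G → G ⧸ H`. -/
structure Section where
  r : G ⧸ H → G
  hr : ∀ q, (r q : G ⧸ H) = q

variable {H}

/-- the transfer cocycle `t(g, q) = r(g q)⁻¹ g r(q) ∈ H`. -/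
def Section.t (s : Section H) (g : G) (q : G ⧸ H) : H :=
  ⟨(s.r (g • q))⁻¹ * g * s.r q, by
    have h1 : ((g * s.r q : G) : G ⧸ H) = g • q := by
      conv_rhs => rw [← s.hr q]
      rfl
    have h2 : ((s.r (g • q) : G) : G ⧸ H) = ((g * s.r q : G) : G ⧸ H) := by
      rw [s.hr, h1]
    have := QuotientGroup.eq.1 h2
    rwa [← mul_assoc] at this⟩

theorem Section.t_mul (s : Section H) (a b : G) (q : G ⧸ H) :
    s.t (a * b) q = s.t a (b • q) * s.t b q := by
  apply Subtype.ext
  simp only [Section.t, mul_smul, Subgroup.coe_mul]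
  group

theorem Section.t_of_fixed (s : Section H) {u : G} (q : G ⧸ H) (hu : u • q = q) :
    ((s.t u q : H) : G) = (s.r q)⁻¹ * u * s.r q := by
  simp only [Section.t, hu]

/-- a section exists. -/
noncomputable def Section.out : Section H := ⟨Quotient.out, fun q => Quotient.out_eq' q⟩

variable [Fintype (G ⧸ H)]

/-- transfer of a function on `H`. -/
def Section.cores (s : Section H) (f : H → R) (g : G) : R := ∑ q : G ⧸ H, f (s.t g q)

/-- the correction term of the projection formula. -/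
def Section.lam (s : Section H) (x : G → R) (y : H → R) (g : G) : R :=
  -∑ q : G ⧸ H, x (s.r (g • q)) * y (s.t g q)

theorem Section.isAddHom_cores (s : Section H) {y : H → R} (hy : IsAddHom y) :
    IsAddHom (s.cores y) := by
  intro a b
  simp only [Section.cores, s.t_mul, hy _ _, Finset.sum_add_distrib]
  congr 1
  exact Fintype.sum_equiv (MulAction.toPerm b) _ _ (fun q => rfl)

/-- **(A5), the cochain-level projection formula.** -/
theorem Section.isPrimitive_cores (s : Section H) {x : G → R} {y κ' : H → R}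
    (hx : IsAddHom x) (hy : IsAddHom y) (hκ' : IsPrimitive (fun h : H => x h) y κ') :
    IsPrimitive x (s.cores y) (s.cores κ' + s.lam x y) := by
  intro a b
  simp only [Pi.add_apply, Section.cores, Section.lam, s.t_mul, hκ' _ _, hy _ _, mul_smul]
  have e1 : ∑ q : G ⧸ H, κ' (s.t a (b • q)) = ∑ q : G ⧸ H, κ' (s.t a q) :=
    Fintype.sum_equiv (MulAction.toPerm b) _ _ (fun q => rfl)
  have e2 : ∑ q : G ⧸ H, x (s.r (a • b • q)) * y (s.t a (b • q))
      = ∑ q : G ⧸ H, x (s.r (a • q)) * y (s.t a q) :=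
    Fintype.sum_equiv (MulAction.toPerm b) _ _ (fun q => rfl)
  have e3 : ∀ q : G ⧸ H, x ((s.t a (b • q) : H) : G)
      = -x (s.r (a • b • q)) + x a + x (s.r (b • q)) := by
    intro q
    simp only [Section.t, hx _ _, hx.map_inv]
  simp only [e3]
  simp only [Finset.sum_sub_distrib, Finset.sum_add_distrib, mul_add, add_mul, e1,
    ← Finset.mul_sum, neg_mul, Finset.sum_neg_distrib]
  rw [e2]
  ring

/-- the value of the transferred primitive at an element acting trivially on `G ⧸ H`. -/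
theorem Section.cores_add_lam_of_fixed (s : Section H) {x : G → R} {y κ' : H → R} {u : G}
    (hu : ∀ q : G ⧸ H, u • q = q) :
    (s.cores κ' + s.lam x y) u
      = ∑ q : G ⧸ H, κ' (s.t u q) - ∑ q : G ⧸ H, x (s.r q) * y (s.t u q) := by
  simp only [Pi.add_apply, Section.cores, Section.lam, hu]
  ring

end Transfer

/-! ### the cusp pairing -/

section Pairing

variable {ι : Type*} [Fintype ι]

/-- additive functions killing the cusp family `c`. -/
def IsPar (c : ι → G) (φ : G → R) : Prop := IsAddHom φ ∧ ∀ j, φ (c j) = 0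

theorem IsPar.add {c : ι → G} {φ ψ : G → R} (h : IsPar c φ) (h' : IsPar c ψ) :
    IsPar c (φ + ψ) :=
  ⟨h.1.add h'.1, fun j => by simp [h.2 j, h'.2 j]⟩

theorem IsPar.smul {c : ι → G} {φ : G → R} (h : IsPar c φ) (r : R) : IsPar c (r • φ) :=
  ⟨h.1.smul r, fun j => by simp [h.2 j]⟩

theorem IsPar.zero (c : ι → G) : IsPar c (0 : G → R) := ⟨IsAddHom.zero, fun _ => rfl⟩

variable (R) in
/-- **(REL)**: the cusp generators sum to zero in every additive character. -/
def Rel (c : ι → G) : Prop := ∀ χ : G → R, IsAddHom χ → ∑ j, χ (c j) = 0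

/-- **(K)**: every pair of parabolic homs has a primitive. -/
def HasPrim (c : ι → G) : Prop :=
  ∀ φ ψ : G → R, IsPar c φ → IsPar c ψ → ∃ κ : G → R, IsPrimitive φ ψ κ

open Classical in
/-- **the intrinsic cusp pairing** `P(φ,ψ) = ∑_j κ(c_j)`, `κ` any primitive of `(φ,ψ)`
(junk value `0` if there is none). -/
noncomputable def pairing (c : ι → G) (φ ψ : G → R) : R :=
  if h : ∃ κ : G → R, IsPrimitive φ ψ κ then ∑ j, Classical.choose h (c j) else 0

variable {c : ι → G} {φ ψ φ' ψ' κ : G → R}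

/-- the pairing can be computed with ANY primitive. -/
theorem pairing_eq (hrel : Rel R c) (hκ : IsPrimitive φ ψ κ) :
    pairing c φ ψ = ∑ j, κ (c j) := by
  have h : ∃ κ : G → R, IsPrimitive φ ψ κ := ⟨κ, hκ⟩
  rw [pairing, dif_pos h]
  have hd := (Classical.choose_spec h).sub hκ
  have := hrel _ hd
  simp only [Pi.sub_apply, Finset.sum_sub_distrib] at this
  linear_combination this

theorem pairing_add_left (hrel : Rel R c) (hK : HasPrim (R := R) c) (hφ : IsPar c φ)
    (hφ' : IsPar c φ') (hψ : IsPar c ψ) :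
    pairing c (φ + φ') ψ = pairing c φ ψ + pairing c φ' ψ := by
  obtain ⟨κ, hκ⟩ := hK φ ψ hφ hψ
  obtain ⟨κ', hκ'⟩ := hK φ' ψ hφ' hψ
  rw [pairing_eq hrel hκ, pairing_eq hrel hκ', pairing_eq hrel (hκ.add_left hκ')]
  simp [Finset.sum_add_distrib]

theorem pairing_add_right (hrel : Rel R c) (hK : HasPrim (R := R) c) (hφ : IsPar c φ)
    (hψ : IsPar c ψ) (hψ' : IsPar c ψ') :
    pairing c φ (ψ + ψ') = pairing c φ ψ + pairing c φ ψ' := by
  obtain ⟨κ, hκ⟩ := hK φ ψ hφ hψ
  obtain ⟨κ', hκ'⟩ := hK φ ψ' hφ hψ'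
  rw [pairing_eq hrel hκ, pairing_eq hrel hκ', pairing_eq hrel (hκ.add_right hκ')]
  simp [Finset.sum_add_distrib]

theorem pairing_smul_left (hrel : Rel R c) (hK : HasPrim (R := R) c) (hφ : IsPar c φ)
    (hψ : IsPar c ψ) (r : R) : pairing c (r • φ) ψ = r * pairing c φ ψ := by
  obtain ⟨κ, hκ⟩ := hK φ ψ hφ hψ
  rw [pairing_eq hrel hκ, pairing_eq hrel (hκ.smul_left r)]
  simp [Finset.mul_sum]

theorem pairing_smul_right (hrel : Rel R c) (hK : HasPrim (R := R) c) (hφ : IsPar c φ)
    (hψ : IsPar c ψ) (r : R) : pairing c φ (r • ψ) = r * pairing c φ ψ := by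
  obtain ⟨κ, hκ⟩ := hK φ ψ hφ hψ
  rw [pairing_eq hrel hκ, pairing_eq hrel (hκ.smul_right r)]
  simp [Finset.mul_sum]

theorem pairing_zero_left (hrel : Rel R c) : pairing c (0 : G → R) ψ = 0 := by
  rw [pairing_eq hrel (IsPrimitive.zero_left ψ)]; simp

theorem pairing_zero_right (hrel : Rel R c) : pairing c φ (0 : G → R) = 0 := by
  rw [pairing_eq hrel (IsPrimitive.zero_right φ)]; simp

/-- skew-symmetry. -/
theorem pairing_swap (hrel : Rel R c) (hK : HasPrim (R := R) c) (hφ : IsPar c φ)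
    (hψ : IsPar c ψ) : pairing c ψ φ = -pairing c φ ψ := by
  obtain ⟨κ, hκ⟩ := hK φ ψ hφ hψ
  rw [pairing_eq hrel hκ, pairing_eq hrel (hκ.swap hφ.1 hψ.1)]
  simp [hφ.2]

/-- **alternating** (with `2` invertible). -/
theorem pairing_self [Invertible (2 : R)] (hrel : Rel R c) (hφ : IsPar c φ) :
    pairing c φ φ = 0 := by
  rw [pairing_eq hrel (IsPrimitive.self hφ.1)]
  simp [hφ.2]

/-- the pairing does not change if each cusp generator is replaced by a conjugate. -/
theorem pairing_conj (hrel : Rel R c) (hK : HasPrim (R := R) c) (hφ : IsPar c φ)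
    (hψ : IsPar c ψ) (g : ι → G) :
    pairing (fun j => g j * c j * (g j)⁻¹) φ ψ = pairing c φ ψ := by
  have hrel' : Rel R (fun j => g j * c j * (g j)⁻¹) := by
    intro χ hχ
    simpa [hχ.map_conj] using hrel χ hχ
  obtain ⟨κ, hκ⟩ := hK φ ψ hφ hψ
  rw [pairing_eq hrel hκ, pairing_eq hrel' hκ]
  exact Finset.sum_congr rfl fun j _ => hκ.conj hφ.1 hψ.1 (hφ.2 j) (hψ.2 j) (g j)

theorem isPar_conj {c : ι → G} {φ : G → R} (g : ι → G) :
    IsPar (fun j => g j * c j * (g j)⁻¹) φ ↔ IsPar c φ := by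
  constructor
  · rintro ⟨h, h'⟩
    exact ⟨h, fun j => by simpa [h.map_conj] using h' j⟩
  · rintro ⟨h, h'⟩
    exact ⟨h, fun j => by simpa [h.map_conj] using h' j⟩

/-- reindexing the cusp family. -/
theorem pairing_reindex {ι' : Type*} [Fintype ι'] (e : ι' ≃ ι) (hrel : Rel R c)
    (hK : HasPrim (R := R) c) (hφ : IsPar c φ) (hψ : IsPar c ψ) :
    pairing (c ∘ e) φ ψ = pairing c φ ψ := by
  have hrel' : Rel R (c ∘ e) := by
    intro χ hχ
    rw [← hrel χ hχ]
    exact Fintype.sum_equiv e _ _ (fun _ => rfl)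
  obtain ⟨κ, hκ⟩ := hK φ ψ hφ hψ
  rw [pairing_eq hrel hκ, pairing_eq hrel' hκ]
  exact Fintype.sum_equiv e _ _ (fun _ => rfl)

/-- **(A4) naturality** under a group isomorphism carrying the cusp family to the cusp family. -/
theorem pairing_comp_equiv {G' : Type*} [Group G'] (θ : G' ≃* G) {c' : ι → G'}
    (hc : ∀ j, θ (c' j) = c j) (hrel : Rel R c) (hK : HasPrim (R := R) c) (hφ : IsPar c φ)
    (hψ : IsPar c ψ) :
    pairing c' (φ ∘ θ) (ψ ∘ θ) = pairing c φ ψ := by
  have hrel' : Rel R c' := by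
    intro χ hχ
    have h1 : IsAddHom (χ ∘ θ.symm) := by
      intro a b; simp [hχ _ _]
    have := hrel _ h1
    simpa [← hc] using this
  obtain ⟨κ, hκ⟩ := hK φ ψ hφ hψ
  have hκ' : IsPrimitive (φ ∘ θ) (ψ ∘ θ) (κ ∘ θ) := by
    intro a b; simp [hκ _ _]
  rw [pairing_eq hrel hκ, pairing_eq hrel' hκ']
  simp [hc]

theorem isPar_comp_equiv {G' : Type*} [Group G'] (θ : G' ≃* G) {c' : ι → G'}
    (hc : ∀ j, θ (c' j) = c j) (hφ : IsPar c φ) : IsPar c' (φ ∘ θ) :=
  ⟨fun a b => by simp [hφ.1 _ _], fun j => by simp [hc, hφ.2 j]⟩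

end Pairing

end Fermat.Agent.ES.I2.CuspPairing25
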