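/-
(I2) of Program L (S41), brick (REL)/(H0)  [helper15].

For a finite-index subgroup `H` of a group `G`, an element `t : G` and a homomorphism `χ : H →* A`
into a commutative group, Mathlib's transfer formula says that the transfer of `χ` at `t` is the
product of `χ` over the "cusp elements" `r t ^ h r⁻¹`, one for each double coset `H r ⟨t⟩`, `h` the
width.  If every homomorphism `G →* A` is trivial (e.g. `G = SL(2,ℤ)`, `A` torsion free) this
product is `1`: this is the relation (REL) `Σ_c χ(π_c) = 0` which makes the intrinsic cusp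
pairing `P(φ,ψ) = Σ_c κ(π_c)` independent of the primitive `κ`.  Mathlib only.

Main statements
* `prod_orbit_eq_one`       : Mathlib's orbit representatives;
* `prod_reps_eq_one_left`   : arbitrary representatives `g j` of `⟨t⟩ \ G / H`, elements `g⁻¹ t^h g`;
* `prod_reps_eq_one_right`  : arbitrary representatives `r j` of `H \ G / ⟨t⟩`, elements `r t^h r⁻¹`;
* `sl2z_hom_eq_one`         : a homomorphism from `SL(2,ℤ)` to a torsion-free commutative group is
                              trivial;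
* `SL2Z.prod_cusp_eq_one`, `SL2Z.sum_cusp_eq_zero` : the relation for finite-index subgroups of
  `SL(2,ℤ)`, multiplicative / additive (`Additive Γ →+ R`) form.
-/
import Mathlib

set_option autoImplicit false

namespace Fermat.Agent.ES.I2.CuspRel15

open MulAction Subgroup

section Abstract

variable {G : Type*} [Group G] {A : Type*} [CommGroup A] (H : Subgroup G)

/-- the period of `t` on the left coset `g H` in terms of conjugates. -/
theorem isPeriodicPt_coset_iff (t g : G) (k : ℕ) :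
    Function.IsPeriodicPt (t • · : G ⧸ H → G ⧸ H) k (g : G ⧸ H) ↔ g⁻¹ * t ^ k * g ∈ H := by
  rw [Function.IsPeriodicPt, Function.IsFixedPt, smul_iterate]
  show t ^ k • (g : G ⧸ H) = (g : G ⧸ H) ↔ _
  rw [MulAction.Quotient.smul_coe, eq_comm, QuotientGroup.eq, smul_eq_mul, mul_assoc]

/-- the width of the coset `g H` under `t`, characterised elementwise. -/
theorem minimalPeriod_coset_eq (t g : G) (h : ℕ) (hpos : 0 < h) (hmem : g⁻¹ * t ^ h * g ∈ H)
    (hmin : ∀ k, 0 < k → g⁻¹ * t ^ k * g ∈ H → h ≤ k) :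
    Function.minimalPeriod (t • · : G ⧸ H → G ⧸ H) (g : G ⧸ H) = h := by
  have hper : Function.IsPeriodicPt (t • · : G ⧸ H → G ⧸ H) h (g : G ⧸ H) :=
    (isPeriodicPt_coset_iff H t g h).mpr hmem
  apply le_antisymm (hper.minimalPeriod_le hpos)
  apply hmin _ (hper.minimalPeriod_pos hpos)
  exact (isPeriodicPt_coset_iff H t g _).mp (Function.isPeriodicPt_minimalPeriod _ _)

/-- membership of conjugates is invariant under moving `g` inside `⟨t⟩ g H`. -/
theorem conj_mem_iff (t g : G) (i : ℤ) (η : G) (hη : η ∈ H) (k : ℕ) :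
    (t ^ i * g * η)⁻¹ * t ^ k * (t ^ i * g * η) ∈ H ↔ g⁻¹ * t ^ k * g ∈ H := by
  have hcomm : (t ^ i)⁻¹ * t ^ k * t ^ i = t ^ k := by
    rw [← zpow_natCast, ← zpow_neg, ← zpow_add, ← zpow_add]; congr 1; ring
  have : (t ^ i * g * η)⁻¹ * t ^ k * (t ^ i * g * η) = η⁻¹ * (g⁻¹ * t ^ k * g) * η := by
    calc (t ^ i * g * η)⁻¹ * t ^ k * (t ^ i * g * η)
        = η⁻¹ * (g⁻¹ * ((t ^ i)⁻¹ * t ^ k * t ^ i) * g) * η := by group
      _ = _ := by rw [hcomm]
  rw [this]
  constructor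
  · intro h
    have := H.mul_mem (H.mul_mem hη h) (H.inv_mem hη)
    simpa [mul_assoc] using this
  · intro h
    exact H.mul_mem (H.mul_mem (H.inv_mem hη) h) hη

variable [H.FiniteIndex]

/-- Mathlib's orbit form: if every homomorphism `G →* A` is trivial, the product of `χ` over the
orbit elements of `t` is `1`. -/
theorem prod_orbit_eq_one (htriv : ∀ f : G →* A, f = 1) (χ : H →* A) (t : G)
    [Fintype (Quotient (orbitRel (zpowers t) (G ⧸ H)))] :
    ∏ q : Quotient (orbitRel (zpowers t) (G ⧸ H)),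
      χ ⟨q.out.out⁻¹ * t ^ Function.minimalPeriod (t • ·) q.out * q.out.out,
        QuotientGroup.out_conj_pow_minimalPeriod_mem H t q.out⟩ = 1 := by
  rw [← MonoidHom.transfer_eq_prod_quotient_orbitRel_zpowers_quot, htriv (MonoidHom.transfer χ)]
  rfl

/-- **(REL), left form.**  `g j` a system of representatives of `⟨t⟩ \ G / H` with widths `h j`
(all stated elementwise): the product of `χ` over the elements `(g j)⁻¹ t ^ (h j) (g j)` is `1`. -/
theorem prod_reps_eq_one_left (htriv : ∀ f : G →* A, f = 1) (χ : H →* A) (t : G)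
    {J : Type*} [Fintype J] (g : J → G) (h : J → ℕ) (hpos : ∀ j, 0 < h j)
    (hmem : ∀ j, (g j)⁻¹ * t ^ h j * g j ∈ H)
    (hmin : ∀ j k, 0 < k → (g j)⁻¹ * t ^ k * g j ∈ H → h j ≤ k)
    (hcover : ∀ x : G, ∃ j, ∃ i : ℤ, ∃ η ∈ H, x = t ^ i * g j * η)
    (hdisj : ∀ j j' (i : ℤ) (η : G), η ∈ H → g j' = t ^ i * g j * η → j = j') :
    ∏ j, χ ⟨(g j)⁻¹ * t ^ h j * g j, hmem j⟩ = 1 := by
  classical
  have : Fintype (G ⧸ H) := H.fintypeQuotientOfFiniteIndex
  have : Fintype (Quotient (orbitRel (zpowers t) (G ⧸ H))) := Fintype.ofFinite _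
  -- the orbit map
  let e : J → Quotient (orbitRel (zpowers t) (G ⧸ H)) := fun j => Quotient.mk'' ((g j : G) : G ⧸ H)
  -- description of orbit equivalence
  have horb : ∀ (x y : G), (Quotient.mk'' ((x : G) : G ⧸ H) :
      Quotient (orbitRel (zpowers t) (G ⧸ H))) = Quotient.mk'' ((y : G) : G ⧸ H) →
      ∃ i : ℤ, ∃ η ∈ H, x = t ^ i * y * η := by
    intro x y hxy
    have h1 : ((x : G) : G ⧸ H) ∈ MulAction.orbit (zpowers t) ((y : G) : G ⧸ H) :=
      Quotient.exact' hxy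
    obtain ⟨⟨s, hs⟩, hs'⟩ := h1
    obtain ⟨i, rfl⟩ := Subgroup.mem_zpowers_iff.mp hs
    have h2 : ((t ^ i * y : G) : G ⧸ H) = ((x : G) : G ⧸ H) := hs'
    have h3 := QuotientGroup.eq.mp h2
    exact ⟨i, _, h3, by group⟩
  have hinj : Function.Injective e := by
    intro j j' hjj'
    obtain ⟨i, η, hη, hx⟩ := horb (g j') (g j) hjj'.symm
    exact hdisj j j' i η hη hx
  have hsurj : Function.Surjective e := by
    intro q
    induction q using Quotient.inductionOn' with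
    | h y =>
      induction y using QuotientGroup.induction_on with
      | H x =>
        obtain ⟨j, i, η, hη, hx⟩ := hcover x
        refine ⟨j, ?_⟩
        symm
        apply Quotient.sound'
        refine ⟨⟨t ^ i, Subgroup.zpow_mem_zpowers t i⟩, ?_⟩
        show ((t ^ i * g j : G) : G ⧸ H) = ((x : G) : G ⧸ H)
        rw [QuotientGroup.eq, hx]
        have : (t ^ i * g j)⁻¹ * (t ^ i * g j * η) = η := by group
        rw [this]; exact hη
  have hbij : Function.Bijective e := ⟨hinj, hsurj⟩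
  have key := prod_orbit_eq_one H htriv χ t
  rw [← hbij.prod_comp] at key
  rw [← key]
  refine Finset.prod_congr rfl (fun j _ => ?_)
  -- compare the two cusp elements
  set y : G ⧸ H := (e j).out with hy
  set x : G := y.out with hx
  have hxy : ((x : G) : G ⧸ H) = y := QuotientGroup.out_eq' y
  have hq : (Quotient.mk'' ((x : G) : G ⧸ H) : Quotient (orbitRel (zpowers t) (G ⧸ H))) =
      Quotient.mk'' ((g j : G) : G ⧸ H) := by
    rw [hxy, hy]; exact Quotient.out_eq' (e j)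
  obtain ⟨i, η, hη, hxe⟩ := horb x (g j) hq
  have hmp : Function.minimalPeriod (t • · : G ⧸ H → G ⧸ H) y = h j := by
    rw [← hxy]
    apply minimalPeriod_coset_eq H t x (h j) (hpos j)
    · rw [hxe]; exact (conj_mem_iff H t (g j) i η hη _).mpr (hmem j)
    · intro k hk hk'
      rw [hxe] at hk'
      exact hmin j k hk ((conj_mem_iff H t (g j) i η hη _).mp hk')
  have hcomm : (t ^ i)⁻¹ * t ^ (h j) * t ^ i = t ^ (h j) := by
    rw [← zpow_natCast, ← zpow_neg, ← zpow_add, ← zpow_add]; congr 1; ring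
  have hel : x⁻¹ * t ^ Function.minimalPeriod (t • · : G ⧸ H → G ⧸ H) y * x =
      η⁻¹ * ((g j)⁻¹ * t ^ h j * g j) * η := by
    rw [hmp, hxe]
    calc (t ^ i * g j * η)⁻¹ * t ^ (h j) * (t ^ i * g j * η)
        = η⁻¹ * ((g j)⁻¹ * ((t ^ i)⁻¹ * t ^ (h j) * t ^ i) * g j) * η := by group
      _ = _ := by rw [hcomm]
  have hsub : (⟨x⁻¹ * t ^ Function.minimalPeriod (t • · : G ⧸ H → G ⧸ H) y * x,
      QuotientGroup.out_conj_pow_minimalPeriod_mem H t y⟩ : H) =
      (⟨η, hη⟩ : H)⁻¹ * ⟨(g j)⁻¹ * t ^ h j * g j, hmem j⟩ * ⟨η, hη⟩ := by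
    apply Subtype.ext
    simpa using hel
  symm
  show χ ⟨x⁻¹ * t ^ Function.minimalPeriod (t • · : G ⧸ H → G ⧸ H) y * x, _⟩ = _
  rw [hsub, map_mul, map_mul, map_inv]
  rw [mul_comm, ← mul_assoc, mul_inv_cancel, one_mul]

/-- **(REL), right form** (the shape of I2_PROOF25: `c_j = r_j t ^ (h_j) r_j⁻¹`, `r_j` a system of
representatives of `H \ G / ⟨t⟩`, i.e. of the `t`-orbits on the right cosets `H \ G`). -/
theorem prod_reps_eq_one_right (htriv : ∀ f : G →* A, f = 1) (χ : H →* A) (t : G)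
    {J : Type*} [Fintype J] (r : J → G) (h : J → ℕ) (hpos : ∀ j, 0 < h j)
    (hmem : ∀ j, r j * t ^ h j * (r j)⁻¹ ∈ H)
    (hmin : ∀ j k, 0 < k → r j * t ^ k * (r j)⁻¹ ∈ H → h j ≤ k)
    (hcover : ∀ x : G, ∃ j, ∃ i : ℤ, ∃ η ∈ H, x = η * r j * t ^ i)
    (hdisj : ∀ j j' (i : ℤ) (η : G), η ∈ H → r j' = η * r j * t ^ i → j = j') :
    ∏ j, χ ⟨r j * t ^ h j * (r j)⁻¹, hmem j⟩ = 1 := by
  have hmem' : ∀ j, ((r j)⁻¹)⁻¹ * t ^ h j * (r j)⁻¹ ∈ H := fun j => by
    rw [inv_inv]; exact hmem j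
  have key := prod_reps_eq_one_left H htriv χ t (fun j => (r j)⁻¹) h hpos hmem'
    (fun j k hk hk' => hmin j k hk (by rw [inv_inv] at hk'; exact hk'))
    (fun x => by
      obtain ⟨j, i, η, hη, hx⟩ := hcover x⁻¹
      refine ⟨j, -i, η⁻¹, H.inv_mem hη, ?_⟩
      have : x = (η * r j * t ^ i)⁻¹ := by rw [← hx, inv_inv]
      rw [this, zpow_neg]; group)
    (fun j j' i η hη hx => by
      refine hdisj j j' (-i) η⁻¹ (H.inv_mem hη) ?_
      have h1 : r j' = ((r j')⁻¹)⁻¹ := (inv_inv _).symm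
      rw [h1, hx, zpow_neg]; group)
  rw [← key]
  refine Finset.prod_congr rfl (fun j _ => ?_)
  congr 1
  apply Subtype.ext
  show r j * t ^ h j * (r j)⁻¹ = ((r j)⁻¹)⁻¹ * t ^ h j * (r j)⁻¹
  rw [inv_inv]

end Abstract

section SL2Z

open Matrix ModularGroup
open scoped MatrixGroups

theorem S_pow_four : (S : SL(2, ℤ)) ^ 4 = 1 := by decide

theorem S_mul_T_pow_six : ((S : SL(2, ℤ)) * T) ^ 6 = 1 := by decide

/-- A homomorphism from `SL(2,ℤ)` to a torsion-free commutative group is trivial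
(`SL(2,ℤ)` is generated by `S` of order `4` and `S T` of order `6`). -/
theorem sl2z_hom_eq_one {A : Type*} [CommGroup A]
    (htf : ∀ (a : A) (n : ℕ), 0 < n → a ^ n = 1 → a = 1) (f : SL(2, ℤ) →* A) : f = 1 := by
  have hfS : f S = 1 := htf _ 4 (by norm_num) (by rw [← map_pow, S_pow_four, map_one])
  have hfST : f (S * T) = 1 :=
    htf _ 6 (by norm_num) (by rw [← map_pow, S_mul_T_pow_six, map_one])
  have hfT : f T = 1 := by
    rw [map_mul, hfS, one_mul] at hfST; exact hfST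
  have hgen : Subgroup.closure ({S, T} : Set SL(2, ℤ)) = ⊤ := SpecialLinearGroup.SL2Z_generators
  have hle : Subgroup.closure ({S, T} : Set SL(2, ℤ)) ≤ f.ker := by
    rw [Subgroup.closure_le]
    rintro x (rfl | rfl)
    · exact hfS
    · exact hfT
  rw [hgen] at hle
  ext x
  exact hle (Subgroup.mem_top x)

/-- the additive form: a homomorphism `SL(2,ℤ) →* Multiplicative R` is trivial if `R` has no
`ℕ`-torsion. -/
theorem sl2z_hom_multiplicative_eq_one {R : Type*} [AddCommGroup R]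
    (htf : ∀ (a : R) (n : ℕ), 0 < n → n • a = 0 → a = 0) (f : SL(2, ℤ) →* Multiplicative R) :
    f = 1 :=
  sl2z_hom_eq_one (fun a n hn han => by
    have h1 : n • Multiplicative.toAdd a = 0 := by
      have := congrArg Multiplicative.toAdd han
      simpa using this
    have h2 := htf _ n hn h1
    exact Multiplicative.toAdd.injective (by simpa using h2)) f

namespace SL2Z

variable (Γ : Subgroup SL(2, ℤ)) [Γ.FiniteIndex]

/-- **(REL) for finite-index subgroups of `SL(2,ℤ)`, multiplicative form.**  `r j` representatives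
of `Γ \ SL(2,ℤ) / ⟨t⟩` (i.e. of the `t`-orbits = cusps when `t = T`), `h j` the widths,
`c_j = r_j t ^ (h_j) r_j⁻¹ ∈ Γ` the cusp elements: `∏_j χ(c_j) = 1` for every `χ : Γ →* A`,
`A` torsion free. -/
theorem prod_cusp_eq_one {A : Type*} [CommGroup A]
    (htf : ∀ (a : A) (n : ℕ), 0 < n → a ^ n = 1 → a = 1) (χ : Γ →* A) (t : SL(2, ℤ))
    {J : Type*} [Fintype J] (r : J → SL(2, ℤ)) (h : J → ℕ) (hpos : ∀ j, 0 < h j)
    (hmem : ∀ j, r j * t ^ h j * (r j)⁻¹ ∈ Γ)
    (hmin : ∀ j k, 0 < k → r j * t ^ k * (r j)⁻¹ ∈ Γ → h j ≤ k)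
    (hcover : ∀ x : SL(2, ℤ), ∃ j, ∃ i : ℤ, ∃ η ∈ Γ, x = η * r j * t ^ i)
    (hdisj : ∀ j j' (i : ℤ) (η : SL(2, ℤ)), η ∈ Γ → r j' = η * r j * t ^ i → j = j') :
    ∏ j, χ ⟨r j * t ^ h j * (r j)⁻¹, hmem j⟩ = 1 :=
  prod_reps_eq_one_right Γ (sl2z_hom_eq_one htf) χ t r h hpos hmem hmin hcover hdisj

/-- **(REL) for finite-index subgroups of `SL(2,ℤ)`, additive form** (the shape of
`parabolicHoms`: `χ : Additive Γ →+ R`): `∑_j χ(c_j) = 0`. -/
theorem sum_cusp_eq_zero {R : Type*} [AddCommGroup R]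
    (htf : ∀ (a : R) (n : ℕ), 0 < n → n • a = 0 → a = 0) (χ : Additive Γ →+ R) (t : SL(2, ℤ))
    {J : Type*} [Fintype J] (r : J → SL(2, ℤ)) (h : J → ℕ) (hpos : ∀ j, 0 < h j)
    (hmem : ∀ j, r j * t ^ h j * (r j)⁻¹ ∈ Γ)
    (hmin : ∀ j k, 0 < k → r j * t ^ k * (r j)⁻¹ ∈ Γ → h j ≤ k)
    (hcover : ∀ x : SL(2, ℤ), ∃ j, ∃ i : ℤ, ∃ η ∈ Γ, x = η * r j * t ^ i)
    (hdisj : ∀ j j' (i : ℤ) (η : SL(2, ℤ)), η ∈ Γ → r j' = η * r j * t ^ i → j = j') :
    ∑ j, χ (Additive.ofMul ⟨r j * t ^ h j * (r j)⁻¹, hmem j⟩) = 0 := by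
  have key := prod_reps_eq_one_right Γ (sl2z_hom_multiplicative_eq_one htf)
    (AddMonoidHom.toMultiplicativeRight χ) t r h hpos hmem hmin hcover hdisj
  have h2 := congrArg Multiplicative.toAdd key
  rw [toAdd_prod] at h2
  simpa using h2

/-- special case `R = ℤ`. -/
theorem sum_cusp_eq_zero_int (χ : Additive Γ →+ ℤ) (t : SL(2, ℤ))
    {J : Type*} [Fintype J] (r : J → SL(2, ℤ)) (h : J → ℕ) (hpos : ∀ j, 0 < h j)
    (hmem : ∀ j, r j * t ^ h j * (r j)⁻¹ ∈ Γ)
    (hmin : ∀ j k, 0 < k → r j * t ^ k * (r j)⁻¹ ∈ Γ → h j ≤ k)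
    (hcover : ∀ x : SL(2, ℤ), ∃ j, ∃ i : ℤ, ∃ η ∈ Γ, x = η * r j * t ^ i)
    (hdisj : ∀ j j' (i : ℤ) (η : SL(2, ℤ)), η ∈ Γ → r j' = η * r j * t ^ i → j = j') :
    ∑ j, χ (Additive.ofMul ⟨r j * t ^ h j * (r j)⁻¹, hmem j⟩) = 0 :=
  sum_cusp_eq_zero Γ (fun a n hn han => by
    rcases smul_eq_zero.mp han with h0 | h0
    · omega
    · exact h0) χ t r h hpos hmem hmin hcover hdisj

end SL2Z

end SL2Z

end Fermat.Agent.ES.I2.CuspRel15
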