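/-
(I2) of Program L (S41): (REL)/(H0) in the vocabulary of `CuspPairing25`  [helper15].

`CuspPairing25.Rel R c` for the cusp family `c j = r_j t ^ (h_j) r_j⁻¹` of a finite-index subgroup
`Γ ≤ SL(2,ℤ)` (arbitrary representatives `r j` of `Γ \ SL(2,ℤ) / ⟨t⟩`, widths `h j`), `R` any
commutative ring without `ℕ`-torsion; also an abstract-group version.
-/
import Fermat.Agent.ES.I2.CuspPairing25
import Fermat.Agent.ES.I2.CuspRel15

set_option autoImplicit false

namespace Fermat.Agent.ES.I2.CuspRelAdapter15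

open Fermat.Agent.ES.I2.CuspPairing25 Fermat.Agent.ES.I2.CuspRel15
open scoped MatrixGroups

/-- an `IsAddHom` function as a homomorphism into `Multiplicative R`. -/
def toMulHom {G : Type*} [Group G] {R : Type*} [CommRing R] (χ : G → R) (hχ : IsAddHom χ) :
    G →* Multiplicative R where
  toFun g := Multiplicative.ofAdd (χ g)
  map_one' := by rw [hχ.map_one]; rfl
  map_mul' a b := by rw [hχ a b]; rfl

/-- **(REL), abstract form.**  `H` a finite-index subgroup of `G`, every homomorphism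
`G →* Multiplicative R` trivial, `r j` representatives of `H \ G / ⟨t⟩` with widths `h j`:
the family `c j = r_j t ^ (h_j) r_j⁻¹ ∈ H` satisfies `Rel R c`. -/
theorem rel_of_reps {G : Type*} [Group G] (H : Subgroup G) [H.FiniteIndex] (R : Type*) [CommRing R]
    (htriv : ∀ f : G →* Multiplicative R, f = 1) (t : G)
    {J : Type*} [Fintype J] (r : J → G) (h : J → ℕ) (hpos : ∀ j, 0 < h j)
    (hmem : ∀ j, r j * t ^ h j * (r j)⁻¹ ∈ H)
    (hmin : ∀ j k, 0 < k → r j * t ^ k * (r j)⁻¹ ∈ H → h j ≤ k)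
    (hcover : ∀ x : G, ∃ j, ∃ i : ℤ, ∃ η ∈ H, x = η * r j * t ^ i)
    (hdisj : ∀ j j' (i : ℤ) (η : G), η ∈ H → r j' = η * r j * t ^ i → j = j') :
    Rel R (fun j => (⟨r j * t ^ h j * (r j)⁻¹, hmem j⟩ : H)) := by
  intro χ hχ
  have key := prod_reps_eq_one_right H htriv (toMulHom χ hχ) t r h hpos hmem hmin hcover hdisj
  have h2 := congrArg Multiplicative.toAdd key
  rw [toAdd_prod] at h2
  simpa [toMulHom] using h2

/-- **(REL) for finite-index subgroups of `SL(2,ℤ)`** in the vocabulary of `CuspPairing25`. -/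
theorem rel_SL2Z (Γ : Subgroup SL(2, ℤ)) [Γ.FiniteIndex] (R : Type*) [CommRing R]
    (htf : ∀ (a : R) (n : ℕ), 0 < n → n • a = 0 → a = 0) (t : SL(2, ℤ))
    {J : Type*} [Fintype J] (r : J → SL(2, ℤ)) (h : J → ℕ) (hpos : ∀ j, 0 < h j)
    (hmem : ∀ j, r j * t ^ h j * (r j)⁻¹ ∈ Γ)
    (hmin : ∀ j k, 0 < k → r j * t ^ k * (r j)⁻¹ ∈ Γ → h j ≤ k)
    (hcover : ∀ x : SL(2, ℤ), ∃ j, ∃ i : ℤ, ∃ η ∈ Γ, x = η * r j * t ^ i)
    (hdisj : ∀ j j' (i : ℤ) (η : SL(2, ℤ)), η ∈ Γ → r j' = η * r j * t ^ i → j = j') :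
    Rel R (fun j => (⟨r j * t ^ h j * (r j)⁻¹, hmem j⟩ : Γ)) :=
  rel_of_reps Γ R (sl2z_hom_multiplicative_eq_one htf) t r h hpos hmem hmin hcover hdisj

/-- the torsion-freeness hypothesis for a `ℤ`-torsion-free commutative ring (e.g. `ℤ`, `ℤ_[p]`,
any domain of characteristic zero). -/
theorem htf_of_charZero_domain (R : Type*) [CommRing R] [IsDomain R] [CharZero R] :
    ∀ (a : R) (n : ℕ), 0 < n → n • a = 0 → a = 0 := by
  intro a n hn han
  rw [nsmul_eq_mul] at han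
  rcases mul_eq_zero.mp han with h0 | h0
  · exact absurd (Nat.cast_eq_zero.mp h0) (by omega)
  · exact h0

end Fermat.Agent.ES.I2.CuspRelAdapter15
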