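/-
(I2), MODEL side — vocabulary (helper13).  Mathlib only.

Abstract setting of `I2_PROOF25.md` Part B in LEFT-action conventions (as in `S21/ParAbstract`):
a group `G` acting on a set `X`, functions `X → R` with `(act g f) x = f (g⁻¹ • x)`, the standard
form `form`, the augmentation `eps`, `1`-cocycles `G → (X → R)`, coboundaries, cup-primitives,
the Shapiro cocycle `sh` of a homomorphism on the stabiliser of a base point (for a section of the
orbit map), the evaluation `ev` of a cocycle at the base point, and for two elements `σ τ : G`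
(`T = σ * τ`) the symbol space `symb = ker (1 + σ) ∩ (V^τ)^⊥` and the boundary symbols `bdry`.
-/
import Mathlib

set_option autoImplicit false
set_option linter.unusedSectionVars false

namespace Fermat.Agent.ES.I2.Model13

variable {G : Type*} [Group G] {X : Type*} [MulAction G X] {R : Type*} [CommRing R]

/-! ### the action on functions -/

/-- the left action of `G` on functions: `(act g f) x = f (g⁻¹ • x)`. -/
def act (g : G) : (X → R) →ₗ[R] (X → R) := LinearMap.funLeft R R (fun x => g⁻¹ • x)

@[simp] theorem act_apply (g : G) (f : X → R) (x : X) : act g f x = f (g⁻¹ • x) := rfl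

theorem act_one (f : X → R) : act (1 : G) f = f := by
  funext x; simp

theorem act_mul (a b : G) (f : X → R) : act (a * b) f = act a (act b f) := by
  funext x; simp [mul_smul]

theorem act_inv_act (g : G) (f : X → R) : act g⁻¹ (act g f) = f := by
  rw [← act_mul, inv_mul_cancel, act_one]

theorem act_act_inv (g : G) (f : X → R) : act g (act g⁻¹ f) = f := by
  rw [← act_mul, mul_inv_cancel, act_one]

theorem act_mul_pointwise (g : G) (f f' : X → R) : act g (f * f') = act g f * act g f' := by
  funext x; simp

theorem act_pow_apply (g : G) (n : ℕ) (f : X → R) (x : X) :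
    act (g ^ n) f x = f ((g ^ n)⁻¹ • x) := rfl

/-! ### the standard form and the augmentation -/

section Form

variable [Fintype X]

/-- the standard symmetric bilinear form on `X → R`. -/
def form (f f' : X → R) : R := ∑ x, f x * f' x

/-- the augmentation `f ↦ ∑ x, f x`. -/
def eps (f : X → R) : R := ∑ x, f x

theorem form_comm (f f' : X → R) : form f f' = form f' f := by
  unfold form; exact Finset.sum_congr rfl (fun x _ => mul_comm _ _)

theorem form_eq_eps (f f' : X → R) : form f f' = eps (f * f') := rfl

theorem eps_act (g : G) (f : X → R) : eps (act g f) = eps f := by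
  unfold eps
  exact Equiv.sum_comp (MulAction.toPerm g⁻¹ : Equiv.Perm X) f

theorem form_act_act (g : G) (f f' : X → R) : form (act g f) (act g f') = form f f' := by
  rw [form_eq_eps, ← act_mul_pointwise, eps_act, ← form_eq_eps]

theorem form_act_left (g : G) (f f' : X → R) : form (act g f) f' = form f (act g⁻¹ f') := by
  rw [← form_act_act g⁻¹ (act g f) f', act_inv_act]

theorem form_add_left (f g h : X → R) : form (f + g) h = form f h + form g h := by
  unfold form; rw [← Finset.sum_add_distrib]
  exact Finset.sum_congr rfl (fun x _ => by simp [add_mul])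

theorem form_add_right (f g h : X → R) : form f (g + h) = form f g + form f h := by
  rw [form_comm, form_add_left, form_comm g, form_comm h]

theorem form_sub_left (f g h : X → R) : form (f - g) h = form f h - form g h := by
  unfold form; rw [← Finset.sum_sub_distrib]
  exact Finset.sum_congr rfl (fun x _ => by simp [sub_mul])

theorem form_sub_right (f g h : X → R) : form f (g - h) = form f g - form f h := by
  rw [form_comm, form_sub_left, form_comm g, form_comm h]

theorem form_smul_left (c : R) (f g : X → R) : form (c • f) g = c * form f g := by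
  unfold form; rw [Finset.mul_sum]
  exact Finset.sum_congr rfl (fun x _ => by simp [mul_assoc])

theorem form_smul_right (c : R) (f g : X → R) : form f (c • g) = c * form f g := by
  rw [form_comm, form_smul_left, form_comm]

theorem form_neg_left (f g : X → R) : form (-f) g = - form f g := by
  unfold form; rw [← Finset.sum_neg_distrib]
  exact Finset.sum_congr rfl (fun x _ => by simp)

theorem form_neg_right (f g : X → R) : form f (-g) = - form f g := by
  rw [form_comm, form_neg_left, form_comm]

theorem form_zero_left (g : X → R) : form (0 : X → R) g = 0 := by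
  unfold form; simp

theorem form_zero_right (f : X → R) : form f (0 : X → R) = 0 := by
  unfold form; simp

end Form

/-! ### cocycles -/

/-- `1`-cocycles `G → (X → R)` for the action `act`. -/
def IsCocycle (z : G → X → R) : Prop := ∀ a b : G, z (a * b) = z a + act a (z b)

/-- the coboundary of `ρ : X → R`. -/
def cob (ρ : X → R) : G → X → R := fun g => act g ρ - ρ

theorem isCocycle_cob (ρ : X → R) : IsCocycle (G := G) (cob ρ) := by
  intro a b
  simp only [cob, act_mul, map_sub]
  abel

theorem IsCocycle.map_one {z : G → X → R} (hz : IsCocycle z) : z 1 = 0 := by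
  have h := hz 1 1
  rw [mul_one, act_one] at h
  exact left_eq_add.mp h

theorem IsCocycle.map_inv {z : G → X → R} (hz : IsCocycle z) (g : G) :
    z g⁻¹ = - act g⁻¹ (z g) := by
  have h := hz g⁻¹ g
  rw [inv_mul_cancel, hz.map_one] at h
  exact eq_neg_of_add_eq_zero_left h.symm

theorem IsCocycle.add {z z' : G → X → R} (hz : IsCocycle z) (hz' : IsCocycle z') :
    IsCocycle (z + z') := by
  intro a b
  simp only [Pi.add_apply, hz a b, hz' a b, map_add]
  abel

theorem IsCocycle.sub {z z' : G → X → R} (hz : IsCocycle z) (hz' : IsCocycle z') :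
    IsCocycle (z - z') := by
  intro a b
  simp only [Pi.sub_apply, hz a b, hz' a b, map_sub]
  abel

theorem IsCocycle.smul {z : G → X → R} (hz : IsCocycle z) (c : R) : IsCocycle (c • z) := by
  intro a b
  simp only [Pi.smul_apply, hz a b, smul_add, map_smul]

/-- a cocycle is determined by its values on a generating set. -/
theorem IsCocycle.eq_of_eqOn {z z' : G → X → R} (hz : IsCocycle z) (hz' : IsCocycle z')
    {S : Set G} (hS : Subgroup.closure S = ⊤) (h : ∀ s ∈ S, z s = z' s) : z = z' := by
  funext g
  have hg : g ∈ Subgroup.closure S := by rw [hS]; trivial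
  induction hg using Subgroup.closure_induction with
  | mem x hx => exact h x hx
  | one => rw [hz.map_one, hz'.map_one]
  | mul x y _ _ hx hy => rw [hz x y, hz' x y, hx, hy]
  | inv x _ hx => rw [hz.map_inv, hz'.map_inv, hx]

/-- `K` is a primitive of the cup product of the cocycles `z`, `z'` (pointwise product in `X → R`):
`K (a b) = K a + a ⋆ K b - z a * (a ⋆ z' b)`. -/
def IsCupPrimitive (z z' K : G → X → R) : Prop :=
  ∀ a b : G, K (a * b) = K a + act a (K b) - z a * act a (z' b)

/-! ### Shapiro -/

/-- a section of the orbit map `g ↦ g • x0`, normalised at the base point. -/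
structure Sec (G : Type*) [Group G] {X : Type*} [MulAction G X] (x0 : X) where
  /-- the representatives -/
  r : X → G
  hr : ∀ x, r x • x0 = x
  h0 : r x0 = 1

variable {x0 : X}

/-- the element `r(x)⁻¹ g r(g⁻¹ x)` of the stabiliser of the base point. -/
def Sec.tr (s : Sec G x0) (g : G) (x : X) : MulAction.stabilizer G x0 :=
  ⟨(s.r x)⁻¹ * g * s.r (g⁻¹ • x), by
    rw [MulAction.mem_stabilizer_iff, mul_smul, mul_smul, s.hr, smul_inv_smul, inv_smul_eq_iff, s.hr]⟩

theorem Sec.tr_mul (s : Sec G x0) (a b : G) (x : X) :
    s.tr (a * b) x = s.tr a x * s.tr b (a⁻¹ • x) := by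
  apply Subtype.ext
  simp only [Sec.tr, Subgroup.coe_mul, mul_inv_rev, mul_smul]
  group

theorem Sec.tr_base (s : Sec G x0) (γ : MulAction.stabilizer G x0) : s.tr (γ : G) x0 = γ := by
  apply Subtype.ext
  have h : ((γ : G))⁻¹ • x0 = x0 := by
    rw [inv_smul_eq_iff]; exact (MulAction.mem_stabilizer_iff.mp γ.2).symm
  simp only [Sec.tr, h, s.h0, inv_one, one_mul, mul_one]

/-- the **Shapiro cocycle** of a homomorphism on the stabiliser. -/
def sh (s : Sec G x0) (φ : Additive (MulAction.stabilizer G x0) →+ R) : G → X → R :=
  fun g x => φ (Additive.ofMul (s.tr g x))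

theorem isCocycle_sh (s : Sec G x0) (φ : Additive (MulAction.stabilizer G x0) →+ R) :
    IsCocycle (sh s φ) := by
  intro a b
  funext x
  simp only [sh, Pi.add_apply, act_apply, s.tr_mul, ofMul_mul, map_add]

theorem sh_base (s : Sec G x0) (φ : Additive (MulAction.stabilizer G x0) →+ R)
    (γ : MulAction.stabilizer G x0) : sh s φ (γ : G) x0 = φ (Additive.ofMul γ) := by
  simp only [sh, s.tr_base]

/-- evaluation of a cocycle at the base point: a homomorphism on the stabiliser. -/
def ev (z : G → X → R) (hz : IsCocycle z) : Additive (MulAction.stabilizer G x0) →+ R where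
  toFun γ := z ((Additive.toMul γ : MulAction.stabilizer G x0) : G) x0
  map_zero' := by
    show z ((1 : MulAction.stabilizer G x0) : G) x0 = 0
    rw [Subgroup.coe_one, hz.map_one]; rfl
  map_add' γ δ := by
    show z (((Additive.toMul γ * Additive.toMul δ : MulAction.stabilizer G x0)) : G) x0 = _
    rw [Subgroup.coe_mul, hz]
    have h : ((Additive.toMul γ : MulAction.stabilizer G x0) : G)⁻¹ • x0 = x0 := by
      rw [inv_smul_eq_iff]; exact (MulAction.mem_stabilizer_iff.mp (Additive.toMul γ).2).symm
    simp only [Pi.add_apply, act_apply, h]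

theorem ev_apply (z : G → X → R) (hz : IsCocycle z) (γ : MulAction.stabilizer G x0) :
    ev z hz (Additive.ofMul γ) = z (γ : G) x0 := rfl

theorem ev_sh (s : Sec G x0) (φ : Additive (MulAction.stabilizer G x0) →+ R) :
    ev (sh s φ) (isCocycle_sh s φ) = φ := by
  ext γ
  exact sh_base s φ γ

/-! ### symbols -/

section Symb

variable [Fintype X] (R) (σ τ : G)

/-- the symbol space `ker (1 + σ) ∩ (V^τ)^⊥` (`= ker (1+σ) ∩ im (τ - 1)`). -/
def symb : Submodule R (X → R) where
  carrier := {v | v + act σ v = 0 ∧ ∀ w : X → R, act τ w = w → form v w = 0}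
  zero_mem' := ⟨by simp, fun w _ => form_zero_left w⟩
  add_mem' := by
    rintro v v' ⟨h1, h2⟩ ⟨h1', h2'⟩
    refine ⟨?_, fun w hw => by rw [form_add_left, h2 w hw, h2' w hw, add_zero]⟩
    rw [map_add]
    calc v + v' + (act σ v + act σ v') = (v + act σ v) + (v' + act σ v') := by abel
      _ = 0 := by rw [h1, h1', add_zero]
  smul_mem' := by
    rintro c v ⟨h1, h2⟩
    refine ⟨?_, fun w hw => by rw [form_smul_left, h2 w hw, mul_zero]⟩
    rw [map_smul, ← smul_add, h1, smul_zero]

/-- the boundary symbols `(σ - 1) V^T`, `T = σ τ`. -/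
def bdry : Submodule R (X → R) where
  carrier := {v | ∃ ρ : X → R, act (σ * τ) ρ = ρ ∧ v = act σ ρ - ρ}
  zero_mem' := ⟨0, by simp, by simp⟩
  add_mem' := by
    rintro v v' ⟨ρ, h1, h2⟩ ⟨ρ', h1', h2'⟩
    refine ⟨ρ + ρ', by rw [map_add, h1, h1'], ?_⟩
    rw [h2, h2', map_add]; abel
  smul_mem' := by
    rintro c v ⟨ρ, h1, h2⟩
    refine ⟨c • ρ, by rw [map_smul, h1], ?_⟩
    rw [h2, map_smul, smul_sub]

variable {R σ τ}

theorem mem_symb {v : X → R} :
    v ∈ symb R σ τ ↔ v + act σ v = 0 ∧ ∀ w : X → R, act τ w = w → form v w = 0 := Iff.rfl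

theorem mem_bdry {v : X → R} :
    v ∈ bdry R σ τ ↔ ∃ ρ : X → R, act (σ * τ) ρ = ρ ∧ v = act σ ρ - ρ := Iff.rfl

end Symb

end Fermat.Agent.ES.I2.Model13
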