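/-
Program L (S41), chapter (I2), MODEL side (helper21): the `T`-ADAPTED SECTION and the (B3) ASSEMBLY,
in the vocabulary of `Model13` (left actions, `act`, `sh`, `Sec`), `CuspPairing25` (`pairing`,
`Rel`, `IsPrimitive`) and `LemmaA21`.

* `CuspData T x0 J`: representatives `g j` of the `⟨T⟩`-orbits on `X` (`g j • x0` a point of the
  orbit `j`, `h j` its length, `g j0 = 1` for the orbit of the base point), stated elementwise:
  `(j, i) ↦ T^i • g j • x0` is a bijection `Σ j, Fin (h j) → X`.
* `CuspData.sec : Model13.Sec G x0`, `r (T^i • g j • x0) = T^i * g j`; the cusp family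
  `D.c j = (g j)⁻¹ T^(h j) (g j)` in the stabiliser of `x0`.
* `CuspData.sh_T_eq_zero`: if `φ` kills the cusp family then `sh D.sec φ T = 0` (gauge `c(T) = 0`).
* **(B3)** `CuspData.pairing_eq_eps`: for a cup primitive `K` of `(sh φ, sh ψ)` and `Rel R D.c`:
  `pairing D.c φ ψ = eps (K T)`; explicit form `six_mul_pairing` for `S * S = 1`, `U * U * U = 1`,
  `T = S * U`.
* `exists_cuspData`: existence for a finite transitive `G`-set.
-/
import Mathlib
import Fermat.Agent.ES.I2.Model13
import Fermat.Agent.ES.I2.CuspPairing25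
import Fermat.Agent.ES.I2.CuspRelAdapter15
import Fermat.Agent.ES.LR.LemmaA21

set_option autoImplicit false

namespace Fermat.Agent.ES.I2.AdaptedSec21

open Fermat.Agent.ES.I2.Model13 Fermat.Agent.ES.I2.CuspPairing25
open MulAction

variable {G : Type*} [Group G] {X : Type*} [MulAction G X] {R : Type*} [CommRing R]

/-! ### adapters between `Model13` (equalities of functions) and `LemmaA21` (pointwise) -/

theorem isCocycle_iff (z : G → X → R) :
    Model13.IsCocycle z ↔ LR.LemmaA21.IsCocycle z := by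
  constructor
  · intro h g k ω
    have := congrFun (h g k) ω
    simpa using this
  · intro h g k
    funext ω
    simpa using h g k ω

theorem isCupPrimitive_iff (z z' K : G → X → R) :
    Model13.IsCupPrimitive z z' K ↔ LR.LemmaA21.IsCupPrimitive z z' K := by
  constructor
  · intro h g k ω
    have := congrFun (h g k) ω
    simpa using this
  · intro h g k
    funext ω
    simpa using h g k ω

/-! ### cusp data and the adapted section -/

/-- Representatives of the `⟨T⟩`-orbits on `X`, through the base point `x0`. -/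
structure CuspData (T : G) (x0 : X) (J : Type*) where
  /-- `g j • x0` is the base point of the orbit `j` -/
  g : J → G
  /-- the length of the orbit `j` -/
  h : J → ℕ
  hpos : ∀ j, 0 < h j
  hfix : ∀ j, T ^ h j • g j • x0 = g j • x0
  hbij : Function.Bijective (fun p : (Σ j, Fin (h j)) => T ^ (p.2 : ℕ) • g p.1 • x0)
  /-- the orbit of the base point -/
  j0 : J
  hj0 : g j0 = 1

namespace CuspData

variable {T : G} {x0 : X} {J : Type*} (D : CuspData T x0 J)

/-- the coordinates `(j, i)` of a point `x = T^i • g j • x0`. -/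
noncomputable def coord (x : X) : Σ j, Fin (D.h j) := (Equiv.ofBijective _ D.hbij).symm x

theorem coord_spec (x : X) : T ^ ((D.coord x).2 : ℕ) • D.g (D.coord x).1 • x0 = x :=
  (Equiv.ofBijective _ D.hbij).apply_symm_apply x

theorem coord_apply (j : J) (i : Fin (D.h j)) :
    D.coord (T ^ (i : ℕ) • D.g j • x0) = ⟨j, i⟩ :=
  (Equiv.ofBijective _ D.hbij).symm_apply_apply ⟨j, i⟩

theorem coord_base : D.coord x0 = ⟨D.j0, ⟨0, D.hpos D.j0⟩⟩ := by
  have h := D.coord_apply D.j0 ⟨0, D.hpos D.j0⟩
  simpa [D.hj0] using h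

/-- the adapted representatives `r (T^i • g j • x0) = T^i * g j`. -/
noncomputable def r (x : X) : G := T ^ ((D.coord x).2 : ℕ) * D.g (D.coord x).1

theorem r_smul (x : X) : D.r x • x0 = x := by
  rw [r, mul_smul]; exact D.coord_spec x

theorem r_apply (j : J) (i : Fin (D.h j)) : D.r (T ^ (i : ℕ) • D.g j • x0) = T ^ (i : ℕ) * D.g j := by
  rw [r, D.coord_apply]

theorem r_base : D.r x0 = 1 := by
  rw [r, D.coord_base]; simp [D.hj0]

/-- the `T`-adapted section. -/
noncomputable def sec : Model13.Sec G x0 where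
  r := D.r
  hr := D.r_smul
  h0 := D.r_base

/-- the cusp family `(g j)⁻¹ T^(h j) (g j)` of the stabiliser of the base point. -/
def c (j : J) : stabilizer G x0 :=
  ⟨(D.g j)⁻¹ * T ^ D.h j * D.g j, by
    rw [mem_stabilizer_iff, mul_smul, mul_smul, D.hfix, inv_smul_smul]⟩

@[simp] theorem coe_c (j : J) : ((D.c j : stabilizer G x0) : G) = (D.g j)⁻¹ * T ^ D.h j * D.g j := rfl

/-- `T⁻¹ • (T^i • y)` for `i ≥ 1`. -/
theorem inv_smul_pow_succ (y : X) (i : ℕ) : T⁻¹ • T ^ (i + 1) • y = T ^ i • y := by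
  rw [pow_succ', mul_smul, inv_smul_smul]

/-- the transfer element at `T`: it is `c j` at the base point of the orbit `j` and `1` elsewhere. -/
theorem tr_T (j : J) (i : Fin (D.h j)) :
    (D.sec.tr T (T ^ (i : ℕ) • D.g j • x0) : G)
      = if (i : ℕ) = 0 then ((D.c j : stabilizer G x0) : G) else 1 := by
  obtain ⟨i, hi⟩ := i
  simp only [Model13.Sec.tr, sec]
  rcases Nat.eq_zero_or_pos i with rfl | hipos
  · -- `i = 0`
    simp only [pow_zero, one_smul, if_true]
    have h1 : T⁻¹ • D.g j • x0 = T ^ (D.h j - 1) • D.g j • x0 := by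
      rw [inv_smul_eq_iff, ← mul_smul, ← mul_smul, ← pow_succ']
      have : D.h j - 1 + 1 = D.h j := Nat.sub_add_cancel (D.hpos j)
      rw [this, mul_smul, D.hfix]
    have h2 := D.r_apply j ⟨D.h j - 1, Nat.sub_lt (D.hpos j) one_pos⟩
    have h3 := D.r_apply j ⟨0, D.hpos j⟩
    simp only [pow_zero, one_smul, one_mul] at h3
    simp only at h2
    rw [h1, h2, h3, coe_c]
    have : T * (T ^ (D.h j - 1) * D.g j) = T ^ D.h j * D.g j := by
      rw [← mul_assoc, ← pow_succ']
      congr 2
      exact Nat.sub_add_cancel (D.hpos j)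
    rw [mul_assoc, this, mul_assoc]
  · -- `i ≥ 1`
    obtain ⟨k, rfl⟩ : ∃ k, i = k + 1 := ⟨i - 1, (Nat.sub_add_cancel hipos).symm⟩
    have h1 : T⁻¹ • T ^ (k + 1) • D.g j • x0 = T ^ k • D.g j • x0 := inv_smul_pow_succ _ _
    have h2 := D.r_apply j ⟨k, by omega⟩
    have h3 := D.r_apply j ⟨k + 1, hi⟩
    simp only at h2 h3
    simp only [Nat.succ_ne_zero, if_false]
    rw [h1, h2, h3, pow_succ']
    group

/-- the section is `T`-adapted in the sense of `ShapiroBridge1`: every transfer element at `T` is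
`1` or a conjugate of a power of `T`. -/
theorem sec_adapted (x : X) :
    D.sec.tr T x = 1 ∨ ∃ (g : G) (n : ℕ), (D.sec.tr T x : G) = g * T ^ n * g⁻¹ := by
  obtain ⟨⟨j, i⟩, rfl⟩ := D.hbij.2 x
  have h := D.tr_T j i
  by_cases hi : (i : ℕ) = 0
  · rw [if_pos hi] at h
    exact Or.inr ⟨(D.g j)⁻¹, D.h j, by rw [h, coe_c, inv_inv]⟩
  · rw [if_neg hi] at h
    exact Or.inl (Subtype.ext h)

/-- **the gauge `c(T) = 0`**: the Shapiro cocycle of a homomorphism killing the cusp family
vanishes at `T`. -/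
theorem sh_T_eq_zero (φ : Additive (stabilizer G x0) →+ R)
    (hφ : ∀ j, φ (Additive.ofMul (D.c j)) = 0) : Model13.sh D.sec φ T = 0 := by
  funext x
  obtain ⟨⟨j, i⟩, rfl⟩ := D.hbij.2 x
  simp only [Model13.sh, Pi.zero_apply]
  have h := D.tr_T j i
  by_cases hi : (i : ℕ) = 0
  · rw [if_pos hi] at h
    have : D.sec.tr T (T ^ (i : ℕ) • D.g j • x0) = D.c j := Subtype.ext h
    rw [this, hφ]
  · rw [if_neg hi] at h
    have : D.sec.tr T (T ^ (i : ℕ) • D.g j • x0) = 1 := Subtype.ext h
    rw [this, ofMul_one, map_zero]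

/-! ### (B3): the intrinsic pairing is `eps (K T)` -/

section B3

variable [Fintype X] [Fintype J]

omit [Fintype X] in
/-- `κ γ = K γ x0` is a primitive of `(φ, ψ)` on the stabiliser, in the vocabulary of
`CuspPairing25`. -/
theorem isPrimitive_eval (s : Model13.Sec G x0) (φ ψ : Additive (stabilizer G x0) →+ R)
    {K : G → X → R} (hK : Model13.IsCupPrimitive (Model13.sh s φ) (Model13.sh s ψ) K) :
    CuspPairing25.IsPrimitive (fun γ : stabilizer G x0 => φ (Additive.ofMul γ))
      (fun γ => ψ (Additive.ofMul γ)) (fun γ => K (γ : G) x0) := by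
  intro a b
  have h := ((isCupPrimitive_iff _ _ _).mp hK).stab_mul x0 (γ := (a : G)) (δ := (b : G)) a.2
  rw [Model13.sh_base, Model13.sh_base] at h
  simpa using h

/-- **(B3)**: with the adapted section, `P(φ,ψ) = ∑_x K(T)(x)` for any cup primitive `K` of the
Shapiro cocycles. -/
theorem pairing_eq_eps (φ ψ : Additive (stabilizer G x0) →+ R)
    (hφ : ∀ j, φ (Additive.ofMul (D.c j)) = 0) (hψ : ∀ j, ψ (Additive.ofMul (D.c j)) = 0)
    {K : G → X → R}
    (hK : Model13.IsCupPrimitive (Model13.sh D.sec φ) (Model13.sh D.sec ψ) K)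
    (hrel : CuspPairing25.Rel R D.c) :
    CuspPairing25.pairing D.c (fun γ : stabilizer G x0 => φ (Additive.ofMul γ))
      (fun γ => ψ (Additive.ofMul γ)) = Model13.eps (K T) := by
  rw [CuspPairing25.pairing_eq hrel (isPrimitive_eval D.sec φ ψ hK)]
  have hz := (isCocycle_iff _).mp (Model13.isCocycle_sh D.sec φ)
  have hz' := (isCocycle_iff _).mp (Model13.isCocycle_sh D.sec ψ)
  have hK' := (isCupPrimitive_iff _ _ _).mp hK
  have hT : ∀ ω, Model13.sh D.sec φ T ω = 0 := fun ω => congrFun (D.sh_T_eq_zero φ hφ) ω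
  have hT' : ∀ ω, Model13.sh D.sec ψ T ω = 0 := fun ω => congrFun (D.sh_T_eq_zero ψ hψ) ω
  exact hK'.sum_cusps x0 hz hz' hT hT' D.g D.h D.hfix D.hbij

/-- **(B3), explicit form**: `T = S * U`, `S * S = 1`, `U * U * U = 1`, `v_φ = sh φ S`:
`6 P(φ,ψ) = ⟨v_φ, v_ψ⟩ + 2 ⟨v_φ, U v_ψ⟩`. -/
theorem six_mul_pairing {S U : G} (hS : S * S = 1) (hU : U * U * U = 1)
    (D : CuspData (S * U) x0 J) (φ ψ : Additive (stabilizer G x0) →+ R)
    (hφ : ∀ j, φ (Additive.ofMul (D.c j)) = 0) (hψ : ∀ j, ψ (Additive.ofMul (D.c j)) = 0)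
    {K : G → X → R}
    (hK : Model13.IsCupPrimitive (Model13.sh D.sec φ) (Model13.sh D.sec ψ) K)
    (hrel : CuspPairing25.Rel R D.c) :
    6 * CuspPairing25.pairing D.c (fun γ : stabilizer G x0 => φ (Additive.ofMul γ))
      (fun γ => ψ (Additive.ofMul γ))
      = Model13.form (Model13.sh D.sec φ S) (Model13.sh D.sec ψ S)
        + 2 * Model13.form (Model13.sh D.sec φ S) (Model13.act U (Model13.sh D.sec ψ S)) := by
  rw [D.pairing_eq_eps φ ψ hφ hψ hK hrel]
  have hz := (isCocycle_iff _).mp (Model13.isCocycle_sh D.sec φ)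
  have hz' := (isCocycle_iff _).mp (Model13.isCocycle_sh D.sec ψ)
  have hK' := (isCupPrimitive_iff _ _ _).mp hK
  have hT : ∀ ω, Model13.sh D.sec φ (S * U) ω = 0 := fun ω => congrFun (D.sh_T_eq_zero φ hφ) ω
  have hT' : ∀ ω, Model13.sh D.sec ψ (S * U) ω = 0 := fun ω => congrFun (D.sh_T_eq_zero ψ hψ) ω
  exact hK'.six_mul_sum hz hz' hS hU hT hT'

end B3

end CuspData

/-! ### the symbol of a parabolic homomorphism -/

section Symbol

variable {x0 : X} {S U : G}

/-- `z S + S ⋆ z S = 0` for a cocycle `z` when `S * S = 1`. -/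
theorem add_act_of_mul_self {z : G → X → R} (hz : Model13.IsCocycle z) (hS : S * S = 1) :
    z S + Model13.act S (z S) = 0 := by
  have h := hz S S
  rw [hS, hz.map_one] at h
  exact h.symm

/-- `z U + U ⋆ z U + U² ⋆ z U = 0` for a cocycle `z` when `U * U * U = 1`. -/
theorem add_act_add_act_of_cube {z : G → X → R} (hz : Model13.IsCocycle z)
    (hU : U * U * U = 1) :
    z U + Model13.act U (z U) + Model13.act (U * U) (z U) = 0 := by
  have h := hz (U * U) U
  rw [hU, hz.map_one, hz U U] at h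
  exact h.symm

/-- in the gauge `z (S * U) = 0`, `S * S = 1`: `z U = z S`. -/
theorem apply_U_eq_apply_S {z : G → X → R} (hz : Model13.IsCocycle z) (hS : S * S = 1)
    (hT : z (S * U) = 0) : z U = z S := by
  funext ω
  exact ((isCocycle_iff z).mp hz).apply_U_eq hS (fun ω => congrFun hT ω) ω

variable {J : Type*}

/-- the Shapiro cocycle (adapted section) of a homomorphism killing the cusp family takes the
same value at `U` and at `S`. -/
theorem CuspData.sh_U_eq_sh_S (hS : S * S = 1) (D : CuspData (S * U) x0 J)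
    (φ : Additive (stabilizer G x0) →+ R) (hφ : ∀ j, φ (Additive.ofMul (D.c j)) = 0) :
    Model13.sh D.sec φ U = Model13.sh D.sec φ S :=
  apply_U_eq_apply_S (Model13.isCocycle_sh D.sec φ) hS (D.sh_T_eq_zero φ hφ)

/-- **the symbol of a parabolic homomorphism lies in `symb`** (`R` without `3`-torsion). -/
theorem CuspData.sh_S_mem_symb [Fintype X] (hS : S * S = 1) (hU : U * U * U = 1)
    (h3 : ∀ a : R, 3 * a = 0 → a = 0) (D : CuspData (S * U) x0 J)
    (φ : Additive (stabilizer G x0) →+ R) (hφ : ∀ j, φ (Additive.ofMul (D.c j)) = 0) :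
    Model13.sh D.sec φ S ∈ Model13.symb R S U := by
  have hz := Model13.isCocycle_sh D.sec φ
  refine Model13.mem_symb.mpr ⟨add_act_of_mul_self hz hS, fun w hw => h3 _ ?_⟩
  have hUS := D.sh_U_eq_sh_S hS φ hφ
  have h := add_act_add_act_of_cube hz hU
  rw [hUS] at h
  set v := Model13.sh D.sec φ S with hv
  have hw2 : Model13.act (U * U) w = w := by rw [Model13.act_mul, hw, hw]
  have e1 : Model13.form (Model13.act U v) w = Model13.form v w := by
    conv_lhs => rw [← hw]
    exact Model13.form_act_act U v w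
  have e2 : Model13.form (Model13.act (U * U) v) w = Model13.form v w := by
    conv_lhs => rw [← hw2]
    exact Model13.form_act_act (U * U) v w
  have e3 : Model13.form (v + Model13.act U v + Model13.act (U * U) v) w = 0 := by
    rw [h, Model13.form_zero_left]
  rw [Model13.form_add_left, Model13.form_add_left, e1, e2] at e3
  linear_combination e3

end Symbol

/-! ### (REL) for the cusp family of cusp data -/

section Rel

variable {T : G} {x0 : X} {J : Type*}

/-- if `T ^ h` fixes `y` then `T ^ i • y = T ^ (i % h) • y` for every integer `i`. -/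
theorem zpow_smul_emod {y : X} {h : ℕ} (hfix : T ^ h • y = y) (i : ℤ) :
    T ^ i • y = T ^ (i % (h : ℤ)) • y := by
  have hz : ∀ m : ℤ, (T ^ h) ^ m • y = y := by
    intro m
    have hmem : T ^ h ∈ stabilizer G y := mem_stabilizer_iff.mpr hfix
    exact mem_stabilizer_iff.mp (Subgroup.zpow_mem _ hmem m)
  conv_lhs => rw [← Int.emod_add_mul_ediv i (h : ℤ)]
  rw [zpow_add, mul_smul, zpow_mul, zpow_natCast, hz]

/-- **(REL)** for the cusp family `D.c` when every homomorphism `G →* Multiplicative R` is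
trivial (e.g. `G = PSL(2,ℤ)` or `SL(2,ℤ)`, `R` torsion free). -/
theorem CuspData.rel [Finite X] [MulAction.IsPretransitive G X] [Fintype J]
    (D : CuspData T x0 J) (htriv : ∀ f : G →* Multiplicative R, f = 1) :
    CuspPairing25.Rel R D.c := by
  classical
  have : Nonempty X := ⟨x0⟩
  have : (stabilizer G x0).FiniteIndex := by
    refine ⟨?_⟩
    rw [MulAction.index_stabilizer_of_transitive]
    exact Nat.card_pos.ne'
  intro χ hχ
  have hmem : ∀ j, (D.g j)⁻¹ * T ^ D.h j * D.g j ∈ stabilizer G x0 := fun j => (D.c j).2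
  have hmin : ∀ j k, 0 < k → (D.g j)⁻¹ * T ^ k * D.g j ∈ stabilizer G x0 → D.h j ≤ k := by
    intro j k hk hmemk
    by_contra hlt
    replace hlt := not_le.mp hlt
    have h1 : T ^ k • D.g j • x0 = D.g j • x0 := by
      have := mem_stabilizer_iff.mp hmemk
      rw [mul_smul, mul_smul, inv_smul_eq_iff] at this
      exact this
    have h2 := D.hbij.1 (a₁ := ⟨j, ⟨k, hlt⟩⟩) (a₂ := ⟨j, ⟨0, D.hpos j⟩⟩)
      (by simpa using h1)
    have h3 : k = 0 := by
      have := congrArg (fun p : (Σ j, Fin (D.h j)) => (p.2 : ℕ)) h2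
      simpa using this
    omega
  have hcover : ∀ x : G, ∃ j, ∃ i : ℤ, ∃ η ∈ stabilizer G x0, x = T ^ i * D.g j * η := by
    intro x
    obtain ⟨⟨j, i⟩, hji⟩ := D.hbij.2 (x • x0)
    simp only at hji
    refine ⟨j, (i : ℕ), (T ^ (i : ℕ) * D.g j)⁻¹ * x, ?_, ?_⟩
    · rw [mem_stabilizer_iff, mul_smul, inv_smul_eq_iff, mul_smul, hji]
    · rw [zpow_natCast]; group
  have hdisj : ∀ j j' (i : ℤ) (η : G), η ∈ stabilizer G x0 →
      D.g j' = T ^ i * D.g j * η → j = j' := by
    intro j j' i η hη hjj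
    have h1 : D.g j' • x0 = T ^ i • D.g j • x0 := by
      rw [hjj, mul_smul, mul_smul, mem_stabilizer_iff.mp hη]
    rw [zpow_smul_emod (D.hfix j) i] at h1
    have hn : (0 : ℤ) < (D.h j : ℤ) := by exact_mod_cast D.hpos j
    have hnn := Int.emod_nonneg i hn.ne'
    have hlt := Int.emod_lt_of_pos i hn
    have h2 := D.hbij.1 (a₁ := ⟨j', ⟨0, D.hpos j'⟩⟩)
      (a₂ := ⟨j, ⟨(i % (D.h j : ℤ)).toNat, (Int.toNat_lt hnn).mpr hlt⟩⟩)
      (by
        simp only [pow_zero, one_smul]
        rw [h1, ← zpow_natCast, Int.toNat_of_nonneg hnn])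
    exact (congrArg Sigma.fst h2).symm
  have key := CuspRel15.prod_reps_eq_one_left (stabilizer G x0) htriv
    (CuspRelAdapter15.toMulHom χ hχ) T D.g D.h D.hpos hmem hmin hcover hdisj
  have h2 := congrArg Multiplicative.toAdd key
  rw [toAdd_prod] at h2
  simp only [CuspRelAdapter15.toMulHom, MonoidHom.coe_mk, OneHom.coe_mk, toAdd_ofAdd,
    toAdd_one] at h2
  exact h2

end Rel

/-! ### existence of cusp data on a finite transitive `G`-set -/

section Existence

open Function Subgroup

theorem exists_cuspData [Finite X] [MulAction.IsPretransitive G X] (T : G) (x0 : X) :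
    Nonempty (CuspData T x0 (orbitRel.Quotient (zpowers T) X)) := by
  classical
  let q0 : orbitRel.Quotient (zpowers T) X := Quotient.mk'' x0
  -- base points of the orbits, `x0` for its own orbit
  let b : orbitRel.Quotient (zpowers T) X → X := fun q => if q = q0 then x0 else q.out
  have hb : ∀ q, (Quotient.mk'' (b q) : orbitRel.Quotient (zpowers T) X) = q := by
    intro q
    by_cases h : q = q0
    · simp only [b, if_pos h]; exact h.symm
    · simp only [b, if_neg h]; exact Quotient.out_eq' q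
  have hex : ∀ q : orbitRel.Quotient (zpowers T) X, ∃ g : G, g • x0 = b q ∧ (q = q0 → g = 1) := by
    intro q
    by_cases h : q = q0
    · exact ⟨1, by simp only [b, if_pos h, one_smul], fun _ => rfl⟩
    · obtain ⟨g, hg⟩ := MulAction.exists_smul_eq G x0 (b q)
      exact ⟨g, hg, fun h' => absurd h' h⟩
  choose g hg hg1 using hex
  have hposb : ∀ q, 0 < minimalPeriod (T • ·) (b q) := fun q =>
    Nat.pos_of_ne_zero (NeZero.ne _)
  refine ⟨{ g := g, h := fun q => minimalPeriod (T • ·) (b q), hpos := hposb, hfix := ?_,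
            hbij := ⟨?_, ?_⟩, j0 := q0, hj0 := hg1 q0 rfl }⟩
  · intro q
    rw [hg]; exact MulAction.pow_smul_eq_iff_minimalPeriod_dvd.mpr dvd_rfl
  · -- injective
    rintro ⟨q, i⟩ ⟨q', i'⟩ hqq
    simp only [hg] at hqq
    have hq : q = q' := by
      rw [← hb q, ← hb q']
      apply Quotient.sound'
      show b q ∈ MulAction.orbit (zpowers T) (b q')
      refine ⟨⟨(T ^ (i : ℕ))⁻¹ * T ^ (i' : ℕ), Subgroup.mul_mem _
        (Subgroup.inv_mem _ (Subgroup.pow_mem _ (Subgroup.mem_zpowers T) _))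
        (Subgroup.pow_mem _ (Subgroup.mem_zpowers T) _)⟩, ?_⟩
      show ((T ^ (i : ℕ))⁻¹ * T ^ (i' : ℕ)) • b q' = b q
      rw [mul_smul, ← hqq, inv_smul_smul]
    subst hq
    have key : ∀ a c : ℕ, a ≤ c → c < minimalPeriod (T • ·) (b q) →
        T ^ a • b q = T ^ c • b q → a = c := by
      intro a c hac hc h
      have h1 : T ^ (c - a) • b q = b q := by
        have : T ^ c = T ^ a * T ^ (c - a) := by rw [← pow_add, Nat.add_sub_cancel' hac]
        rw [this, mul_smul] at h
        exact (smul_left_cancel _ h).symm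
      have h2 := MulAction.pow_smul_eq_iff_minimalPeriod_dvd.mp h1
      have h3 : c - a = 0 := Nat.eq_zero_of_dvd_of_lt h2 (by omega)
      omega
    have hii : (i : ℕ) = (i' : ℕ) := by
      rcases le_total (i : ℕ) (i' : ℕ) with hle | hle
      · exact key _ _ hle i'.2 hqq
      · exact (key _ _ hle i.2 hqq.symm).symm
    have : i = i' := Fin.ext hii
    rw [this]
  · -- surjective
    intro x
    have hx : x ∈ MulAction.orbit (zpowers T) (b (Quotient.mk'' x)) := by
      have := hb (Quotient.mk'' x)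
      exact Quotient.exact' this.symm
    obtain ⟨⟨t, ht⟩, htx⟩ := hx
    obtain ⟨k, rfl⟩ := Subgroup.mem_zpowers_iff.mp ht
    have htx' : T ^ k • b (Quotient.mk'' x) = x := htx
    set q : orbitRel.Quotient (zpowers T) X := Quotient.mk'' x with hq
    have hn := hposb q
    have hmod := MulAction.zpow_smul_mod_minimalPeriod T (b q) k
    have hnn : 0 ≤ k % (minimalPeriod (T • ·) (b q) : ℤ) :=
      Int.emod_nonneg _ (by exact_mod_cast hn.ne')
    have hlt : k % (minimalPeriod (T • ·) (b q) : ℤ) < (minimalPeriod (T • ·) (b q) : ℤ) :=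
      Int.emod_lt_of_pos _ (by exact_mod_cast hn)
    refine ⟨⟨q, ⟨(k % (minimalPeriod (T • ·) (b q) : ℤ)).toNat, ?_⟩⟩, ?_⟩
    · have := (Int.toNat_lt hnn).mpr hlt
      exact this
    · show T ^ ((k % (minimalPeriod (T • ·) (b q) : ℤ)).toNat) • g q • x0 = x
      rw [hg, ← zpow_natCast, Int.toNat_of_nonneg hnn, hmod, htx']

end Existence

end Fermat.Agent.ES.I2.AdaptedSec21
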