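/-
(I2) dictionary VOCABULARY (helper13): complete systems of representatives of `H \ G / ⟨t⟩`
(elementwise, the hypothesis list of `CuspRel15.prod_reps_eq_one_right`), equivalence of families
of elements up to reindexing and `H`-conjugation, Mathlib's orbit family (the family of
`MonoidHom.transfer_eq_prod_quotient_orbitRel_zpowers_quot`), positive primitive parabolic
elements of a subgroup of `SL(2,ℤ)` (intrinsic definition: trace, signs of the off-diagonal
entries, not a proper power), cusp systems (systems of representatives of the conjugacy classes of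
positive primitive parabolic elements) and their uniqueness up to equivalence.
-/
import Mathlib

set_option autoImplicit false

namespace Fermat.Agent.ES.I2.CuspSys13

open Matrix MulAction Subgroup
open scoped MatrixGroups

section Abstract

variable {G : Type*} [Group G]

/-- `(r j, h j)` is a complete system of representatives of the double cosets `H \ G / ⟨t⟩`,
`h j` the width of `r j`: literally the hypothesis list of
`CuspRel15.prod_reps_eq_one_right`. The associated elements are `r j * t ^ h j * (r j)⁻¹ ∈ H`. -/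
structure IsComplete (H : Subgroup G) (t : G) {J : Type*} (r : J → G) (h : J → ℕ) : Prop where
  pos : ∀ j, 0 < h j
  mem : ∀ j, r j * t ^ h j * (r j)⁻¹ ∈ H
  min : ∀ j k, 0 < k → r j * t ^ k * (r j)⁻¹ ∈ H → h j ≤ k
  cover : ∀ x : G, ∃ j, ∃ i : ℤ, ∃ η ∈ H, x = η * r j * t ^ i
  disj : ∀ j j' (i : ℤ) (η : G), η ∈ H → r j' = η * r j * t ^ i → j = j'

/-- two families of elements are equivalent: reindexing and conjugation by elements of `H`. -/
def FamEquiv (H : Subgroup G) {J J' : Type*} (u : J → G) (u' : J' → G) : Prop :=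
  ∃ e : J ≃ J', ∀ j, ∃ η ∈ H, η * u j * η⁻¹ = u' (e j)

theorem FamEquiv.refl (H : Subgroup G) {J : Type*} (u : J → G) : FamEquiv H u u :=
  ⟨Equiv.refl J, fun j => ⟨1, H.one_mem, by simp⟩⟩

theorem FamEquiv.symm {H : Subgroup G} {J J' : Type*} {u : J → G} {u' : J' → G}
    (h : FamEquiv H u u') : FamEquiv H u' u := by
  obtain ⟨e, he⟩ := h
  refine ⟨e.symm, fun j' => ?_⟩
  obtain ⟨η, hη, h1⟩ := he (e.symm j')
  refine ⟨η⁻¹, H.inv_mem hη, ?_⟩
  rw [Equiv.apply_symm_apply] at h1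
  rw [← h1]
  group

theorem FamEquiv.trans {H : Subgroup G} {J J' J'' : Type*} {u : J → G} {u' : J' → G}
    {u'' : J'' → G} (h : FamEquiv H u u') (h' : FamEquiv H u' u'') : FamEquiv H u u'' := by
  obtain ⟨e, he⟩ := h
  obtain ⟨e', he'⟩ := h'
  refine ⟨e.trans e', fun j => ?_⟩
  obtain ⟨η, hη, h1⟩ := he j
  obtain ⟨η', hη', h2⟩ := he' (e j)
  refine ⟨η' * η, H.mul_mem hη' hη, ?_⟩
  rw [Equiv.trans_apply, ← h2, ← h1]
  group

/-- sums of a function which is `H`-conjugation invariant on the members of the families agree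
on equivalent families. -/
theorem FamEquiv.sum_eq {H : Subgroup G} {J J' : Type*} [Fintype J] [Fintype J'] {u : J → G}
    {u' : J' → G} (h : FamEquiv H u u') {A : Type*} [AddCommMonoid A] (F : G → A)
    (hF : ∀ j, ∀ η ∈ H, F (η * u j * η⁻¹) = F (u j)) : ∑ j, F (u j) = ∑ j', F (u' j') := by
  obtain ⟨e, he⟩ := h
  refine Fintype.sum_equiv e _ _ (fun j => ?_)
  obtain ⟨η, hη, h1⟩ := he j
  rw [← h1, hF j η hη]

/-- Mathlib's orbit family: the elements of
`MonoidHom.transfer_eq_prod_quotient_orbitRel_zpowers_quot`. -/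
noncomputable def orbFam (H : Subgroup G) (t : G) (q : orbitRel.Quotient (zpowers t) (G ⧸ H)) : G :=
  q.out.out⁻¹ * t ^ Function.minimalPeriod (t • ·) q.out * q.out.out

theorem orbFam_mem (H : Subgroup G) (t : G) (q : orbitRel.Quotient (zpowers t) (G ⧸ H)) :
    orbFam H t q ∈ H :=
  QuotientGroup.out_conj_pow_minimalPeriod_mem H t q.out

end Abstract

section SL2

/-- **positive primitive parabolic elements** of `H ≤ SL(2,ℤ)`, intrinsically: trace `2`, not
`1`, upper right entry `≥ 0 ≥` lower left entry (i.e. a conjugate of `T ^ k` with `k > 0`), and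
not a proper power of a trace-`2` element of `H`. -/
def IsPP (H : Subgroup SL(2, ℤ)) (u : SL(2, ℤ)) : Prop :=
  u ∈ H ∧ (u : Matrix (Fin 2) (Fin 2) ℤ).trace = 2 ∧ u ≠ 1 ∧
    0 ≤ (u : Matrix (Fin 2) (Fin 2) ℤ) 0 1 ∧ (u : Matrix (Fin 2) (Fin 2) ℤ) 1 0 ≤ 0 ∧
    ∀ v ∈ H, (v : Matrix (Fin 2) (Fin 2) ℤ).trace = 2 → ∀ k : ℕ, 2 ≤ k → v ^ k ≠ u

/-- a **cusp system** of `H`: a system of representatives of the `H`-conjugacy classes of positive
primitive parabolic elements. -/
def IsCuspSystem (H : Subgroup SL(2, ℤ)) {J : Type*} (u : J → SL(2, ℤ)) : Prop :=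
  (∀ j, IsPP H (u j)) ∧ ∀ v, IsPP H v → ∃! j, ∃ η ∈ H, η * u j * η⁻¹ = v

/-- any two cusp systems are equivalent. -/
theorem IsCuspSystem.famEquiv {H : Subgroup SL(2, ℤ)} {J J' : Type*} {u : J → SL(2, ℤ)}
    {u' : J' → SL(2, ℤ)} (hu : IsCuspSystem H u) (hu' : IsCuspSystem H u') : FamEquiv H u u' := by
  classical
  -- `f j` := the index of the class of `u j` in `u'`
  have hex : ∀ j, ∃! j', ∃ η ∈ H, η * u' j' * η⁻¹ = u j := fun j => hu'.2 (u j) (hu.1 j)
  have hex' : ∀ j', ∃! j, ∃ η ∈ H, η * u j * η⁻¹ = u' j' := fun j' => hu.2 (u' j') (hu'.1 j')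
  choose f hf hfu using hex
  choose g hg hgu using hex'
  have hfg : ∀ j', f (g j') = j' := by
    intro j'
    obtain ⟨η, hη, h1⟩ := hf (g j')
    obtain ⟨η', hη', h2⟩ := hg j'
    -- `u' j'` is conjugate to `u' (f (g j'))`
    have : ∃ ζ ∈ H, ζ * u' (f (g j')) * ζ⁻¹ = u' j' :=
      ⟨η' * η, H.mul_mem hη' hη, by rw [← h2, ← h1]; group⟩
    exact (hu'.2 (u' j') (hu'.1 j')).unique this ⟨1, H.one_mem, by rw [one_mul, inv_one, mul_one]⟩
  have hgf : ∀ j, g (f j) = j := by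
    intro j
    obtain ⟨η, hη, h1⟩ := hg (f j)
    obtain ⟨η', hη', h2⟩ := hf j
    have : ∃ ζ ∈ H, ζ * u (g (f j)) * ζ⁻¹ = u j :=
      ⟨η' * η, H.mul_mem hη' hη, by rw [← h2, ← h1]; group⟩
    exact (hu.2 (u j) (hu.1 j)).unique this ⟨1, H.one_mem, by rw [one_mul, inv_one, mul_one]⟩
  refine ⟨⟨f, g, hgf, hfg⟩, fun j => ?_⟩
  obtain ⟨η, hη, h1⟩ := hf j
  refine ⟨η⁻¹, H.inv_mem hη, ?_⟩
  show η⁻¹ * u j * η⁻¹⁻¹ = u' (f j)
  rw [← h1]
  group

/-- **the canonical cusp family** of `Γ ≤ SL(2,ℤ)`: Mathlib's orbit family of `T`, as elements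
of `Γ`; index type = the `⟨T⟩`-orbits on `SL(2,ℤ) ⧸ Γ`. -/
noncomputable def cuspFam (Γ : Subgroup SL(2, ℤ))
    (q : orbitRel.Quotient (zpowers (ModularGroup.T : SL(2, ℤ))) (SL(2, ℤ) ⧸ Γ)) : Γ :=
  ⟨orbFam Γ ModularGroup.T q, orbFam_mem Γ ModularGroup.T q⟩

theorem coe_cuspFam (Γ : Subgroup SL(2, ℤ))
    (q : orbitRel.Quotient (zpowers (ModularGroup.T : SL(2, ℤ))) (SL(2, ℤ) ⧸ Γ)) :
    ((cuspFam Γ q : Γ) : SL(2, ℤ)) =
      q.out.out⁻¹ * ModularGroup.T ^ Function.minimalPeriod ((ModularGroup.T : SL(2, ℤ)) • ·) q.out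
        * q.out.out := rfl

end SL2

end Fermat.Agent.ES.I2.CuspSys13
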