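import Mathlib
import Fermat.Agent.ES.I2.CuspPairing25

/-!
# (TA) transfer adjointness `res ⊣ cores` for the intrinsic cusp pairing  (Program L, chapter I2)

(A5) + cusp evaluation + COROLLARY of `I2_PROOF25.md` §1, in Mathlib's LEFT-coset convention (the one
of `MonoidHom.transfer`) and with the sign convention of record: a *primitive* of `(φ, ψ)` is
`κ` with `κ (a * b) = κ a + κ b - φ a * ψ b`.

## Standalone part (Mathlib only; plain functions with additivity hypotheses)
`H ≤ G`, `t : G ⧸ H → G` a section (`ht : ∀ q, (t q : G ⧸ H) = q`),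
`hcoc g q := (t (g • q))⁻¹ * g * t q ∈ H`  (`hcoc_mul : hcoc (a b) q = hcoc a (b • q) * hcoc b q`).
* `cor ψ' g = ∑ q, ψ' (hcoc g q)`; `cor_mul`; it is Mathlib's transfer written with ANY section:
  `transfer_eq_prod_hcoc`, `toAdd_transfer_eq_cor`.
* `primG g := ∑ q, (κ' (hcoc g q) - φ (t (g • q)) * ψ' (hcoc g q))`; **`primG_mul`** (A5).
* `prim_conj`, `prim_conj_of_eq_zero`, `prim_pow` (A2).
* `sum_eq_sum_orbits` : `∑ q, F q = ∑ o, ∑ k < period o, F (π ^ k • o.out)` (orbits of `⟨π⟩` on `G ⧸ H`,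
  the index type `orbitRel.Quotient (zpowers π) (G ⧸ H)` of Mathlib's
  `transfer_eq_prod_quotient_orbitRel_zpowers_quot`).
* `cuspElt π q := (t q)⁻¹ * π ^ minimalPeriod (π • ·) q * t q ∈ H`; conjugate in `H` when `q` moves in
  its `⟨π⟩`-orbit (`isConj_cuspElt_of_orbit`) or the section changes (`cuspElt_section`).
* **`primG_orbit`** (cusp evaluation): `φ π = 0`, `ψ'` kills the `cuspElt π o.out` ⇒
  `primG π = ∑ o, κ' (cuspElt π o.out)`;  `cor_orbit : cor ψ' π = ∑ o, ψ' (cuspElt π o.out)`.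
* `inducedCusp c : (Σ j, orbits of ⟨c j⟩) → H`, `sum_primG_cusp`, `sum_inducedCusp_eq`.

## Bridge to `CuspPairing25` (`s : Section H`; `s.t = hcoc`, `s.cores = cor`,
`s.cores κ' + s.lam x y = primG` : `section_t_eq`, `section_cores_eq`, `section_prim_eq`)
* `section_prim_cusp`, `section_cores_cusp` : cusp evaluation of `s.cores κ' + s.lam x y`, `s.cores y`.
* `isPar_restrict`, `isPar_cores`, `rel_inducedCusp` ((REL) descends to finite index subgroups).
* **`pairing_cores`** : `pairing c x (s.cores y) = pairing (inducedCusp s.r s.hr c) (x|H) y`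
  (`pairing_cores'` with `HasPrim`), and **`pairing_cores_of_injective`** for an injective
  `f : G' →* G` with finite index image (twisted degeneracy maps).
-/

set_option linter.unusedSectionVars false

namespace Fermat.Agent.ES.I2.TransferAdj3

open MulAction Subgroup Function

variable {G : Type*} [Group G] {H : Subgroup G} {R : Type*} [CommRing R]

theorem hcoc_mem (t : G ⧸ H → G) (ht : ∀ q, (t q : G ⧸ H) = q) (g : G) (q : G ⧸ H) :
    (t (g • q))⁻¹ * g * t q ∈ H := by
  rw [mul_assoc, ← QuotientGroup.eq, ht, ← smul_eq_mul, ← MulAction.Quotient.smul_coe, ht]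

/-- The `H`-valued cocycle attached to a section `t` of `G → G ⧸ H`. -/
def hcoc (t : G ⧸ H → G) (ht : ∀ q, (t q : G ⧸ H) = q) (g : G) (q : G ⧸ H) : H :=
  ⟨(t (g • q))⁻¹ * g * t q, hcoc_mem t ht g q⟩

section basic

variable (t : G ⧸ H → G) (ht : ∀ q, (t q : G ⧸ H) = q)

@[simp] theorem coe_hcoc (g : G) (q : G ⧸ H) :
    (hcoc t ht g q : G) = (t (g • q))⁻¹ * g * t q := rfl

theorem hcoc_mul (a b : G) (q : G ⧸ H) :
    hcoc t ht (a * b) q = hcoc t ht a (b • q) * hcoc t ht b q := by
  ext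
  simp only [coe_hcoc, Subgroup.coe_mul, mul_smul]
  group

theorem hcoc_one (q : G ⧸ H) : hcoc t ht 1 q = 1 := by
  ext
  simp

/-- the summand of the induced primitive. -/
def summand (φ : G → R) (ψ' κ' : H → R) (g : G) (q : G ⧸ H) : R :=
  κ' (hcoc t ht g q) - φ (t (g • q)) * ψ' (hcoc t ht g q)

variable {φ : G → R} {ψ' κ' : H → R}
  (hφ : ∀ a b, φ (a * b) = φ a + φ b)
  (hψ' : ∀ a b, ψ' (a * b) = ψ' a + ψ' b)
  (hκ' : ∀ a b : H, κ' (a * b) = κ' a + κ' b - φ a * ψ' b)

include hφ in
theorem phi_one : φ 1 = 0 := by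
  have := hφ 1 1
  rw [mul_one] at this
  linear_combination -this

include hφ in
theorem phi_inv (a : G) : φ a⁻¹ = - φ a := by
  have := hφ a a⁻¹
  rw [mul_inv_cancel, phi_one hφ] at this
  linear_combination -this

include hφ in
theorem phi_pow (a : G) (n : ℕ) : φ (a ^ n) = n * φ a := by
  induction n with
  | zero => simp [phi_one hφ]
  | succ n ih => rw [pow_succ, hφ, ih]; push_cast; ring

include hφ in
theorem phi_hcoc (g : G) (q : G ⧸ H) :
    φ (hcoc t ht g q : G) = - φ (t (g • q)) + φ g + φ (t q) := by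
  rw [coe_hcoc, hφ, hφ, phi_inv hφ]

include hφ hψ' hκ' in
theorem summand_mul (a b : G) (q : G ⧸ H) :
    summand t ht φ ψ' κ' (a * b) q =
      summand t ht φ ψ' κ' a (b • q) + summand t ht φ ψ' κ' b q - φ a * ψ' (hcoc t ht b q) := by
  unfold summand
  rw [hcoc_mul, hκ', hψ', phi_hcoc t ht hφ, mul_smul]
  ring

include hφ hψ' hκ' in
/-- path lemma: along a `⟨π⟩`-orbit the summands of `π` add up to the summand of `π ^ n`. -/
theorem summand_pow {π : G} (hπ : φ π = 0) (n : ℕ) (q : G ⧸ H) :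
    summand t ht φ ψ' κ' (π ^ n) q =
      ∑ k ∈ Finset.range n, summand t ht φ ψ' κ' π (π ^ k • q) := by
  have hκ1 : κ' 1 = 0 := by
    have := hκ' 1 1
    have h1 : φ ((1 : H) : G) = 0 := phi_one hφ
    rw [mul_one, h1] at this
    linear_combination -this
  have hψ1 : ψ' 1 = 0 := by
    have := hψ' 1 1
    rw [mul_one] at this
    linear_combination -this
  induction n with
  | zero =>
    simp only [pow_zero, Finset.range_zero, Finset.sum_empty]
    unfold summand
    rw [hcoc_one, hκ1, hψ1, mul_zero, sub_zero]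
  | succ n ih =>
    rw [pow_succ', summand_mul t ht hφ hψ' hκ', ih, hπ, zero_mul, sub_zero,
      Finset.sum_range_succ, add_comm]

include hψ' in
theorem psi_hcoc_pow (π : G) (n : ℕ) (q : G ⧸ H) :
    ψ' (hcoc t ht (π ^ n) q) = ∑ k ∈ Finset.range n, ψ' (hcoc t ht π (π ^ k • q)) := by
  have hψ1 : ψ' 1 = 0 := by
    have := hψ' 1 1
    rw [mul_one] at this
    linear_combination -this
  induction n with
  | zero => simp [hcoc_one, hψ1]
  | succ n ih => rw [pow_succ', hcoc_mul, hψ', ih, Finset.sum_range_succ, add_comm]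

end basic

section conj

variable {K : Type*} [Group K] {φ ψ κ : K → R}
  (hφ : ∀ a b, φ (a * b) = φ a + φ b)
  (hψ : ∀ a b, ψ (a * b) = ψ a + ψ b)
  (hκ : ∀ a b, κ (a * b) = κ a + κ b - φ a * ψ b)

include hφ hκ in
theorem prim_one : κ 1 = 0 := by
  have := hκ 1 1
  rw [mul_one, phi_one hφ] at this
  linear_combination -this

include hφ hψ hκ in
theorem prim_inv (x : K) : κ x⁻¹ = - κ x - φ x * ψ x := by
  have := hκ x x⁻¹
  rw [mul_inv_cancel, prim_one hφ hκ, phi_inv hψ] at this
  linear_combination -this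

include hφ hψ hκ in
/-- **(A2)** behaviour of a primitive under conjugation. -/
theorem prim_conj (x a : K) : κ (x * a * x⁻¹) = κ a - φ x * ψ a + φ a * ψ x := by
  rw [hκ, hκ, prim_inv hφ hψ hκ, hφ, phi_inv hψ]
  ring

include hφ hψ hκ in
theorem prim_conj_of_eq_zero (x a : K) (h1 : φ a = 0) (h2 : ψ a = 0) :
    κ (x * a * x⁻¹) = κ a := by
  rw [prim_conj hφ hψ hκ, h1, h2]
  ring

include hφ hψ hκ in
theorem prim_conj_of_eq_zero' (x a : K) (h1 : φ a = 0) (h2 : ψ a = 0) :
    κ (x⁻¹ * a * x) = κ a := by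
  have := prim_conj_of_eq_zero hφ hψ hκ x⁻¹ a h1 h2
  rwa [inv_inv] at this

omit hψ in
include hφ hκ in
theorem prim_pow (a : K) (h1 : φ a = 0) (n : ℕ) : κ (a ^ n) = n * κ a := by
  induction n with
  | zero => simp [prim_one hφ hκ]
  | succ n ih => rw [pow_succ', hκ, ih, h1]; push_cast; ring

end conj

section cochain

variable (t : G ⧸ H → G) (ht : ∀ q, (t q : G ⧸ H) = q) [Fintype (G ⧸ H)]

/-- corestriction of an additive function on `H`, written with the section `t`. -/
def cor (ψ' : H → R) (g : G) : R := ∑ q : G ⧸ H, ψ' (hcoc t ht g q)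

/-- the induced primitive on `G`. -/
def primG (φ : G → R) (ψ' κ' : H → R) (g : G) : R := ∑ q : G ⧸ H, summand t ht φ ψ' κ' g q

variable {φ : G → R} {ψ' κ' : H → R}
  (hφ : ∀ a b, φ (a * b) = φ a + φ b)
  (hψ' : ∀ a b, ψ' (a * b) = ψ' a + ψ' b)
  (hκ' : ∀ a b : H, κ' (a * b) = κ' a + κ' b - φ a * ψ' b)

include hψ' in
theorem cor_mul (a b : G) : cor t ht ψ' (a * b) = cor t ht ψ' a + cor t ht ψ' b := by
  unfold cor
  simp_rw [hcoc_mul, hψ']
  rw [Finset.sum_add_distrib]
  congr 1
  exact Equiv.sum_comp (MulAction.toPerm b) (fun q => ψ' (hcoc t ht a q))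

include hφ hψ' hκ' in
/-- **(A5)** the induced cochain is a primitive of `(φ, cor ψ')`. -/
theorem primG_mul (a b : G) :
    primG t ht φ ψ' κ' (a * b) =
      primG t ht φ ψ' κ' a + primG t ht φ ψ' κ' b - φ a * cor t ht ψ' b := by
  unfold primG cor
  simp_rw [summand_mul t ht hφ hψ' hκ']
  rw [Finset.sum_sub_distrib, Finset.sum_add_distrib, Finset.mul_sum]
  congr 2
  exact Equiv.sum_comp (MulAction.toPerm b) (fun q => summand t ht φ ψ' κ' a q)

end cochain

section orbits

theorem sum_zmod_cast_aux {M : Type*} [AddCommMonoid M] (n : ℕ) [NeZero n] (f : ℤ → M) :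
    ∑ k : ZMod n, f (ZMod.cast k : ℤ) = ∑ k ∈ Finset.range n, f k := by
  obtain ⟨m, rfl⟩ : ∃ m, n = m + 1 := Nat.exists_eq_succ_of_ne_zero (NeZero.ne n)
  rw [Finset.sum_range]
  refine Fintype.sum_congr _ _ fun k => ?_
  rfl

/-- a sum over `G ⧸ H` decomposed along the orbits of `⟨π⟩`. -/
theorem sum_eq_sum_orbits {M : Type*} [AddCommMonoid M] (π : G) [Fintype (G ⧸ H)]
    [Fintype (orbitRel.Quotient (zpowers π) (G ⧸ H))] (F : G ⧸ H → M) :
    ∑ q, F q = ∑ o : orbitRel.Quotient (zpowers π) (G ⧸ H),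
      ∑ k ∈ Finset.range (minimalPeriod (π • ·) o.out), F (π ^ k • o.out) := by
  calc ∑ q, F q = ∑ x : (Σ o : orbitRel.Quotient (zpowers π) (G ⧸ H),
          ZMod (minimalPeriod (π • ·) o.out)), F ((quotientEquivSigmaZMod H π).symm x) :=
        ((quotientEquivSigmaZMod H π).symm.sum_comp F).symm
    _ = ∑ o : orbitRel.Quotient (zpowers π) (G ⧸ H),
          ∑ k : ZMod (minimalPeriod (π • ·) o.out), F (π ^ (ZMod.cast k : ℤ) • o.out) := by
        rw [Fintype.sum_sigma]
        rfl
    _ = _ := by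
        refine Fintype.sum_congr _ _ fun o => ?_
        rw [sum_zmod_cast_aux (minimalPeriod (π • ·) o.out) (fun k : ℤ => F (π ^ k • o.out))]
        simp only [zpow_natCast]

variable (t : G ⧸ H → G) (ht : ∀ q, (t q : G ⧸ H) = q)

theorem pow_minimalPeriod_smul' (π : G) (q : G ⧸ H) :
    π ^ minimalPeriod (π • ·) q • q = q :=
  MulAction.pow_smul_eq_iff_minimalPeriod_dvd.mpr dvd_rfl

include ht in
theorem cuspElt_mem (π : G) (q : G ⧸ H) :
    (t q)⁻¹ * π ^ minimalPeriod (π • ·) q * t q ∈ H := by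
  have h := hcoc_mem t ht (π ^ minimalPeriod (π • ·) q) q
  rwa [pow_minimalPeriod_smul'] at h

/-- the element `(t q)⁻¹ π ^ e t q` of `H`, `e` the length of the `⟨π⟩`-orbit of `q`
(the cusp generator of `H` over the cusp generator `π` of `G`). -/
noncomputable def cuspElt (π : G) (q : G ⧸ H) : H :=
  ⟨(t q)⁻¹ * π ^ minimalPeriod (π • ·) q * t q, cuspElt_mem t ht π q⟩

@[simp] theorem coe_cuspElt (π : G) (q : G ⧸ H) :
    (cuspElt t ht π q : G) = (t q)⁻¹ * π ^ minimalPeriod (π • ·) q * t q := rfl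

theorem hcoc_pow_minimalPeriod (π : G) (q : G ⧸ H) :
    hcoc t ht (π ^ minimalPeriod (π • ·) q) q = cuspElt t ht π q := by
  ext
  rw [coe_hcoc, coe_cuspElt, pow_minimalPeriod_smul']

theorem minimalPeriod_smul_eq (π : G) (q : G ⧸ H) :
    minimalPeriod (π • ·) (π • q) = minimalPeriod (π • ·) q := by
  have key : ∀ n : ℕ, π ^ n • (π • q) = π • q ↔ π ^ n • q = q := by
    intro n
    rw [smul_smul, ← pow_succ, pow_succ', ← smul_smul]
    exact (MulAction.injective π).eq_iff
  apply Nat.dvd_antisymm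
  · rw [← MulAction.pow_smul_eq_iff_minimalPeriod_dvd, key,
      MulAction.pow_smul_eq_iff_minimalPeriod_dvd]
  · rw [← MulAction.pow_smul_eq_iff_minimalPeriod_dvd, ← key,
      MulAction.pow_smul_eq_iff_minimalPeriod_dvd]

/-- moving the base point along the orbit conjugates the cusp element inside `H`. -/
theorem cuspElt_smul (π : G) (q : G ⧸ H) :
    cuspElt t ht π (π • q) = hcoc t ht π q * cuspElt t ht π q * (hcoc t ht π q)⁻¹ := by
  ext
  simp only [coe_cuspElt, Subgroup.coe_mul, Subgroup.coe_inv, coe_hcoc, minimalPeriod_smul_eq]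
  have hc : Commute π (π ^ minimalPeriod (π • ·) q) := (Commute.refl π).pow_right _
  have : π * (π ^ minimalPeriod (π • ·) q * π⁻¹) = π ^ minimalPeriod (π • ·) q := by
    rw [← mul_assoc, hc.eq, mul_assoc, mul_inv_cancel, mul_one]
  calc (t (π • q))⁻¹ * π ^ minimalPeriod (π • ·) q * t (π • q)
      = (t (π • q))⁻¹ * (π * (π ^ minimalPeriod (π • ·) q * π⁻¹)) * t (π • q) := by rw [this]
    _ = _ := by group

/-- changing the section conjugates the cusp element inside `H`. -/
theorem cuspElt_section (t' : G ⧸ H → G) (ht' : ∀ q, (t' q : G ⧸ H) = q) (π : G) (q : G ⧸ H) :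
    ∃ h : H, cuspElt t' ht' π q = h⁻¹ * cuspElt t ht π q * h := by
  have hmem : (t q)⁻¹ * t' q ∈ H := by
    rw [← QuotientGroup.eq, ht, ht']
  refine ⟨⟨_, hmem⟩, ?_⟩
  ext
  simp only [coe_cuspElt, Subgroup.coe_mul, Subgroup.coe_inv]
  group

theorem isConj_cuspElt_smul (π : G) (q : G ⧸ H) :
    IsConj (cuspElt t ht π q) (cuspElt t ht π (π • q)) :=
  isConj_iff.mpr ⟨hcoc t ht π q, (cuspElt_smul t ht π q).symm⟩

theorem isConj_cuspElt_zpow (π : G) (q : G ⧸ H) (n : ℤ) :
    IsConj (cuspElt t ht π q) (cuspElt t ht π (π ^ n • q)) := by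
  induction n using Int.induction_on with
  | zero => rw [zpow_zero, one_smul]
  | succ n ih =>
    refine ih.trans ?_
    have := isConj_cuspElt_smul t ht π (π ^ (n : ℤ) • q)
    rwa [smul_smul, ← zpow_one_add, add_comm] at this
  | pred n ih =>
    refine ih.trans ?_
    have := isConj_cuspElt_smul t ht π (π ^ (-(n : ℤ) - 1) • q)
    rw [smul_smul, ← zpow_one_add] at this
    have h2 : (1 : ℤ) + (-(n : ℤ) - 1) = -(n : ℤ) := by ring
    rw [h2] at this
    exact this.symm

/-- cusp elements at two points of the same `⟨π⟩`-orbit are conjugate in `H`. -/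
theorem isConj_cuspElt_of_orbit (π : G) {q q' : G ⧸ H}
    (h : q' ∈ MulAction.orbit (zpowers π) q) :
    IsConj (cuspElt t ht π q) (cuspElt t ht π q') := by
  obtain ⟨⟨g, hg⟩, rfl⟩ := h
  obtain ⟨n, rfl⟩ := Subgroup.mem_zpowers_iff.mp hg
  exact isConj_cuspElt_zpow t ht π q n

theorem isConj_cuspElt_out (π : G) (q : G ⧸ H) :
    IsConj (cuspElt t ht π (Quotient.mk'' q : orbitRel.Quotient (zpowers π) (G ⧸ H)).out)
      (cuspElt t ht π q) := by
  apply isConj_cuspElt_of_orbit
  have h := Quotient.out_eq' (Quotient.mk'' q : orbitRel.Quotient (zpowers π) (G ⧸ H))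
  have h2 := Quotient.exact' h
  rw [MulAction.orbitRel_apply] at h2
  exact MulAction.mem_orbit_symm.mp h2 |> fun h3 => by
    rwa [MulAction.mem_orbit_symm]

/-- an additive function on a group is a class function. -/
theorem additive_isConj {K : Type*} [Group K] {ψ : K → R} (hψ : ∀ a b, ψ (a * b) = ψ a + ψ b)
    {a b : K} (h : IsConj a b) : ψ a = ψ b := by
  obtain ⟨c, rfl⟩ := isConj_iff.mp h
  rw [hψ, hψ, phi_inv hψ]
  ring

variable [Fintype (G ⧸ H)] {φ : G → R} {ψ' κ' : H → R}
  (hφ : ∀ a b, φ (a * b) = φ a + φ b)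
  (hψ' : ∀ a b, ψ' (a * b) = ψ' a + ψ' b)
  (hκ' : ∀ a b : H, κ' (a * b) = κ' a + κ' b - φ a * ψ' b)

include hψ' in
/-- cusp evaluation of the corestriction. -/
theorem cor_orbit (π : G) [Fintype (orbitRel.Quotient (zpowers π) (G ⧸ H))] :
    cor t ht ψ' π =
      ∑ o : orbitRel.Quotient (zpowers π) (G ⧸ H), ψ' (cuspElt t ht π o.out) := by
  unfold cor
  rw [sum_eq_sum_orbits π]
  refine Fintype.sum_congr _ _ fun o => ?_
  rw [← psi_hcoc_pow t ht hψ', hcoc_pow_minimalPeriod]

include hφ hψ' hκ' in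
/-- **cusp evaluation** of the induced primitive: if `φ π = 0` and `ψ'` kills the cusp elements of
`H` over `π`, then `primG π` is the sum of `κ'` over these cusp elements. -/
theorem primG_orbit (π : G) [Fintype (orbitRel.Quotient (zpowers π) (G ⧸ H))] (hπ : φ π = 0)
    (hψπ : ∀ o : orbitRel.Quotient (zpowers π) (G ⧸ H), ψ' (cuspElt t ht π o.out) = 0) :
    primG t ht φ ψ' κ' π =
      ∑ o : orbitRel.Quotient (zpowers π) (G ⧸ H), κ' (cuspElt t ht π o.out) := by
  unfold primG
  rw [sum_eq_sum_orbits π]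
  refine Fintype.sum_congr _ _ fun o => ?_
  rw [← summand_pow t ht hφ hψ' hκ' hπ]
  unfold summand
  rw [hcoc_pow_minimalPeriod, hψπ, mul_zero, sub_zero]


/-! ### families of cusp elements -/

variable {J : Type*} [Fintype J] (c : J → G)
  [∀ j, Fintype (orbitRel.Quotient (zpowers (c j)) (G ⧸ H))]

/-- the cusp family induced on `H` by a cusp family `c` of `G`: indexed by pairs
(`j`, orbit of `⟨c j⟩` on `G ⧸ H`). -/
noncomputable def inducedCusp :
    (Σ j : J, orbitRel.Quotient (zpowers (c j)) (G ⧸ H)) → H :=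
  fun x => cuspElt t ht (c x.1) x.2.out

omit [Fintype (G ⧸ H)] [Fintype J]
  [∀ j, Fintype (orbitRel.Quotient (zpowers (c j)) (G ⧸ H))] in
include hφ in
/-- restriction maps `Hom_c(G)` to `Hom_{c'}(H)`. -/
theorem phi_inducedCusp (hc : ∀ j, φ (c j) = 0)
    (x : Σ j : J, orbitRel.Quotient (zpowers (c j)) (G ⧸ H)) :
    φ (inducedCusp t ht c x : G) = 0 := by
  unfold inducedCusp
  rw [coe_cuspElt, hφ, hφ, phi_inv hφ, phi_pow hφ, hc]
  ring

omit [Fintype J] in
include hψ' in
/-- corestriction maps `Hom_{c'}(H)` to `Hom_c(G)`. -/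
theorem cor_cusp_eq_zero (hψc : ∀ x, ψ' (inducedCusp t ht c x) = 0) (j : J) :
    cor t ht ψ' (c j) = 0 := by
  rw [cor_orbit t ht hψ']
  exact Finset.sum_eq_zero fun o _ => hψc ⟨j, o⟩

include hψ' in
/-- `(REL)` descends to finite index subgroups: the cusp sum of `ψ'` over the induced family is the
cusp sum of `cor ψ'` over `c`. -/
theorem sum_inducedCusp_eq :
    ∑ x, ψ' (inducedCusp t ht c x) = ∑ j, cor t ht ψ' (c j) := by
  rw [Fintype.sum_sigma]
  refine Fintype.sum_congr _ _ fun j => ?_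
  rw [cor_orbit t ht hψ']
  rfl

include hφ hψ' hκ' in
/-- **adjointness, cochain level**: the cusp sum over `c` of the induced primitive of `(φ, cor ψ')`
equals the cusp sum over the induced family of the primitive `κ'` of `(φ|H, ψ')`. -/
theorem sum_primG_cusp (hc : ∀ j, φ (c j) = 0)
    (hψc : ∀ x, ψ' (inducedCusp t ht c x) = 0) :
    ∑ j, primG t ht φ ψ' κ' (c j) = ∑ x, κ' (inducedCusp t ht c x) := by
  rw [Fintype.sum_sigma]
  refine Fintype.sum_congr _ _ fun j => ?_
  rw [primG_orbit t ht hφ hψ' hκ' (c j) (hc j) (fun o => hψc ⟨j, o⟩)]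
  rfl

end orbits

section transfer

variable (t : G ⧸ H → G) (ht : ∀ q, (t q : G ⧸ H) = q) [Fintype (G ⧸ H)]

/-- Mathlib's transfer, written with an arbitrary section. -/
theorem transfer_eq_prod_hcoc [H.FiniteIndex] {A : Type*} [CommGroup A] (ϕ : H →* A) (g : G) :
    MonoidHom.transfer ϕ g = ∏ q : G ⧸ H, ϕ (hcoc t ht g q) := by
  have hinst : ‹Fintype (G ⧸ H)› = H.fintypeQuotientOfFiniteIndex := Subsingleton.elim _ _
  subst hinst
  let _ := H.fintypeQuotientOfFiniteIndex
  let T : H.LeftTransversal := ⟨Set.range t, isComplement_range_left ht⟩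
  rw [MonoidHom.transfer_def ϕ T g]
  unfold Subgroup.leftTransversals.diff
  simp only
  refine (Equiv.prod_comp (MulAction.toPerm g) _).symm.trans ?_
  refine Fintype.prod_congr _ _ fun q => ?_
  congr 1
  ext
  simp only [coe_hcoc, MulAction.toPerm_apply, smul_apply_eq_smul_apply_inv_smul, inv_smul_smul,
    smul_eq_mul]
  rw [IsComplement.leftQuotientEquiv_apply ht, IsComplement.leftQuotientEquiv_apply ht, mul_assoc]

/-- additive form: the transfer of `ψ'` (as a hom to `Multiplicative R`) is `cor ψ'`. -/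
theorem toAdd_transfer_eq_cor [H.FiniteIndex] (ϕ : H →* Multiplicative R) (g : G) :
    Multiplicative.toAdd (MonoidHom.transfer ϕ g) =
      cor t ht (fun h => Multiplicative.toAdd (ϕ h)) g := by
  rw [transfer_eq_prod_hcoc t ht ϕ g, toAdd_prod]
  rfl

end transfer

/-! ### bridge to `CuspPairing25` (helper25's vocabulary) -/

section bridge

open Fermat.Agent.ES.I2.CuspPairing25

variable (s : Section H)

theorem section_t_eq (g : G) (q : G ⧸ H) : s.t g q = hcoc s.r s.hr g q := rfl

variable [Fintype (G ⧸ H)]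

theorem section_cores_eq (f : H → R) (g : G) : s.cores f g = cor s.r s.hr f g := rfl

theorem section_prim_eq (x : G → R) (y κ' : H → R) (g : G) :
    (s.cores κ' + s.lam x y) g = primG s.r s.hr x y κ' g := by
  simp only [Pi.add_apply, Section.cores, Section.lam, primG, summand, Finset.sum_sub_distrib]
  rw [sub_eq_add_neg]
  rfl

/-- **cusp evaluation** in `CuspPairing25`'s vocabulary: for `π` with `x π = 0` and `y` killing the
cusp elements `(r o.out)⁻¹ π ^ e r o.out` of `H`, the transferred primitive at `π` is the sum of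
`κ'` over these cusp elements (one for each `⟨π⟩`-orbit on `G ⧸ H`). -/
theorem section_prim_cusp {x : G → R} {y κ' : H → R}
    (hx : IsAddHom x) (hy : IsAddHom y) (hκ' : IsPrimitive (fun h : H => x h) y κ')
    (π : G) [Fintype (orbitRel.Quotient (zpowers π) (G ⧸ H))] (hπ : x π = 0)
    (hyπ : ∀ o : orbitRel.Quotient (zpowers π) (G ⧸ H), y (cuspElt s.r s.hr π o.out) = 0) :
    (s.cores κ' + s.lam x y) π =
      ∑ o : orbitRel.Quotient (zpowers π) (G ⧸ H), κ' (cuspElt s.r s.hr π o.out) := by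
  rw [section_prim_eq]
  exact primG_orbit s.r s.hr hx hy hκ' π hπ hyπ

/-- cusp evaluation of the transfer of an additive function. -/
theorem section_cores_cusp {y : H → R} (hy : IsAddHom y)
    (π : G) [Fintype (orbitRel.Quotient (zpowers π) (G ⧸ H))] :
    s.cores y π = ∑ o : orbitRel.Quotient (zpowers π) (G ⧸ H), y (cuspElt s.r s.hr π o.out) :=
  cor_orbit s.r s.hr hy π

variable {J : Type*} [Fintype J] (c : J → G)
  [∀ j, Fintype (orbitRel.Quotient (zpowers (c j)) (G ⧸ H))]

/-- restriction maps `Hom_c(G)` to `Hom_{c'}(H)`, `c'` the induced cusp family. -/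
theorem isPar_restrict {x : G → R} (hx : IsPar c x) :
    IsPar (inducedCusp s.r s.hr c) (fun h : H => x h) :=
  ⟨fun a b => hx.1 a b, fun i => phi_inducedCusp s.r s.hr hx.1 c hx.2 i⟩

/-- transfer maps `Hom_{c'}(H)` to `Hom_c(G)`. -/
theorem isPar_cores {y : H → R} (hy : IsPar (inducedCusp s.r s.hr c) y) :
    IsPar c (s.cores y) :=
  ⟨s.isAddHom_cores hy.1, fun j => cor_cusp_eq_zero s.r s.hr hy.1 c hy.2 j⟩

/-- `(REL)` descends to the induced cusp family of a finite index subgroup. -/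
theorem rel_inducedCusp (hrel : Rel R c) : Rel R (inducedCusp s.r s.hr c) := by
  intro χ hχ
  rw [sum_inducedCusp_eq s.r s.hr hχ c]
  exact hrel _ (s.isAddHom_cores hχ)

/-- **(A5), final form: `res ⊣ cores` for the intrinsic cusp pairing.**  `c` a cusp family of `G`
satisfying `(REL)`, `c' = inducedCusp` the induced family of `H`; if `(x|H, y)` has a primitive on
`H` then `P_{G,c}(x, cores y) = P_{H,c'}(x|H, y)`. -/
theorem pairing_cores (hrel : Rel R c) {x : G → R} {y κ' : H → R} (hx : IsPar c x)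
    (hy : IsPar (inducedCusp s.r s.hr c) y) (hκ' : IsPrimitive (fun h : H => x h) y κ') :
    pairing c x (s.cores y) = pairing (inducedCusp s.r s.hr c) (fun h : H => x h) y := by
  rw [pairing_eq hrel (s.isPrimitive_cores hx.1 hy.1 hκ'),
    pairing_eq (rel_inducedCusp s c hrel) hκ']
  simp_rw [section_prim_eq]
  exact sum_primG_cusp s.r s.hr hx.1 hy.1 hκ' c hx.2 hy.2

/-- the same with `(K)` for the induced family instead of a given primitive. -/
theorem pairing_cores' (hrel : Rel R c) (hK : HasPrim (R := R) (inducedCusp s.r s.hr c))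
    {x : G → R} {y : H → R} (hx : IsPar c x) (hy : IsPar (inducedCusp s.r s.hr c) y) :
    pairing c x (s.cores y) = pairing (inducedCusp s.r s.hr c) (fun h : H => x h) y := by
  obtain ⟨κ', hκ'⟩ := hK _ _ (isPar_restrict s c hx) hy
  exact pairing_cores s c hrel hx hy hκ'

/-- **(A5) for an injective homomorphism** `f : G' →* G` with finite index image (e.g. the twisted
degeneracy map): `c''` a family in `G'` mapping to the induced cusp family of `f.range`; the
transfer along `f` is `s.cores (y' ∘ θ⁻¹)`, `θ : G' ≃* f.range`. -/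
theorem pairing_cores_of_injective {G' : Type*} [Group G'] (f : G' →* G)
    (hf : Function.Injective f) [Fintype (G ⧸ f.range)] (s : Section f.range)
    {J : Type*} [Fintype J] (c : J → G)
    [∀ j, Fintype (orbitRel.Quotient (zpowers (c j)) (G ⧸ f.range))]
    (hrel : Rel R c)
    (c'' : (Σ j : J, orbitRel.Quotient (zpowers (c j)) (G ⧸ f.range)) → G')
    (hc'' : ∀ i, f (c'' i) = (inducedCusp s.r s.hr c i : G))
    {x : G → R} {y' κ'' : G' → R} (hx : IsPar c x) (hy' : IsPar c'' y')
    (hκ'' : IsPrimitive (x ∘ f) y' κ'') :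
    pairing c x (s.cores (y' ∘ (MonoidHom.ofInjective hf).symm)) = pairing c'' (x ∘ f) y' := by
  set θ : G' ≃* f.range := MonoidHom.ofInjective hf with hθ
  have hθc : ∀ i, θ (c'' i) = inducedCusp s.r s.hr c i := by
    intro i
    apply Subtype.ext
    rw [hθ, MonoidHom.ofInjective_apply, hc'']
  have hθsymm : ∀ i, θ.symm (inducedCusp s.r s.hr c i) = c'' i := by
    intro i
    rw [← hθc, MulEquiv.symm_apply_apply]
  have hfθ : ∀ h : f.range, f (θ.symm h) = (h : G) := by
    intro h
    have := MonoidHom.ofInjective_apply hf (x := θ.symm h)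
    rw [← hθ, MulEquiv.apply_symm_apply] at this
    exact this.symm
  have hy : IsPar (inducedCusp s.r s.hr c) (y' ∘ θ.symm) :=
    ⟨fun a b => by simp [hy'.1 _ _], fun i => by simp [hθsymm, hy'.2 i]⟩
  have hκ' : IsPrimitive (fun h : f.range => x h) (y' ∘ θ.symm) (κ'' ∘ θ.symm) := by
    intro a b
    have := hκ'' (θ.symm a) (θ.symm b)
    simp only [Function.comp_apply, map_mul] at this ⊢
    rw [this, hfθ]
  have hrel'' : Rel R c'' := by
    intro χ hχ
    have h1 : IsAddHom (χ ∘ θ.symm) := by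
      intro a b; simp [hχ _ _]
    have := rel_inducedCusp s c hrel _ h1
    simpa [hθsymm] using this
  rw [pairing_cores s c hrel hx hy hκ', pairing_eq (rel_inducedCusp s c hrel) hκ',
    pairing_eq hrel'' hκ'']
  simp [hθsymm]

end bridge

end Fermat.Agent.ES.I2.TransferAdj3
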