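/-
(I2) of Program L (S41): complete systems of representatives of `H \ G / ⟨t⟩`  [helper15].
Vocabulary of `CuspSys13` (`IsComplete`, `FamEquiv`, `orbFam`, `cuspFam`).  Pure group theory
(no positivity, no `-1`).

* `isComplete_mem_iff(_zpow)` : `r j t^k (r j)⁻¹ ∈ H ↔ h j ∣ k`;
* `isComplete_famEquiv` : UNIQUENESS — two complete systems of the same `(H, t)` give equivalent
  families (reindexing + `H`-conjugation);
* `isComplete_orbFam` : EXISTENCE — Mathlib's orbit family (`r q = q.out.out⁻¹`, `h q = minimalPeriod`)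
  is a complete system for every finite index `H` (so `CuspSys13.cuspFam Γ` is the family of a complete
  system: `coe_cuspFam_eq`);
* `isComplete_induced`, `coe_inducedCusp`, `exists_isComplete_inducedCusp` : INDUCTION — for
  `K ≤ ↥Γ` of finite index and any section, helper3's `TransferAdj3.inducedCusp` of the family of a
  complete system of `(Γ, t)` is the family of a complete system of `(K.map Γ.subtype, t)`
  (representatives `(s o.out)⁻¹ * r j`, widths `h j * minimalPeriod`);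
* `famEquiv_induced_of_incl`, `famEquiv_cuspFam_of_incl` : the MATCHING for an inclusion
  `ι : ↥Γ' →* ↥Γ` (the `c''` of `DegAdj3.pairing_coresAdd` is equivalent to `cuspFam Γ'`);
* `famEquiv_top_of_coe`, `famEquiv_coe_of_top`, `rel_of_famEquiv`, `isPar_of_famEquiv`,
  `pairing_eq_of_famEquiv` : equivalent families have the same `(REL)`, parabolic functions, pairing.
-/
import Mathlib
import Fermat.Agent.ES.I2.CuspSys13
import Fermat.Agent.ES.I2.TransferAdj3

set_option autoImplicit false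
set_option linter.unusedSectionVars false

namespace Fermat.Agent.ES.I2.Complete15

open MulAction Subgroup Function Fermat.Agent.ES.I2.CuspSys13

variable {G : Type*} [Group G]

/-! ### elementary conjugation identities -/

theorem conj_pow' (r t : G) (k m : ℕ) : (r * t ^ k * r⁻¹) ^ m = r * t ^ (k * m) * r⁻¹ := by
  rw [conj_pow, pow_mul]

theorem conj_zpow' (r t : G) (k : ℕ) (m : ℤ) :
    (r * t ^ k * r⁻¹) ^ m = r * t ^ ((k : ℤ) * m) * r⁻¹ := by
  rw [conj_zpow, zpow_mul, zpow_natCast]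

/-- moving the representative inside its double coset conjugates the cusp elements. -/
theorem conj_move (η r t : G) (i : ℤ) (k : ℕ) :
    (η * r * t ^ i) * t ^ k * (η * r * t ^ i)⁻¹ = η * (r * t ^ k * r⁻¹) * η⁻¹ := by
  have hcomm : t ^ i * t ^ k * (t ^ i)⁻¹ = t ^ k := by
    rw [← zpow_natCast, ← zpow_neg, ← zpow_add, ← zpow_add]; congr 1; ring
  calc (η * r * t ^ i) * t ^ k * (η * r * t ^ i)⁻¹
      = η * (r * (t ^ i * t ^ k * (t ^ i)⁻¹) * r⁻¹) * η⁻¹ := by group
    _ = _ := by rw [hcomm]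

theorem conj_mem_iff' (H : Subgroup G) {η : G} (hη : η ∈ H) (x : G) :
    η * x * η⁻¹ ∈ H ↔ x ∈ H := by
  constructor
  · intro h
    have := H.mul_mem (H.mul_mem (H.inv_mem hη) h) hη
    simpa [mul_assoc] using this
  · intro h
    exact H.mul_mem (H.mul_mem hη h) (H.inv_mem hη)

section basic

variable {H : Subgroup G} {t : G} {J : Type*} {r : J → G} {h : J → ℕ}

/-- for a complete system, `r j t^k (r j)⁻¹ ∈ H` iff the width divides `k`. -/
theorem isComplete_mem_iff (hc  : CuspSys13.IsComplete H t r h) (j : J) (k : ℕ) :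
    r j * t ^ k * (r j)⁻¹ ∈ H ↔ h j ∣ k := by
  constructor
  · intro hk
    have hdiv : k = h j * (k / h j) + k % h j := (Nat.div_add_mod k (h j)).symm
    have h1 : r j * t ^ k * (r j)⁻¹ =
        (r j * t ^ h j * (r j)⁻¹) ^ (k / h j) * (r j * t ^ (k % h j) * (r j)⁻¹) := by
      rw [conj_pow']
      conv_lhs => rw [hdiv, pow_add]
      group
    have h2 : r j * t ^ (k % h j) * (r j)⁻¹ ∈ H := by
      have h3 : r j * t ^ (k % h j) * (r j)⁻¹ =
          ((r j * t ^ h j * (r j)⁻¹) ^ (k / h j))⁻¹ * (r j * t ^ k * (r j)⁻¹) := by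
        rw [h1]; group
      rw [h3]
      exact H.mul_mem (H.inv_mem (H.pow_mem (hc.mem j) _)) hk
    by_contra hnd
    have hpos : 0 < k % h j := Nat.pos_of_ne_zero (fun h0 => hnd (Nat.dvd_of_mod_eq_zero h0))
    have := hc.min j _ hpos h2
    have := Nat.mod_lt k (hc.pos j)
    omega
  · rintro ⟨m, rfl⟩
    rw [← conj_pow']
    exact H.pow_mem (hc.mem j) m

/-- integer exponents. -/
theorem isComplete_mem_iff_zpow (hc  : CuspSys13.IsComplete H t r h) (j : J) (k : ℤ) :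
    r j * t ^ k * (r j)⁻¹ ∈ H ↔ (h j : ℤ) ∣ k := by
  rcases Int.natAbs_eq k with hk | hk
  · rw [hk, zpow_natCast, isComplete_mem_iff hc, Int.natCast_dvd_natCast]
  · have : r j * t ^ k * (r j)⁻¹ = (r j * t ^ k.natAbs * (r j)⁻¹)⁻¹ := by
      conv_lhs => rw [hk, zpow_neg, zpow_natCast]
      group
    rw [this, H.inv_mem_iff, isComplete_mem_iff hc]
    conv_rhs => rw [hk, dvd_neg, Int.natCast_dvd_natCast]

/-- **uniqueness**: two complete systems for the same `(H, t)` give equivalent families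
(reindexing + `H`-conjugation).  Pure group theory. -/
theorem isComplete_famEquiv {J' : Type*} {r' : J' → G} {h' : J' → ℕ}
    (hc  : CuspSys13.IsComplete H t r h) (hc'  : CuspSys13.IsComplete H t r' h') :
    FamEquiv H (fun j => r j * t ^ h j * (r j)⁻¹) (fun j' => r' j' * t ^ h' j' * (r' j')⁻¹) := by
  have hex : ∀ j, ∃ j', ∃ i : ℤ, ∃ η ∈ H, r j = η * r' j' * t ^ i := fun j => hc'.cover (r j)
  choose f i η hη hr using hex
  have hmemiff : ∀ j (k : ℕ), r j * t ^ k * (r j)⁻¹ ∈ H ↔ r' (f j) * t ^ k * (r' (f j))⁻¹ ∈ H := by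
    intro j k
    conv_lhs => rw [hr j, conj_move]
    exact conj_mem_iff' H (hη j) _
  have hwidth : ∀ j, h j = h' (f j) := by
    intro j
    apply le_antisymm
    · exact hc.min j _ (hc'.pos _) ((hmemiff j _).mpr (hc'.mem _))
    · exact hc'.min _ _ (hc.pos j) ((hmemiff j _).mp (hc.mem j))
  have hinj : Function.Injective f := by
    intro j1 j2 h12
    apply hc.disj j1 j2 (i j2 - i j1) (η j2 * (η j1)⁻¹) (H.mul_mem (hη j2) (H.inv_mem (hη j1)))
    conv_lhs => rw [hr j2]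
    conv_rhs => rw [hr j1, h12, zpow_sub]
    group
  have hsurj : Function.Surjective f := by
    intro j'
    obtain ⟨j, i0, η0, hη0, h0⟩ := hc.cover (r' j')
    refine ⟨j, ?_⟩
    apply hc'.disj (f j) j' (i j + i0) (η0 * η j) (H.mul_mem hη0 (hη j))
    rw [h0]
    conv_lhs => rw [hr j]
    rw [zpow_add]
    group
  refine ⟨Equiv.ofBijective f ⟨hinj, hsurj⟩, fun j => ⟨(η j)⁻¹, H.inv_mem (hη j), ?_⟩⟩
  show (η j)⁻¹ * (r j * t ^ h j * (r j)⁻¹) * (η j)⁻¹⁻¹ = r' (f j) * t ^ h' (f j) * (r' (f j))⁻¹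
  conv_lhs => rw [hr j, conj_move, hwidth j]
  group

end basic

/-! ### Mathlib's orbit family is complete -/

section orbit

variable (H : Subgroup G) [H.FiniteIndex] (t : G)

theorem orbFam_eq (q : orbitRel.Quotient (zpowers t) (G ⧸ H)) :
    orbFam H t q = q.out.out⁻¹ * t ^ minimalPeriod (t • ·) q.out * (q.out.out⁻¹)⁻¹ := by
  rw [inv_inv]; rfl

/-- periodic points of `t` on `G ⧸ H` in terms of conjugates. -/
theorem isPeriodicPt_coset_iff (g : G) (k : ℕ) :
    IsPeriodicPt (t • · : G ⧸ H → G ⧸ H) k (g : G ⧸ H) ↔ g⁻¹ * t ^ k * g ∈ H := by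
  rw [IsPeriodicPt, IsFixedPt, smul_iterate]
  show t ^ k • (g : G ⧸ H) = (g : G ⧸ H) ↔ _
  rw [MulAction.Quotient.smul_coe, eq_comm, QuotientGroup.eq, smul_eq_mul, mul_assoc]

theorem minimalPeriod_pos (y : G ⧸ H) : 0 < minimalPeriod (t • · : G ⧸ H → G ⧸ H) y := by
  induction y using QuotientGroup.induction_on with
  | H g =>
    obtain ⟨n, hn, -, hmem⟩ :=
      Subgroup.exists_pow_mem_of_index_ne_zero (H := H) Subgroup.FiniteIndex.index_ne_zero
        (g⁻¹ * t * g)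
    apply minimalPeriod_pos_of_mem_periodicPts
    refine mk_mem_periodicPts hn ((isPeriodicPt_coset_iff H t g n).mpr ?_)
    have : (g⁻¹ * t * g) ^ n = g⁻¹ * t ^ n * g := by
      have := conj_pow (a := g⁻¹) (b := t) (i := n)
      rwa [inv_inv] at this
    rwa [← this]

theorem isComplete_orbFam :
    CuspSys13.IsComplete H t (fun q : orbitRel.Quotient (zpowers t) (G ⧸ H) => q.out.out⁻¹)
      (fun q => minimalPeriod (t • ·) q.out) where
  pos q := minimalPeriod_pos H t q.out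
  mem q := by
    show q.out.out⁻¹ * t ^ minimalPeriod (t • ·) q.out * (q.out.out⁻¹)⁻¹ ∈ H
    rw [inv_inv]
    exact QuotientGroup.out_conj_pow_minimalPeriod_mem H t q.out
  min q k hk hmem := by
    have hmem' : q.out.out⁻¹ * t ^ k * q.out.out ∈ H := by
      have : q.out.out⁻¹ * t ^ k * (q.out.out⁻¹)⁻¹ ∈ H := hmem
      rwa [inv_inv] at this
    have hper : IsPeriodicPt (t • · : G ⧸ H → G ⧸ H) k ((q.out.out : G) : G ⧸ H) :=
      (isPeriodicPt_coset_iff H t _ k).mpr hmem'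
    rw [QuotientGroup.out_eq'] at hper
    exact hper.minimalPeriod_le hk
  cover x := by
    set y : G ⧸ H := ((x⁻¹ : G) : G ⧸ H) with hy
    set q : orbitRel.Quotient (zpowers t) (G ⧸ H) := Quotient.mk'' y with hq
    have h1 : q.out ∈ MulAction.orbit (zpowers t) y := by
      have : (Quotient.mk'' q.out : orbitRel.Quotient (zpowers t) (G ⧸ H)) = Quotient.mk'' y :=
        Quotient.out_eq' q
      exact Quotient.exact' this
    obtain ⟨⟨s, hs⟩, hs'⟩ := h1
    obtain ⟨i, rfl⟩ := Subgroup.mem_zpowers_iff.mp hs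
    have h2 : ((t ^ i * x⁻¹ : G) : G ⧸ H) = q.out := hs'
    have h3 : ((t ^ i * x⁻¹ : G) : G ⧸ H) = ((q.out.out : G) : G ⧸ H) := by
      rw [h2, QuotientGroup.out_eq']
    have h4 := QuotientGroup.eq.mp h3
    refine ⟨q, i, _, h4, ?_⟩
    group
  disj q q' i η hη hr := by
    have hr' : q'.out.out⁻¹ = η * q.out.out⁻¹ * t ^ i := hr
    have h1 : q'.out.out = (t ^ i)⁻¹ * q.out.out * η⁻¹ := by
      rw [← inv_inv q'.out.out, hr']; group
    have h2 : ((q'.out.out : G) : G ⧸ H) = (((t ^ i)⁻¹ * q.out.out : G) : G ⧸ H) := by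
      rw [h1, QuotientGroup.eq]
      have : ((t ^ i)⁻¹ * q.out.out * η⁻¹)⁻¹ * ((t ^ i)⁻¹ * q.out.out) = η := by group
      rw [this]; exact hη
    rw [QuotientGroup.out_eq'] at h2
    have h3 : q'.out ∈ MulAction.orbit (zpowers t) q.out := by
      refine ⟨⟨(t ^ i)⁻¹, Subgroup.inv_mem _ (Subgroup.zpow_mem_zpowers t i)⟩, ?_⟩
      show (t ^ i)⁻¹ • q.out = q'.out
      rw [h2]
      conv_lhs => rw [← QuotientGroup.out_eq' q.out]
      rfl
    have h4 : (Quotient.mk'' q'.out : orbitRel.Quotient (zpowers t) (G ⧸ H)) =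
        Quotient.mk'' q.out := Quotient.sound' h3
    rw [Quotient.out_eq', Quotient.out_eq'] at h4
    exact h4.symm

end orbit

/-! ### induction: the induced family of a complete system is a complete system -/

section induction

variable {Γ : Subgroup G} {t : G} {J : Type*} {r : J → G} {h : J → ℕ}

/-- the family (in `↥Γ`) of a complete system. -/
def fam (hc  : CuspSys13.IsComplete Γ t r h) (j : J) : Γ := ⟨r j * t ^ h j * (r j)⁻¹, hc.mem j⟩

@[simp] theorem coe_fam (hc  : CuspSys13.IsComplete Γ t r h) (j : J) :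
    ((fam hc j : Γ) : G) = r j * t ^ h j * (r j)⁻¹ := rfl

theorem coe_fam_pow (hc  : CuspSys13.IsComplete Γ t r h) (j : J) (m : ℕ) :
    (((fam hc j) ^ m : Γ) : G) = r j * t ^ (h j * m) * (r j)⁻¹ := by
  rw [Subgroup.coe_pow, coe_fam, conj_pow']

theorem coe_fam_zpow (hc  : CuspSys13.IsComplete Γ t r h) (j : J) (m : ℤ) :
    (((fam hc j) ^ m : Γ) : G) = r j * t ^ ((h j : ℤ) * m) * (r j)⁻¹ := by
  rw [Subgroup.coe_zpow, coe_fam, conj_zpow']

variable (hc  : CuspSys13.IsComplete Γ t r h) (K : Subgroup Γ) (s : Γ ⧸ K → Γ) (hs : ∀ q, (s q : Γ ⧸ K) = q)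

/-- representatives of the induced system. -/
noncomputable def indR (x : Σ j : J, orbitRel.Quotient (zpowers (fam hc j)) (Γ ⧸ K)) : G :=
  ((s x.2.out : Γ) : G)⁻¹ * r x.1

/-- widths of the induced system. -/
noncomputable def indH (x : Σ j : J, orbitRel.Quotient (zpowers (fam hc j)) (Γ ⧸ K)) : ℕ :=
  h x.1 * minimalPeriod (fam hc x.1 • · : Γ ⧸ K → Γ ⧸ K) x.2.out

theorem coe_inducedCusp (x : Σ j : J, orbitRel.Quotient (zpowers (fam hc j)) (Γ ⧸ K)) :
    (((TransferAdj3.inducedCusp s hs (fam hc) x : K) : Γ) : G) =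
      indR hc K s x * t ^ indH hc K x * (indR hc K s x)⁻¹ := by
  unfold TransferAdj3.inducedCusp indR indH
  rw [TransferAdj3.coe_cuspElt, Subgroup.coe_mul, Subgroup.coe_mul, Subgroup.coe_inv, coe_fam_pow]
  group

include hs in
theorem isComplete_induced [K.FiniteIndex] :
    CuspSys13.IsComplete (K.map Γ.subtype) t (indR hc K s) (indH hc K) where
  pos x := Nat.mul_pos (hc.pos x.1) (minimalPeriod_pos K (fam hc x.1) x.2.out)
  mem x := by
    rw [← coe_inducedCusp hc K s hs x]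
    exact Subgroup.mem_map.mpr
      ⟨((TransferAdj3.inducedCusp s hs (fam hc) x : K) : Γ),
        (TransferAdj3.inducedCusp s hs (fam hc) x).2, rfl⟩
  min := by
    rintro ⟨j, o⟩ k hk hmem
    obtain ⟨γ, hγK, hγ⟩ := Subgroup.mem_map.mp hmem
    have hγ' : (γ : G) = ((s o.out : Γ) : G)⁻¹ * r j * t ^ k * (((s o.out : Γ) : G)⁻¹ * r j)⁻¹ := hγ
    have h1 : r j * t ^ k * (r j)⁻¹ ∈ Γ := by
      have : r j * t ^ k * (r j)⁻¹ = ((s o.out : Γ) : G) * (γ : G) * ((s o.out : Γ) : G)⁻¹ := by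
        rw [hγ']; group
      rw [this]
      exact Γ.mul_mem (Γ.mul_mem (s o.out).2 γ.2) (Γ.inv_mem (s o.out).2)
    obtain ⟨m, rfl⟩ := (isComplete_mem_iff hc j k).mp h1
    have h2 : γ = (s o.out)⁻¹ * (fam hc j) ^ m * s o.out := by
      apply Subtype.ext
      rw [Subgroup.coe_mul, Subgroup.coe_mul, Subgroup.coe_inv, coe_fam_pow, hγ']
      group
    have h3 : IsPeriodicPt (fam hc j • · : Γ ⧸ K → Γ ⧸ K) m o.out := by
      have := (isPeriodicPt_coset_iff K (fam hc j) (s o.out) m).mpr (by rw [← h2]; exact hγK)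
      rwa [hs] at this
    show h j * minimalPeriod (fam hc j • · : Γ ⧸ K → Γ ⧸ K) o.out ≤ h j * m
    exact Nat.le_of_dvd hk (Nat.mul_dvd_mul_left _ h3.minimalPeriod_dvd)
  cover x := by
    obtain ⟨j, i, η, hη, hx⟩ := hc.cover x
    set ηΓ : Γ := ⟨η, hη⟩ with hηΓ
    set y : Γ ⧸ K := ((ηΓ⁻¹ : Γ) : Γ ⧸ K) with hy
    set o : orbitRel.Quotient (zpowers (fam hc j)) (Γ ⧸ K) := Quotient.mk'' y with ho
    have h1 : o.out ∈ MulAction.orbit (zpowers (fam hc j)) y := by
      have : (Quotient.mk'' o.out : orbitRel.Quotient (zpowers (fam hc j)) (Γ ⧸ K)) =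
          Quotient.mk'' y := Quotient.out_eq' o
      exact Quotient.exact' this
    obtain ⟨⟨u, hu⟩, hu'⟩ := h1
    obtain ⟨m, rfl⟩ := Subgroup.mem_zpowers_iff.mp hu
    have h2 : (((fam hc j) ^ m * ηΓ⁻¹ : Γ) : Γ ⧸ K) = o.out := hu'
    have h3 : (((fam hc j) ^ m * ηΓ⁻¹ : Γ) : Γ ⧸ K) = ((s o.out : Γ) : Γ ⧸ K) := by
      rw [h2, hs]
    have h4 := QuotientGroup.eq.mp h3
    refine ⟨⟨j, o⟩, (h j : ℤ) * m + i, _, Subgroup.mem_map_of_mem Γ.subtype h4, ?_⟩
    show x = Γ.subtype (((fam hc j) ^ m * ηΓ⁻¹)⁻¹ * s o.out) *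
      (((s o.out : Γ) : G)⁻¹ * r j) * t ^ ((h j : ℤ) * m + i)
    rw [Subgroup.coe_subtype, Subgroup.coe_mul, Subgroup.coe_inv, Subgroup.coe_mul,
      Subgroup.coe_inv, coe_fam_zpow, hx, zpow_add]
    show η * r j * t ^ i = _
    group
    rfl
  disj := by
    rintro ⟨j, o⟩ ⟨j', o'⟩ i η hη hr
    obtain ⟨κ, hκ, rfl⟩ := Subgroup.mem_map.mp hη
    have hr' : ((s o'.out : Γ) : G)⁻¹ * r j' =
        (κ : G) * (((s o.out : Γ) : G)⁻¹ * r j) * t ^ i := hr
    have hj : j = j' := by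
      apply hc.disj j j' i (((s o'.out : Γ) : G) * (κ : G) * ((s o.out : Γ) : G)⁻¹)
        (Γ.mul_mem (Γ.mul_mem (s o'.out).2 κ.2) (Γ.inv_mem (s o.out).2))
      have : r j' = ((s o'.out : Γ) : G) * (((s o'.out : Γ) : G)⁻¹ * r j') := by group
      rw [this, hr']; group
    subst hj
    have h1 : r j * t ^ i * (r j)⁻¹ =
        (((s o.out) * κ⁻¹ * (s o'.out)⁻¹ : Γ) : G) := by
      have : r j = ((s o'.out : Γ) : G) * ((κ : G) * (((s o.out : Γ) : G)⁻¹ * r j) * t ^ i) := by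
        rw [← hr']; group
      rw [Subgroup.coe_mul, Subgroup.coe_mul, Subgroup.coe_inv, Subgroup.coe_inv]
      have h2 : r j * t ^ i = ((s o.out : Γ) : G) * (κ : G)⁻¹ * ((s o'.out : Γ) : G)⁻¹ * r j := by
        conv_rhs => rw [this]
        group
      rw [h2]; group
    have h2 : r j * t ^ i * (r j)⁻¹ ∈ Γ := by rw [h1]; exact Subtype.property _
    obtain ⟨m, rfl⟩ := (isComplete_mem_iff_zpow hc j i).mp h2
    have h3 : (s o.out) * κ⁻¹ * (s o'.out)⁻¹ = (fam hc j) ^ m := by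
      apply Subtype.ext
      rw [← h1, coe_fam_zpow]
    have h4 : s o'.out = ((fam hc j) ^ m)⁻¹ * s o.out * κ⁻¹ := by
      rw [← h3]; group
    have h5 : o'.out = ((fam hc j) ^ m)⁻¹ • o.out := by
      conv_lhs => rw [← hs o'.out, h4]
      conv_rhs => rw [← hs o.out]
      rw [MulAction.Quotient.smul_coe, smul_eq_mul, QuotientGroup.eq]
      have : (((fam hc j) ^ m)⁻¹ * s o.out * κ⁻¹)⁻¹ * (((fam hc j) ^ m)⁻¹ * s o.out) = κ := by group
      rw [this]; exact hκ
    have h6 : o'.out ∈ MulAction.orbit (zpowers (fam hc j)) o.out :=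
      ⟨⟨((fam hc j) ^ m)⁻¹, Subgroup.inv_mem _ (Subgroup.zpow_mem_zpowers _ m)⟩, h5.symm⟩
    have h7 : (Quotient.mk'' o'.out : orbitRel.Quotient (zpowers (fam hc j)) (Γ ⧸ K)) =
        Quotient.mk'' o.out := Quotient.sound' h6
    rw [Quotient.out_eq', Quotient.out_eq'] at h7
    rw [h7]

end induction

/-! ### packaged forms and the matching for inclusions -/

section matching

open CuspPairing25

/-- `FamEquiv` for subgroup-valued families can be checked after coercion. -/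
theorem famEquiv_top_of_coe {H : Subgroup G} {J J' : Type*} {u : J → H} {u' : J' → H}
    (hf : FamEquiv H (fun j => (u j : G)) (fun j' => (u' j' : G))) :
    FamEquiv (⊤ : Subgroup H) u u' := by
  obtain ⟨e, he⟩ := hf
  refine ⟨e, fun j => ?_⟩
  obtain ⟨η, hη, h1⟩ := he j
  exact ⟨⟨η, hη⟩, Subgroup.mem_top _, Subtype.ext h1⟩

/-- conversely. -/
theorem famEquiv_coe_of_top {H : Subgroup G} {J J' : Type*} {u : J → H} {u' : J' → H}
    (hf : FamEquiv (⊤ : Subgroup H) u u') :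
    FamEquiv H (fun j => (u j : G)) (fun j' => (u' j' : G)) := by
  obtain ⟨e, he⟩ := hf
  refine ⟨e, fun j => ?_⟩
  obtain ⟨η, -, h1⟩ := he j
  exact ⟨(η : G), η.2, by
    show (η : G) * (u j : G) * (η : G)⁻¹ = (u' (e j) : G)
    rw [← h1]; rfl⟩

/-- equivalent families (reindexing + conjugation) have the same `(REL)`, the same parabolic
functions and the same pairing. -/
theorem rel_of_famEquiv {R : Type*} [CommRing R] {J J' : Type*} [Fintype J] [Fintype J']
    {c : J → G} {c' : J' → G} (hf : FamEquiv (⊤ : Subgroup G) c c') (hrel : Rel R c) :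
    Rel R c' := by
  intro χ hχ
  rw [← hf.sum_eq χ (fun j η _ => hχ.map_conj η (c j))]
  exact hrel χ hχ

theorem isPar_of_famEquiv {R : Type*} [CommRing R] {J J' : Type*} [Fintype J] [Fintype J']
    {c : J → G} {c' : J' → G} (hf : FamEquiv (⊤ : Subgroup G) c c') {φ : G → R}
    (hφ : IsPar c φ) : IsPar c' φ := by
  refine ⟨hφ.1, fun j' => ?_⟩
  obtain ⟨e, he⟩ := hf
  obtain ⟨η, -, h1⟩ := he (e.symm j')
  rw [Equiv.apply_symm_apply] at h1
  rw [← h1, hφ.1.map_conj, hφ.2]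

theorem pairing_eq_of_famEquiv {R : Type*} [CommRing R] {J J' : Type*} [Fintype J] [Fintype J']
    {c : J → G} {c' : J' → G} (hf : FamEquiv (⊤ : Subgroup G) c c') (hrel : Rel R c)
    {φ ψ κ : G → R} (hφ : IsPar c φ) (hψ : IsPar c ψ) (hκ : IsPrimitive φ ψ κ) :
    pairing c' φ ψ = pairing c φ ψ := by
  rw [pairing_eq hrel hκ, pairing_eq (rel_of_famEquiv hf hrel) hκ]
  exact (hf.sum_eq κ (fun j η _ => hκ.conj hφ.1 hψ.1 (hφ.2 j) (hψ.2 j) η)).symm

variable {Γ : Subgroup G} {t : G} {J : Type*} {r : J → G} {h : J → ℕ}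

/-- **induction, packaged**: `c` the family of a complete system of `(Γ, t)`, `K ≤ ↥Γ` of finite
index, `s` any section: helper3's induced family `TransferAdj3.inducedCusp s hs c` is the family of
a complete system of `(K.map Γ.subtype, t)`. -/
theorem exists_isComplete_inducedCusp (hc : CuspSys13.IsComplete Γ t r h) (c : J → Γ)
    (hcc : ∀ j, (c j : G) = r j * t ^ h j * (r j)⁻¹) (K : Subgroup Γ) [K.FiniteIndex]
    (s : Γ ⧸ K → Γ) (hs : ∀ q, (s q : Γ ⧸ K) = q) :
    ∃ (r'' : (Σ j : J, orbitRel.Quotient (zpowers (c j)) (Γ ⧸ K)) → G)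
      (h'' : (Σ j : J, orbitRel.Quotient (zpowers (c j)) (Γ ⧸ K)) → ℕ),
      CuspSys13.IsComplete (K.map Γ.subtype) t r'' h'' ∧
      ∀ i, (((TransferAdj3.inducedCusp s hs c i : K) : Γ) : G) = r'' i * t ^ h'' i * (r'' i)⁻¹ := by
  have : c = fam hc := funext fun j => Subtype.ext (hcc j)
  subst this
  exact ⟨indR hc K s, indH hc K, isComplete_induced hc K s hs, coe_inducedCusp hc K s hs⟩

/-- **the matching for an inclusion** (`E_adj1`): `ι : ↥Γ' →* ↥Γ` the inclusion of a finite-index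
subgroup, `c` the family of a complete system of `(Γ, t)`, `c''` the `ι`-preimage of the induced
family of `ι.range`, `c'` the family of ANY complete system of `(Γ', t)`: then `c''` and `c'` are
equivalent (reindexing + conjugation in `Γ'`). -/
theorem famEquiv_induced_of_incl {Γ' : Subgroup G} (ι : Γ' →* Γ)
    (hι : ∀ γ : Γ', ((ι γ : Γ) : G) = (γ : G)) [ι.range.FiniteIndex]
    (hc : CuspSys13.IsComplete Γ t r h) (c : J → Γ)
    (hcc : ∀ j, (c j : G) = r j * t ^ h j * (r j)⁻¹)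
    {J' : Type*} {r' : J' → G} {h' : J' → ℕ} (hc' : CuspSys13.IsComplete Γ' t r' h')
    (c' : J' → Γ') (hcc' : ∀ j', (c' j' : G) = r' j' * t ^ h' j' * (r' j')⁻¹)
    (s : Γ ⧸ ι.range → Γ) (hs : ∀ q, (s q : Γ ⧸ ι.range) = q)
    (c'' : (Σ j : J, orbitRel.Quotient (zpowers (c j)) (Γ ⧸ ι.range)) → Γ')
    (hc'' : ∀ i, ι (c'' i) = ((TransferAdj3.inducedCusp s hs c i : ι.range) : Γ)) :
    FamEquiv (⊤ : Subgroup Γ') c'' c' := by
  obtain ⟨r'', h'', hcomp, hfam⟩ := exists_isComplete_inducedCusp hc c hcc ι.range s hs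
  have hmap : ι.range.map Γ.subtype = Γ' := by
    ext x
    constructor
    · rintro ⟨y, ⟨γ, rfl⟩, rfl⟩
      show ((ι γ : Γ) : G) ∈ Γ'
      rw [hι]; exact γ.2
    · intro hx
      exact ⟨ι ⟨x, hx⟩, ⟨⟨x, hx⟩, rfl⟩, hι ⟨x, hx⟩⟩
  rw [hmap] at hcomp
  apply famEquiv_top_of_coe
  have h1 : (fun i => ((c'' i : Γ') : G)) = fun i => r'' i * t ^ h'' i * (r'' i)⁻¹ := by
    funext i
    rw [← hfam i, ← hc'' i, hι]
  have h2 : (fun j' => ((c' j' : Γ') : G)) = fun j' => r' j' * t ^ h' j' * (r' j')⁻¹ :=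
    funext hcc'
  rw [h1, h2]
  exact isComplete_famEquiv hcomp hc'

end matching

/-! ### `SL(2,ℤ)`: the canonical cusp family `CuspSys13.cuspFam` -/

section SL2

open scoped MatrixGroups

theorem coe_cuspFam_eq (Γ : Subgroup SL(2, ℤ))
    (q : orbitRel.Quotient (zpowers (ModularGroup.T : SL(2, ℤ))) (SL(2, ℤ) ⧸ Γ)) :
    ((cuspFam Γ q : Γ) : SL(2, ℤ)) =
      q.out.out⁻¹ * ModularGroup.T ^ minimalPeriod ((ModularGroup.T : SL(2, ℤ)) • ·) q.out *
        (q.out.out⁻¹)⁻¹ := by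
  rw [inv_inv]; rfl

/-- **the inclH-matching for `E_adj1`**: `ι : ↥Γ' →* ↥Γ` the inclusion of finite-index subgroups of
`SL(2,ℤ)`; the `ι`-preimage `c''` of the family induced on `ι.range` by `cuspFam Γ` is equivalent
to `cuspFam Γ'`. -/
theorem famEquiv_cuspFam_of_incl {Γ Γ' : Subgroup SL(2, ℤ)} [Γ.FiniteIndex] [Γ'.FiniteIndex]
    (ι : Γ' →* Γ) (hι : ∀ γ : Γ', ((ι γ : Γ) : SL(2, ℤ)) = (γ : SL(2, ℤ))) [ι.range.FiniteIndex]
    (s : Γ ⧸ ι.range → Γ) (hs : ∀ q, (s q : Γ ⧸ ι.range) = q)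
    (c'' : (Σ j : orbitRel.Quotient (zpowers (ModularGroup.T : SL(2, ℤ))) (SL(2, ℤ) ⧸ Γ),
      orbitRel.Quotient (zpowers (cuspFam Γ j)) (Γ ⧸ ι.range)) → Γ')
    (hc'' : ∀ i, ι (c'' i) = ((TransferAdj3.inducedCusp s hs (cuspFam Γ) i : ι.range) : Γ)) :
    FamEquiv (⊤ : Subgroup Γ') c'' (cuspFam Γ') :=
  famEquiv_induced_of_incl ι hι (isComplete_orbFam Γ ModularGroup.T) (cuspFam Γ)
    (coe_cuspFam_eq Γ) (isComplete_orbFam Γ' ModularGroup.T) (cuspFam Γ') (coe_cuspFam_eq Γ')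
    s hs c'' hc''

end SL2

end Fermat.Agent.ES.I2.Complete15
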