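/-
Program L (S41), chapter (I2), dictionary leaf (5-i) in `CuspSys13` vocabulary (helper5).

A complete system of representatives `(r j, h j)` of the double cosets `Γ \ SL(2,ℤ) / ⟨T⟩` with widths
(`CuspSys13.IsComplete Γ T r h`) gives, when `-1 ∈ Γ`, a CUSP SYSTEM of `Γ`
(`CuspSys13.IsCuspSystem Γ (fun j => r j * T ^ h j * (r j)⁻¹)`): the elements `r j T^(h j) (r j)⁻¹` are
positive primitive parabolic and represent every `Γ`-conjugacy class of such elements exactly once.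

Matrix input: the entries of `x T^k x⁻¹`, rigidity (`z T^k z⁻¹ = T^k'`, `k ≠ 0` ⇒ `z` upper
triangular, `k = k'`), upper triangular ⇒ `± T^m`, trace `2` ⇒ conjugate of a power of `T`
(`KUM/TraceClass17`).
-/
import Mathlib
import Fermat.Agent.ES.I2.CuspSys13
import Fermat.Agent.ES.KUM.TraceClass17

set_option autoImplicit false

open Matrix Subgroup
open scoped MatrixGroups

namespace Fermat.Agent.ES.I2.CompleteCusp5

open Fermat.Agent.ES.I2.CuspSys13 ModularGroup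

/-! ### matrix lemmas -/

theorem det_eq' (x : SL(2, ℤ)) : x 0 0 * x 1 1 - x 0 1 * x 1 0 = 1 := by
  have := x.2
  rwa [Matrix.det_fin_two] at this

/-- the entries of `x T^k x⁻¹`. -/
theorem coe_conj_T_zpow (x : SL(2, ℤ)) (k : ℤ) :
    ((x * T ^ k * x⁻¹ : SL(2, ℤ)) : Matrix (Fin 2) (Fin 2) ℤ)
      = !![1 - x 0 0 * x 1 0 * k, x 0 0 ^ 2 * k; -(x 1 0 ^ 2 * k), 1 + x 0 0 * x 1 0 * k] := by
  have hd := det_eq' x
  rw [Matrix.SpecialLinearGroup.coe_mul, Matrix.SpecialLinearGroup.coe_mul,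
    Matrix.SpecialLinearGroup.coe_inv, coe_T_zpow, Matrix.adjugate_fin_two]
  ext i j
  fin_cases i <;> fin_cases j <;>
    simp only [Matrix.mul_apply, Fin.sum_univ_two, Fin.zero_eta, Fin.mk_one, Fin.isValue,
      Matrix.of_apply, Matrix.cons_val', Matrix.cons_val_zero, Matrix.cons_val_one,
      Matrix.cons_val_fin_one]
  · linear_combination hd
  · ring
  · ring
  · linear_combination hd

theorem trace_conj_T_zpow (x : SL(2, ℤ)) (k : ℤ) :
    ((x * T ^ k * x⁻¹ : SL(2, ℤ)) : Matrix (Fin 2) (Fin 2) ℤ).trace = 2 := by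
  rw [coe_conj_T_zpow, Matrix.trace_fin_two_of]
  ring

/-- the first column of an element of `SL(2,ℤ)` is not zero. -/
theorem col_ne_zero (x : SL(2, ℤ)) : 0 < x 0 0 ^ 2 + x 1 0 ^ 2 := by
  have hd := det_eq' x
  by_contra h
  have h0 : x 0 0 ^ 2 + x 1 0 ^ 2 = 0 := le_antisymm (not_lt.mp h) (by positivity)
  have ha : x 0 0 = 0 := by nlinarith [sq_nonneg (x 0 0), sq_nonneg (x 1 0)]
  have hc : x 1 0 = 0 := by nlinarith [sq_nonneg (x 0 0), sq_nonneg (x 1 0)]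
  rw [ha, hc] at hd
  simp at hd

theorem conj_T_zpow_eq_one_iff (x : SL(2, ℤ)) (k : ℤ) : x * T ^ k * x⁻¹ = 1 ↔ k = 0 := by
  constructor
  · intro h
    have h1 := congrArg (fun g : SL(2, ℤ) => (g : Matrix (Fin 2) (Fin 2) ℤ)) h
    simp only [coe_conj_T_zpow, Matrix.SpecialLinearGroup.coe_one] at h1
    have e01 := congrFun (congrFun h1 0) 1
    have e10 := congrFun (congrFun h1 1) 0
    simp at e01 e10
    have hpos := col_ne_zero x
    by_contra hk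
    rcases e01 with h01 | h01 <;> rcases e10 with h10 | h10
    · rw [h01, h10] at hpos; simp at hpos
    · exact hk h10
    · exact hk h01
    · exact hk h01
  · rintro rfl
    simp

/-- **rigidity**: `z T^k z⁻¹ = T^k'`, `k ≠ 0`, forces `z` upper triangular and `k = k'`. -/
theorem rigid {z : SL(2, ℤ)} {k k' : ℤ} (hk : k ≠ 0) (h : z * T ^ k * z⁻¹ = T ^ k') :
    z 1 0 = 0 ∧ k = k' := by
  have h1 := congrArg (fun g : SL(2, ℤ) => (g : Matrix (Fin 2) (Fin 2) ℤ)) h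
  simp only [coe_conj_T_zpow, coe_T_zpow] at h1
  have e01 := congrFun (congrFun h1 0) 1
  have e10 := congrFun (congrFun h1 1) 0
  simp only [Matrix.of_apply, Matrix.cons_val', Matrix.cons_val_zero, Matrix.cons_val_one,
    Matrix.cons_val_fin_one, neg_eq_zero, mul_eq_zero, hk, or_false, ne_eq, OfNat.ofNat_ne_zero,
    not_false_eq_true, pow_eq_zero_iff] at e01 e10
  refine ⟨e10, ?_⟩
  have hd := det_eq' z
  rw [e10, mul_zero, sub_zero] at hd
  have hsq : z 0 0 ^ 2 = 1 := by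
    rcases Int.eq_one_or_neg_one_of_mul_eq_one' hd with ⟨h1, _⟩ | ⟨h1, _⟩ <;> rw [h1] <;> norm_num
  rw [hsq, one_mul] at e01
  exact e01

/-- an upper triangular element of `SL(2,ℤ)` is `± T^m`. -/
theorem eq_T_zpow_or_neg {z : SL(2, ℤ)} (h : z 1 0 = 0) : ∃ m : ℤ, z = T ^ m ∨ z = -T ^ m := by
  have hd := det_eq' z
  rw [h, mul_zero, sub_zero] at hd
  rcases Int.eq_one_or_neg_one_of_mul_eq_one' hd with ⟨h1, h2⟩ | ⟨h1, h2⟩
  · refine ⟨z 0 1, Or.inl ?_⟩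
    apply Subtype.ext
    rw [coe_T_zpow]
    ext i j
    fin_cases i <;> fin_cases j <;> simp [h, h1, h2]
  · refine ⟨-z 0 1, Or.inr ?_⟩
    apply Subtype.ext
    rw [Matrix.SpecialLinearGroup.coe_neg, coe_T_zpow]
    ext i j
    fin_cases i <;> fin_cases j <;> simp [h, h1, h2]

/-- elements of trace `2` are conjugates of powers of `T`. -/
theorem exists_conj_of_trace_two (v : SL(2, ℤ))
    (h : (v : Matrix (Fin 2) (Fin 2) ℤ).trace = 2) : ∃ (δ : SL(2, ℤ)) (m : ℤ),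
      v = δ * T ^ m * δ⁻¹ := by
  obtain ⟨δ, m, hv | hv⟩ :=
    Fermat.Agent.ES.KUM.TraceClass17.exists_conj_T_zpow v (by rw [h]; norm_num)
  · exact ⟨δ, m, hv⟩
  · exfalso
    rw [hv, Matrix.SpecialLinearGroup.coe_neg, Matrix.trace_neg, trace_conj_T_zpow] at h
    norm_num at h

/-- conjugation by an upper triangular element fixes the powers of `T`. -/
theorem conj_of_upper {z : SL(2, ℤ)} (hz : z 1 0 = 0) (m : ℤ) : z * T ^ m * z⁻¹ = T ^ m := by
  apply Subtype.ext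
  rw [coe_conj_T_zpow, coe_T_zpow, hz]
  have hd := det_eq' z
  rw [hz, mul_zero, sub_zero] at hd
  have hsq : z 0 0 ^ 2 = 1 := by
    rcases Int.eq_one_or_neg_one_of_mul_eq_one' hd with ⟨h1, _⟩ | ⟨h1, _⟩ <;> rw [h1] <;> norm_num
  rw [hsq]
  ext i j
  fin_cases i <;> fin_cases j <;> simp

/-- `T ^ k ≠ 1` for `k ≠ 0`. -/
theorem T_zpow_ne_one {k : ℤ} (hk : k ≠ 0) : (T : SL(2, ℤ)) ^ k ≠ 1 := by
  intro h
  have := (conj_T_zpow_eq_one_iff 1 k).mp (by rw [one_mul, inv_one, mul_one, h])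
  exact hk this

/-- if `x T^k x⁻¹ = y T^k' y⁻¹` with `k ≠ 0` then `y⁻¹ x` is upper triangular and `k = k'`. -/
theorem rigid' {x y : SL(2, ℤ)} {k k' : ℤ} (hk : k ≠ 0)
    (h : x * T ^ k * x⁻¹ = y * T ^ k' * y⁻¹) : (y⁻¹ * x) 1 0 = 0 ∧ k = k' := by
  refine rigid hk ?_
  calc y⁻¹ * x * T ^ k * (y⁻¹ * x)⁻¹ = y⁻¹ * (x * T ^ k * x⁻¹) * y := by group
    _ = y⁻¹ * (y * T ^ k' * y⁻¹) * y := by rw [h]
    _ = T ^ k' := by group

/-! ### complete systems are cusp systems -/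

section Main

variable {Γ : Subgroup SL(2, ℤ)} {J : Type*} {r : J → SL(2, ℤ)} {h : J → ℕ}

/-- if `x T^m x⁻¹ = r T^n r⁻¹` (with `n ≠ 0`... here `m ≠ 0`) then `x T^l x⁻¹ = r T^l r⁻¹` for all
`l`: the conjugators differ by an upper triangular matrix. -/
theorem conj_eq_of_conj_eq {x y : SL(2, ℤ)} {k k' : ℤ} (hk : k ≠ 0)
    (hxy : x * T ^ k * x⁻¹ = y * T ^ k' * y⁻¹) (l : ℤ) : x * T ^ l * x⁻¹ = y * T ^ l * y⁻¹ := by
  have hz := (rigid' hk hxy).1
  have h1 := conj_of_upper hz l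
  calc x * T ^ l * x⁻¹ = y * ((y⁻¹ * x) * T ^ l * (y⁻¹ * x)⁻¹) * y⁻¹ := by group
    _ = y * T ^ l * y⁻¹ := by rw [h1]

theorem isPP_of_isComplete (hc : IsComplete Γ T r h) (j : J) :
    IsPP Γ (r j * T ^ h j * (r j)⁻¹) := by
  have hpos : (0 : ℤ) < (h j : ℤ) := by exact_mod_cast hc.pos j
  have hcoe : r j * T ^ h j * (r j)⁻¹ = r j * T ^ ((h j : ℕ) : ℤ) * (r j)⁻¹ := by
    rw [zpow_natCast]
  refine ⟨hc.mem j, ?_, ?_, ?_, ?_, ?_⟩
  · rw [hcoe, trace_conj_T_zpow]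
  · rw [hcoe, Ne, conj_T_zpow_eq_one_iff]
    exact hpos.ne'
  · rw [hcoe, coe_conj_T_zpow]
    simp only [Matrix.of_apply, Matrix.cons_val', Matrix.cons_val_zero, Matrix.cons_val_one,
      Matrix.cons_val_fin_one]
    positivity
  · rw [hcoe, coe_conj_T_zpow]
    simp only [Matrix.of_apply, Matrix.cons_val', Matrix.cons_val_zero, Matrix.cons_val_one,
      Matrix.cons_val_fin_one, Left.neg_nonpos_iff]
    positivity
  · intro v hv htr k hk hvk
    obtain ⟨δ, m, rfl⟩ := exists_conj_of_trace_two v htr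
    -- `(δ T^m δ⁻¹)^k = δ T^(m k) δ⁻¹`
    have hpow : (δ * T ^ m * δ⁻¹) ^ k = δ * T ^ (m * (k : ℤ)) * δ⁻¹ := by
      rw [conj_pow, _root_.zpow_mul, zpow_natCast]
    rw [hpow, hcoe] at hvk
    have hmk : m * (k : ℤ) ≠ 0 := by
      intro h0
      rw [h0, zpow_zero, mul_one, mul_inv_cancel] at hvk
      exact hpos.ne' ((conj_T_zpow_eq_one_iff (r j) (h j)).mp hvk.symm)
    have hmk' : m * (k : ℤ) = (h j : ℤ) := (rigid' hmk hvk).2
    have hk0 : (0 : ℤ) < (k : ℤ) := by exact_mod_cast (by omega : 0 < k)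
    have hm : 0 < m := by
      by_contra hm
      have : m * (k : ℤ) ≤ 0 := mul_nonpos_of_nonpos_of_nonneg (not_lt.mp hm) hk0.le
      omega
    -- `δ T^m δ⁻¹ = r T^m r⁻¹`
    have hconj := conj_eq_of_conj_eq hmk hvk m
    have hmem : r j * T ^ m.toNat * (r j)⁻¹ ∈ Γ := by
      have : (T : SL(2, ℤ)) ^ m.toNat = T ^ m := by
        rw [← zpow_natCast, Int.toNat_of_nonneg hm.le]
      rw [this, ← hconj]
      exact hv
    have hle := hc.min j m.toNat (by omega) hmem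
    have hk2 : (2 : ℤ) ≤ (k : ℤ) := by exact_mod_cast hk
    have h1 : (h j : ℤ) ≤ m := by
      have : ((m.toNat : ℕ) : ℤ) = m := Int.toNat_of_nonneg hm.le
      have h2 : ((h j : ℕ) : ℤ) ≤ ((m.toNat : ℕ) : ℤ) := by exact_mod_cast hle
      rwa [this] at h2
    nlinarith

/-- every positive primitive parabolic element of `Γ` is `Γ`-conjugate to a member of a complete
system. -/
theorem exists_conj_of_isPP (hc : IsComplete Γ T r h) {v : SL(2, ℤ)} (hv : IsPP Γ v) :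
    ∃ j, ∃ η ∈ Γ, η * (r j * T ^ h j * (r j)⁻¹) * η⁻¹ = v := by
  obtain ⟨hvΓ, htr, hne, h01, h10, hprim⟩ := hv
  obtain ⟨δ, m, rfl⟩ := exists_conj_of_trace_two v htr
  have hm0 : m ≠ 0 := fun h0 => hne ((conj_T_zpow_eq_one_iff δ m).mpr h0)
  -- positivity
  have hm : 0 < m := by
    rw [coe_conj_T_zpow] at h01 h10
    simp only [Matrix.of_apply, Matrix.cons_val', Matrix.cons_val_zero, Matrix.cons_val_one,
      Matrix.cons_val_fin_one, Left.neg_nonpos_iff] at h01 h10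
    have hcol := col_ne_zero δ
    by_contra hneg
    have hm' : m < 0 := lt_of_le_of_ne (not_lt.mp hneg) hm0
    nlinarith [sq_nonneg (δ 0 0), sq_nonneg (δ 1 0)]
  obtain ⟨j, i, η, hη, hδ⟩ := hc.cover δ
  refine ⟨j, η, hη, ?_⟩
  -- `δ T^l δ⁻¹ = η (r T^l r⁻¹) η⁻¹`
  have hconj : ∀ l : ℤ, δ * T ^ l * δ⁻¹ = η * (r j * T ^ l * (r j)⁻¹) * η⁻¹ := by
    intro l
    have hcomm : (T : SL(2, ℤ)) ^ i * T ^ l * (T ^ i)⁻¹ = T ^ l := by
      rw [← _root_.zpow_add, add_comm, _root_.zpow_add, mul_inv_cancel_right]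
    calc δ * T ^ l * δ⁻¹ = η * (r j * (T ^ i * T ^ l * (T ^ i)⁻¹) * (r j)⁻¹) * η⁻¹ := by
          rw [hδ]; group
      _ = _ := by rw [hcomm]
  -- `r T^l r⁻¹ ∈ Γ ↔ δ T^l δ⁻¹ ∈ Γ`
  have hmemiff : ∀ l : ℤ, δ * T ^ l * δ⁻¹ ∈ Γ → r j * T ^ l * (r j)⁻¹ ∈ Γ := by
    intro l hl
    have : r j * T ^ l * (r j)⁻¹ = η⁻¹ * (δ * T ^ l * δ⁻¹) * η := by
      rw [hconj l]; group
    rw [this]
    exact Γ.mul_mem (Γ.mul_mem (Γ.inv_mem hη) hl) hη
  -- division with remainder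
  set n : ℕ := m.toNat with hn
  have hnm : ((n : ℕ) : ℤ) = m := Int.toNat_of_nonneg hm.le
  have hnpos : 0 < n := by omega
  have hhpos := hc.pos j
  have hwn : r j * T ^ n * (r j)⁻¹ ∈ Γ := by
    have := hmemiff m hvΓ
    rwa [← hnm, zpow_natCast] at this
  have hu := hc.mem j
  have hrem : r j * T ^ (n % h j) * (r j)⁻¹ ∈ Γ := by
    have e : r j * T ^ (n % h j) * (r j)⁻¹
        = (r j * T ^ n * (r j)⁻¹) * ((r j * T ^ h j * (r j)⁻¹) ^ (n / h j))⁻¹ := by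
      rw [conj_pow, ← pow_mul]
      have hT : (T : SL(2, ℤ)) ^ n = T ^ (n % h j) * T ^ (h j * (n / h j)) := by
        rw [← pow_add, Nat.mod_add_div]
      rw [hT]
      group
    rw [e]
    exact Γ.mul_mem hwn (Γ.inv_mem (Γ.pow_mem hu _))
  have hmod : n % h j = 0 := by
    by_contra hb
    have := hc.min j (n % h j) (Nat.pos_of_ne_zero hb) hrem
    have := Nat.mod_lt n hhpos
    omega
  obtain ⟨a, ha⟩ := Nat.dvd_of_mod_eq_zero hmod
  have hapos : 0 < a := by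
    rcases Nat.eq_zero_or_pos a with h0 | h0
    · rw [h0, mul_zero] at ha; omega
    · exact h0
  -- `v = (η u η⁻¹)^a`
  have hva : (η * (r j * T ^ h j * (r j)⁻¹) * η⁻¹) ^ a = δ * T ^ m * δ⁻¹ := by
    rw [hconj m, conj_pow, conj_pow, ← pow_mul, ← ha, ← hnm, zpow_natCast]
  rcases Nat.lt_or_ge a 2 with h2 | h2
  · have ha1 : a = 1 := by omega
    rw [ha1, pow_one] at hva
    exact hva
  · exfalso
    refine hprim (η * (r j * T ^ h j * (r j)⁻¹) * η⁻¹) ?_ ?_ a h2 hva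
    · exact Γ.mul_mem (Γ.mul_mem hη hu) (Γ.inv_mem hη)
    · have : η * (r j * T ^ h j * (r j)⁻¹) * η⁻¹
          = (η * r j) * T ^ ((h j : ℕ) : ℤ) * (η * r j)⁻¹ := by
        rw [zpow_natCast]; group
      rw [this, trace_conj_T_zpow]

/-- uniqueness of the index. -/
theorem index_unique (hc : IsComplete Γ T r h) (hneg : -1 ∈ Γ) {j j' : J} {η η' : SL(2, ℤ)}
    (hη : η ∈ Γ) (hη' : η' ∈ Γ)
    (he : η * (r j * T ^ h j * (r j)⁻¹) * η⁻¹ = η' * (r j' * T ^ h j' * (r j')⁻¹) * η'⁻¹) :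
    j' = j := by
  have hpos : ((h j : ℕ) : ℤ) ≠ 0 := by exact_mod_cast (hc.pos j).ne'
  have he' : (η * r j) * T ^ ((h j : ℕ) : ℤ) * (η * r j)⁻¹
      = (η' * r j') * T ^ ((h j' : ℕ) : ℤ) * (η' * r j')⁻¹ := by
    rw [zpow_natCast, zpow_natCast]
    calc (η * r j) * T ^ h j * (η * r j)⁻¹ = η * (r j * T ^ h j * (r j)⁻¹) * η⁻¹ := by group
      _ = η' * (r j' * T ^ h j' * (r j')⁻¹) * η'⁻¹ := he
      _ = _ := by group
  have hz := (rigid' hpos he').1
  obtain ⟨n, hn | hn⟩ := eq_T_zpow_or_neg hz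
  · -- `η r_j = η' r_j' T^n`
    refine hc.disj j' j n (η⁻¹ * η') (Γ.mul_mem (Γ.inv_mem hη) hη') ?_
    have : η * r j = η' * r j' * T ^ n := by
      rw [← hn]; group
    calc r j = η⁻¹ * (η * r j) := by group
      _ = η⁻¹ * (η' * r j' * T ^ n) := by rw [this]
      _ = η⁻¹ * η' * r j' * T ^ n := by group
  · refine hc.disj j' j n (-(η⁻¹ * η')) ?_ ?_
    · have : -(η⁻¹ * η') = (-1) * (η⁻¹ * η') := by rw [neg_mul, one_mul]
      rw [this]
      exact Γ.mul_mem hneg (Γ.mul_mem (Γ.inv_mem hη) hη')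
    · have : η * r j = η' * r j' * (-T ^ n) := by
        rw [← hn]; group
      calc r j = η⁻¹ * (η * r j) := by group
        _ = η⁻¹ * (η' * r j' * (-T ^ n)) := by rw [this]
        _ = -(η⁻¹ * η') * r j' * T ^ n := by
          rw [mul_neg, mul_neg, neg_mul, neg_mul]; group

/-- **(5-i)** a complete system of representatives of `Γ \ SL(2,ℤ) / ⟨T⟩` (with widths) gives a
cusp system of `Γ`, provided `-1 ∈ Γ`. -/
theorem isCuspSystem_of_isComplete (hc : IsComplete Γ T r h) (hneg : -1 ∈ Γ) :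
    IsCuspSystem Γ (fun j => r j * T ^ h j * (r j)⁻¹) := by
  refine ⟨fun j => isPP_of_isComplete hc j, fun v hv => ?_⟩
  obtain ⟨j, η, hη, hj⟩ := exists_conj_of_isPP hc hv
  refine ⟨j, ⟨η, hη, hj⟩, ?_⟩
  rintro j' ⟨η', hη', hj'⟩
  exact index_unique hc hneg hη hη' (hj.trans hj'.symm)

/-- two complete systems of the same `Γ ∋ -1` are equivalent (reindexing + `Γ`-conjugation). -/
theorem famEquiv_of_isComplete {J' : Type*} {r' : J' → SL(2, ℤ)} {h' : J' → ℕ}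
    (hc : IsComplete Γ T r h) (hc' : IsComplete Γ T r' h') (hneg : -1 ∈ Γ) :
    FamEquiv Γ (fun j => r j * T ^ h j * (r j)⁻¹) (fun j' => r' j' * T ^ h' j' * (r' j')⁻¹) :=
  (isCuspSystem_of_isComplete hc hneg).famEquiv (isCuspSystem_of_isComplete hc' hneg)

end Main

end Fermat.Agent.ES.I2.CompleteCusp5
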