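import Mathlib
import Fermat.Agent.ES.I2.CuspPairing25

/-!
# (I2): the cusp pairing along a group homomorphism (helper25)

Complement to `CuspPairing25` (`pairing_comp_equiv` there is for `≃*` only): for ANY homomorphism
`θ : G' →* G` (e.g. `Γ → Γ̄ ≤ PSL(2,ℤ)`, kernel `±1`) primitives, (REL) and the pairing pull back.

* `IsAddHom.comp_hom`, `IsPrimitive.comp_hom`
* `rel_comp_hom : Rel R c' → Rel R (θ ∘ c')`
* `isPar_comp_hom`, `isPar_of_comp_hom` (surjective `θ`)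
* `pairing_comp_hom : pairing c' (φ ∘ θ) (ψ ∘ θ) = pairing (θ ∘ c') φ ψ`
* `hasPrim_of_factor` : (K) on `G'` from (K) on `G` when every parabolic hom of `G'` factors through `θ`.
-/

set_option linter.unusedSectionVars false

namespace Fermat.Agent.ES.I2.CuspPairingHom25

open Fermat.Agent.ES.I2.CuspPairing25

variable {G : Type*} [Group G] {G' : Type*} [Group G'] {R : Type*} [CommRing R]
variable {ι : Type*} [Fintype ι]

theorem IsAddHom.comp_hom {φ : G → R} (h : IsAddHom φ) (θ : G' →* G) : IsAddHom (φ ∘ θ) := by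
  intro a b
  show φ (θ (a * b)) = φ (θ a) + φ (θ b)
  rw [map_mul, h]

theorem IsPrimitive.comp_hom {φ ψ κ : G → R} (h : IsPrimitive φ ψ κ) (θ : G' →* G) :
    IsPrimitive (φ ∘ θ) (ψ ∘ θ) (κ ∘ θ) := by
  intro a b
  show κ (θ (a * b)) = κ (θ a) + κ (θ b) - φ (θ a) * ψ (θ b)
  rw [map_mul, h]

/-- (REL) is inherited by the image family under any homomorphism. -/
theorem rel_comp_hom (θ : G' →* G) {c' : ι → G'} (hrel : Rel R c') : Rel R (θ ∘ c') := by
  intro χ hχ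
  exact hrel (χ ∘ θ) (IsAddHom.comp_hom hχ θ)

theorem isPar_comp_hom (θ : G' →* G) {c' : ι → G'} {φ : G → R} (h : IsPar (θ ∘ c') φ) :
    IsPar c' (φ ∘ θ) :=
  ⟨IsAddHom.comp_hom h.1 θ, fun j => h.2 j⟩

theorem isPar_of_comp_hom (θ : G' →* G) (hθ : Function.Surjective θ) {c' : ι → G'} {φ : G → R}
    (h : IsPar c' (φ ∘ θ)) : IsPar (θ ∘ c') φ := by
  refine ⟨?_, fun j => h.2 j⟩
  intro a b
  obtain ⟨a', rfl⟩ := hθ a
  obtain ⟨b', rfl⟩ := hθ b
  have := h.1 a' b'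
  simp only [Function.comp_apply, map_mul] at this
  exact this

/-- **the pairing along a homomorphism**: if `(φ, ψ)` has a primitive on `G`, the pairing of the
pulled back homs for the family `c'` is the pairing of `(φ, ψ)` for the image family. -/
theorem pairing_comp_hom (θ : G' →* G) {c' : ι → G'} (hrel' : Rel R c') {φ ψ κ : G → R}
    (hκ : IsPrimitive φ ψ κ) :
    pairing c' (φ ∘ θ) (ψ ∘ θ) = pairing (θ ∘ c') φ ψ := by
  rw [pairing_eq hrel' (IsPrimitive.comp_hom hκ θ), pairing_eq (rel_comp_hom θ hrel') hκ]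
  rfl

/-- the same with a given family `c` of `G` with `θ (c' j) = c j`. -/
theorem pairing_comp_hom' (θ : G' →* G) {c' : ι → G'} {c : ι → G} (hc : ∀ j, θ (c' j) = c j)
    (hrel' : Rel R c') {φ ψ κ : G → R} (hκ : IsPrimitive φ ψ κ) :
    pairing c' (φ ∘ θ) (ψ ∘ θ) = pairing c φ ψ := by
  have : c = θ ∘ c' := by funext j; exact (hc j).symm
  rw [this]
  exact pairing_comp_hom θ hrel' hκ

/-- (K) on `G'` from (K) on `G`, when every parabolic hom of `G'` factors through `θ`. -/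
theorem hasPrim_of_factor (θ : G' →* G) {c' : ι → G'}
    (hfac : ∀ φ' : G' → R, IsPar c' φ' → ∃ φ : G → R, IsPar (θ ∘ c') φ ∧ φ' = φ ∘ θ)
    (hK : HasPrim (R := R) (θ ∘ c')) : HasPrim (R := R) c' := by
  intro φ' ψ' hφ' hψ'
  obtain ⟨φ, hφ, rfl⟩ := hfac φ' hφ'
  obtain ⟨ψ, hψ, rfl⟩ := hfac ψ' hψ'
  obtain ⟨κ, hκ⟩ := hK φ ψ hφ hψ
  exact ⟨κ ∘ θ, IsPrimitive.comp_hom hκ θ⟩

end Fermat.Agent.ES.I2.CuspPairingHom25
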