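import Mathlib

set_option autoImplicit false

/-!
# `PSL(2, ℤ)` has the universal property of `C₂ * C₃` (helper11, Program L, brick M5a of (I2))

`Q := PSL(2, ℤ) = SL(2, ℤ) ⧸ center`, `Sb := mk S`, `Ub := mk (S * T)`; then `Sb ^ 2 = 1`,
`Ub ^ 3 = 1`, `Sb` and `Ub` generate `Q`, and for every group `K` with elements `s`, `u` such that
`s ^ 2 = 1`, `u ^ 3 = 1` there is a unique homomorphism `Q →* K` with `Sb ↦ s`, `Ub ↦ u`
(ping-pong on the upper half plane with `Monoid.CoprodI.lift_injective_of_ping_pong`).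
Mathlib only.
-/

namespace Fermat.Agent.ES.I2.PSL2Free11

open Matrix MatrixGroups ModularGroup UpperHalfPlane

/-- `PSL(2, ℤ)`. -/
abbrev Q : Type := Matrix.ProjectiveSpecialLinearGroup (Fin 2) ℤ

/-- The quotient map `SL(2, ℤ) →* PSL(2, ℤ)`. -/
def mkQ : SL(2, ℤ) →* Q := QuotientGroup.mk' _

theorem mkQ_surjective : Function.Surjective mkQ := QuotientGroup.mk'_surjective _

theorem mem_center_iff' (g : SL(2, ℤ)) :
    g ∈ Subgroup.center SL(2, ℤ) ↔ g = 1 ∨ g = -1 := by
  rw [Matrix.SpecialLinearGroup.mem_center_iff]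
  constructor
  · rintro ⟨r, hr, h⟩
    rw [Fintype.card_fin] at hr
    have hr' : r = 1 ∨ r = -1 := by
      have : (r - 1) * (r + 1) = 0 := by linear_combination hr
      rcases mul_eq_zero.mp this with h1 | h1
      · left; linarith
      · right; linarith
    rcases hr' with rfl | rfl
    · left
      apply Subtype.ext
      rw [← h]
      simp
    · right
      apply Subtype.ext
      rw [← h]
      simp
  · rintro (rfl | rfl)
    · exact ⟨1, by simp, by simp⟩
    · exact ⟨-1, by simp, by simp⟩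

theorem mkQ_eq_one_iff (g : SL(2, ℤ)) : mkQ g = 1 ↔ g = 1 ∨ g = -1 := by
  rw [mkQ, QuotientGroup.mk'_apply, QuotientGroup.eq_one_iff, mem_center_iff']

theorem mkQ_eq_mkQ_iff (g g' : SL(2, ℤ)) : mkQ g = mkQ g' ↔ g = g' ∨ g = -g' := by
  have : mkQ g = mkQ g' ↔ mkQ (g * g'⁻¹) = 1 := by
    rw [map_mul, map_inv, mul_inv_eq_one]
  rw [this, mkQ_eq_one_iff]
  constructor
  · rintro (h | h)
    · left; exact mul_inv_eq_one.mp h
    · right
      have : g = -1 * g' := by rw [← h]; group
      rw [this]; simp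
  · rintro (h | h)
    · left; rw [h]; group
    · right; rw [h]; simp

theorem mkQ_neg (g : SL(2, ℤ)) : mkQ (-g) = mkQ g := by
  rw [mkQ_eq_mkQ_iff]; right; rfl

/-- `S̄`. -/
def Sb : Q := mkQ S

/-- `Ū`, `U = S T = [[0,-1],[1,1]]`. -/
def Ub : Q := mkQ (S * T)

theorem S_mul_S : S * S = -1 := by
  apply Subtype.ext
  rw [Matrix.SpecialLinearGroup.coe_mul, S_mul_S_eq]
  simp

theorem coe_ST : ((S * T : SL(2, ℤ)) : Matrix (Fin 2) (Fin 2) ℤ) = !![0, -1; 1, 1] := by
  rw [Matrix.SpecialLinearGroup.coe_mul, coe_S, coe_T]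
  ext i j
  fin_cases i <;> fin_cases j <;> simp [Matrix.mul_apply, Fin.sum_univ_two]

theorem ST_cube : (S * T) ^ 3 = -1 := by
  apply Subtype.ext
  rw [Matrix.SpecialLinearGroup.coe_pow, coe_ST]
  ext i j
  fin_cases i <;> fin_cases j <;> simp [pow_succ, Matrix.mul_apply, Fin.sum_univ_two]

theorem Sb_sq : Sb ^ 2 = 1 := by
  rw [Sb, ← map_pow, mkQ_eq_one_iff, pow_two, S_mul_S]; right; rfl

theorem Ub_cube : Ub ^ 3 = 1 := by
  rw [Ub, ← map_pow, mkQ_eq_one_iff, ST_cube]; right; rfl

theorem Sb_mul_Ub : Sb * Ub = mkQ T := by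
  rw [Sb, Ub, ← map_mul, ← mul_assoc, S_mul_S, mkQ_eq_mkQ_iff]
  right
  simp

theorem closure_Sb_Ub : Subgroup.closure {Sb, Ub} = ⊤ := by
  rw [eq_top_iff]
  have h1 : (⊤ : Subgroup Q) = Subgroup.map mkQ ⊤ := by
    rw [← MonoidHom.range_eq_map, MonoidHom.range_eq_top.mpr mkQ_surjective]
  rw [h1, ← SpecialLinearGroup.SL2Z_generators, MonoidHom.map_closure]
  apply (Subgroup.closure_le _).mpr
  rintro _ ⟨x, hx, rfl⟩
  rcases hx with rfl | rfl
  · exact Subgroup.subset_closure (by left; rfl)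
  · rw [← Sb_mul_Ub]
    exact mul_mem (Subgroup.subset_closure (by left; rfl)) (Subgroup.subset_closure (by right; rfl))

/-! ### The action on the upper half plane -/

/-- The action homomorphism of `PSL(2, ℤ)` on `ℍ`. -/
noncomputable def actHom : Q →* Equiv.Perm ℍ :=
  QuotientGroup.lift _ (MulAction.toPermHom SL(2, ℤ) ℍ) (by
    intro g hg
    rw [mem_center_iff'] at hg
    rcases hg with rfl | rfl
    · exact map_one _
    · ext z : 1
      show (-1 : SL(2, ℤ)) • z = z
      rw [SL_neg_smul, one_smul])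

/-- The action of `PSL(2, ℤ)` on `ℍ` (not an instance). -/
@[reducible] noncomputable def actQ : MulAction Q ℍ := MulAction.compHom ℍ actHom

theorem mkQ_smul (g : SL(2, ℤ)) (z : ℍ) :
    letI := actQ
    mkQ g • z = g • z := rfl

theorem re_S_smul (z : ℍ) : (S • z).re = - z.re / Complex.normSq z := by
  rw [modular_S_smul]
  show ((-(z : ℂ))⁻¹).re = _
  rw [Complex.inv_re, Complex.normSq_neg, Complex.neg_re]
  rfl

theorem re_T_smul (z : ℍ) : (T • z).re = z.re + 1 := by
  rw [modular_T_smul, UpperHalfPlane.vadd_re, add_comm]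

theorem re_ST_smul (z : ℍ) :
    ((S * T) • z).re = - (z.re + 1) / Complex.normSq (T • z : ℍ) := by
  rw [mul_smul, re_S_smul, re_T_smul]

theorem normSq_pos' (z : ℍ) : 0 < Complex.normSq (z : ℂ) :=
  Complex.normSq_pos.mpr z.ne_zero

theorem re_ST_smul_neg {z : ℍ} (hz : -1 < z.re) : ((S * T) • z).re < 0 := by
  rw [re_ST_smul]
  apply div_neg_of_neg_of_pos _ (normSq_pos' _)
  linarith

theorem re_ST_smul_gt {z : ℍ} (hz : 0 < z.re) : -1 < ((S * T) • z).re := by
  rw [re_ST_smul, lt_div_iff₀ (normSq_pos' _)]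
  have h1 : Complex.normSq ((T • z : ℍ) : ℂ) = (z.re + 1) ^ 2 + z.im ^ 2 := by
    rw [Complex.normSq_apply]
    have hre : ((T • z : ℍ) : ℂ).re = z.re + 1 := re_T_smul z
    have him : ((T • z : ℍ) : ℂ).im = z.im := by
      rw [modular_T_smul]; exact UpperHalfPlane.vadd_im _ _
    rw [hre, him]; ring
  rw [h1]
  nlinarith [sq_nonneg z.im, z.im_pos]

/-! ### Cyclic groups -/

/-- The homomorphism `ℤ/n → K` sending `1` to an element `k` with `k ^ n = 1`. -/
def cycHom {K : Type*} [Group K] (n : ℕ) (k : K) (hk : k ^ n = 1) :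
    Multiplicative (ZMod n) →* K :=
  AddMonoidHom.toMultiplicativeLeft (ZMod.lift n ⟨zmultiplesHom (Additive K) (Additive.ofMul k), by
    rw [zmultiplesHom_apply, natCast_zsmul, ← ofMul_pow, hk]; rfl⟩)

theorem cycHom_apply {K : Type*} [Group K] (n : ℕ) (k : K) (hk : k ^ n = 1) (m : ℤ) :
    cycHom n k hk (Multiplicative.ofAdd (m : ZMod n)) = k ^ m := by
  rw [cycHom]
  show Additive.toMul (ZMod.lift n _ (m : ZMod n)) = k ^ m
  rw [ZMod.lift_coe]
  simp [zmultiplesHom_apply]

theorem cycHom_one {K : Type*} [Group K] (n : ℕ) (k : K) (hk : k ^ n = 1) :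
    cycHom n k hk (Multiplicative.ofAdd (1 : ZMod n)) = k := by
  have := cycHom_apply n k hk 1
  simpa using this

/-! ### Ping-pong -/

/-- Orders of the two free factors. -/
def nn : Bool → ℕ := fun b => cond b 2 3

/-- Generators of the two free factors. -/
def kk : Bool → Q := fun b => cond b Sb Ub

theorem kk_pow (b : Bool) : kk b ^ nn b = 1 := by
  cases b
  · exact Ub_cube
  · exact Sb_sq

/-- The two free factors. -/
abbrev HH (b : Bool) : Type := Multiplicative (ZMod (nn b))

/-- The two inclusions. -/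
def ff (b : Bool) : HH b →* Q := cycHom (nn b) (kk b) (kk_pow b)

/-- The ping-pong sets. -/
def XX : Bool → Set ℍ := fun b => cond b {z | 0 < z.re} {z | z.re < 0}

theorem cycHom_two {K : Type*} [Group K] (k : K) (hk : k ^ 2 = 1) (h : Multiplicative (ZMod 2))
    (hh : h ≠ 1) : cycHom 2 k hk h = k := by
  have h2 : ∀ x : ZMod 2, x = 0 ∨ x = 1 := by decide
  rcases h2 (Multiplicative.toAdd h) with h0 | h1
  · exact absurd (show h = 1 from congrArg Multiplicative.ofAdd h0) hh
  · have : h = Multiplicative.ofAdd 1 := congrArg Multiplicative.ofAdd h1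
    rw [this]
    exact cycHom_one 2 k hk

theorem cycHom_three {K : Type*} [Group K] (k : K) (hk : k ^ 3 = 1) (h : Multiplicative (ZMod 3))
    (hh : h ≠ 1) : cycHom 3 k hk h = k ∨ cycHom 3 k hk h = k ^ 2 := by
  have h3 : ∀ x : ZMod 3, x = 0 ∨ x = 1 ∨ x = 2 := by decide
  rcases h3 (Multiplicative.toAdd h) with h0 | h1 | h2
  · exact absurd (show h = 1 from congrArg Multiplicative.ofAdd h0) hh
  · left
    have : h = Multiplicative.ofAdd 1 := congrArg Multiplicative.ofAdd h1
    rw [this]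
    exact cycHom_one 3 k hk
  · right
    have : h = Multiplicative.ofAdd (((2 : ℤ) : ZMod 3)) := by
      have := congrArg Multiplicative.ofAdd h2
      simpa using this
    rw [this]
    have := cycHom_apply 3 k hk 2
    simpa using this

theorem ff_true_eq (h : HH true) (hh : h ≠ 1) : ff true h = Sb :=
  cycHom_two Sb Sb_sq h hh

theorem ff_false_eq (h : HH false) (hh : h ≠ 1) : ff false h = Ub ∨ ff false h = Ub ^ 2 :=
  cycHom_three Ub Ub_cube h hh

theorem lift_ff_injective : Function.Injective (Monoid.CoprodI.lift ff) := by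
  let _ := actQ
  refine Monoid.CoprodI.lift_injective_of_ping_pong ff ?_ XX ?_ ?_ ?_
  · right
    refine ⟨false, ?_⟩
    show (3 : Cardinal) ≤ Cardinal.mk (Multiplicative (ZMod 3))
    rw [Cardinal.mk_fintype]
    have : Fintype.card (Multiplicative (ZMod 3)) = 3 := by
      rw [Fintype.card_multiplicative, ZMod.card]
    rw [this]; norm_num
  · intro b
    cases b
    · exact ⟨UpperHalfPlane.mk (-1 + Complex.I) (by simp), by
        show (UpperHalfPlane.mk (-1 + Complex.I) _).re < 0
        simp [UpperHalfPlane.re]⟩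
    · exact ⟨UpperHalfPlane.mk (1 + Complex.I) (by simp), by
        show 0 < (UpperHalfPlane.mk (1 + Complex.I) _).re
        simp [UpperHalfPlane.re]⟩
  · intro i j hij
    show Disjoint (XX i) (XX j)
    rw [Set.disjoint_left]
    cases i <;> cases j
    · exact absurd rfl hij
    · intro z (h1 : z.re < 0) (h2 : 0 < z.re); linarith
    · intro z (h1 : 0 < z.re) (h2 : z.re < 0); linarith
    · exact absurd rfl hij
  · intro i j hij h hh
    cases i <;> cases j
    · exact absurd rfl hij
    · -- i = false (C₃), j = true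
      rintro _ ⟨z, (hz : 0 < z.re), rfl⟩
      show (ff false h • z).re < 0
      rcases ff_false_eq h hh with e | e
      · rw [e]
        show ((S * T) • z).re < 0
        exact re_ST_smul_neg (by linarith)
      · rw [e, pow_two, mul_smul]
        show ((S * T) • ((S * T) • z)).re < 0
        exact re_ST_smul_neg (re_ST_smul_gt hz)
    · -- i = true (C₂), j = false
      rintro _ ⟨z, (hz : z.re < 0), rfl⟩
      show 0 < (ff true h • z).re
      rw [ff_true_eq h hh]
      show 0 < (S • z).re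
      rw [re_S_smul]
      exact div_pos (by linarith) (normSq_pos' z)
    · exact absurd rfl hij

theorem lift_ff_of_true :
    Monoid.CoprodI.lift ff (Monoid.CoprodI.of (i := true) (Multiplicative.ofAdd (1 : ZMod 2))) = Sb := by
  rw [Monoid.CoprodI.lift_of]
  exact cycHom_one 2 Sb Sb_sq

theorem lift_ff_of_false :
    Monoid.CoprodI.lift ff (Monoid.CoprodI.of (i := false) (Multiplicative.ofAdd (1 : ZMod 3))) = Ub := by
  rw [Monoid.CoprodI.lift_of]
  exact cycHom_one 3 Ub Ub_cube

theorem lift_ff_surjective : Function.Surjective (Monoid.CoprodI.lift ff) := by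
  rw [← MonoidHom.range_eq_top, eq_top_iff, ← closure_Sb_Ub, Subgroup.closure_le]
  rintro x (rfl | rfl)
  · exact ⟨_, lift_ff_of_true⟩
  · exact ⟨_, lift_ff_of_false⟩

/-- `C₂ * C₃ ≃* PSL(2, ℤ)`. -/
noncomputable def equivQ : Monoid.CoprodI HH ≃* Q :=
  MulEquiv.ofBijective (Monoid.CoprodI.lift ff) ⟨lift_ff_injective, lift_ff_surjective⟩

theorem equivQ_of_true :
    equivQ (Monoid.CoprodI.of (i := true) (Multiplicative.ofAdd (1 : ZMod 2))) = Sb :=
  lift_ff_of_true

theorem equivQ_of_false :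
    equivQ (Monoid.CoprodI.of (i := false) (Multiplicative.ofAdd (1 : ZMod 3))) = Ub :=
  lift_ff_of_false

/-- **Universal property of `PSL(2, ℤ) = C₂ * C₃`.** -/
theorem existsUnique_lift {K : Type*} [Group K] (s u : K) (hs : s ^ 2 = 1) (hu : u ^ 3 = 1) :
    ∃! f : Q →* K, f Sb = s ∧ f Ub = u := by
  have hk : ∀ b : Bool, (cond b s u) ^ nn b = 1 := by
    intro b; cases b
    · exact hu
    · exact hs
  let g : ∀ b, HH b →* K := fun b => cycHom (nn b) (cond b s u) (hk b)
  refine ⟨(Monoid.CoprodI.lift g).comp equivQ.symm.toMonoidHom, ⟨?_, ?_⟩, ?_⟩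
  · rw [← equivQ_of_true]
    show Monoid.CoprodI.lift g (equivQ.symm (equivQ _)) = s
    rw [MulEquiv.symm_apply_apply, Monoid.CoprodI.lift_of]
    exact cycHom_one 2 s hs
  · rw [← equivQ_of_false]
    show Monoid.CoprodI.lift g (equivQ.symm (equivQ _)) = u
    rw [MulEquiv.symm_apply_apply, Monoid.CoprodI.lift_of]
    exact cycHom_one 3 u hu
  · rintro f' ⟨h1, h2⟩
    apply MonoidHom.eq_of_eqOn_dense closure_Sb_Ub
    rintro x (rfl | rfl)
    · rw [h1, ← equivQ_of_true]
      show s = Monoid.CoprodI.lift g (equivQ.symm (equivQ _))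
      rw [MulEquiv.symm_apply_apply, Monoid.CoprodI.lift_of]
      exact (cycHom_one 2 s hs).symm
    · rw [h2, ← equivQ_of_false]
      show u = Monoid.CoprodI.lift g (equivQ.symm (equivQ _))
      rw [MulEquiv.symm_apply_apply, Monoid.CoprodI.lift_of]
      exact (cycHom_one 3 u hu).symm

end Fermat.Agent.ES.I2.PSL2Free11
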