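import Mathlib
import Fermat.Prelude.Def_ModularCurve_PeriodMap
import Fermat.Agent.ES.I2.PSL2Free11
import Fermat.Agent.ES.I2.Model13
import Fermat.Agent.ES.KUM.TraceClass17

set_option autoImplicit false

/-!
# (I2) brick C1: the dictionary `Γ ≤ SL(2, ℤ)` ↔ a point stabiliser of `PSL(2, ℤ)` (helper11)

For a subgroup `Γ ≤ SL(2, ℤ)` put `Gb Γ := Γ.map mkQ ≤ Q = PSL(2, ℤ)` and `XQ Γ := Q ⧸ Gb Γ` with
Mathlib's left-coset action of `Q` and base point `x0 Γ`.  Then `stabilizer Q (x0 Γ) = Gb Γ`, the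
surjection `toStab : Γ →* stabilizer Q (x0 Γ)` has kernel `Γ ∩ {±1}`, it induces an isomorphism
`pullEquiv` on homomorphisms into any `R` without `2`-torsion, and the Prelude's
`IsParabolicHom Γ` corresponds to `vanishing on the elements g T̄ ^ n g⁻¹ of the stabiliser`,
`T̄ = Sb * Ub`.  This instantiates the abstract model (`Model13`, `G := Q`, `σ := Sb`, `τ := Ub`).
-/

namespace Fermat.Agent.ES.I2.Gamma0Model11

open Matrix MatrixGroups ModularGroup
open Fermat.Agent.ES.I2.PSL2Free11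

variable (Γ : Subgroup SL(2, ℤ))

/-- the image of `Γ` in `PSL(2, ℤ)`. -/
def Gb : Subgroup Q := Γ.map mkQ

theorem mem_Gb {x : Q} : x ∈ Gb Γ ↔ ∃ γ ∈ Γ, mkQ γ = x := Subgroup.mem_map

theorem mkQ_mem_Gb {γ : SL(2, ℤ)} (h : γ ∈ Γ) : mkQ γ ∈ Gb Γ := Subgroup.mem_map_of_mem _ h

/-- the finite `PSL(2, ℤ)`-set attached to `Γ`. -/
abbrev XQ : Type := Q ⧸ Gb Γ

/-- the base point. -/
def x0 : XQ Γ := ((1 : Q) : Q ⧸ Gb Γ)

theorem smul_x0 (g : Q) : g • x0 Γ = ((g : Q) : Q ⧸ Gb Γ) := by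
  rw [x0, MulAction.Quotient.smul_mk, smul_eq_mul, mul_one]

theorem stabilizer_x0 : MulAction.stabilizer Q (x0 Γ) = Gb Γ := by
  rw [x0]
  exact MulAction.stabilizer_quotient (Gb Γ)

theorem mem_stabilizer_x0 {g : Q} : g ∈ MulAction.stabilizer Q (x0 Γ) ↔ g ∈ Gb Γ := by
  rw [stabilizer_x0]

theorem exists_smul_x0_eq (x : XQ Γ) : ∃ g : Q, g • x0 Γ = x := by
  induction x using QuotientGroup.induction_on with
  | H g => exact ⟨g, smul_x0 Γ g⟩

theorem smul_x0_eq_smul_x0_iff (g g' : Q) : g • x0 Γ = g' • x0 Γ ↔ g⁻¹ * g' ∈ Gb Γ := by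
  rw [smul_x0, smul_x0, QuotientGroup.eq]

/-! ### finiteness -/

theorem Gb_finiteIndex [Γ.FiniteIndex] : (Gb Γ).FiniteIndex := by
  constructor
  have h := Subgroup.index_map_dvd (H := Γ) (f := mkQ) mkQ_surjective
  intro h0
  rw [Gb] at h0
  rw [h0] at h
  exact Subgroup.FiniteIndex.index_ne_zero (zero_dvd_iff.mp h)

instance [Γ.FiniteIndex] : (Gb Γ).FiniteIndex := Gb_finiteIndex Γ

noncomputable instance [Γ.FiniteIndex] : Fintype (XQ Γ) := Subgroup.fintypeQuotientOfFiniteIndex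

example : MulAction.IsPretransitive Q (XQ Γ) := inferInstance

/-! ### the surjection onto the stabiliser -/

/-- `Γ → stabilizer`, `γ ↦ mkQ γ`. -/
def toStab : Γ →* MulAction.stabilizer Q (x0 Γ) where
  toFun γ := ⟨mkQ γ, (mem_stabilizer_x0 Γ).mpr (mkQ_mem_Gb Γ γ.2)⟩
  map_one' := by
    apply Subtype.ext
    simp
  map_mul' a b := by
    apply Subtype.ext
    simp

@[simp] theorem coe_toStab (γ : Γ) : ((toStab Γ γ : MulAction.stabilizer Q (x0 Γ)) : Q) = mkQ γ := rfl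

theorem toStab_surjective : Function.Surjective (toStab Γ) := by
  rintro ⟨x, hx⟩
  obtain ⟨γ, hγ, rfl⟩ := (mem_Gb Γ).mp ((mem_stabilizer_x0 Γ).mp hx)
  exact ⟨⟨γ, hγ⟩, rfl⟩

theorem toStab_eq_iff (γ γ' : Γ) :
    toStab Γ γ = toStab Γ γ' ↔ (γ : SL(2, ℤ)) = γ' ∨ (γ : SL(2, ℤ)) = -(γ' : SL(2, ℤ)) := by
  rw [Subtype.ext_iff, coe_toStab, coe_toStab, mkQ_eq_mkQ_iff]

/-! ### homomorphisms -/

section Hom

variable (R : Type*) [CommRing R]

/-- pull-back of homomorphisms along `toStab`. -/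
def pull : (Additive (MulAction.stabilizer Q (x0 Γ)) →+ R) →ₗ[R] (Additive Γ →+ R) where
  toFun φb := φb.comp (MonoidHom.toAdditive (toStab Γ))
  map_add' φ ψ := by
    ext γ; rfl
  map_smul' c φ := by
    ext γ; rfl

variable {R}

@[simp] theorem pull_apply (φb : Additive (MulAction.stabilizer Q (x0 Γ)) →+ R) (γ : Γ) :
    pull Γ R φb (Additive.ofMul γ) = φb (Additive.ofMul (toStab Γ γ)) := rfl

theorem pull_injective : Function.Injective (pull Γ R) := by
  intro φ ψ h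
  ext x
  obtain ⟨γ, rfl⟩ := toStab_surjective Γ (Additive.toMul x)
  have := DFunLike.congr_fun h (Additive.ofMul γ)
  simpa using this

/-- a homomorphism `Γ → R` into a ring without `2`-torsion is constant on the fibres of
`toStab`. -/
theorem apply_eq_of_toStab_eq (h2 : ∀ r : R, 2 • r = 0 → r = 0) (φ : Additive Γ →+ R)
    {γ γ' : Γ} (h : toStab Γ γ = toStab Γ γ') :
    φ (Additive.ofMul γ) = φ (Additive.ofMul γ') := by
  rcases (toStab_eq_iff Γ γ γ').mp h with h | h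
  · rw [Subtype.ext h]
  · -- `γ = -γ'`: then `δ := γ * γ'⁻¹ = -1` has `δ ^ 2 = 1`
    set δ : Γ := γ * γ'⁻¹ with hδ
    have hδ1 : (δ : SL(2, ℤ)) = -1 := by
      rw [hδ, Subgroup.coe_mul, Subgroup.coe_inv, h]
      simp
    have hδ2 : δ * δ = 1 := by
      apply Subtype.ext
      rw [Subgroup.coe_mul, hδ1]
      simp
    have h0 : φ (Additive.ofMul δ) = 0 := by
      apply h2
      have := congrArg (fun x => φ (Additive.ofMul x)) hδ2
      simp only [ofMul_mul, map_add, ofMul_one, map_zero] at this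
      rw [two_smul]; exact this
    have : γ = δ * γ' := by rw [hδ]; group
    rw [this, ofMul_mul, map_add, h0, zero_add]

/-- push-forward of a homomorphism `Γ → R` to the stabiliser (`R` without `2`-torsion). -/
noncomputable def push (h2 : ∀ r : R, 2 • r = 0 → r = 0) (φ : Additive Γ →+ R) :
    Additive (MulAction.stabilizer Q (x0 Γ)) →+ R where
  toFun x := φ (Additive.ofMul (Classical.choose (toStab_surjective Γ (Additive.toMul x))))
  map_zero' := by
    have h := Classical.choose_spec (toStab_surjective Γ (Additive.toMul (0 : Additive _)))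
    have := apply_eq_of_toStab_eq Γ h2 φ (h.trans (map_one (toStab Γ)).symm)
    rw [this]; simp
  map_add' x y := by
    have hx := Classical.choose_spec (toStab_surjective Γ (Additive.toMul x))
    have hy := Classical.choose_spec (toStab_surjective Γ (Additive.toMul y))
    have hxy := Classical.choose_spec (toStab_surjective Γ (Additive.toMul (x + y)))
    have : toStab Γ (Classical.choose (toStab_surjective Γ (Additive.toMul (x + y))))
        = toStab Γ (Classical.choose (toStab_surjective Γ (Additive.toMul x)) *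
            Classical.choose (toStab_surjective Γ (Additive.toMul y))) := by
      rw [map_mul, hx, hy, hxy]; rfl
    rw [apply_eq_of_toStab_eq Γ h2 φ this, ofMul_mul, map_add]

theorem push_toStab (h2 : ∀ r : R, 2 • r = 0 → r = 0) (φ : Additive Γ →+ R) (γ : Γ) :
    push Γ h2 φ (Additive.ofMul (toStab Γ γ)) = φ (Additive.ofMul γ) := by
  have h := Classical.choose_spec (toStab_surjective Γ (toStab Γ γ))
  exact apply_eq_of_toStab_eq Γ h2 φ h

theorem pull_push (h2 : ∀ r : R, 2 • r = 0 → r = 0) (φ : Additive Γ →+ R) :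
    pull Γ R (push Γ h2 φ) = φ := by
  ext γ
  exact push_toStab Γ h2 φ γ

theorem push_pull (h2 : ∀ r : R, 2 • r = 0 → r = 0)
    (φb : Additive (MulAction.stabilizer Q (x0 Γ)) →+ R) : push Γ h2 (pull Γ R φb) = φb :=
  pull_injective Γ (pull_push Γ h2 _)

/-- homomorphisms on `Γ` and on the stabiliser of the base point are the same thing (`R` without
`2`-torsion). -/
noncomputable def pullEquiv (h2 : ∀ r : R, 2 • r = 0 → r = 0) :
    (Additive (MulAction.stabilizer Q (x0 Γ)) →+ R) ≃ₗ[R] (Additive Γ →+ R) :=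
  { pull Γ R with
    invFun := push Γ h2
    left_inv := push_pull Γ h2
    right_inv := pull_push Γ h2 }

@[simp] theorem pullEquiv_apply (h2 : ∀ r : R, 2 • r = 0 → r = 0)
    (φb : Additive (MulAction.stabilizer Q (x0 Γ)) →+ R) :
    pullEquiv Γ h2 φb = pull Γ R φb := rfl

@[simp] theorem pullEquiv_symm_apply (h2 : ∀ r : R, 2 • r = 0 → r = 0) (φ : Additive Γ →+ R) :
    (pullEquiv Γ h2).symm φ = push Γ h2 φ := rfl

/-! ### parabolic homomorphisms -/

theorem trace_conj_T_pow (x : SL(2, ℤ)) (n : ℕ) :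
    ((x * T ^ n * x⁻¹ : SL(2, ℤ)) : Matrix (Fin 2) (Fin 2) ℤ).trace = 2 := by
  have hT : ((T ^ n : SL(2, ℤ)) : Matrix (Fin 2) (Fin 2) ℤ) = !![1, (n : ℤ); 0, 1] := by
    rw [← zpow_natCast]; exact coe_T_zpow n
  rw [Matrix.SpecialLinearGroup.coe_mul, Matrix.SpecialLinearGroup.coe_mul,
    Matrix.trace_mul_cycle, ← Matrix.SpecialLinearGroup.coe_mul, inv_mul_cancel,
    Matrix.SpecialLinearGroup.coe_one, one_mul, hT, Matrix.trace_fin_two_of]
  norm_num

theorem mkQ_conj_T_pow (x : SL(2, ℤ)) (n : ℕ) :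
    mkQ (x * T ^ n * x⁻¹) = mkQ x * (Sb * Ub) ^ n * (mkQ x)⁻¹ := by
  rw [map_mul, map_mul, map_pow, map_inv, Sb_mul_Ub]

/-- **the parabolic dictionary**: `φb ∘ toStab` is parabolic in the sense of the Prelude iff `φb`
kills all elements `g T̄ ^ n g⁻¹` of the stabiliser, `T̄ = Sb * Ub`. -/
theorem isParabolicHom_pull_iff (φb : Additive (MulAction.stabilizer Q (x0 Γ)) →+ R) :
    ModularCurve.Period.IsParabolicHom Γ (pull Γ R φb) ↔
      ∀ (g : Q) (n : ℕ) (h : g * (Sb * Ub) ^ n * g⁻¹ ∈ MulAction.stabilizer Q (x0 Γ)),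
        φb (Additive.ofMul ⟨_, h⟩) = 0 := by
  constructor
  · intro hpar g n h
    obtain ⟨x, rfl⟩ := mkQ_surjective g
    obtain ⟨γ, hγ, hγx⟩ := (mem_Gb Γ).mp ((mem_stabilizer_x0 Γ).mp h)
    rw [← mkQ_conj_T_pow, mkQ_eq_mkQ_iff] at hγx
    have htr : ((γ : SL(2, ℤ)) : Matrix (Fin 2) (Fin 2) ℤ).trace ^ 2 = 4 := by
      rcases hγx with h1 | h1
      · rw [h1, trace_conj_T_pow]; norm_num
      · rw [h1, Matrix.SpecialLinearGroup.coe_neg, Matrix.trace_neg, trace_conj_T_pow]; norm_num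
    have h0 := hpar ⟨γ, hγ⟩ htr
    rw [pull_apply] at h0
    have heq : toStab Γ ⟨γ, hγ⟩ = ⟨mkQ x * (Sb * Ub) ^ n * (mkQ x)⁻¹, h⟩ := by
      apply Subtype.ext
      show mkQ γ = mkQ x * (Sb * Ub) ^ n * (mkQ x)⁻¹
      rw [← mkQ_conj_T_pow, mkQ_eq_mkQ_iff]
      exact hγx
    rw [← heq]; exact h0
  · intro hR γ hγ
    rw [pull_apply]
    obtain ⟨δ, m, hm⟩ := Fermat.Agent.ES.KUM.TraceClass17.exists_conj_T_zpow (γ : SL(2, ℤ)) hγ
    have hmk : mkQ (γ : SL(2, ℤ)) = mkQ (δ * T ^ m * δ⁻¹) := by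
      rw [mkQ_eq_mkQ_iff]; exact hm
    rcases Int.eq_nat_or_neg m with ⟨n, rfl | rfl⟩
    · rw [zpow_natCast] at hmk
      have hmem : mkQ δ * (Sb * Ub) ^ n * (mkQ δ)⁻¹ ∈ MulAction.stabilizer Q (x0 Γ) := by
        rw [← mkQ_conj_T_pow, ← hmk]; exact (toStab Γ γ).2
      have heq : toStab Γ γ = ⟨_, hmem⟩ := by
        apply Subtype.ext
        rw [coe_toStab, hmk, mkQ_conj_T_pow]
      rw [heq]; exact hR _ _ hmem
    · rw [_root_.zpow_neg, zpow_natCast] at hmk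
      have hinv : mkQ (((γ⁻¹ : Γ) : SL(2, ℤ))) = mkQ (δ * T ^ n * δ⁻¹) := by
        rw [Subgroup.coe_inv, map_inv, hmk, ← map_inv]
        congr 1
        group
      have hmem : mkQ δ * (Sb * Ub) ^ n * (mkQ δ)⁻¹ ∈ MulAction.stabilizer Q (x0 Γ) := by
        rw [← mkQ_conj_T_pow, ← hinv]; exact (toStab Γ γ⁻¹).2
      have heq : toStab Γ γ⁻¹ = ⟨_, hmem⟩ := by
        apply Subtype.ext
        rw [coe_toStab, hinv, mkQ_conj_T_pow]
      have h0 := hR _ _ hmem
      rw [← heq, map_inv, ofMul_inv, map_neg, neg_eq_zero] at h0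
      exact h0

/-- the homomorphisms on the stabiliser killing all `g T̄ ^ n g⁻¹`. -/
def parStab : Submodule R (Additive (MulAction.stabilizer Q (x0 Γ)) →+ R) where
  carrier := {φb | ∀ (g : Q) (n : ℕ) (h : g * (Sb * Ub) ^ n * g⁻¹ ∈ MulAction.stabilizer Q (x0 Γ)),
    φb (Additive.ofMul ⟨_, h⟩) = 0}
  zero_mem' := fun _ _ _ => rfl
  add_mem' := by
    intro φ ψ hφ hψ g n h
    show φ _ + ψ _ = 0
    rw [hφ g n h, hψ g n h, add_zero]
  smul_mem' := by
    intro c φ hφ g n h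
    show c • φ _ = 0
    rw [hφ g n h, smul_zero]

variable (R) in
theorem mem_parStab {φb : Additive (MulAction.stabilizer Q (x0 Γ)) →+ R} :
    φb ∈ parStab Γ (R := R) ↔
      ∀ (g : Q) (n : ℕ) (h : g * (Sb * Ub) ^ n * g⁻¹ ∈ MulAction.stabilizer Q (x0 Γ)),
        φb (Additive.ofMul ⟨_, h⟩) = 0 := Iff.rfl

theorem pull_mem_parabolicHoms_iff (φb : Additive (MulAction.stabilizer Q (x0 Γ)) →+ R) :
    pull Γ R φb ∈ ModularCurve.Period.parabolicHoms R Γ R ↔ φb ∈ parStab Γ (R := R) :=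
  isParabolicHom_pull_iff Γ φb

/-- `parabolicHoms R Γ R` is the space of homomorphisms on the stabiliser killing all
`g T̄ ^ n g⁻¹`. -/
noncomputable def pullParEquiv (h2 : ∀ r : R, 2 • r = 0 → r = 0) :
    parStab Γ (R := R) ≃ₗ[R] ModularCurve.Period.parabolicHoms R Γ R where
  toFun φb := ⟨pull Γ R φb.1, (pull_mem_parabolicHoms_iff Γ φb.1).mpr φb.2⟩
  map_add' φ ψ := by
    apply Subtype.ext
    simp
  map_smul' c φ := by
    apply Subtype.ext
    simp
  invFun φ := ⟨push Γ h2 φ.1, by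
    rw [← pull_mem_parabolicHoms_iff, pull_push]; exact φ.2⟩
  left_inv φb := by
    apply Subtype.ext
    exact push_pull Γ h2 φb.1
  right_inv φ := by
    apply Subtype.ext
    exact pull_push Γ h2 φ.1

@[simp] theorem coe_pullParEquiv (h2 : ∀ r : R, 2 • r = 0 → r = 0) (φb : parStab Γ (R := R)) :
    ((pullParEquiv Γ h2 φb : ModularCurve.Period.parabolicHoms R Γ R) : Additive Γ →+ R)
      = pull Γ R φb.1 := rfl

@[simp] theorem coe_pullParEquiv_symm (h2 : ∀ r : R, 2 • r = 0 → r = 0)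
    (φ : ModularCurve.Period.parabolicHoms R Γ R) :
    (((pullParEquiv Γ h2).symm φ : parStab Γ (R := R)) :
      Additive (MulAction.stabilizer Q (x0 Γ)) →+ R) = push Γ h2 φ.1 := rfl

end Hom

/-! ### the case `-1 ∈ Γ` (all `Gamma0 M`) -/

section NegOne

variable {Γ}

theorem mkQ_mem_Gb_iff (hneg : (-1 : SL(2, ℤ)) ∈ Γ) {g : SL(2, ℤ)} : mkQ g ∈ Gb Γ ↔ g ∈ Γ := by
  constructor
  · intro h
    obtain ⟨γ, hγ, hγg⟩ := (mem_Gb Γ).mp h
    rcases (mkQ_eq_mkQ_iff γ g).mp hγg with h1 | h1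
    · rwa [← h1]
    · have : g = -1 * γ := by rw [h1]; simp
      rw [this]; exact mul_mem hneg hγ
  · exact mkQ_mem_Gb Γ

theorem mkQ_mem_stabilizer_iff (hneg : (-1 : SL(2, ℤ)) ∈ Γ) {g : SL(2, ℤ)} :
    mkQ g ∈ MulAction.stabilizer Q (x0 Γ) ↔ g ∈ Γ := by
  rw [mem_stabilizer_x0, mkQ_mem_Gb_iff hneg]

theorem smul_x0_eq_iff (hneg : (-1 : SL(2, ℤ)) ∈ Γ) (g g' : SL(2, ℤ)) :
    mkQ g • x0 Γ = mkQ g' • x0 Γ ↔ g⁻¹ * g' ∈ Γ := by
  rw [smul_x0_eq_smul_x0_iff, ← map_inv, ← map_mul, mkQ_mem_Gb_iff hneg]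

theorem conj_T_pow_mem_iff (hneg : (-1 : SL(2, ℤ)) ∈ Γ) (x : SL(2, ℤ)) (n : ℕ) :
    mkQ x * (Sb * Ub) ^ n * (mkQ x)⁻¹ ∈ MulAction.stabilizer Q (x0 Γ) ↔ x * T ^ n * x⁻¹ ∈ Γ := by
  rw [← mkQ_conj_T_pow, mkQ_mem_stabilizer_iff hneg]

/-- `SL(2, ℤ) ⧸ Γ ≃ PSL(2, ℤ) ⧸ Γ̄`, equivariantly. -/
noncomputable def quotEquiv (hneg : (-1 : SL(2, ℤ)) ∈ Γ) : SL(2, ℤ) ⧸ Γ ≃ XQ Γ :=
  Equiv.ofBijective
    (Quotient.lift (fun g : SL(2, ℤ) => mkQ g • x0 Γ) (by
      intro a b hab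
      have hab' : a⁻¹ * b ∈ Γ := QuotientGroup.leftRel_apply.mp hab
      exact (smul_x0_eq_iff hneg a b).mpr hab'))
    (by
      constructor
      · intro a b
        induction a using QuotientGroup.induction_on with
        | H a =>
          induction b using QuotientGroup.induction_on with
          | H b =>
            intro h
            exact QuotientGroup.eq.mpr ((smul_x0_eq_iff hneg a b).mp h)
      · intro x
        obtain ⟨g, rfl⟩ := exists_smul_x0_eq Γ x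
        obtain ⟨g, rfl⟩ := mkQ_surjective g
        exact ⟨(g : SL(2, ℤ) ⧸ Γ), rfl⟩)

@[simp] theorem quotEquiv_mk (hneg : (-1 : SL(2, ℤ)) ∈ Γ) (g : SL(2, ℤ)) :
    quotEquiv hneg (g : SL(2, ℤ) ⧸ Γ) = mkQ g • x0 Γ := rfl

theorem quotEquiv_smul (hneg : (-1 : SL(2, ℤ)) ∈ Γ) (g : SL(2, ℤ)) (y : SL(2, ℤ) ⧸ Γ) :
    quotEquiv hneg (g • y) = mkQ g • quotEquiv hneg y := by
  induction y using QuotientGroup.induction_on with
  | H a =>
    rw [MulAction.Quotient.smul_mk, quotEquiv_mk, quotEquiv_mk, smul_eq_mul, map_mul, mul_smul]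

end NegOne

theorem neg_one_mem_Gamma0 (M : ℕ) : (-1 : SL(2, ℤ)) ∈ CongruenceSubgroup.Gamma0 M := by
  rw [CongruenceSubgroup.Gamma0_mem]
  simp

/-- the model of `Gamma0 M` is finite. -/
noncomputable example (M : ℕ) [NeZero M] : Fintype (XQ (CongruenceSubgroup.Gamma0 M)) :=
  inferInstance

end Fermat.Agent.ES.I2.Gamma0Model11
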