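import Mathlib
import Fermat.Agent.ES.I2.Gamma0Model11
import Fermat.Agent.ES.I2.AdaptedSec21
import Fermat.Agent.ES.I2.CuspSys13
import Fermat.Agent.ES.I2.CuspPairingHom25

set_option autoImplicit false

/-!
# (I2) dictionary leaf: from the cusp data of the `PSL(2, ℤ)`-model to a complete system of
representatives of `Γ \ SL(2, ℤ) / ⟨T⟩` (helper11)

`Γ ≤ SL(2, ℤ)` with `-1 ∈ Γ`; `D : CuspData (Sb * Ub) (x0 Γ) J` cusp data of the model
`XQ Γ = PSL(2, ℤ) ⧸ Γ̄` (`AdaptedSec21`); `r j ∈ SL(2, ℤ)` lifts of `(D.g j)⁻¹`.  Then `(r, D.h)` is a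
complete system in the sense of `CuspSys13.IsComplete` (= the hypothesis list of `CuspRel15`), the
elements `cSL j = r j * T ^ h j * (r j)⁻¹` lie in `Γ` and `toStab` maps them to the model cusp
family `D.c j`.
-/

namespace Fermat.Agent.ES.I2.CuspDataDict11

open Matrix MatrixGroups ModularGroup MulAction
open Fermat.Agent.ES.I2.PSL2Free11 Fermat.Agent.ES.I2.Gamma0Model11
open Fermat.Agent.ES.I2.AdaptedSec21 Fermat.Agent.ES.I2.CuspSys13

variable {Γ : Subgroup SL(2, ℤ)} {J : Type*}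

section Main

variable (hneg : (-1 : SL(2, ℤ)) ∈ Γ) (D : CuspData (Sb * Ub) (x0 Γ) J) (r : J → SL(2, ℤ))
  (hr : ∀ j, mkQ (r j) = (D.g j)⁻¹)

include hneg hr

/-- `r j T ^ k (r j)⁻¹ ∈ Γ` iff `T̄ ^ k` fixes the base point `g j • x0` of the orbit `j`. -/
theorem conj_mem_iff (j : J) (k : ℕ) :
    r j * T ^ k * (r j)⁻¹ ∈ Γ ↔ (Sb * Ub) ^ k • D.g j • x0 Γ = D.g j • x0 Γ := by
  rw [← conj_T_pow_mem_iff hneg, hr, inv_inv, mem_stabilizer_iff, mul_smul, mul_smul,
    inv_smul_eq_iff]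

theorem cSL_mem (j : J) : r j * T ^ D.h j * (r j)⁻¹ ∈ Γ :=
  (conj_mem_iff hneg D r hr j (D.h j)).mpr (D.hfix j)

/-- **the model cusp data give a complete system of representatives of `Γ \ SL(2, ℤ) / ⟨T⟩`.** -/
theorem isComplete_of_cuspData : IsComplete Γ (T : SL(2, ℤ)) r D.h where
  pos := D.hpos
  mem := cSL_mem hneg D r hr
  min := by
    intro j k hk hmem
    by_contra hlt
    replace hlt := not_le.mp hlt
    have h1 := (conj_mem_iff hneg D r hr j k).mp hmem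
    have h2 := D.hbij.1 (a₁ := ⟨j, ⟨k, hlt⟩⟩) (a₂ := ⟨j, ⟨0, D.hpos j⟩⟩) (by simpa using h1)
    have h3 : k = 0 := by
      have := congrArg (fun p : (Σ j, Fin (D.h j)) => (p.2 : ℕ)) h2
      simpa using this
    omega
  cover := by
    intro x
    obtain ⟨⟨j, i⟩, hji⟩ := D.hbij.2 ((mkQ x)⁻¹ • x0 Γ)
    simp only at hji
    have hg : D.g j = mkQ (r j)⁻¹ := by rw [map_inv, hr, inv_inv]
    have hmem : x * T ^ (i : ℕ) * (r j)⁻¹ ∈ Γ := by
      rw [← mkQ_mem_stabilizer_iff hneg, map_mul, map_mul, map_pow, ← Sb_mul_Ub, ← hg,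
        mem_stabilizer_iff, mul_smul, mul_smul, hji, smul_inv_smul]
    refine ⟨j, -((i : ℕ) : ℤ), x * T ^ (i : ℕ) * (r j)⁻¹, hmem, ?_⟩
    rw [_root_.zpow_neg, zpow_natCast]
    group
  disj := by
    intro j j' i η hη hjj
    have hg : D.g j = (mkQ (r j))⁻¹ := by rw [hr, inv_inv]
    have hg' : D.g j' = (mkQ (r j'))⁻¹ := by rw [hr, inv_inv]
    have hη' : (mkQ η)⁻¹ • x0 Γ = x0 Γ := by
      rw [inv_smul_eq_iff]
      exact (mem_stabilizer_iff.mp ((mkQ_mem_stabilizer_iff hneg).mpr hη)).symm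
    have h1 : D.g j' • x0 Γ = (Sb * Ub) ^ (-i) • D.g j • x0 Γ := by
      rw [hg', hjj, map_mul, map_mul, map_zpow, ← Sb_mul_Ub, _root_.mul_inv_rev,
        _root_.mul_inv_rev, ← hg, mul_smul, mul_smul, hη', _root_.zpow_neg]
    rw [zpow_smul_emod (D.hfix j) (-i)] at h1
    have hn : (0 : ℤ) < (D.h j : ℤ) := by exact_mod_cast D.hpos j
    have hnn := Int.emod_nonneg (-i) hn.ne'
    have hlt := Int.emod_lt_of_pos (-i) hn
    have h2 := D.hbij.1 (a₁ := ⟨j', ⟨0, D.hpos j'⟩⟩)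
      (a₂ := ⟨j, ⟨((-i) % (D.h j : ℤ)).toNat, (Int.toNat_lt hnn).mpr hlt⟩⟩)
      (by
        simp only [pow_zero, one_smul]
        rw [h1, ← zpow_natCast, Int.toNat_of_nonneg hnn])
    exact (congrArg Sigma.fst h2).symm

/-- the cusp family on the `SL(2, ℤ)`-side. -/
def cSL (j : J) : Γ := ⟨r j * T ^ D.h j * (r j)⁻¹, cSL_mem hneg D r hr j⟩

@[simp] theorem coe_cSL (j : J) :
    ((cSL hneg D r hr j : Γ) : SL(2, ℤ)) = r j * T ^ D.h j * (r j)⁻¹ := rfl

/-- `toStab` carries the `SL(2, ℤ)`-side cusp family to the cusp family of the model. -/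
theorem toStab_cSL (j : J) : toStab Γ (cSL hneg D r hr j) = D.c j := by
  apply Subtype.ext
  rw [coe_toStab, coe_cSL, mkQ_conj_T_pow, hr, inv_inv, CuspData.coe_c]

/-- **(REL)** for the `SL(2, ℤ)`-side cusp family (`R` torsion free). -/
theorem rel_cSL [Γ.FiniteIndex] [Fintype J] (R : Type*) [CommRing R]
    (htf : ∀ (a : R) (n : ℕ), 0 < n → n • a = 0 → a = 0) :
    CuspPairing25.Rel R (cSL hneg D r hr) :=
  have hc := isComplete_of_cuspData hneg D r hr
  CuspRelAdapter15.rel_SL2Z Γ R htf T r D.h hc.pos hc.mem hc.min hc.cover hc.disj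

end Main

/-- every additive function on `Γ` with values in a ring without `2`-torsion factors through
`toStab` (the hypothesis `hfac` of `CuspPairingHom25.hasPrim_of_factor`). -/
theorem factor_toStab {R : Type*} [CommRing R] (h2 : ∀ r : R, 2 • r = 0 → r = 0)
    {ι : Type*} (c' : ι → Γ) (φ' : Γ → R) (hφ' : CuspPairing25.IsPar c' φ') :
    ∃ φ : MulAction.stabilizer Q (x0 Γ) → R,
      CuspPairing25.IsPar (toStab Γ ∘ c') φ ∧ φ' = φ ∘ toStab Γ := by
  obtain ⟨hadd, hkill⟩ := hφ'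
  let f : Additive Γ →+ R :=
    { toFun := fun γ => φ' (Additive.toMul γ)
      map_zero' := hadd.map_one
      map_add' := fun a b => hadd (Additive.toMul a) (Additive.toMul b) }
  have hf : ∀ γ : Γ, push Γ h2 f (Additive.ofMul (toStab Γ γ)) = φ' γ := fun γ =>
    push_toStab Γ h2 f γ
  refine ⟨fun x => push Γ h2 f (Additive.ofMul x), ⟨?_, ?_⟩, ?_⟩
  · intro a b
    show push Γ h2 f (Additive.ofMul (a * b)) = _
    rw [ofMul_mul, map_add]
  · intro j
    show push Γ h2 f (Additive.ofMul (toStab Γ (c' j))) = 0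
    rw [hf, hkill]
  · funext γ
    exact (hf γ).symm

/-- lifts of the representatives exist. -/
theorem exists_lift (D : CuspData (Sb * Ub) (x0 Γ) J) :
    ∃ r : J → SL(2, ℤ), ∀ j, mkQ (r j) = (D.g j)⁻¹ :=
  ⟨fun j => Classical.choose (mkQ_surjective (D.g j)⁻¹),
    fun j => Classical.choose_spec (mkQ_surjective (D.g j)⁻¹)⟩

/-- **existence**: cusp data of the model together with a complete system of representatives of
`Γ \ SL(2, ℤ) / ⟨T⟩` lifting it. -/
theorem exists_complete [Γ.FiniteIndex] (hneg : (-1 : SL(2, ℤ)) ∈ Γ) :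
    ∃ (J : Type) (_ : Fintype J) (D : CuspData (Sb * Ub) (x0 Γ) J) (r : J → SL(2, ℤ)),
      (∀ j, mkQ (r j) = (D.g j)⁻¹) ∧ IsComplete Γ (T : SL(2, ℤ)) r D.h := by
  classical
  obtain ⟨D⟩ := exists_cuspData (G := Q) (X := XQ Γ) (Sb * Ub) (x0 Γ)
  obtain ⟨r, hr⟩ := exists_lift D
  exact ⟨_, Fintype.ofFinite _, D, r, hr, isComplete_of_cuspData hneg D r hr⟩

end Fermat.Agent.ES.I2.CuspDataDict11
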