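import Mathlib

set_option autoImplicit false

/-!
# The intrinsic `κ`-pairing layer for chapter (I2) of Program L (helper2)

Mathlib only.  `Γ` is any group, `R` a commutative ring, `φ ψ : Additive Γ →+ R`.
A *primitive* of the cup cocycle `(g, h) ↦ φ g * ψ h` is a function `κ : Γ → R` with
`κ (g * h) = κ g + κ h - φ g * ψ h`  (`IsKappa φ ψ κ`).
-/

namespace Fermat.Agent.ES.I2.Kappa2

open Additive

variable {Γ : Type*} [Group Γ] {R : Type*} [CommRing R]

/-- `κ` is a primitive of the cup-product cocycle `(g, h) ↦ φ g * ψ h`. -/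
def IsKappa (φ ψ : Additive Γ →+ R) (κ : Γ → R) : Prop :=
  ∀ g h : Γ, κ (g * h) = κ g + κ h - φ (ofMul g) * ψ (ofMul h)

namespace IsKappa

variable {φ ψ φ₁ φ₂ ψ₁ ψ₂ : Additive Γ →+ R} {κ κ₁ κ₂ : Γ → R}

theorem map_one (h : IsKappa φ ψ κ) : κ 1 = 0 := by
  have h1 := h 1 1
  rw [mul_one, ofMul_one, map_zero, zero_mul, sub_zero] at h1
  linear_combination -h1

theorem map_inv (h : IsKappa φ ψ κ) (g : Γ) :
    κ g⁻¹ = -κ g - φ (ofMul g) * ψ (ofMul g) := by
  have h1 := h g g⁻¹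
  rw [mul_inv_cancel, h.map_one, ofMul_inv, map_neg] at h1
  linear_combination -h1

/-- Conjugation formula. -/
theorem map_conj (h : IsKappa φ ψ κ) (g c : Γ) :
    κ (g * c * g⁻¹) = κ c - φ (ofMul g) * ψ (ofMul c) + φ (ofMul c) * ψ (ofMul g) := by
  rw [h (g * c) g⁻¹, h g c, h.map_inv, ofMul_mul, map_add, ofMul_inv, map_neg]
  ring

/-- `κ` is conjugation invariant on elements killed by `φ` and `ψ`. -/
theorem map_conj_of_eq_zero (h : IsKappa φ ψ κ) (g : Γ) {c : Γ} (hφ : φ (ofMul c) = 0)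
    (hψ : ψ (ofMul c) = 0) : κ (g * c * g⁻¹) = κ c := by
  rw [h.map_conj, hφ, hψ]; ring

theorem map_pow_of_eq_zero (h : IsKappa φ ψ κ) {c : Γ} (hφ : φ (ofMul c) = 0) (n : ℕ) :
    κ (c ^ n) = n * κ c := by
  induction n with
  | zero => simp [h.map_one]
  | succ n ih =>
    rw [pow_succ, h, ih, ofMul_pow, map_nsmul, hφ]
    push_cast; ring

/-- Two primitives differ by a homomorphism. -/
theorem exists_hom_of_isKappa (h₁ : IsKappa φ ψ κ₁) (h₂ : IsKappa φ ψ κ₂) :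
    ∃ χ : Additive Γ →+ R, ∀ g, κ₂ g = κ₁ g + χ (ofMul g) := by
  refine ⟨AddMonoidHom.mk' (fun a => κ₂ (toMul a) - κ₁ (toMul a)) ?_, fun g => ?_⟩
  · intro a b
    show κ₂ (toMul a * toMul b) - κ₁ (toMul a * toMul b) = _
    rw [h₁, h₂]; ring
  · show κ₂ g = κ₁ g + (κ₂ g - κ₁ g); ring

theorem add_hom (h : IsKappa φ ψ κ) (χ : Additive Γ →+ R) :
    IsKappa φ ψ (fun g => κ g + χ (ofMul g)) := by
  intro g k
  show κ (g * k) + χ (ofMul (g * k)) = _
  rw [h g k, ofMul_mul, map_add]; ring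

theorem zero_left : IsKappa (0 : Additive Γ →+ R) ψ (fun _ => 0) := by
  intro g k; simp

theorem zero_right : IsKappa φ (0 : Additive Γ →+ R) (fun _ => 0) := by
  intro g k; simp

theorem add_left (h₁ : IsKappa φ₁ ψ κ₁) (h₂ : IsKappa φ₂ ψ κ₂) :
    IsKappa (φ₁ + φ₂) ψ (fun g => κ₁ g + κ₂ g) := by
  intro g k
  show κ₁ (g * k) + κ₂ (g * k) = _
  rw [h₁ g k, h₂ g k, AddMonoidHom.add_apply]; ring

theorem add_right (h₁ : IsKappa φ ψ₁ κ₁) (h₂ : IsKappa φ ψ₂ κ₂) :
    IsKappa φ (ψ₁ + ψ₂) (fun g => κ₁ g + κ₂ g) := by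
  intro g k
  show κ₁ (g * k) + κ₂ (g * k) = _
  rw [h₁ g k, h₂ g k, AddMonoidHom.add_apply]; ring

theorem neg_left (h : IsKappa φ ψ κ) : IsKappa (-φ) ψ (fun g => -κ g) := by
  intro g k
  show -κ (g * k) = _
  rw [h g k, AddMonoidHom.neg_apply]; ring

theorem neg_right (h : IsKappa φ ψ κ) : IsKappa φ (-ψ) (fun g => -κ g) := by
  intro g k
  show -κ (g * k) = _
  rw [h g k, AddMonoidHom.neg_apply]; ring

theorem smul_left (h : IsKappa φ ψ κ) (a : R) : IsKappa (a • φ) ψ (fun g => a * κ g) := by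
  intro g k
  show a * κ (g * k) = _
  rw [h g k, AddMonoidHom.smul_apply, smul_eq_mul]; ring

theorem smul_right (h : IsKappa φ ψ κ) (a : R) : IsKappa φ (a • ψ) (fun g => a * κ g) := by
  intro g k
  show a * κ (g * k) = _
  rw [h g k, AddMonoidHom.smul_apply, smul_eq_mul]; ring

/-- The flipped primitive. -/
theorem flip (h : IsKappa φ ψ κ) :
    IsKappa ψ φ (fun g => -κ g - φ (ofMul g) * ψ (ofMul g)) := by
  intro g k
  show -κ (g * k) - φ (ofMul (g * k)) * ψ (ofMul (g * k)) = _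
  rw [h g k, ofMul_mul, map_add, map_add]; ring

/-- The diagonal primitive (when `2` is invertible). -/
theorem diag (φ : Additive Γ →+ R) (u : R) (hu : 2 * u = 1) :
    IsKappa φ φ (fun g => -(u * φ (ofMul g) ^ 2)) := by
  intro g k
  show -(u * φ (ofMul (g * k)) ^ 2) = _
  rw [ofMul_mul, map_add]
  linear_combination (-(φ (ofMul g) * φ (ofMul k))) * hu

/-- Transport along a group homomorphism. -/
theorem comp {Γ' : Type*} [Group Γ'] (h : IsKappa φ ψ κ) (e : Γ' →* Γ) :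
    IsKappa (φ.comp e.toAdditive) (ψ.comp e.toAdditive) (κ ∘ e) := by
  intro g k
  show κ (e (g * k)) = κ (e g) + κ (e k) - φ (ofMul (e g)) * ψ (ofMul (e k))
  rw [map_mul, h]

end IsKappa

/-! ### Orbit decomposition of a sum along a permutation -/

theorem sum_eq_sum_orbit_reps {I A : Type*} [Fintype I] [AddCommMonoid A] (σ : Equiv.Perm I)
    (S : Finset I) (hS : ∀ i, ∃! s, s ∈ S ∧ σ.SameCycle s i) (F : I → A) :
    ∑ i, F i = ∑ s ∈ S, ∑ k ∈ Finset.range (Function.minimalPeriod σ s), F ((σ ^ k) s) := by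
  classical
  rw [Finset.sum_sigma']
  symm
  refine Finset.sum_bij (fun x _ => (σ ^ x.2) x.1) (fun _ _ => Finset.mem_univ _) ?_ ?_
    (fun _ _ => rfl)
  · rintro ⟨s, k⟩ h1 ⟨s', k'⟩ h2 heq
    simp only [Finset.mem_sigma, Finset.mem_range] at h1 h2
    simp only at heq
    have hss' : s = s' := by
      obtain ⟨s₀, -, huniq⟩ := hS ((σ ^ k) s)
      have e1 : s = s₀ := huniq s ⟨h1.1, ⟨(k : ℤ), by simp⟩⟩
      have e2 : s' = s₀ := huniq s' ⟨h2.1, ⟨(k' : ℤ), by rw [heq]; simp⟩⟩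
      rw [e1, e2]
    subst hss'
    have hk : k = k' := by
      have h3 : σ^[k] s = σ^[k'] s := by
        rw [Equiv.Perm.iterate_eq_pow, Equiv.Perm.iterate_eq_pow]; exact heq
      exact (Function.iterate_eq_iterate_iff_of_lt_minimalPeriod h1.2 h2.2).mp h3
    rw [hk]
  · intro i _
    obtain ⟨s, ⟨hs, hsc⟩, -⟩ := hS i
    obtain ⟨n, hn⟩ := hsc.exists_nat_pow_eq
    have hper : s ∈ Function.periodicPts σ := by
      refine Function.mk_mem_periodicPts (orderOf_pos σ) ?_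
      show σ^[orderOf σ] s = s
      rw [Equiv.Perm.iterate_eq_pow, pow_orderOf_eq_one]; rfl
    refine ⟨⟨s, n % Function.minimalPeriod σ s⟩, ?_, ?_⟩
    · simp only [Finset.mem_sigma, Finset.mem_range]
      exact ⟨hs, Nat.mod_lt _ (Function.minimalPeriod_pos_of_mem_periodicPts hper)⟩
    · show (σ ^ (n % Function.minimalPeriod σ s)) s = i
      rw [← hn, ← Equiv.Perm.iterate_eq_pow, ← Equiv.Perm.iterate_eq_pow,
        Function.iterate_mod_minimalPeriod_eq]

/-! ### Abstract coset data and the transfer of primitives -/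

/-- Abstract coset datum for `ι : Γ' →* Γ`: a set `I` with a right action of `Γ` (`perm`),
representatives `r i : Γ` and the cocycle `coc g i : Γ'`, `ι (coc g i) = r i * g * (r (i·g))⁻¹`.
For a subgroup `Γ' ≤ Γ` of finite index take `I = Γ ⧸ Γ'` with `perm g q = g⁻¹ • q`,
`r q = (T q)⁻¹` for a left transversal `T`. -/
structure CosetDatum {Γ' : Type*} [Group Γ'] (ι : Γ' →* Γ) (I : Type*) where
  perm : Γ → Equiv.Perm I
  perm_mul : ∀ g h i, perm (g * h) i = perm h (perm g i)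
  r : I → Γ
  coc : Γ → I → Γ'
  coc_spec : ∀ g i, ι (coc g i) = r i * g * (r (perm g i))⁻¹
  coc_mul : ∀ g h i, coc (g * h) i = coc g i * coc h (perm g i)

namespace CosetDatum

variable {Γ' : Type*} [Group Γ'] {ι : Γ' →* Γ} {I : Type*} (D : CosetDatum ι I)

theorem perm_one (i : I) : D.perm 1 i = i := by
  have h := D.perm_mul 1 1 i
  rw [mul_one] at h
  exact ((D.perm 1).injective h).symm

theorem perm_pow (t : Γ) (n : ℕ) (i : I) : D.perm (t ^ n) i = ((D.perm t) ^ n) i := by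
  induction n with
  | zero => simp [D.perm_one]
  | succ n ih => rw [pow_succ, D.perm_mul, ih, pow_succ', Equiv.Perm.mul_apply]

theorem coc_one (i : I) : D.coc 1 i = 1 := by
  have h := D.coc_mul 1 1 i
  rw [mul_one, D.perm_one] at h
  exact (mul_eq_left.mp h.symm)

theorem map_coc (φ : Additive Γ →+ R) (g : Γ) (i : I) :
    φ (ofMul (ι (D.coc g i))) = φ (ofMul (D.r i)) + φ (ofMul g) - φ (ofMul (D.r (D.perm g i))) := by
  rw [D.coc_spec, ofMul_mul, ofMul_mul, map_add, map_add, ofMul_inv, map_neg]; ring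

variable [Fintype I]

/-- Corestriction (transfer) of a homomorphism. -/
def cores (ψ' : Additive Γ' →+ R) : Additive Γ →+ R :=
  AddMonoidHom.mk' (fun a => ∑ i, ψ' (ofMul (D.coc (toMul a) i))) (by
    intro a b
    show ∑ i, ψ' (ofMul (D.coc (toMul a * toMul b) i)) = _
    simp_rw [D.coc_mul, ofMul_mul, map_add, Finset.sum_add_distrib]
    congr 1
    exact Equiv.sum_comp (D.perm (toMul a)) (fun i => ψ' (ofMul (D.coc (toMul b) i))))

theorem cores_apply (ψ' : Additive Γ' →+ R) (g : Γ) :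
    D.cores ψ' (ofMul g) = ∑ i, ψ' (ofMul (D.coc g i)) := rfl

/-- The local term of the transferred primitive. -/
def term (φ : Additive Γ →+ R) (ψ' : Additive Γ' →+ R) (κ' : Γ' → R) (g : Γ) (i : I) : R :=
  κ' (D.coc g i) + φ (ofMul (D.r i)) * ψ' (ofMul (D.coc g i))

/-- The transferred primitive `κ g = Σ_i κ' (coc g i) + Σ_i φ (r i) ψ' (coc g i)`. -/
def coresKappa (φ : Additive Γ →+ R) (ψ' : Additive Γ' →+ R) (κ' : Γ' → R) (g : Γ) : R :=
  ∑ i, D.term φ ψ' κ' g i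

/-- (T1) The transferred primitive is a primitive of `(φ, cores ψ')`. -/
theorem isKappa_coresKappa {φ : Additive Γ →+ R} {ψ' : Additive Γ' →+ R} {κ' : Γ' → R}
    (h : IsKappa (φ.comp ι.toAdditive) ψ' κ') :
    IsKappa φ (D.cores ψ') (D.coresKappa φ ψ' κ') := by
  intro g k
  have hterm : ∀ i, D.term φ ψ' κ' (g * k) i
      = D.term φ ψ' κ' g i + D.term φ ψ' κ' k (D.perm g i)
        - φ (ofMul g) * ψ' (ofMul (D.coc k (D.perm g i))) := by
    intro i
    unfold term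
    rw [D.coc_mul, h, ofMul_mul, map_add]
    have h1 : (φ.comp ι.toAdditive) (ofMul (D.coc g i)) = φ (ofMul (ι (D.coc g i))) := rfl
    rw [h1, D.map_coc]
    ring
  unfold coresKappa
  simp_rw [hterm, Finset.sum_sub_distrib, Finset.sum_add_distrib]
  rw [Equiv.sum_comp (D.perm g) (fun i => D.term φ ψ' κ' k i), ← Finset.mul_sum,
    Equiv.sum_comp (D.perm g) (fun i => ψ' (ofMul (D.coc k i))), D.cores_apply]

omit [Fintype I] in
/-- Path formula along the orbit of `i` under `t`, for `φ t = 0`. -/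
theorem kappa_coc_pow {φ : Additive Γ →+ R} {ψ' : Additive Γ' →+ R} {κ' : Γ' → R}
    (h : IsKappa (φ.comp ι.toAdditive) ψ' κ') {t : Γ} (ht : φ (ofMul t) = 0) (m : ℕ) (i : I) :
    κ' (D.coc (t ^ m) i) = ∑ k ∈ Finset.range m, D.term φ ψ' κ' t (((D.perm t) ^ k) i)
      - φ (ofMul (D.r i)) * ψ' (ofMul (D.coc (t ^ m) i)) := by
  induction m with
  | zero => simp [D.coc_one, h.map_one]
  | succ m ih =>
    rw [pow_succ, D.coc_mul, h, ih, Finset.sum_range_succ, ofMul_mul, map_add, D.perm_pow]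
    have h1 : (φ.comp ι.toAdditive) (ofMul (D.coc (t ^ m) i))
        = φ (ofMul (ι (D.coc (t ^ m) i))) := rfl
    rw [h1, D.map_coc, ofMul_pow, map_nsmul, ht, D.perm_pow]
    unfold term
    simp only [smul_zero]
    ring

/-- (T2) Value of the transferred primitive on an element `t` killed by `φ`, in terms of the
orbits of `t` on `I`: `S` is a set of representatives of the cycles of `perm t`, and `ψ'` kills the
elements `t'_s = coc (t ^ w_s) s = r s * t ^ w_s * (r s)⁻¹`, `w_s` the length of the cycle of `s`. -/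
theorem coresKappa_eq_sum_orbits {φ : Additive Γ →+ R} {ψ' : Additive Γ' →+ R} {κ' : Γ' → R}
    (h : IsKappa (φ.comp ι.toAdditive) ψ' κ') {t : Γ} (ht : φ (ofMul t) = 0)
    (S : Finset I) (hS : ∀ i, ∃! s, s ∈ S ∧ (D.perm t).SameCycle s i)
    (hψ' : ∀ s ∈ S, ψ' (ofMul (D.coc (t ^ Function.minimalPeriod (D.perm t) s) s)) = 0) :
    D.coresKappa φ ψ' κ' t
      = ∑ s ∈ S, κ' (D.coc (t ^ Function.minimalPeriod (D.perm t) s) s) := by
  unfold coresKappa
  rw [sum_eq_sum_orbit_reps (D.perm t) S hS]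
  refine Finset.sum_congr rfl fun s hs => ?_
  rw [D.kappa_coc_pow h ht, hψ' s hs, mul_zero, sub_zero]

end CosetDatum

/-! ### The coset datum of a subgroup with a section of `Γ → Γ ⧸ H` (Mathlib's left-coset
convention, as in `MonoidHom.transfer`) -/

section ofSection

variable (H : Subgroup Γ) (t : Γ ⧸ H → Γ) (ht : ∀ q, (t q : Γ ⧸ H) = q)

include ht in
theorem ofSection_mem (g : Γ) (q : Γ ⧸ H) : (t q)⁻¹ * g * t (g⁻¹ • q) ∈ H := by
  rw [mul_assoc, ← QuotientGroup.eq, ht]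
  have : ((g * t (g⁻¹ • q) : Γ) : Γ ⧸ H) = g • ((t (g⁻¹ • q) : Γ) : Γ ⧸ H) := rfl
  rw [this, ht, smul_inv_smul]

/-- The coset datum attached to a section `t` of `Γ → Γ ⧸ H`: `I = Γ ⧸ H`, `perm g q = g⁻¹ • q`,
`r q = (t q)⁻¹`, `coc g q = (t q)⁻¹ * g * t (g⁻¹ • q)` — the factors of `MonoidHom.transfer`. -/
def ofSection : CosetDatum H.subtype (Γ ⧸ H) where
  perm g := MulAction.toPerm g⁻¹
  perm_mul g h q := by
    show (g * h)⁻¹ • q = h⁻¹ • g⁻¹ • q
    rw [mul_inv_rev, mul_smul]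
  r q := (t q)⁻¹
  coc g q := ⟨(t q)⁻¹ * g * t (g⁻¹ • q), ofSection_mem H t ht g q⟩
  coc_spec g q := by
    show (t q)⁻¹ * g * t (g⁻¹ • q) = (t q)⁻¹ * g * ((t (g⁻¹ • q))⁻¹)⁻¹
    rw [inv_inv]
  coc_mul g h q := by
    apply Subtype.ext
    show (t q)⁻¹ * (g * h) * t ((g * h)⁻¹ • q)
      = ((t q)⁻¹ * g * t (g⁻¹ • q)) * ((t (g⁻¹ • q))⁻¹ * h * t (h⁻¹ • g⁻¹ • q))
    rw [mul_inv_rev, mul_smul]
    group

@[simp] theorem ofSection_perm (g : Γ) (q : Γ ⧸ H) : (ofSection H t ht).perm g q = g⁻¹ • q := rfl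

@[simp] theorem ofSection_r (q : Γ ⧸ H) : (ofSection H t ht).r q = (t q)⁻¹ := rfl

@[simp] theorem coe_ofSection_coc (g : Γ) (q : Γ ⧸ H) :
    (((ofSection H t ht).coc g q : H) : Γ) = (t q)⁻¹ * g * t (g⁻¹ • q) := rfl

end ofSection

end Fermat.Agent.ES.I2.Kappa2
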