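import Mathlib
import Fermat.Agent.ES.I2.Kappa2

set_option autoImplicit false

/-!
# Abstract cusp families and their behaviour under finite-index subgroups (helper2)

`G` a group with a predicate `P` ("positive unipotent").  `IsPrim P g`: `g` has `P` and is not a
proper power of an element with `P`.  `IsCuspFam P c`: `c : J → G` is a system of representatives
of the conjugacy classes of primitive elements.  Under the axioms `CuspStr` (satisfied by
`(Γ, IsPosUnip)` for subgroups `Γ ≤ SL(2, ℤ)`, see `PosPar2`) the transfer family of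
`Kappa2.coresKappa_eq_sum_orbits` is a cusp family of a finite-index subgroup.
-/

namespace Fermat.Agent.ES.I2.CuspFam2

open Fermat.Agent.ES.I2.Kappa2 Additive

variable {G : Type*} [Group G]

/-- `g` has `P` and is not a proper power of an element with `P`. -/
def IsPrim (P : G → Prop) (g : G) : Prop := P g ∧ ∀ h, P h → ∀ n : ℕ, h ^ n = g → n = 1

theorem IsPrim.conj {P : G → Prop} (hP : ∀ g x, P g → P (x * g * x⁻¹)) {g : G}
    (hg : IsPrim P g) (x : G) : IsPrim P (x * g * x⁻¹) := by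
  refine ⟨hP g x hg.1, fun h hh n hn => ?_⟩
  refine hg.2 (x⁻¹ * h * x) ?_ n ?_
  · have := hP h x⁻¹ hh
    rwa [inv_inv] at this
  · have e : (x⁻¹ * h * x) ^ n = x⁻¹ * h ^ n * x := by
      have := conj_pow (i := n) (a := x⁻¹) (b := h)
      rwa [inv_inv] at this
    rw [e, hn]; group

/-- A system of representatives of the conjugacy classes of primitive elements. -/
structure IsCuspFam (P : G → Prop) {J : Type*} (c : J → G) : Prop where
  prim : ∀ j, IsPrim P (c j)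
  cover : ∀ g, IsPrim P g → ∃ j γ, g = γ * c j * γ⁻¹
  inj : ∀ j j' γ, c j' = γ * c j * γ⁻¹ → j = j'

/-- Two cusp families differ by a reindexing and conjugations. -/
theorem IsCuspFam.exists_equiv {P : G → Prop} {J J' : Type*} {c : J → G} {c' : J' → G}
    (hc : IsCuspFam P c) (hc' : IsCuspFam P c') :
    ∃ e : J ≃ J', ∀ j, ∃ γ, c j = γ * c' (e j) * γ⁻¹ := by
  classical
  choose f γf hf using fun j => hc'.cover (c j) (hc.prim j)
  choose f' γf' hf' using fun j' => hc.cover (c' j') (hc'.prim j')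
  have h1 : ∀ j, f' (f j) = j := by
    intro j
    refine hc.inj (f' (f j)) j (γf j * γf' (f j)) ?_
    rw [hf j, hf' (f j)]; group
  have h2 : ∀ j', f (f' j') = j' := by
    intro j'
    refine hc'.inj (f (f' j')) j' (γf' j' * γf (f' j')) ?_
    rw [hf' j', hf (f' j')]; group
  exact ⟨⟨f, f', h1, h2⟩, fun j => ⟨γf j, hf j⟩⟩

/-- A conjugation-invariant function has the same sum over any two cusp families. -/
theorem IsCuspFam.sum_eq {P : G → Prop} {J J' : Type*} [Fintype J] [Fintype J'] {c : J → G}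
    {c' : J' → G} (hc : IsCuspFam P c) (hc' : IsCuspFam P c') {A : Type*} [AddCommMonoid A]
    (F : G → A) (hF : ∀ j' γ, F (γ * c' j' * γ⁻¹) = F (c' j')) :
    ∑ j, F (c j) = ∑ j', F (c' j') := by
  obtain ⟨e, he⟩ := hc.exists_equiv hc'
  rw [← Equiv.sum_comp e (fun j' => F (c' j'))]
  refine Finset.sum_congr rfl fun j _ => ?_
  obtain ⟨γ, hγ⟩ := he j
  rw [hγ, hF]

/-- Transport of cusp families along an isomorphism preserving the predicates. -/
theorem IsCuspFam.map {G' : Type*} [Group G'] {P : G → Prop} {P' : G' → Prop} (θ : G ≃* G')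
    (hθ : ∀ g, P' (θ g) ↔ P g) {J : Type*} {c : J → G} (hc : IsCuspFam P c) :
    IsCuspFam P' (fun j => θ (c j)) := by
  have hprim : ∀ g, IsPrim P' (θ g) ↔ IsPrim P g := by
    intro g
    constructor
    · rintro ⟨h1, h2⟩
      refine ⟨(hθ g).mp h1, fun h hh n hn => h2 (θ h) ((hθ h).mpr hh) n ?_⟩
      rw [← map_pow, hn]
    · rintro ⟨h1, h2⟩
      refine ⟨(hθ g).mpr h1, fun h hh n hn => h2 (θ.symm h) ?_ n ?_⟩
      · rw [← hθ, θ.apply_symm_apply]; exact hh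
      · apply θ.injective
        rw [map_pow, θ.apply_symm_apply, hn]
  refine ⟨fun j => (hprim _).mpr (hc.prim j), fun g' hg' => ?_, fun j j' γ' h => ?_⟩
  · obtain ⟨j, γ, hγ⟩ := hc.cover (θ.symm g') ((hprim _).mp (by rwa [θ.apply_symm_apply]))
    refine ⟨j, θ γ, ?_⟩
    rw [← map_inv, ← map_mul, ← map_mul, ← hγ, θ.apply_symm_apply]
  · refine hc.inj j j' (θ.symm γ') ?_
    apply θ.injective
    rw [map_mul, map_mul, map_inv, θ.apply_symm_apply]
    exact h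

/-- The axioms on `(G, P)` used for finite-index subgroups. -/
structure CuspStr (G : Type*) [Group G] where
  P : G → Prop
  Z : Subgroup G
  conj : ∀ g x, P g → P (x * g * x⁻¹)
  pow : ∀ g (n : ℕ), P g → 0 < n → P (g ^ n)
  ne_one : ∀ g, P g → g ≠ 1
  Z_comm : ∀ z ∈ Z, ∀ g, z * g = g * z
  exists_prim_pow : ∀ g, P g → ∃ p, IsPrim P p ∧ ∃ n : ℕ, 0 < n ∧ p ^ n = g
  root : ∀ (c p : G) (n w : ℕ), IsPrim P c → P p → 0 < w → p ^ n = c ^ w →
    ∃ m : ℕ, 0 < m ∧ p = c ^ m ∧ m * n = w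
  centralizer : ∀ c δ : G, IsPrim P c → δ * c = c * δ → ∃ e : ℤ, δ * c ^ e ∈ Z

/-! ### the coset datum `ofSection`: fixed points and membership -/

section Section

variable (H : Subgroup G) (t : G ⧸ H → G) (ht : ∀ q, (t q : G ⧸ H) = q)

include ht in
theorem conj_mem_iff (g : G) (s : G ⧸ H) : (t s)⁻¹ * g * t s ∈ H ↔ g • s = s := by
  rw [mul_assoc, ← QuotientGroup.eq, ht]
  have : ((g * t s : G) : G ⧸ H) = g • ((t s : G) : G ⧸ H) := rfl
  rw [this, ht]
  exact eq_comm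

theorem perm_zpow_apply (g : G) (i : ℤ) (s : G ⧸ H) :
    ((ofSection H t ht).perm g ^ i) s = (g ^ i)⁻¹ • s := by
  have h1 : (ofSection H t ht).perm g = MulAction.toPermHom G (G ⧸ H) g⁻¹ := rfl
  rw [h1, ← map_zpow, inv_zpow]
  rfl

theorem perm_pow_apply (g : G) (n : ℕ) (s : G ⧸ H) :
    ((ofSection H t ht).perm g ^ n) s = (g ^ n)⁻¹ • s := by
  have := perm_zpow_apply H t ht g (n : ℤ) s
  simpa using this

theorem perm_pow_fixed_iff (g : G) (n : ℕ) (s : G ⧸ H) :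
    ((ofSection H t ht).perm g ^ n) s = s ↔ (t s)⁻¹ * g ^ n * t s ∈ H := by
  rw [perm_pow_apply, conj_mem_iff H t ht, inv_smul_eq_iff, eq_comm]

theorem coe_coc_of_fixed (g : G) (s : G ⧸ H) (h : g • s = s) :
    (((ofSection H t ht).coc g s : H) : G) = (t s)⁻¹ * g * t s := by
  rw [coe_ofSection_coc]
  have : g⁻¹ • s = s := by rw [inv_smul_eq_iff, h]
  rw [this]

theorem minimalPeriod_pos [Fintype (G ⧸ H)] (g : G) (s : G ⧸ H) :
    0 < Function.minimalPeriod ((ofSection H t ht).perm g) s := by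
  refine Function.minimalPeriod_pos_of_mem_periodicPts ?_
  refine Function.mk_mem_periodicPts (orderOf_pos ((ofSection H t ht).perm g)) ?_
  show ((ofSection H t ht).perm g)^[orderOf ((ofSection H t ht).perm g)] s = s
  rw [Equiv.Perm.iterate_eq_pow, pow_orderOf_eq_one]; rfl

theorem perm_pow_fixed_iff_dvd (g : G) (n : ℕ) (s : G ⧸ H) :
    ((ofSection H t ht).perm g ^ n) s = s
      ↔ Function.minimalPeriod ((ofSection H t ht).perm g) s ∣ n := by
  rw [← Function.isPeriodicPt_iff_minimalPeriod_dvd, Function.IsPeriodicPt, Function.IsFixedPt,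
    Equiv.Perm.iterate_eq_pow]

/-- the cusp generator of `H` above `g` at the coset `s`. -/
theorem coe_coc_minimalPeriod (g : G) (s : G ⧸ H) :
    (((ofSection H t ht).coc (g ^ Function.minimalPeriod ((ofSection H t ht).perm g) s) s : H) : G)
      = (t s)⁻¹ * g ^ Function.minimalPeriod ((ofSection H t ht).perm g) s * t s := by
  apply coe_coc_of_fixed
  have h := (perm_pow_fixed_iff_dvd H t ht g _ s).mpr dvd_rfl
  rw [perm_pow_apply, inv_smul_eq_iff] at h
  exact h.symm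

end Section

/-! ### the transfer family is a cusp family -/

theorem exists_orbit_reps {I : Type*} [Fintype I] (σ : Equiv.Perm I) :
    ∃ S : Finset I, ∀ i, ∃! s, s ∈ S ∧ σ.SameCycle s i := by
  classical
  let r : I → I := fun i => (Quotient.mk (Equiv.Perm.SameCycle.setoid σ) i).out
  have hr : ∀ i, σ.SameCycle (r i) i := fun i =>
    Quotient.exact (Quotient.out_eq (Quotient.mk (Equiv.Perm.SameCycle.setoid σ) i))
  have hr' : ∀ i j, σ.SameCycle i j → r i = r j := by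
    intro i j hij
    show (Quotient.mk _ i).out = (Quotient.mk _ j).out
    rw [Quotient.sound (s := Equiv.Perm.SameCycle.setoid σ) hij]
  refine ⟨Finset.univ.image r, fun i => ⟨r i, ⟨Finset.mem_image_of_mem r (Finset.mem_univ i), hr i⟩,
    ?_⟩⟩
  rintro s ⟨hs, hsi⟩
  obtain ⟨k, -, rfl⟩ := Finset.mem_image.mp hs
  -- `r k ~ i`, so `k ~ i`
  have hki : σ.SameCycle k i := (hr k).symm.trans hsi
  exact hr' k i hki

section Transfer

variable (𝒮 : CuspStr G) (H : Subgroup G) (t : G ⧸ H → G) (ht : ∀ q, (t q : G ⧸ H) = q)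
  {J : Type*} (c : J → G) (S : J → Finset (G ⧸ H))

/-- the transfer family: for `j : J` and a representative `s ∈ S j` of a cycle of `c j` on `G ⧸ H`
of length `w`, the element `(t s)⁻¹ * c j ^ w * t s` of `H`. -/
noncomputable def transferFam (x : Σ j, {s // s ∈ S j}) : H :=
  (ofSection H t ht).coc
    (c x.1 ^ Function.minimalPeriod ((ofSection H t ht).perm (c x.1)) x.2.1) x.2.1

theorem coe_transferFam (x : Σ j, {s // s ∈ S j}) :
    ((transferFam H t ht c S x : H) : G)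
      = (t x.2.1)⁻¹ * c x.1 ^ Function.minimalPeriod ((ofSection H t ht).perm (c x.1)) x.2.1
        * t x.2.1 :=
  coe_coc_minimalPeriod H t ht (c x.1) x.2.1

variable [Fintype (G ⧸ H)]

theorem isCuspFam_transferFam (hZ : 𝒮.Z ≤ H) (hc : IsCuspFam 𝒮.P c)
    (hS : ∀ j q, ∃! s, s ∈ S j ∧ ((ofSection H t ht).perm (c j)).SameCycle s q) :
    IsCuspFam (fun h : H => 𝒮.P (h : G)) (transferFam H t ht c S) where
  prim := by
    rintro ⟨j, s, hs⟩
    have hcoe := coe_transferFam H t ht c S ⟨j, s, hs⟩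
    simp only at hcoe
    set g := c j with hg
    set w := Function.minimalPeriod ((ofSection H t ht).perm g) s with hw
    have hwpos : 0 < w := minimalPeriod_pos H t ht g s
    refine ⟨?_, ?_⟩
    · show 𝒮.P ((transferFam H t ht c S ⟨j, s, hs⟩ : H) : G)
      rw [hcoe]
      have := 𝒮.conj _ (t s)⁻¹ (𝒮.pow g w (hc.prim j).1 hwpos)
      rwa [inv_inv] at this
    · intro p hp n hn
      have hn' : (p : G) ^ n = (t s)⁻¹ * g ^ w * t s := by
        rw [← hcoe, ← hn]; simp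
      have hp₁ : 𝒮.P (t s * (p : G) * (t s)⁻¹) := 𝒮.conj _ _ hp
      have hp₁n : (t s * (p : G) * (t s)⁻¹) ^ n = g ^ w := by rw [conj_pow, hn']; group
      obtain ⟨m, hm0, hpm, hmn⟩ := 𝒮.root g _ n w (hc.prim j) hp₁ hwpos hp₁n
      have hmem : (t s)⁻¹ * g ^ m * t s ∈ H := by
        have : (t s)⁻¹ * g ^ m * t s = (p : G) := by rw [← hpm]; group
        rw [this]; exact p.2
      have hdvd : w ∣ m :=
        (perm_pow_fixed_iff_dvd H t ht g m s).mp ((perm_pow_fixed_iff H t ht g m s).mpr hmem)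
      have hle : w ≤ m := Nat.le_of_dvd hm0 hdvd
      rcases Nat.eq_zero_or_pos n with h0 | hpos
      · subst h0; simp at hmn; omega
      · have h1 : m ≤ m * n := Nat.le_mul_of_pos_right m hpos
        have hmw : m = w := le_antisymm (by omega) hle
        have : m * n = m * 1 := by omega
        exact Nat.eq_of_mul_eq_mul_left hm0 this
  cover := by
    intro g' hg'
    obtain ⟨p, hp, m, hm0, hpm⟩ := 𝒮.exists_prim_pow (g' : G) hg'.1
    obtain ⟨j, γ, hγ⟩ := hc.cover p hp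
    obtain ⟨s, ⟨hs, hsc⟩, -⟩ := hS j ((γ⁻¹ : G) : G ⧸ H)
    obtain ⟨i, hi⟩ := hsc
    rw [perm_zpow_apply] at hi
    have hcoe := coe_transferFam H t ht c S ⟨j, s, hs⟩
    simp only at hcoe
    set g := c j with hg
    set w := Function.minimalPeriod ((ofSection H t ht).perm g) s with hw
    have hγ₁ : ((g ^ i)⁻¹ * t s)⁻¹ * γ⁻¹ ∈ H := by
      rw [← QuotientGroup.eq]
      have : (((g ^ i)⁻¹ * t s : G) : G ⧸ H) = (g ^ i)⁻¹ • ((t s : G) : G ⧸ H) := rfl
      rw [this, ht, hi]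
    have hg'eq : (g' : G) = (((g ^ i)⁻¹ * t s)⁻¹ * γ⁻¹)⁻¹ * ((t s)⁻¹ * g ^ m * t s)
        * (((g ^ i)⁻¹ * t s)⁻¹ * γ⁻¹) := by
      rw [← hpm, hγ, conj_pow]
      have hcomm : g ^ i * g ^ m * (g ^ i)⁻¹ = g ^ m := by
        rw [← zpow_natCast g m, ← zpow_neg, ← zpow_add, ← zpow_add]
        congr 1; ring
      calc γ * g ^ m * γ⁻¹ = γ * (g ^ i * g ^ m * (g ^ i)⁻¹) * γ⁻¹ := by rw [hcomm]
        _ = _ := by group
    have hmemH : (t s)⁻¹ * g ^ m * t s ∈ H := by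
      have : (t s)⁻¹ * g ^ m * t s = (((g ^ i)⁻¹ * t s)⁻¹ * γ⁻¹) * (g' : G)
          * (((g ^ i)⁻¹ * t s)⁻¹ * γ⁻¹)⁻¹ := by rw [hg'eq]; group
      rw [this]; exact H.mul_mem (H.mul_mem hγ₁ g'.2) (H.inv_mem hγ₁)
    have hdvd : w ∣ m :=
      (perm_pow_fixed_iff_dvd H t ht g m s).mp ((perm_pow_fixed_iff H t ht g m s).mpr hmemH)
    obtain ⟨n', rfl⟩ := hdvd
    set γ₁H : H := ⟨((g ^ i)⁻¹ * t s)⁻¹ * γ⁻¹, hγ₁⟩ with hγ₁H
    have hpow : (γ₁H⁻¹ * transferFam H t ht c S ⟨j, s, hs⟩ * γ₁H) ^ n' = g' := by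
      apply Subtype.ext
      have e1 : (γ₁H⁻¹ * transferFam H t ht c S ⟨j, s, hs⟩ * γ₁H) ^ n'
          = γ₁H⁻¹ * (transferFam H t ht c S ⟨j, s, hs⟩) ^ n' * γ₁H := by
        have := conj_pow (i := n') (a := γ₁H⁻¹) (b := transferFam H t ht c S ⟨j, s, hs⟩)
        rwa [inv_inv] at this
      rw [e1, hg'eq]
      simp only [Subgroup.coe_mul, Subgroup.coe_inv, Subgroup.coe_pow, hcoe, hγ₁H]
      have e2 := conj_pow (i := n') (a := (t s)⁻¹) (b := g ^ w)
      rw [inv_inv] at e2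
      rw [pow_mul, e2]
    have hPconj : 𝒮.P ((γ₁H⁻¹ * transferFam H t ht c S ⟨j, s, hs⟩ * γ₁H : H) : G) := by
      have h1 : 𝒮.P ((transferFam H t ht c S ⟨j, s, hs⟩ : H) : G) := by
        rw [hcoe]
        have := 𝒮.conj _ (t s)⁻¹ (𝒮.pow g w (hc.prim j).1 (minimalPeriod_pos H t ht g s))
        rwa [inv_inv] at this
      have := 𝒮.conj _ ((γ₁H : G))⁻¹ h1
      rw [inv_inv] at this
      simpa using this
    have hn' : n' = 1 := hg'.2 _ hPconj n' hpow
    subst hn'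
    refine ⟨⟨j, s, hs⟩, γ₁H⁻¹, ?_⟩
    rw [inv_inv, ← hpow, pow_one]
  inj := by
    rintro ⟨j₁, s₁, hs₁⟩ ⟨j₂, s₂, hs₂⟩ γ' h
    have h' := congrArg (Subtype.val) h
    have hcoe₁ := coe_transferFam H t ht c S ⟨j₁, s₁, hs₁⟩
    have hcoe₂ := coe_transferFam H t ht c S ⟨j₂, s₂, hs₂⟩
    simp only [Subgroup.coe_mul, Subgroup.coe_inv] at h' hcoe₁ hcoe₂
    rw [hcoe₁, hcoe₂] at h'
    have hw₂pos := minimalPeriod_pos H t ht (c j₂) s₂
    set w₁ := Function.minimalPeriod ((ofSection H t ht).perm (c j₁)) s₁ with hw₁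
    set w₂ := Function.minimalPeriod ((ofSection H t ht).perm (c j₂)) s₂ with hw₂
    set δ : G := t s₂ * γ' * (t s₁)⁻¹ with hδdef
    have hδ : c j₂ ^ w₂ = δ * c j₁ ^ w₁ * δ⁻¹ := by
      have : c j₂ ^ w₂ = t s₂ * ((t s₂)⁻¹ * c j₂ ^ w₂ * t s₂) * (t s₂)⁻¹ := by group
      rw [this, h', hδdef]; group
    have hp₁ : IsPrim 𝒮.P (δ * c j₁ * δ⁻¹) := (hc.prim j₁).conj 𝒮.conj δ
    have hp₁w : (δ * c j₁ * δ⁻¹) ^ w₁ = c j₂ ^ w₂ := by rw [conj_pow, hδ]
    obtain ⟨m, hm0, hpm, hmw⟩ := 𝒮.root (c j₂) _ w₁ w₂ (hc.prim j₂) hp₁.1 hw₂pos hp₁w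
    have hm1 : m = 1 := hp₁.2 (c j₂) (hc.prim j₂).1 m hpm.symm
    subst hm1
    rw [pow_one] at hpm
    have hj : j₁ = j₂ := hc.inj j₁ j₂ δ hpm.symm
    subst hj
    have hcomm : δ * c j₁ = c j₁ * δ := by
      conv_rhs => rw [← hpm]
      group
    obtain ⟨e, he⟩ := 𝒮.centralizer (c j₁) δ (hc.prim j₁) hcomm
    have hcomm' : δ * c j₁ ^ e = c j₁ ^ e * δ := (Commute.zpow_right hcomm e)
    -- `(c j₁ ^ e)⁻¹ • s₁ = s₂`
    have hs12 : (c j₁ ^ e)⁻¹ • s₁ = s₂ := by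
      rw [← ht s₁, ← ht s₂]
      have : (c j₁ ^ e)⁻¹ • ((t s₁ : G) : G ⧸ H) = (((c j₁ ^ e)⁻¹ * t s₁ : G) : G ⧸ H) := rfl
      rw [this, QuotientGroup.eq]
      have hz := 𝒮.Z_comm _ he (t s₁)⁻¹
      have : ((c j₁ ^ e)⁻¹ * t s₁)⁻¹ * t s₂ = (δ * c j₁ ^ e) * (γ' : G)⁻¹ := by
        have e1 : t s₂ = δ * t s₁ * (γ' : G)⁻¹ := by rw [hδdef]; group
        rw [e1]
        have e2 : ((c j₁ ^ e)⁻¹ * t s₁)⁻¹ * (δ * t s₁ * (γ' : G)⁻¹)
            = (t s₁)⁻¹ * (c j₁ ^ e * δ) * t s₁ * (γ' : G)⁻¹ := by group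
        rw [e2, ← hcomm']
        have e3 : (t s₁)⁻¹ * (δ * c j₁ ^ e) * t s₁ = δ * c j₁ ^ e := by
          rw [← hz]; group
        rw [e3]
      rw [this]
      exact H.mul_mem (hZ he) (H.inv_mem γ'.2)
    have hsc : ((ofSection H t ht).perm (c j₁)).SameCycle s₁ s₂ :=
      ⟨e, by rw [perm_zpow_apply, hs12]⟩
    obtain ⟨s₀, -, huniq⟩ := hS j₁ s₂
    have e1 : s₁ = s₀ := huniq s₁ ⟨hs₁, hsc⟩
    have e2 : s₂ = s₀ := huniq s₂ ⟨hs₂, Equiv.Perm.SameCycle.refl _ _⟩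
    have : s₁ = s₂ := by rw [e1, e2]
    subst this
    rfl

end Transfer

/-! ### the adjunction at cochain level, for arbitrary cusp families -/

section Adjunction

variable {R : Type*} [CommRing R] (𝒮 : CuspStr G) (H : Subgroup G) (t : G ⧸ H → G)
  (ht : ∀ q, (t q : G ⧸ H) = q) [Fintype (G ⧸ H)] {J : Type*} [Fintype J] (c : J → G)

omit [Fintype (G ⧸ H)] [Fintype J] in
theorem map_transferFam_eq_zero (S : J → Finset (G ⧸ H)) {φ : Additive G →+ R}
    (hφ : ∀ j, φ (ofMul (c j)) = 0) (x : Σ j, {s // s ∈ S j}) :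
    φ (ofMul ((transferFam H t ht c S x : H) : G)) = 0 := by
  rw [coe_transferFam, ofMul_mul, ofMul_mul, map_add, map_add, ofMul_inv, map_neg, ofMul_pow,
    map_nsmul, hφ]
  simp

theorem sum_coresKappa_eq_transferFam (S : J → Finset (G ⧸ H))
    (hS : ∀ j q, ∃! s, s ∈ S j ∧ ((ofSection H t ht).perm (c j)).SameCycle s q)
    {φ : Additive G →+ R} {ψ' : Additive H →+ R} {κ' : H → R}
    (hκ' : IsKappa (φ.comp H.subtype.toAdditive) ψ' κ') (hφ : ∀ j, φ (ofMul (c j)) = 0)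
    (hψ' : ∀ x, ψ' (ofMul (transferFam H t ht c S x)) = 0) :
    ∑ j, (ofSection H t ht).coresKappa φ ψ' κ' (c j)
      = ∑ x : Σ j, {s // s ∈ S j}, κ' (transferFam H t ht c S x) := by
  rw [Fintype.sum_sigma]
  refine Finset.sum_congr rfl fun j _ => ?_
  rw [CosetDatum.coresKappa_eq_sum_orbits _ hκ' (hφ j) (S j) (hS j)
    (fun s hs => hψ' ⟨j, s, hs⟩), ← Finset.sum_coe_sort (S j)]
  rfl

/-- **Adjunction at cochain level.**  `c` a cusp family of `G`, `c'` a cusp family of the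
finite-index subgroup `H ⊇ Z`, `φ` killing `c`, `ψ'` killing `c'`, `κ'` a primitive of
`(φ|H, ψ')`: the transferred primitive `coresKappa φ ψ' κ'` of `(φ, cores ψ')`
(`Kappa2.CosetDatum.isKappa_coresKappa`) has the same cusp sum as `κ'`. -/
theorem sum_coresKappa_eq_of_isCuspFam (hZ : 𝒮.Z ≤ H) (hc : IsCuspFam 𝒮.P c)
    {J' : Type*} [Fintype J'] (c' : J' → H) (hc' : IsCuspFam (fun h : H => 𝒮.P (h : G)) c')
    {φ : Additive G →+ R} {ψ' : Additive H →+ R} {κ' : H → R}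
    (hκ' : IsKappa (φ.comp H.subtype.toAdditive) ψ' κ') (hφ : ∀ j, φ (ofMul (c j)) = 0)
    (hψ' : ∀ j', ψ' (ofMul (c' j')) = 0) :
    ∑ j, (ofSection H t ht).coresKappa φ ψ' κ' (c j) = ∑ j', κ' (c' j') := by
  classical
  choose S hS using fun j => exists_orbit_reps ((ofSection H t ht).perm (c j))
  have hfam := isCuspFam_transferFam 𝒮 H t ht c S hZ hc hS
  obtain ⟨e, he⟩ := hfam.exists_equiv hc'
  have hψ'' : ∀ x, ψ' (ofMul (transferFam H t ht c S x)) = 0 := by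
    intro x
    obtain ⟨γ, hγ⟩ := he x
    rw [hγ, ofMul_mul, ofMul_mul, map_add, map_add, ofMul_inv, map_neg, hψ']
    abel
  rw [sum_coresKappa_eq_transferFam H t ht c S hS hκ' hφ hψ'']
  refine hfam.sum_eq hc' κ' (fun j' γ => ?_)
  refine hκ'.map_conj_of_eq_zero γ ?_ (hψ' j')
  -- `φ` kills `c' j'`
  obtain ⟨γ2, hγ2⟩ := he (e.symm j')
  rw [e.apply_symm_apply] at hγ2
  have h0 := map_transferFam_eq_zero H t ht c S hφ (e.symm j')
  rw [hγ2] at h0
  show φ (ofMul ((c' j' : H) : G)) = 0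
  simp only [Subgroup.coe_mul, Subgroup.coe_inv, ofMul_mul, map_add, ofMul_inv, map_neg] at h0
  linear_combination h0

end Adjunction

end Fermat.Agent.ES.I2.CuspFam2
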