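import Mathlib
import Fermat.Agent.S21.Parabolic
import Fermat.Agent.ES.MEN.SL2Calc13
import Fermat.Agent.ES.I2.CuspFam2

set_option autoImplicit false

/-!
# (I2) dictionary leaf C3: positive primitive unipotents of subgroups of `SL(2, ℤ)` (helper2)
-/

namespace Fermat.Agent.ES.I2.PosPar2

open Matrix ModularGroup
open scoped MatrixGroups

/-! ### Part 1: unipotent elements of `SL(2, ℤ)` -/

open Fermat.Agent.ES.MEN.SL2Calc13 (mul_entry inv_00 inv_01 inv_10 inv_11 ext2)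

theorem det_eq (g : SL(2, ℤ)) : g 0 0 * g 1 1 - g 0 1 * g 1 0 = 1 :=
  Fermat.Agent.ES.MEN.SL2Calc13.det_eq g

theorem T_zpow_00 (k : ℤ) : (T ^ k) 0 0 = 1 := by rw [coe_T_zpow]; rfl
theorem T_zpow_01 (k : ℤ) : (T ^ k) 0 1 = k := by rw [coe_T_zpow]; rfl
theorem T_zpow_10 (k : ℤ) : (T ^ k) 1 0 = 0 := by rw [coe_T_zpow]; rfl
theorem T_zpow_11 (k : ℤ) : (T ^ k) 1 1 = 1 := by rw [coe_T_zpow]; rfl

/-- the four entries of `x T^k x⁻¹`. -/
theorem conjT_apply (x : SL(2, ℤ)) (k : ℤ) :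
    (x * T ^ k * x⁻¹) 0 0 = 1 - x 0 0 * x 1 0 * k ∧
    (x * T ^ k * x⁻¹) 0 1 = x 0 0 ^ 2 * k ∧
    (x * T ^ k * x⁻¹) 1 0 = -(x 1 0 ^ 2 * k) ∧
    (x * T ^ k * x⁻¹) 1 1 = 1 + x 0 0 * x 1 0 * k := by
  have hd := det_eq x
  simp only [mul_entry, inv_00, inv_01, inv_10, inv_11, T_zpow_00, T_zpow_01, T_zpow_10,
    T_zpow_11]
  refine ⟨?_, ?_, ?_, ?_⟩
  · linear_combination hd
  · ring
  · ring
  · linear_combination hd

/-- positive unipotent elements: trace `2` and `g₀₁ - g₁₀ > 0`. -/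
def IsPosUnip (g : SL(2, ℤ)) : Prop := g 0 0 + g 1 1 = 2 ∧ 0 < g 0 1 - g 1 0

theorem isPosUnip_conjT (x : SL(2, ℤ)) {k : ℤ} (hk : 0 < k) : IsPosUnip (x * T ^ k * x⁻¹) := by
  obtain ⟨h00, h01, h10, h11⟩ := conjT_apply x k
  refine ⟨by rw [h00, h11]; ring, ?_⟩
  rw [h01, h10]
  have hd := det_eq x
  have hpos : 0 < x 0 0 ^ 2 + x 1 0 ^ 2 := by
    by_contra hcon
    have h0 : x 0 0 ^ 2 + x 1 0 ^ 2 = 0 := le_antisymm (not_lt.mp hcon) (by positivity)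
    have ha : x 0 0 = 0 := by nlinarith [sq_nonneg (x 0 0), sq_nonneg (x 1 0)]
    have hc : x 1 0 = 0 := by nlinarith [sq_nonneg (x 0 0), sq_nonneg (x 1 0)]
    rw [ha, hc] at hd
    simp at hd
  nlinarith

/-- trace `2` elements are conjugate to powers of `T`. -/
theorem exists_conjT_of_trace (g : SL(2, ℤ)) (htr : g 0 0 + g 1 1 = 2) :
    ∃ (x : SL(2, ℤ)) (k : ℤ), g = x * T ^ k * x⁻¹ := by
  have h4 : (g : Matrix (Fin 2) (Fin 2) ℤ).trace ^ 2 = 4 := by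
    rw [Matrix.trace_fin_two, htr]; norm_num
  obtain ⟨δ, hδ⟩ := Fermat.Agent.S21.Parabolic.exists_conj_c_eq_zero g h4
  set h : SL(2, ℤ) := δ⁻¹ * g * δ with hh
  have hg : g = δ * h * δ⁻¹ := by rw [hh]; group
  have hdet := det_eq h
  rw [hδ, mul_zero, sub_zero] at hdet
  -- trace of `h` is `2`
  have htrh : h 0 0 + h 1 1 = 2 := by
    have hdδ := det_eq δ
    rw [hh]
    simp only [mul_entry, inv_00, inv_01, inv_10, inv_11]
    linear_combination (δ 0 0 * δ 1 1 - δ 0 1 * δ 1 0) * htr + 2 * hdδ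
  have h00 : h 0 0 = 1 := by nlinarith
  have h11 : h 1 1 = 1 := by nlinarith
  refine ⟨δ, h 0 1, ?_⟩
  rw [hg]
  congr 2
  ext i j
  rw [coe_T_zpow]
  fin_cases i <;> fin_cases j <;> simp [h00, h11, hδ]

/-- positive unipotents are exactly the conjugates of positive powers of `T`. -/
theorem isPosUnip_iff (g : SL(2, ℤ)) :
    IsPosUnip g ↔ ∃ (x : SL(2, ℤ)) (k : ℤ), 0 < k ∧ g = x * T ^ k * x⁻¹ := by
  constructor
  · rintro ⟨htr, hpos⟩
    obtain ⟨x, k, rfl⟩ := exists_conjT_of_trace g htr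
    refine ⟨x, k, ?_, rfl⟩
    obtain ⟨-, h01, h10, -⟩ := conjT_apply x k
    rw [h01, h10] at hpos
    by_contra hk
    have hk' : k ≤ 0 := not_lt.mp hk
    nlinarith [sq_nonneg (x 0 0), sq_nonneg (x 1 0)]
  · rintro ⟨x, k, hk, rfl⟩
    exact isPosUnip_conjT x hk

theorem IsPosUnip.conj {g : SL(2, ℤ)} (hg : IsPosUnip g) (y : SL(2, ℤ)) :
    IsPosUnip (y * g * y⁻¹) := by
  obtain ⟨x, k, hk, rfl⟩ := (isPosUnip_iff g).mp hg
  have : y * (x * T ^ k * x⁻¹) * y⁻¹ = (y * x) * T ^ k * (y * x)⁻¹ := by group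
  rw [this]
  exact isPosUnip_conjT _ hk

theorem IsPosUnip.ne_one {g : SL(2, ℤ)} (hg : IsPosUnip g) : g ≠ 1 := by
  rintro rfl
  have := hg.2
  simp at this

theorem IsPosUnip.pow {g : SL(2, ℤ)} (hg : IsPosUnip g) {n : ℕ} (hn : 0 < n) :
    IsPosUnip (g ^ n) := by
  obtain ⟨x, k, hk, rfl⟩ := (isPosUnip_iff g).mp hg
  have : (x * T ^ k * x⁻¹) ^ n = x * T ^ (k * n) * x⁻¹ := by
    rw [conj_pow, _root_.zpow_mul, zpow_natCast]
  rw [this]
  exact isPosUnip_conjT x (by positivity)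

/-- rigidity: `z T^k z⁻¹ = T^k'` with `k ≠ 0` forces `z₁₀ = 0` and `k = k'`. -/
theorem eq_of_conjT_eq {z : SL(2, ℤ)} {k k' : ℤ} (hk : k ≠ 0)
    (h : z * T ^ k * z⁻¹ = T ^ k') : z 1 0 = 0 ∧ k = k' := by
  obtain ⟨-, h01, h10, -⟩ := conjT_apply z k
  rw [h] at h01 h10
  rw [T_zpow_01] at h01
  rw [T_zpow_10] at h10
  have hc : z 1 0 = 0 := by
    have h10' : z 1 0 ^ 2 * k = 0 := by linarith
    have : z 1 0 ^ 2 = 0 := by
      rcases mul_eq_zero.mp h10' with h | h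
      · exact h
      · exact absurd h hk
    exact pow_eq_zero_iff (two_ne_zero) |>.mp this
  refine ⟨hc, ?_⟩
  have hd := det_eq z
  rw [hc, mul_zero, sub_zero] at hd
  have ha : z 0 0 ^ 2 = 1 := by
    rcases Int.eq_one_or_neg_one_of_mul_eq_one' hd with ⟨h1, -⟩ | ⟨h1, -⟩ <;> rw [h1] <;> norm_num
  rw [ha, one_mul] at h01
  exact h01.symm

/-- elements of `SL(2, ℤ)` with `z₁₀ = 0` are `± T^m`. -/
theorem eq_T_zpow_or_neg {z : SL(2, ℤ)} (hc : z 1 0 = 0) :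
    ∃ m : ℤ, z = T ^ m ∨ z = -(T ^ m) := by
  have hd := det_eq z
  rw [hc, mul_zero, sub_zero] at hd
  rcases Int.eq_one_or_neg_one_of_mul_eq_one' hd with ⟨h1, h2⟩ | ⟨h1, h2⟩
  · refine ⟨z 0 1, Or.inl ?_⟩
    ext i j
    rw [coe_T_zpow]
    fin_cases i <;> fin_cases j <;> simp [h1, h2, hc]
  · refine ⟨-(z 0 1), Or.inr ?_⟩
    ext i j
    rw [SpecialLinearGroup.coe_neg, coe_T_zpow]
    fin_cases i <;> fin_cases j <;> simp [h1, h2, hc]

theorem conjT_pow (x : SL(2, ℤ)) (k : ℤ) (n : ℕ) :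
    (x * T ^ k * x⁻¹) ^ n = x * T ^ (k * n) * x⁻¹ := by
  rw [conj_pow, _root_.zpow_mul, zpow_natCast]

theorem conjT_mul (x : SL(2, ℤ)) (a b : ℤ) :
    (x * T ^ a * x⁻¹) * (x * T ^ b * x⁻¹) = x * T ^ (a + b) * x⁻¹ := by
  rw [_root_.zpow_add]; group

theorem conjT_inv (x : SL(2, ℤ)) (a : ℤ) : (x * T ^ a * x⁻¹)⁻¹ = x * T ^ (-a) * x⁻¹ := by
  rw [_root_.zpow_neg]; group

theorem conjT_zpow (x : SL(2, ℤ)) (k e : ℤ) :
    (x * T ^ k * x⁻¹) ^ e = x * T ^ (k * e) * x⁻¹ := by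
  have h : ∀ a b : SL(2, ℤ), (a * b * a⁻¹) ^ e = a * b ^ e * a⁻¹ := by
    intro a b
    have := map_zpow (MulAut.conj a) b e
    simp only [MulAut.conj_apply] at this
    exact this.symm
  rw [h, _root_.zpow_mul]

/-- `z T^e z⁻¹ = T^e` as soon as `z₁₀ = 0`. -/
theorem conjT_eq_of_c_zero {z : SL(2, ℤ)} (hc : z 1 0 = 0) (e : ℤ) : z * T ^ e * z⁻¹ = T ^ e := by
  obtain ⟨h00, h01, h10, h11⟩ := conjT_apply z e
  have hd := det_eq z
  rw [hc, mul_zero, sub_zero] at hd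
  have ha : z 0 0 ^ 2 = 1 := by
    rcases Int.eq_one_or_neg_one_of_mul_eq_one' hd with ⟨h1, -⟩ | ⟨h1, -⟩ <;> rw [h1] <;> norm_num
  apply ext2
  · rw [h00, T_zpow_00, hc]; ring
  · rw [h01, T_zpow_01, ha]; ring
  · rw [h10, T_zpow_10, hc]; ring
  · rw [h11, T_zpow_11, hc]; ring

/-- rigidity of the presentation `x T^a x⁻¹`. -/
theorem conjT_eq_conjT {x y : SL(2, ℤ)} {a b : ℤ} (ha : a ≠ 0)
    (h : y * T ^ a * y⁻¹ = x * T ^ b * x⁻¹) :
    a = b ∧ ∀ e : ℤ, y * T ^ e * y⁻¹ = x * T ^ e * x⁻¹ := by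
  have hz : (x⁻¹ * y) * T ^ a * (x⁻¹ * y)⁻¹ = T ^ b := by
    have : (x⁻¹ * y) * T ^ a * (x⁻¹ * y)⁻¹ = x⁻¹ * (y * T ^ a * y⁻¹) * x := by group
    rw [this, h]; group
  obtain ⟨hc, hab⟩ := eq_of_conjT_eq ha hz
  refine ⟨hab, fun e => ?_⟩
  have := conjT_eq_of_c_zero hc e
  have h2 : y * T ^ e * y⁻¹ = x * ((x⁻¹ * y) * T ^ e * (x⁻¹ * y)⁻¹) * x⁻¹ := by group
  rw [h2, this]

/-! ### Part 2: subgroups -/

variable (Γ : Subgroup SL(2, ℤ))

/-- the exponents `k` with `x T^k x⁻¹ ∈ Γ`. -/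
def expSub (x : SL(2, ℤ)) : AddSubgroup ℤ where
  carrier := {k | x * T ^ k * x⁻¹ ∈ Γ}
  zero_mem' := by simp
  add_mem' := by
    intro a b ha hb
    show x * T ^ (a + b) * x⁻¹ ∈ Γ
    have ha : x * T ^ a * x⁻¹ ∈ Γ := ha
    have hb : x * T ^ b * x⁻¹ ∈ Γ := hb
    rw [← conjT_mul]; exact Γ.mul_mem ha hb
  neg_mem' := by
    intro a ha
    show x * T ^ (-a) * x⁻¹ ∈ Γ
    have ha : x * T ^ a * x⁻¹ ∈ Γ := ha
    rw [← conjT_inv]; exact Γ.inv_mem ha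

theorem mem_expSub {x : SL(2, ℤ)} {k : ℤ} : k ∈ expSub Γ x ↔ x * T ^ k * x⁻¹ ∈ Γ := Iff.rfl

/-- `h` is the least positive exponent of `x`. -/
def IsWidth (x : SL(2, ℤ)) (h : ℤ) : Prop :=
  0 < h ∧ h ∈ expSub Γ x ∧ ∀ k ∈ expSub Γ x, 0 < k → h ≤ k

variable {Γ}

theorem IsWidth.dvd {x : SL(2, ℤ)} {h k : ℤ} (hw : IsWidth Γ x h) (hk : k ∈ expSub Γ x) : h ∣ k := by
  have hmod : k % h ∈ expSub Γ x := by
    have : k % h = k - (k / h) • h := by
      rw [Int.emod_def, smul_eq_mul, mul_comm]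
    rw [this]
    exact (expSub Γ x).sub_mem hk ((expSub Γ x).zsmul_mem hw.2.1 _)
  have h1 : 0 ≤ k % h := Int.emod_nonneg _ hw.1.ne'
  have h2 : k % h < h := Int.emod_lt_of_pos _ hw.1
  rcases h1.lt_or_eq with h3 | h3
  · have := hw.2.2 _ hmod h3
    omega
  · exact Int.dvd_of_emod_eq_zero h3.symm

theorem exists_isWidth {x : SL(2, ℤ)} {k : ℤ} (hk : k ∈ expSub Γ x) (hk0 : 0 < k) :
    ∃ h, IsWidth Γ x h := by
  classical
  have hex : ∃ n : ℕ, 0 < n ∧ (n : ℤ) ∈ expSub Γ x :=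
    ⟨k.toNat, by omega, by rwa [Int.toNat_of_nonneg hk0.le]⟩
  refine ⟨(Nat.find hex : ℕ), by exact_mod_cast (Nat.find_spec hex).1, (Nat.find_spec hex).2, ?_⟩
  intro k' hk' hk'0
  have : Nat.find hex ≤ k'.toNat :=
    Nat.find_min' hex ⟨by omega, by rwa [Int.toNat_of_nonneg hk'0.le]⟩
  omega

/-- the predicate on `Γ`. -/
def PU (Γ : Subgroup SL(2, ℤ)) : Γ → Prop := fun g => IsPosUnip (g : SL(2, ℤ))

open Fermat.Agent.ES.I2.CuspFam2 in
theorem isPrim_of_isWidth {x : SL(2, ℤ)} {k : ℤ} (hw : IsWidth Γ x k) :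
    IsPrim (PU Γ) ⟨x * T ^ k * x⁻¹, hw.2.1⟩ := by
  refine ⟨isPosUnip_conjT x hw.1, ?_⟩
  intro h hh n hn
  obtain ⟨y, a, ha, hy⟩ := (isPosUnip_iff _).mp hh
  have hn' : (h : SL(2, ℤ)) ^ n = x * T ^ k * x⁻¹ := by
    have := congrArg (Subtype.val) hn
    simpa using this
  rw [hy, conjT_pow] at hn'
  have hn0 : n ≠ 0 := by
    rintro rfl
    simp at hn'
    have h1 : x * T ^ k * x⁻¹ = 1 := hn'.symm
    exact (isPosUnip_conjT x hw.1).ne_one h1
  have han : a * n ≠ 0 := mul_ne_zero ha.ne' (by exact_mod_cast hn0)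
  obtain ⟨hak, hall⟩ := conjT_eq_conjT han hn'
  have hmem : a ∈ expSub Γ x := by
    rw [mem_expSub, ← hall a, ← hy]; exact h.2
  have hle : k ≤ a := hw.2.2 a hmem ha
  have hn1 : (1 : ℤ) ≤ n := by exact_mod_cast Nat.one_le_iff_ne_zero.mpr hn0
  have : (n : ℤ) = 1 := by nlinarith
  exact_mod_cast this

open Fermat.Agent.ES.I2.CuspFam2 in
theorem isWidth_of_isPrim {x : SL(2, ℤ)} {k : ℤ} (hk : 0 < k) (hmem : x * T ^ k * x⁻¹ ∈ Γ)
    (hp : IsPrim (PU Γ) ⟨x * T ^ k * x⁻¹, hmem⟩) : IsWidth Γ x k := by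
  obtain ⟨h₀, hw⟩ := exists_isWidth (Γ := Γ) (x := x) hmem hk
  obtain ⟨n₀, hn₀⟩ := hw.dvd hmem
  have hn₀pos : 0 < n₀ := by
    have := hw.1
    by_contra hcon
    have : n₀ ≤ 0 := not_lt.mp hcon
    nlinarith
  have hpow : (⟨x * T ^ h₀ * x⁻¹, hw.2.1⟩ : Γ) ^ n₀.toNat = ⟨x * T ^ k * x⁻¹, hmem⟩ := by
    apply Subtype.ext
    simp only [Subgroup.coe_pow]
    rw [conjT_pow, hn₀, Int.toNat_of_nonneg hn₀pos.le]
  have h1 := hp.2 ⟨x * T ^ h₀ * x⁻¹, hw.2.1⟩ (isPosUnip_conjT x hw.1) _ hpow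
  have : n₀ = 1 := by omega
  rw [hn₀, this, mul_one]
  exact hw

/-- `{±1} ∩ Γ` as a subgroup of `Γ`. -/
def signSub (Γ : Subgroup SL(2, ℤ)) : Subgroup Γ where
  carrier := {z | (z : SL(2, ℤ)) = 1 ∨ (z : SL(2, ℤ)) = -1}
  one_mem' := Or.inl rfl
  mul_mem' := by
    rintro a b (ha | ha) (hb | hb)
    · left; show ((a * b : Γ) : SL(2, ℤ)) = 1; rw [Subgroup.coe_mul, ha, hb, one_mul]
    · right; show ((a * b : Γ) : SL(2, ℤ)) = -1; rw [Subgroup.coe_mul, ha, hb, one_mul]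
    · right; show ((a * b : Γ) : SL(2, ℤ)) = -1; rw [Subgroup.coe_mul, ha, hb, mul_one]
    · left; show ((a * b : Γ) : SL(2, ℤ)) = 1; rw [Subgroup.coe_mul, ha, hb, neg_mul_neg, one_mul]
  inv_mem' := by
    rintro a (ha | ha)
    · left; show ((a⁻¹ : Γ) : SL(2, ℤ)) = 1; rw [Subgroup.coe_inv, ha, inv_one]
    · right; show ((a⁻¹ : Γ) : SL(2, ℤ)) = -1
      rw [Subgroup.coe_inv, ha]
      exact inv_eq_of_mul_eq_one_right (by rw [neg_mul_neg, one_mul])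

theorem mem_signSub {Γ : Subgroup SL(2, ℤ)} {z : Γ} :
    z ∈ signSub Γ ↔ (z : SL(2, ℤ)) = 1 ∨ (z : SL(2, ℤ)) = -1 := Iff.rfl

open Fermat.Agent.ES.I2.CuspFam2

/-- presentation of an element with `PU` -/
theorem exists_conjT_of_PU {g : Γ} (hg : PU Γ g) :
    ∃ (x : SL(2, ℤ)) (k : ℤ), 0 < k ∧ (g : SL(2, ℤ)) = x * T ^ k * x⁻¹ :=
  (isPosUnip_iff _).mp hg

/-- presentation of a primitive element -/
theorem exists_isWidth_of_isPrim {c : Γ} (hc : IsPrim (PU Γ) c) :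
    ∃ (x : SL(2, ℤ)) (k : ℤ), IsWidth Γ x k ∧ (c : SL(2, ℤ)) = x * T ^ k * x⁻¹ := by
  obtain ⟨x, k, hk, hx⟩ := exists_conjT_of_PU hc.1
  have hmem : x * T ^ k * x⁻¹ ∈ Γ := hx ▸ c.2
  have hc' : c = ⟨x * T ^ k * x⁻¹, hmem⟩ := Subtype.ext hx
  rw [hc'] at hc
  exact ⟨x, k, isWidth_of_isPrim hk hmem hc, hx⟩

/-- the cusp structure of a subgroup of `SL(2, ℤ)` containing `-1`. -/
def cuspStr (Γ : Subgroup SL(2, ℤ)) (hneg : -1 ∈ Γ) : CuspStr Γ where
  P := PU Γ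
  Z := signSub Γ
  conj := fun g x hg => by
    have := IsPosUnip.conj hg (x : SL(2, ℤ))
    simpa [PU] using this
  pow := fun g n hg hn => by
    have := IsPosUnip.pow hg hn
    simpa [PU] using this
  ne_one := fun g hg h => IsPosUnip.ne_one hg (by rw [h]; rfl)
  Z_comm := by
    rintro z (hz | hz) g
    · apply Subtype.ext; rw [Subgroup.coe_mul, Subgroup.coe_mul, hz, one_mul, mul_one]
    · apply Subtype.ext; rw [Subgroup.coe_mul, Subgroup.coe_mul, hz, neg_one_mul, mul_neg_one]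
  exists_prim_pow := by
    intro g hg
    obtain ⟨x, k, hk, hx⟩ := exists_conjT_of_PU hg
    have hmem : k ∈ expSub Γ x := by rw [mem_expSub, ← hx]; exact g.2
    obtain ⟨h₀, hw⟩ := exists_isWidth hmem hk
    obtain ⟨n₀, hn₀⟩ := hw.dvd hmem
    have hn₀pos : 0 < n₀ := by
      have := hw.1
      by_contra hcon
      have : n₀ ≤ 0 := not_lt.mp hcon
      nlinarith
    refine ⟨⟨x * T ^ h₀ * x⁻¹, hw.2.1⟩, isPrim_of_isWidth hw, n₀.toNat, by omega, ?_⟩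
    apply Subtype.ext
    rw [Subgroup.coe_pow, hx]
    show (x * T ^ h₀ * x⁻¹) ^ n₀.toNat = _
    rw [conjT_pow, hn₀, Int.toNat_of_nonneg hn₀pos.le]
  root := by
    intro c p n w hc hp hw hpow
    obtain ⟨x, k, hwid, hx⟩ := exists_isWidth_of_isPrim hc
    obtain ⟨y, a, ha, hy⟩ := exists_conjT_of_PU hp
    have hk := hwid.1
    have hpow' : (p : SL(2, ℤ)) ^ n = (c : SL(2, ℤ)) ^ w := by
      have := congrArg (Subtype.val) hpow
      simpa using this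
    rw [hx, hy, conjT_pow, conjT_pow] at hpow'
    have hn0 : n ≠ 0 := by
      rintro rfl
      simp at hpow'
      have hpos : IsPosUnip (x * T ^ (k * w) * x⁻¹) :=
        isPosUnip_conjT x (by positivity)
      exact hpos.ne_one hpow'.symm
    have han : a * n ≠ 0 := mul_ne_zero ha.ne' (by exact_mod_cast hn0)
    obtain ⟨hak, hall⟩ := conjT_eq_conjT han hpow'
    have hmem : a ∈ expSub Γ x := by
      rw [mem_expSub, ← hall a, ← hy]; exact p.2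
    obtain ⟨m₀, hm₀⟩ := hwid.dvd hmem
    have hm₀pos : 0 < m₀ := by
      by_contra hcon
      have : m₀ ≤ 0 := not_lt.mp hcon
      nlinarith
    refine ⟨m₀.toNat, by omega, ?_, ?_⟩
    · apply Subtype.ext
      rw [Subgroup.coe_pow, hy, hall a, hx, conjT_pow, hm₀, Int.toNat_of_nonneg hm₀pos.le]
    · have h1 : k * (m₀ * n) = k * w := by rw [← mul_assoc, ← hm₀]; exact hak
      have h2 : m₀ * n = w := mul_left_cancel₀ hk.ne' h1
      have h3 : ((m₀.toNat * n : ℕ) : ℤ) = (w : ℤ) := by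
        push_cast; rw [Int.toNat_of_nonneg hm₀pos.le]; exact h2
      exact_mod_cast h3
  centralizer := by
    intro c δ hc hcomm
    obtain ⟨x, k, hwid, hx⟩ := exists_isWidth_of_isPrim hc
    have hk := hwid.1
    have hcomm' : (δ : SL(2, ℤ)) * (x * T ^ k * x⁻¹) * (δ : SL(2, ℤ))⁻¹ = x * T ^ k * x⁻¹ := by
      have := congrArg (Subtype.val) hcomm
      simp only [Subgroup.coe_mul] at this
      rw [← hx, this]; group
    have hz : (x⁻¹ * δ * x) * T ^ k * (x⁻¹ * δ * x)⁻¹ = T ^ k := by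
      have : (x⁻¹ * (δ : SL(2, ℤ)) * x) * T ^ k * (x⁻¹ * δ * x)⁻¹
          = x⁻¹ * ((δ : SL(2, ℤ)) * (x * T ^ k * x⁻¹) * (δ : SL(2, ℤ))⁻¹) * x := by group
      rw [this, hcomm']; group
    obtain ⟨hc0, -⟩ := eq_of_conjT_eq hk.ne' hz
    obtain ⟨i, hi | hi⟩ := eq_T_zpow_or_neg hc0
    · have hδ : (δ : SL(2, ℤ)) = x * T ^ i * x⁻¹ := by rw [← hi]; group
      have hmem : i ∈ expSub Γ x := by rw [mem_expSub, ← hδ]; exact δ.2
      obtain ⟨e', he'⟩ := hwid.dvd hmem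
      refine ⟨-e', Or.inl ?_⟩
      rw [Subgroup.coe_mul, Subgroup.coe_zpow, hx, conjT_zpow, hδ, conjT_mul, he']
      have : k * e' + k * -e' = 0 := by ring
      rw [this]; simp
    · have hδ : (δ : SL(2, ℤ)) = -(x * T ^ i * x⁻¹) := by
        have : (δ : SL(2, ℤ)) = x * (x⁻¹ * δ * x) * x⁻¹ := by group
        rw [this, hi]; simp [mul_neg, neg_mul]
      have hmem : i ∈ expSub Γ x := by
        rw [mem_expSub]
        have : x * T ^ i * x⁻¹ = (-1 : SL(2, ℤ)) * δ := by rw [hδ]; simp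
        rw [this]; exact Γ.mul_mem hneg δ.2
      obtain ⟨e', he'⟩ := hwid.dvd hmem
      refine ⟨-e', Or.inr ?_⟩
      rw [Subgroup.coe_mul, Subgroup.coe_zpow, hx, conjT_zpow, hδ, neg_mul, conjT_mul, he']
      have : k * e' + k * -e' = 0 := by ring
      rw [this]; simp

/-! ### Part 5: a family of `T`-orbit representatives (CuspRel15's shape) is a cusp family -/

theorem isWidth_of_reps {r : SL(2, ℤ)} {h : ℕ} (hpos : 0 < h) (hmem : r * T ^ h * r⁻¹ ∈ Γ)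
    (hmin : ∀ k : ℕ, 0 < k → r * T ^ k * r⁻¹ ∈ Γ → h ≤ k) : IsWidth Γ r (h : ℤ) := by
  refine ⟨by exact_mod_cast hpos, by rw [mem_expSub, zpow_natCast]; exact hmem, ?_⟩
  intro k hk hk0
  have hk' : r * T ^ k.toNat * r⁻¹ ∈ Γ := by
    rw [← zpow_natCast, Int.toNat_of_nonneg hk0.le]; exact hk
  have := hmin k.toNat (by omega) hk'
  omega

theorem IsWidth.unique {x : SL(2, ℤ)} {h h' : ℤ} (hw : IsWidth Γ x h) (hw' : IsWidth Γ x h') :
    h = h' :=
  le_antisymm (hw.2.2 h' hw'.2.1 hw'.1) (hw'.2.2 h hw.2.1 hw.1)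

/-- **A family of representatives of `Γ \ SL(2,ℤ) / ⟨T⟩` with widths gives a cusp family.**
The hypotheses are literally those of `CuspRel15.SL2Z.sum_cusp_eq_zero` (with `t = T`). -/
theorem isCuspFam_of_reps (hneg : -1 ∈ Γ) {J : Type*} (r : J → SL(2, ℤ)) (h : J → ℕ)
    (hpos : ∀ j, 0 < h j) (hmem : ∀ j, r j * T ^ h j * (r j)⁻¹ ∈ Γ)
    (hmin : ∀ j k, 0 < k → r j * T ^ k * (r j)⁻¹ ∈ Γ → h j ≤ k)
    (hcover : ∀ x : SL(2, ℤ), ∃ j, ∃ i : ℤ, ∃ η ∈ Γ, x = η * r j * T ^ i)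
    (hdisj : ∀ j j' (i : ℤ) (η : SL(2, ℤ)), η ∈ Γ → r j' = η * r j * T ^ i → j = j') :
    IsCuspFam (PU Γ) (fun j => (⟨r j * T ^ h j * (r j)⁻¹, hmem j⟩ : Γ)) where
  prim := by
    intro j
    have hw := isWidth_of_reps (hpos j) (hmem j) (hmin j)
    have := isPrim_of_isWidth hw
    have e : (⟨r j * T ^ h j * (r j)⁻¹, hmem j⟩ : Γ) = ⟨r j * T ^ (h j : ℤ) * (r j)⁻¹, hw.2.1⟩ :=
      Subtype.ext (by
        show r j * T ^ h j * (r j)⁻¹ = r j * T ^ ((h j : ℕ) : ℤ) * (r j)⁻¹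
        rw [zpow_natCast])
    rw [e]; exact this
  cover := by
    intro g hg
    obtain ⟨x, k, hwid, hx⟩ := exists_isWidth_of_isPrim hg
    obtain ⟨j, i, η, hη, hxη⟩ := hcover x
    have hconj : ∀ e : ℤ, x * T ^ e * x⁻¹ = η * (r j * T ^ e * (r j)⁻¹) * η⁻¹ := by
      intro e
      rw [hxη]
      have hc : T ^ i * T ^ e * (T ^ i)⁻¹ = T ^ e := by
        rw [← _root_.zpow_neg, ← _root_.zpow_add, ← _root_.zpow_add]; congr 1; ring
      calc η * r j * T ^ i * T ^ e * (η * r j * T ^ i)⁻¹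
          = η * (r j * (T ^ i * T ^ e * (T ^ i)⁻¹) * (r j)⁻¹) * η⁻¹ := by group
        _ = _ := by rw [hc]
    have hw := isWidth_of_reps (hpos j) (hmem j) (hmin j)
    -- `k` is also the width of `r j`
    have hk : IsWidth Γ (r j) k := by
      refine ⟨hwid.1, ?_, ?_⟩
      · rw [mem_expSub]
        have : r j * T ^ k * (r j)⁻¹ = η⁻¹ * (x * T ^ k * x⁻¹) * η := by rw [hconj]; group
        rw [this]; exact Γ.mul_mem (Γ.mul_mem (Γ.inv_mem hη) hwid.2.1) hη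
      · intro k' hk' hk'0
        refine hwid.2.2 k' ?_ hk'0
        rw [mem_expSub, hconj]
        exact Γ.mul_mem (Γ.mul_mem hη hk') (Γ.inv_mem hη)
    have hkh : k = (h j : ℤ) := hk.unique hw
    refine ⟨j, ⟨η, hη⟩, ?_⟩
    apply Subtype.ext
    rw [Subgroup.coe_mul, Subgroup.coe_mul, Subgroup.coe_inv, hx, hconj, hkh, zpow_natCast]
  inj := by
    intro j j' γ hγ
    have hγ' := congrArg (Subtype.val) hγ
    simp only [Subgroup.coe_mul, Subgroup.coe_inv] at hγ'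
    -- `z := (r j')⁻¹ γ (r j)` conjugates `T^h` to `T^h'`
    have hz : ((r j')⁻¹ * γ * r j) * T ^ (h j : ℤ) * ((r j')⁻¹ * γ * r j)⁻¹ = T ^ (h j' : ℤ) := by
      have : ((r j')⁻¹ * (γ : SL(2, ℤ)) * r j) * T ^ (h j : ℤ) * ((r j')⁻¹ * γ * r j)⁻¹
          = (r j')⁻¹ * ((γ : SL(2, ℤ)) * (r j * T ^ h j * (r j)⁻¹) * (γ : SL(2, ℤ))⁻¹) * r j' := by
        rw [zpow_natCast]; group
      rw [this, ← hγ', zpow_natCast]; group
    have hh : ((h j : ℕ) : ℤ) ≠ 0 := by exact_mod_cast (hpos j).ne'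
    obtain ⟨hc0, -⟩ := eq_of_conjT_eq hh hz
    obtain ⟨m, hm | hm⟩ := eq_T_zpow_or_neg hc0
    · refine hdisj j j' (-m) γ γ.2 ?_
      have : r j' = (γ : SL(2, ℤ)) * r j * ((r j')⁻¹ * γ * r j)⁻¹ := by group
      rw [this, hm, _root_.zpow_neg]
    · refine hdisj j j' (-m) (-(γ : SL(2, ℤ))) ?_ ?_
      · have : -(γ : SL(2, ℤ)) = (-1 : SL(2, ℤ)) * γ := by simp
        rw [this]; exact Γ.mul_mem hneg γ.2
      · have : r j' = (γ : SL(2, ℤ)) * r j * ((r j')⁻¹ * γ * r j)⁻¹ := by group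
        rw [this, hm, _root_.zpow_neg]
        have e2 : (-(T ^ m) : SL(2, ℤ))⁻¹ = -((T ^ m)⁻¹) :=
          inv_eq_of_mul_eq_one_right (by rw [neg_mul_neg, mul_inv_cancel])
        rw [e2]; simp [mul_neg, neg_mul]

/-! ### Part 3: conjugation by `diag(q, 1)` preserves positive unipotents -/

theorem twist_sign_aux (q b c : ℤ) (hq : 0 < q) (hbc : b * c ≤ 0) :
    0 < q * b - c ↔ 0 < b - q * c := by
  rcases le_total 0 b with hb | hb
  · rcases le_total 0 c with hc | hc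
    · have hprod : b * c = 0 := le_antisymm hbc (mul_nonneg hb hc)
      rcases mul_eq_zero.mp hprod with h0 | h0
      · subst h0
        constructor <;> intro h <;> nlinarith
      · subst h0
        constructor <;> intro h <;> nlinarith
    · have h1 : q * c ≤ 0 := mul_nonpos_of_nonneg_of_nonpos hq.le hc
      have h2 : 0 ≤ q * b := mul_nonneg hq.le hb
      constructor
      · intro h
        by_contra hcon
        have hb0 : b = 0 := by linarith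
        have hqc : q * c = 0 := by linarith
        have hc0 : c = 0 := by
          rcases mul_eq_zero.mp hqc with h | h
          · exact absurd h hq.ne'
          · exact h
        rw [hb0, hc0] at h; simp at h
      · intro h
        by_contra hcon
        have hc0 : c = 0 := by linarith
        have hqb : q * b = 0 := by linarith
        have hb0 : b = 0 := by
          rcases mul_eq_zero.mp hqb with h | h
          · exact absurd h hq.ne'
          · exact h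
        rw [hb0, hc0] at h; simp at h
  · rcases le_total 0 c with hc | hc
    · have h1 : q * b ≤ 0 := mul_nonpos_of_nonneg_of_nonpos hq.le hb
      have h2 : 0 ≤ q * c := mul_nonneg hq.le hc
      constructor <;> intro h <;> linarith
    · have hprod : b * c = 0 := le_antisymm hbc (mul_nonneg_of_nonpos_of_nonpos hb hc)
      rcases mul_eq_zero.mp hprod with h0 | h0
      · subst h0
        constructor <;> intro h <;> nlinarith
      · subst h0
        constructor <;> intro h <;> nlinarith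

/-- entrywise form: `g' = μ g μ⁻¹`, `μ = diag(q,1)`, `q > 0`. -/
theorem isPosUnip_twist_iff {g g' : SL(2, ℤ)} {q : ℤ} (hq : 0 < q) (h00 : g' 0 0 = g 0 0)
    (h01 : g' 0 1 = q * g 0 1) (h10 : q * g' 1 0 = g 1 0) (h11 : g' 1 1 = g 1 1) :
    IsPosUnip g' ↔ IsPosUnip g := by
  have hd := det_eq g
  unfold IsPosUnip
  rw [h00, h01, h11, ← h10]
  constructor
  · rintro ⟨htr, hpos⟩
    refine ⟨htr, ?_⟩
    have hbc : g 0 1 * g' 1 0 ≤ 0 := by
      have h1 : q * (g 0 1 * g' 1 0) = -(g 0 0 - 1) ^ 2 := by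
        rw [← h10] at hd
        have : g 1 1 = 2 - g 0 0 := by linarith
        rw [this] at hd
        linear_combination -hd
      by_contra hcon
      have : 0 < g 0 1 * g' 1 0 := not_le.mp hcon
      nlinarith [sq_nonneg (g 0 0 - 1)]
    exact (twist_sign_aux q _ _ hq hbc).mp hpos
  · rintro ⟨htr, hpos⟩
    refine ⟨htr, ?_⟩
    have hbc : g 0 1 * g' 1 0 ≤ 0 := by
      have h1 : q * (g 0 1 * g' 1 0) = -(g 0 0 - 1) ^ 2 := by
        rw [← h10] at hd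
        have : g 1 1 = 2 - g 0 0 := by linarith
        rw [this] at hd
        linear_combination -hd
      by_contra hcon
      have : 0 < g 0 1 * g' 1 0 := not_le.mp hcon
      nlinarith [sq_nonneg (g 0 0 - 1)]
    exact (twist_sign_aux q _ _ hq hbc).mpr hpos

end Fermat.Agent.ES.I2.PosPar2
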