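import Mathlib
import Fermat.Agent.ES.I2.PosPar2
import Fermat.Agent.ES.I2.TransferAdj3
import Fermat.Agent.ES.LR.Degeneracy27

set_option autoImplicit false

/-!
# The induced cusp family of `TransferAdj3` is a cusp family (helper2)
-/

namespace Fermat.Agent.ES.I2.CuspFamAdj2

open Fermat.Agent.ES.I2.CuspFam2 Fermat.Agent.ES.I2.Kappa2 Fermat.Agent.ES.I2.TransferAdj3
open MulAction Subgroup Function

variable {G : Type*} [Group G]

theorem IsCuspFam.reindex {P : G → Prop} {J₁ J₂ : Type*} {c₁ : J₁ → G} (hc : IsCuspFam P c₁)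
    (e : J₂ ≃ J₁) {c₂ : J₂ → G} (h : ∀ x, c₂ x = c₁ (e x)) : IsCuspFam P c₂ where
  prim := fun x => by rw [h]; exact hc.prim _
  cover := fun g hg => by
    obtain ⟨j, γ, hγ⟩ := hc.cover g hg
    exact ⟨e.symm j, γ, by rw [h, e.apply_symm_apply]; exact hγ⟩
  inj := fun x x' γ hx => by
    rw [h, h] at hx
    exact e.injective (hc.inj _ _ γ hx)

section

variable {H : Subgroup G} (t : G ⧸ H → G) (ht : ∀ q, (t q : G ⧸ H) = q)

theorem minimalPeriod_perm_eq (g : G) (s : G ⧸ H) :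
    minimalPeriod ((ofSection H t ht).perm g) s = minimalPeriod (g • ·) s := by
  rw [Function.minimalPeriod_eq_minimalPeriod_iff]
  intro n
  rw [Function.IsPeriodicPt, Function.IsFixedPt, Equiv.Perm.iterate_eq_pow,
    perm_pow_apply, Function.IsPeriodicPt, Function.IsFixedPt, smul_iterate]
  rw [inv_smul_eq_iff]
  exact eq_comm

theorem sameCycle_iff_orbitRel (g : G) (s q : G ⧸ H) :
    ((ofSection H t ht).perm g).SameCycle s q ↔ orbitRel (zpowers g) (G ⧸ H) s q := by
  rw [orbitRel_apply, MulAction.mem_orbit_iff]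
  constructor
  · rintro ⟨i, hi⟩
    rw [perm_zpow_apply] at hi
    refine ⟨⟨g ^ i, zpow_mem_zpowers g i⟩, ?_⟩
    show g ^ i • q = s
    rw [← hi, smul_inv_smul]
  · rintro ⟨⟨z, hz⟩, hzq⟩
    obtain ⟨i, rfl⟩ := mem_zpowers_iff.mp hz
    refine ⟨i, ?_⟩
    rw [perm_zpow_apply, inv_smul_eq_iff]
    exact hzq.symm

variable [Fintype (G ⧸ H)]

/-- **The induced cusp family of `TransferAdj3` is a cusp family of `H`.** -/
theorem isCuspFam_inducedCusp (𝒮 : CuspStr G) (hZ : 𝒮.Z ≤ H) {J : Type*} [Fintype J] (c : J → G)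
    [∀ j, Fintype (orbitRel.Quotient (zpowers (c j)) (G ⧸ H))] (hc : IsCuspFam 𝒮.P c) :
    IsCuspFam (fun h : H => 𝒮.P (h : G)) (inducedCusp t ht c) := by
  classical
  let S : J → Finset (G ⧸ H) := fun j =>
    Finset.univ.image (fun o : orbitRel.Quotient (zpowers (c j)) (G ⧸ H) => o.out)
  have hS : ∀ j q, ∃! s, s ∈ S j ∧ ((ofSection H t ht).perm (c j)).SameCycle s q := by
    intro j q
    refine ⟨(Quotient.mk'' q : orbitRel.Quotient (zpowers (c j)) (G ⧸ H)).out,
      ⟨Finset.mem_image_of_mem _ (Finset.mem_univ _), ?_⟩, ?_⟩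
    · rw [sameCycle_iff_orbitRel]
      exact Quotient.exact' (Quotient.out_eq' _)
    · rintro s ⟨hs, hsq⟩
      obtain ⟨o, -, rfl⟩ := Finset.mem_image.mp hs
      rw [sameCycle_iff_orbitRel] at hsq
      have : o = Quotient.mk'' q := by
        rw [← Quotient.out_eq' o]
        exact Quotient.sound' hsq
      rw [this]
  have hfam := isCuspFam_transferFam 𝒮 H t ht c S hZ hc hS
  let e : (Σ j : J, orbitRel.Quotient (zpowers (c j)) (G ⧸ H)) ≃ (Σ j, {s // s ∈ S j}) :=
    Equiv.sigmaCongrRight fun j =>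
      Equiv.ofBijective (fun o => ⟨o.out, Finset.mem_image_of_mem _ (Finset.mem_univ _)⟩)
        ⟨fun o o' h => by
          have h' : o.out = o'.out := congrArg Subtype.val h
          rw [← Quotient.out_eq' o, ← Quotient.out_eq' o', h'],
         fun ⟨s, hs⟩ => by
          obtain ⟨o, -, rfl⟩ := Finset.mem_image.mp hs
          exact ⟨o, rfl⟩⟩
  refine IsCuspFam.reindex hfam e (fun x => ?_)
  apply Subtype.ext
  rw [coe_transferFam]
  obtain ⟨j, o⟩ := x
  show (t o.out)⁻¹ * c j ^ minimalPeriod (c j • ·) o.out * t o.out = _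
  simp only [e, Equiv.sigmaCongrRight_apply, Equiv.ofBijective_apply]
  rw [minimalPeriod_perm_eq]
  rfl

end

/-! ### pulling the induced family back along an injective homomorphism -/

section Pullback

variable {G' : Type*} [Group G'] (ι : G' →* G) (hι : Function.Injective ι)
  [Fintype (G ⧸ ι.range)] (t : G ⧸ ι.range → G) (ht : ∀ q, (t q : G ⧸ ι.range) = q)

include hι in
/-- The `ι`-preimage `c''` of the induced cusp family (the family of `DegAdj3.pairing_coresAdd`)
is a cusp family of `G'` for the predicate `P' = 𝒮.P ∘ ι`. -/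
theorem isCuspFam_of_inducedCusp (𝒮 : CuspStr G) (hZ : 𝒮.Z ≤ ι.range) (P' : G' → Prop)
    (hP' : ∀ g', P' g' ↔ 𝒮.P (ι g')) {J : Type*} [Fintype J] (c : J → G)
    [∀ j, Fintype (orbitRel.Quotient (zpowers (c j)) (G ⧸ ι.range))] (hc : IsCuspFam 𝒮.P c)
    (c'' : (Σ j : J, orbitRel.Quotient (zpowers (c j)) (G ⧸ ι.range)) → G')
    (hc'' : ∀ i, ι (c'' i) = (inducedCusp t ht c i : G)) : IsCuspFam P' c'' := by
  have hfam := isCuspFam_inducedCusp t ht 𝒮 hZ c hc
  have hθ : ∀ h : ι.range, P' ((MonoidHom.ofInjective hι).symm h) ↔ 𝒮.P (h : G) := by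
    intro h
    rw [hP']
    have : ι ((MonoidHom.ofInjective hι).symm h) = (h : G) := by
      have := (MonoidHom.ofInjective hι).apply_symm_apply h
      exact congrArg Subtype.val this
    rw [this]
  have hmap := hfam.map (MonoidHom.ofInjective hι).symm hθ
  refine IsCuspFam.reindex hmap (Equiv.refl _) (fun x => ?_)
  show c'' x = (MonoidHom.ofInjective hι).symm (inducedCusp t ht c x)
  rw [MulEquiv.eq_symm_apply]
  exact Subtype.ext (hc'' x)

end Pullback

/-! ### the two degeneracy maps `Γ₀(N q) → Γ₀(N)` -/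

section Gamma0

open CongruenceSubgroup Fermat.Agent.ES.LR.Degeneracy27 Fermat.Agent.ES.I2.PosPar2
open scoped MatrixGroups

variable (N q : ℕ)

theorem neg_one_mem_Gamma0 : (-1 : SL(2, ℤ)) ∈ Gamma0 N := by
  rw [Gamma0_mem]
  simp

theorem signSub_le_range_inclH : signSub (Gamma0 N) ≤ (inclH N q).range := by
  rintro z (hz | hz)
  · exact ⟨1, Subtype.ext (by rw [hz]; rfl)⟩
  · exact ⟨⟨-1, neg_one_mem_Gamma0 (N * q)⟩, Subtype.ext (by rw [hz]; rfl)⟩

theorem PU_inclH (g' : Gamma0 (N * q)) : PU (Gamma0 (N * q)) g' ↔ PU (Gamma0 N) (inclH N q g') :=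
  Iff.rfl

variable [NeZero q]

theorem PU_twistH (g' : Gamma0 (N * q)) :
    PU (Gamma0 (N * q)) g' ↔ PU (Gamma0 N) (twistH N q g') := by
  have hq : (0 : ℤ) < (q : ℤ) := by exact_mod_cast Nat.pos_of_ne_zero (NeZero.ne q)
  exact (isPosUnip_twist_iff hq (twistH_apply_zero_zero N q g') (twistH_apply_zero_one N q g')
    (twistH_apply_one_zero N q g') (twistH_apply_one_one N q g')).symm

theorem signSub_le_range_twistH : signSub (Gamma0 N) ≤ (twistH N q).range := by
  rintro z (hz | hz)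
  · exact ⟨1, by rw [map_one]; exact Subtype.ext (by rw [hz]; rfl)⟩
  · refine ⟨⟨-1, neg_one_mem_Gamma0 (N * q)⟩, ?_⟩
    apply Subtype.ext
    rw [hz]
    apply Matrix.SpecialLinearGroup.ext
    intro i j
    rw [coe_twistH]
    fin_cases i <;> fin_cases j <;> simp [twistMat]

omit [NeZero q] in
/-- **`inclH`**: the preimage of the induced cusp family is a cusp family of `Γ₀(N q)`. -/
theorem isCuspFam_inclH [Fintype (Gamma0 N ⧸ (inclH N q).range)]
    (t : Gamma0 N ⧸ (inclH N q).range → Gamma0 N)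
    (ht : ∀ x, (t x : Gamma0 N ⧸ (inclH N q).range) = x) {J : Type*} [Fintype J]
    (c : J → Gamma0 N)
    [∀ j, Fintype (orbitRel.Quotient (zpowers (c j)) (Gamma0 N ⧸ (inclH N q).range))]
    (hc : IsCuspFam (PU (Gamma0 N)) c)
    (c'' : (Σ j : J, orbitRel.Quotient (zpowers (c j)) (Gamma0 N ⧸ (inclH N q).range))
      → Gamma0 (N * q))
    (hc'' : ∀ i, inclH N q (c'' i) = ((inducedCusp t ht c i : ↥(inclH N q).range) : ↥(Gamma0 N))) :
    IsCuspFam (PU (Gamma0 (N * q))) c'' :=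
  isCuspFam_of_inducedCusp (inclH N q) (inclH_injective N q) t ht
    (cuspStr (Gamma0 N) (neg_one_mem_Gamma0 N)) (signSub_le_range_inclH N q) _ (PU_inclH N q) c hc
    c'' hc''

/-- **`twistH`**: the preimage of the induced cusp family is a cusp family of `Γ₀(N q)`. -/
theorem isCuspFam_twistH [Fintype (Gamma0 N ⧸ (twistH N q).range)]
    (t : Gamma0 N ⧸ (twistH N q).range → Gamma0 N)
    (ht : ∀ x, (t x : Gamma0 N ⧸ (twistH N q).range) = x) {J : Type*} [Fintype J]
    (c : J → Gamma0 N)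
    [∀ j, Fintype (orbitRel.Quotient (zpowers (c j)) (Gamma0 N ⧸ (twistH N q).range))]
    (hc : IsCuspFam (PU (Gamma0 N)) c)
    (c'' : (Σ j : J, orbitRel.Quotient (zpowers (c j)) (Gamma0 N ⧸ (twistH N q).range))
      → Gamma0 (N * q))
    (hc'' : ∀ i, twistH N q (c'' i) = ((inducedCusp t ht c i : ↥(twistH N q).range) : ↥(Gamma0 N))) :
    IsCuspFam (PU (Gamma0 (N * q))) c'' :=
  isCuspFam_of_inducedCusp (twistH N q) (twistH_injective N q) t ht
    (cuspStr (Gamma0 N) (neg_one_mem_Gamma0 N)) (signSub_le_range_twistH N q) _ (PU_twistH N q) c hc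
    c'' hc''

end Gamma0

end Fermat.Agent.ES.I2.CuspFamAdj2
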