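import Mathlib
import Fermat.Agent.ES.I2.PosPar2
import Fermat.Agent.ES.LR.Degeneracy27

/-!
# (I2) (ADJ), Part 3 (helper26): the degeneracy maps and positive unipotents; the MATCHING

* `isPosUnip_twistH_iff`, `isPosUnip_inclH_iff`: `twistH N q` (conjugation by `diag(q,1)`) and
  `inclH N q` preserve and reflect `PosPar2.IsPosUnip`;
* `isPrim_map_iff`, `IsCuspFam.map_ofInjective`: an injective homomorphism `ι : G' →* G` with
  `P (ι g) ↔ P' g` carries primitive elements / cusp families of `(G', P')` to primitive elements /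
  cusp families of `(ι.range, P)`;
* `exists_match` : **the MATCHING input `hmatch` of `EAdjCore3.E2_adj`**, abstractly: if `d` is a
  cusp family of `(ι.range, P)` (e.g. the induced family of a cusp family of `G`) and `c'` is a cusp
  family of `(G', P')`, then there are `e : I ≃ J'` and conjugators `γ i : G'` with
  `ι (γ i * c' (e i) * (γ i)⁻¹) = d i`;
* `exists_match_twistH`, `exists_match_inclH`: the two instances for `Γ₀(Nq) → Γ₀(N)` with
  `P = PU (Gamma0 N)`, `P' = PU (Gamma0 (N * q))`.
-/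

set_option autoImplicit false
set_option linter.unusedSectionVars false

open Matrix CongruenceSubgroup
open scoped MatrixGroups

namespace Fermat.Agent.ES.I2.TwistPP26

open Fermat.Agent.ES.I2.CuspFam2 Fermat.Agent.ES.I2.PosPar2
open Fermat.Agent.ES.LR.Degeneracy27

/-! ### abstract transport along an injective homomorphism -/

section Abstract

variable {G' G : Type*} [Group G'] [Group G]

/-- the isomorphism `G' ≃ ι.range` carries the predicate `P'` to `P`. -/
theorem ofInjective_pred_iff (ι : G' →* G) (hι : Function.Injective ι) (P' : G' → Prop)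
    (P : G → Prop) (hP : ∀ g, P (ι g) ↔ P' g) (g : G') :
    (fun h : ι.range => P (h : G)) (MonoidHom.ofInjective hι g) ↔ P' g := hP g

/-- cusp families of `(G', P')` map to cusp families of `(ι.range, P)`. -/
theorem IsCuspFam.map_ofInjective (ι : G' →* G) (hι : Function.Injective ι) (P' : G' → Prop)
    (P : G → Prop) (hP : ∀ g, P (ι g) ↔ P' g) {J' : Type*} {c' : J' → G'}
    (hc' : IsCuspFam P' c') :
    IsCuspFam (fun h : ι.range => P (h : G)) (fun j => MonoidHom.ofInjective hι (c' j)) :=
  hc'.map (MonoidHom.ofInjective hι) (ofInjective_pred_iff ι hι P' P hP)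

/-- **the MATCHING** (`hmatch` of `EAdjCore3.E2_adj`), abstractly. -/
theorem exists_match (ι : G' →* G) (hι : Function.Injective ι) (P' : G' → Prop)
    (P : G → Prop) (hP : ∀ g, P (ι g) ↔ P' g) {I J' : Type*} {d : I → ι.range}
    (hd : IsCuspFam (fun h : ι.range => P (h : G)) d) {c' : J' → G'} (hc' : IsCuspFam P' c') :
    ∃ (e : I ≃ J') (γ : I → G'), ∀ i, ι (γ i * c' (e i) * (γ i)⁻¹) = (d i : G) := by
  obtain ⟨e, he⟩ := hd.exists_equiv (IsCuspFam.map_ofInjective ι hι P' P hP hc')
  choose γ hγ using he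
  refine ⟨e, fun i => (MonoidHom.ofInjective hι).symm (γ i), fun i => ?_⟩
  have h1 : MonoidHom.ofInjective hι
      ((MonoidHom.ofInjective hι).symm (γ i) * c' (e i) * ((MonoidHom.ofInjective hι).symm (γ i))⁻¹)
      = d i := by
    rw [map_mul, map_mul, map_inv, MulEquiv.apply_symm_apply]
    exact (hγ i).symm
  rw [← MonoidHom.ofInjective_apply hι, h1]

end Abstract

/-! ### the two degeneracy maps -/

section Gamma0

variable (N q : ℕ) [NeZero q]

/-- `twistH` (conjugation by `diag(q, 1)`) preserves and reflects positive unipotents. -/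
theorem isPosUnip_twistH_iff (γ : Gamma0 (N * q)) :
    IsPosUnip ((twistH N q γ : Gamma0 N) : SL(2, ℤ)) ↔ IsPosUnip (γ : SL(2, ℤ)) := by
  have hq : (0 : ℤ) < (q : ℤ) := by exact_mod_cast Nat.pos_of_ne_zero (NeZero.ne q)
  exact isPosUnip_twist_iff hq (twistH_apply_zero_zero N q γ) (twistH_apply_zero_one N q γ)
    (twistH_apply_one_zero N q γ) (twistH_apply_one_one N q γ)

omit [NeZero q] in
/-- the inclusion preserves and reflects positive unipotents. -/
theorem isPosUnip_inclH_iff (γ : Gamma0 (N * q)) :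
    IsPosUnip ((inclH N q γ : Gamma0 N) : SL(2, ℤ)) ↔ IsPosUnip (γ : SL(2, ℤ)) := Iff.rfl

theorem PU_twistH_iff (γ : Gamma0 (N * q)) :
    PU (Gamma0 N) (twistH N q γ) ↔ PU (Gamma0 (N * q)) γ := isPosUnip_twistH_iff N q γ

omit [NeZero q] in
theorem PU_inclH_iff (γ : Gamma0 (N * q)) :
    PU (Gamma0 N) (inclH N q γ) ↔ PU (Gamma0 (N * q)) γ := Iff.rfl

/-- `twistH` carries primitive positive unipotents of `Γ₀(Nq)` to primitive positive unipotents of
its range, and back. -/
theorem isPrim_twistH_iff (γ : Gamma0 (N * q)) :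
    IsPrim (fun h : (twistH N q).range => PU (Gamma0 N) (h : Gamma0 N))
        (MonoidHom.ofInjective (twistH_injective N q) γ)
      ↔ IsPrim (PU (Gamma0 (N * q))) γ := by
  set θ := MonoidHom.ofInjective (twistH_injective N q) with hθ
  have hP : ∀ g, (fun h : (twistH N q).range => PU (Gamma0 N) (h : Gamma0 N)) (θ g)
      ↔ PU (Gamma0 (N * q)) g := fun g => PU_twistH_iff N q g
  constructor
  · rintro ⟨h1, h2⟩
    refine ⟨(hP γ).mp h1, fun h hh n hn => h2 (θ h) ((hP h).mpr hh) n ?_⟩
    rw [← map_pow, hn]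
  · rintro ⟨h1, h2⟩
    refine ⟨(hP γ).mpr h1, fun h hh n hn => h2 (θ.symm h) ?_ n ?_⟩
    · rw [← hP, θ.apply_symm_apply]; exact hh
    · apply θ.injective
      rw [map_pow, θ.apply_symm_apply, hn]

/-- cusp families of `Γ₀(Nq)` ↦ cusp families of `range twistH = Γ₀(N) ∩ Γ⁰(q)`. -/
theorem isCuspFam_twistH {J' : Type*} {c' : J' → Gamma0 (N * q)}
    (hc' : IsCuspFam (PU (Gamma0 (N * q))) c') :
    IsCuspFam (fun h : (twistH N q).range => PU (Gamma0 N) (h : Gamma0 N))
      (fun j => MonoidHom.ofInjective (twistH_injective N q) (c' j)) :=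
  IsCuspFam.map_ofInjective (twistH N q) (twistH_injective N q) _ _ (PU_twistH_iff N q) hc'

omit [NeZero q] in
/-- cusp families of `Γ₀(Nq)` ↦ cusp families of `range inclH`. -/
theorem isCuspFam_inclH {J' : Type*} {c' : J' → Gamma0 (N * q)}
    (hc' : IsCuspFam (PU (Gamma0 (N * q))) c') :
    IsCuspFam (fun h : (inclH N q).range => PU (Gamma0 N) (h : Gamma0 N))
      (fun j => MonoidHom.ofInjective (inclH_injective N q) (c' j)) :=
  IsCuspFam.map_ofInjective (inclH N q) (inclH_injective N q) _ _ (PU_inclH_iff N q) hc'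

/-- **(MATCH twistH)**: `d` a cusp family of `range twistH` (e.g. the induced family
`TransferAdj3.inducedCusp` of a cusp family of `Γ₀(N)`), `c'` a cusp family of `Γ₀(Nq)`. -/
theorem exists_match_twistH {I J' : Type*} {d : I → (twistH N q).range}
    (hd : IsCuspFam (fun h : (twistH N q).range => PU (Gamma0 N) (h : Gamma0 N)) d)
    {c' : J' → Gamma0 (N * q)} (hc' : IsCuspFam (PU (Gamma0 (N * q))) c') :
    ∃ (e : I ≃ J') (γ : I → Gamma0 (N * q)),
      ∀ i, twistH N q (γ i * c' (e i) * (γ i)⁻¹) = (d i : Gamma0 N) :=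
  exists_match (twistH N q) (twistH_injective N q) _ _ (PU_twistH_iff N q) hd hc'

omit [NeZero q] in
/-- **(MATCH inclH)**. -/
theorem exists_match_inclH {I J' : Type*} {d : I → (inclH N q).range}
    (hd : IsCuspFam (fun h : (inclH N q).range => PU (Gamma0 N) (h : Gamma0 N)) d)
    {c' : J' → Gamma0 (N * q)} (hc' : IsCuspFam (PU (Gamma0 (N * q))) c') :
    ∃ (e : I ≃ J') (γ : I → Gamma0 (N * q)),
      ∀ i, inclH N q (γ i * c' (e i) * (γ i)⁻¹) = (d i : Gamma0 N) :=
  exists_match (inclH N q) (inclH_injective N q) _ _ (PU_inclH_iff N q) hd hc'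

end Gamma0

end Fermat.Agent.ES.I2.TwistPP26
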