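import Mathlib
import Fermat.Agent.ES.I2.CuspFamAdj2
import Fermat.Agent.ES.I2.Complete15
import Fermat.Agent.ES.I2.TwistPP26

set_option autoImplicit false

/-!
# The canonical cusp family `CuspSys13.cuspFam Γ` is a cusp family; the two matchings (helper2)
-/

namespace Fermat.Agent.ES.I2.CuspFamCanon2

open Fermat.Agent.ES.I2.CuspFam2 Fermat.Agent.ES.I2.PosPar2 Fermat.Agent.ES.I2.CuspSys13
open Fermat.Agent.ES.I2.TransferAdj3 Fermat.Agent.ES.I2.CuspFamAdj2
open Fermat.Agent.ES.LR.Degeneracy27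
open MulAction Subgroup Function CongruenceSubgroup
open scoped MatrixGroups

/-- **`cuspFam Γ` is a cusp family** for the intrinsic predicate "positive unipotent". -/
theorem isCuspFam_cuspFam (Γ : Subgroup SL(2, ℤ)) [Γ.FiniteIndex] (hneg : -1 ∈ Γ) :
    IsCuspFam (PU Γ) (cuspFam Γ) := by
  have hc := Complete15.isComplete_orbFam Γ (ModularGroup.T : SL(2, ℤ))
  have h := isCuspFam_of_reps hneg _ _ hc.pos hc.mem hc.min hc.cover hc.disj
  refine CuspFamAdj2.IsCuspFam.reindex h (Equiv.refl _) (fun q => ?_)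
  exact Subtype.ext (Complete15.coe_cuspFam_eq Γ q)

section Gamma0

variable (N q : ℕ) [NeZero N] [NeZero q]

/-- **(MATCH inclH)** for the canonical families, literally the `e γ hmatch` of `EAdjCore3.E2_adj`. -/
theorem exists_match_inclH_cuspFam [Fintype (Gamma0 N ⧸ (inclH N q).range)]
    (t : Gamma0 N ⧸ (inclH N q).range → Gamma0 N)
    (ht : ∀ x, (t x : Gamma0 N ⧸ (inclH N q).range) = x)
    [∀ j, Fintype (orbitRel.Quotient (zpowers (cuspFam (Gamma0 N) j))
      (Gamma0 N ⧸ (inclH N q).range))] :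
    ∃ (e : (Σ j, orbitRel.Quotient (zpowers (cuspFam (Gamma0 N) j))
          (Gamma0 N ⧸ (inclH N q).range)) ≃
        orbitRel.Quotient (zpowers (ModularGroup.T : SL(2, ℤ))) (SL(2, ℤ) ⧸ Gamma0 (N * q)))
      (γ : (Σ j, orbitRel.Quotient (zpowers (cuspFam (Gamma0 N) j))
          (Gamma0 N ⧸ (inclH N q).range)) → Gamma0 (N * q)),
      ∀ i, inclH N q (γ i * cuspFam (Gamma0 (N * q)) (e i) * (γ i)⁻¹)
        = ((inducedCusp t ht (cuspFam (Gamma0 N)) i : ↥(inclH N q).range) : ↥(Gamma0 N)) := by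
  classical
  have : Fintype (orbitRel.Quotient (zpowers (ModularGroup.T : SL(2, ℤ))) (SL(2, ℤ) ⧸ Gamma0 N)) :=
    Fintype.ofFinite _
  exact TwistPP26.exists_match_inclH N q
    (isCuspFam_inducedCusp t ht (cuspStr (Gamma0 N) (neg_one_mem_Gamma0 N))
      (signSub_le_range_inclH N q) _ (isCuspFam_cuspFam (Gamma0 N) (neg_one_mem_Gamma0 N)))
    (isCuspFam_cuspFam (Gamma0 (N * q)) (neg_one_mem_Gamma0 (N * q)))

/-- **(MATCH twistH)** for the canonical families. -/
theorem exists_match_twistH_cuspFam [Fintype (Gamma0 N ⧸ (twistH N q).range)]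
    (t : Gamma0 N ⧸ (twistH N q).range → Gamma0 N)
    (ht : ∀ x, (t x : Gamma0 N ⧸ (twistH N q).range) = x)
    [∀ j, Fintype (orbitRel.Quotient (zpowers (cuspFam (Gamma0 N) j))
      (Gamma0 N ⧸ (twistH N q).range))] :
    ∃ (e : (Σ j, orbitRel.Quotient (zpowers (cuspFam (Gamma0 N) j))
          (Gamma0 N ⧸ (twistH N q).range)) ≃
        orbitRel.Quotient (zpowers (ModularGroup.T : SL(2, ℤ))) (SL(2, ℤ) ⧸ Gamma0 (N * q)))
      (γ : (Σ j, orbitRel.Quotient (zpowers (cuspFam (Gamma0 N) j))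
          (Gamma0 N ⧸ (twistH N q).range)) → Gamma0 (N * q)),
      ∀ i, twistH N q (γ i * cuspFam (Gamma0 (N * q)) (e i) * (γ i)⁻¹)
        = ((inducedCusp t ht (cuspFam (Gamma0 N)) i : ↥(twistH N q).range) : ↥(Gamma0 N)) := by
  classical
  have : Fintype (orbitRel.Quotient (zpowers (ModularGroup.T : SL(2, ℤ))) (SL(2, ℤ) ⧸ Gamma0 N)) :=
    Fintype.ofFinite _
  exact TwistPP26.exists_match_twistH N q
    (isCuspFam_inducedCusp t ht (cuspStr (Gamma0 N) (neg_one_mem_Gamma0 N))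
      (signSub_le_range_twistH N q) _ (isCuspFam_cuspFam (Gamma0 N) (neg_one_mem_Gamma0 N)))
    (isCuspFam_cuspFam (Gamma0 (N * q)) (neg_one_mem_Gamma0 (N * q)))

end Gamma0

end Fermat.Agent.ES.I2.CuspFamCanon2
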