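import Mathlib
import Fermat.Agent.ES.I2.CuspPairing25
import Fermat.Agent.ES.I2.CuspPairingHom25

/-!
# (I2): the DOUBLED cusp pairing `E2 = 2 P`, defined without dividing by `2` (helper25)

Over `ℤ` the cup product `φ ∪ ψ` of two parabolic homs has in general only a `½`-integral primitive;
`(2 φ) ∪ ψ` always has an integral one (`PrimExistsGen25.exists_cupPrimitive_two_PSL2`).  So the
integral pairing of the (I2) contract is `E2 c φ ψ := pairing c (2 • φ) ψ`.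

* `HasPrim2 c` : **(K2)** every pair of parabolic homs `(φ, ψ)` has a primitive of `(2 • φ, ψ)`.
* `E2_eq` : `E2 c φ ψ = ∑ j, κ (c j)` for ANY primitive `κ` of `(2 • φ, ψ)`.
* `E2_add_left/right`, `E2_smul_left/right`, `E2_zero_left/right`: bilinear.
* `E2_self : E2 c φ φ = 0` over ANY ring (`κ = -φ²`), `E2_swap : E2 c ψ φ = -E2 c φ ψ`.
* `E2_conj`, `E2_reindex`, `E2_comp_equiv`, `E2_comp_hom`: independence of the cusp family,
  naturality.
-/

set_option linter.unusedSectionVars false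

namespace Fermat.Agent.ES.I2.CuspPairingTwo25

open Fermat.Agent.ES.I2.CuspPairing25 Fermat.Agent.ES.I2.CuspPairingHom25

variable {G : Type*} [Group G] {R : Type*} [CommRing R] {ι : Type*} [Fintype ι]

/-- **(K2)**: every pair of parabolic homs `(φ, ψ)` has a primitive of `(2 φ) ∪ ψ`. -/
def HasPrim2 (c : ι → G) : Prop :=
  ∀ φ ψ : G → R, IsPar c φ → IsPar c ψ → ∃ κ : G → R, IsPrimitive ((2 : R) • φ) ψ κ

theorem hasPrim2_of_hasPrim {c : ι → G} (h : HasPrim (R := R) c) : HasPrim2 (R := R) c :=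
  fun _ ψ hφ hψ => h _ ψ (hφ.smul 2) hψ

/-- the **doubled cusp pairing** `E2 = 2 P`. -/
noncomputable def E2 (c : ι → G) (φ ψ : G → R) : R := pairing c ((2 : R) • φ) ψ

variable {c : ι → G} {φ ψ φ' ψ' κ : G → R}

theorem E2_eq (hrel : Rel R c) (hκ : IsPrimitive ((2 : R) • φ) ψ κ) :
    E2 c φ ψ = ∑ j, κ (c j) :=
  pairing_eq hrel hκ

theorem E2_add_left (hrel : Rel R c) (hK : HasPrim2 (R := R) c) (hφ : IsPar c φ)
    (hφ' : IsPar c φ') (hψ : IsPar c ψ) :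
    E2 c (φ + φ') ψ = E2 c φ ψ + E2 c φ' ψ := by
  obtain ⟨κ, hκ⟩ := hK φ ψ hφ hψ
  obtain ⟨κ', hκ'⟩ := hK φ' ψ hφ' hψ
  have h := hκ.add_left hκ'
  rw [← smul_add] at h
  rw [E2_eq hrel hκ, E2_eq hrel hκ', E2_eq hrel h]
  simp [Finset.sum_add_distrib]

theorem E2_add_right (hrel : Rel R c) (hK : HasPrim2 (R := R) c) (hφ : IsPar c φ)
    (hψ : IsPar c ψ) (hψ' : IsPar c ψ') :
    E2 c φ (ψ + ψ') = E2 c φ ψ + E2 c φ ψ' := by
  obtain ⟨κ, hκ⟩ := hK φ ψ hφ hψ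
  obtain ⟨κ', hκ'⟩ := hK φ ψ' hφ hψ'
  rw [E2_eq hrel hκ, E2_eq hrel hκ', E2_eq hrel (hκ.add_right hκ')]
  simp [Finset.sum_add_distrib]

theorem E2_smul_left (hrel : Rel R c) (hK : HasPrim2 (R := R) c) (hφ : IsPar c φ)
    (hψ : IsPar c ψ) (r : R) : E2 c (r • φ) ψ = r * E2 c φ ψ := by
  obtain ⟨κ, hκ⟩ := hK φ ψ hφ hψ
  have h := hκ.smul_left r
  rw [smul_comm] at h
  rw [E2_eq hrel hκ, E2_eq hrel h]
  simp [Finset.mul_sum]

theorem E2_smul_right (hrel : Rel R c) (hK : HasPrim2 (R := R) c) (hφ : IsPar c φ)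
    (hψ : IsPar c ψ) (r : R) : E2 c φ (r • ψ) = r * E2 c φ ψ := by
  obtain ⟨κ, hκ⟩ := hK φ ψ hφ hψ
  rw [E2_eq hrel hκ, E2_eq hrel (hκ.smul_right r)]
  simp [Finset.mul_sum]

theorem E2_zero_left (hrel : Rel R c) : E2 c (0 : G → R) ψ = 0 := by
  rw [E2, smul_zero]
  exact pairing_zero_left hrel

theorem E2_zero_right (hrel : Rel R c) : E2 c φ (0 : G → R) = 0 :=
  pairing_zero_right hrel

theorem E2_neg_left (hrel : Rel R c) (hK : HasPrim2 (R := R) c) (hφ : IsPar c φ)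
    (hψ : IsPar c ψ) : E2 c (-φ) ψ = -E2 c φ ψ := by
  have := E2_smul_left hrel hK hφ hψ (-1)
  simpa using this

theorem E2_neg_right (hrel : Rel R c) (hK : HasPrim2 (R := R) c) (hφ : IsPar c φ)
    (hψ : IsPar c ψ) : E2 c φ (-ψ) = -E2 c φ ψ := by
  have := E2_smul_right hrel hK hφ hψ (-1)
  simpa using this

/-- `-φ²` is a primitive of `(2 φ) ∪ φ`, over any ring. -/
theorem isPrimitive_two_self (hφ : IsAddHom φ) :
    IsPrimitive ((2 : R) • φ) φ (fun g => -(φ g * φ g)) := by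
  intro a b
  simp only [Pi.smul_apply, smul_eq_mul, hφ a b]
  ring

/-- **alternating**, over any ring (no `½`). -/
theorem E2_self (hrel : Rel R c) (hφ : IsPar c φ) : E2 c φ φ = 0 := by
  rw [E2_eq hrel (isPrimitive_two_self hφ.1)]
  simp [hφ.2]

/-- if `κ` is a primitive of `(2 φ, ψ)` then `-(2 φ ψ) - κ` is a primitive of `(2 ψ, φ)`. -/
theorem isPrimitive_two_swap (h : IsPrimitive ((2 : R) • φ) ψ κ) (hφ : IsAddHom φ)
    (hψ : IsAddHom ψ) :
    IsPrimitive ((2 : R) • ψ) φ (fun g => -(2 * (φ g * ψ g)) - κ g) := by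
  intro a b
  have := h a b
  simp only [Pi.smul_apply, smul_eq_mul] at this ⊢
  simp only [this, hφ a b, hψ a b]
  ring

/-- **skew-symmetry**. -/
theorem E2_swap (hrel : Rel R c) (hK : HasPrim2 (R := R) c) (hφ : IsPar c φ)
    (hψ : IsPar c ψ) : E2 c ψ φ = -E2 c φ ψ := by
  obtain ⟨κ, hκ⟩ := hK φ ψ hφ hψ
  rw [E2_eq hrel hκ, E2_eq hrel (isPrimitive_two_swap hκ hφ.1 hψ.1)]
  simp [hφ.2]

theorem rel_conj (hrel : Rel R c) (g : ι → G) : Rel R (fun j => g j * c j * (g j)⁻¹) := by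
  intro χ hχ
  simpa [hχ.map_conj] using hrel χ hχ

/-- `E2` does not change if each cusp generator is replaced by a conjugate. -/
theorem E2_conj (hrel : Rel R c) (hK : HasPrim2 (R := R) c) (hφ : IsPar c φ)
    (hψ : IsPar c ψ) (g : ι → G) :
    E2 (fun j => g j * c j * (g j)⁻¹) φ ψ = E2 c φ ψ := by
  obtain ⟨κ, hκ⟩ := hK φ ψ hφ hψ
  rw [E2_eq hrel hκ, E2_eq (rel_conj hrel g) hκ]
  refine Finset.sum_congr rfl fun j _ => ?_
  refine hκ.conj (hφ.1.smul 2) hψ.1 ?_ (hψ.2 j) (g j)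
  simp [hφ.2 j]

theorem rel_reindex {ι' : Type*} [Fintype ι'] (e : ι' ≃ ι) (hrel : Rel R c) :
    Rel R (c ∘ e) := by
  intro χ hχ
  rw [← hrel χ hχ]
  exact Fintype.sum_equiv e _ _ (fun _ => rfl)

/-- reindexing the cusp family. -/
theorem E2_reindex {ι' : Type*} [Fintype ι'] (e : ι' ≃ ι) (hrel : Rel R c)
    (hK : HasPrim2 (R := R) c) (hφ : IsPar c φ) (hψ : IsPar c ψ) :
    E2 (c ∘ e) φ ψ = E2 c φ ψ := by
  obtain ⟨κ, hκ⟩ := hK φ ψ hφ hψ
  rw [E2_eq hrel hκ, E2_eq (rel_reindex e hrel) hκ]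
  exact Fintype.sum_equiv e _ _ (fun _ => rfl)

/-- two families which differ by a reindexing and conjugations give the same `E2`. -/
theorem E2_congr_family {ι' : Type*} [Fintype ι'] {c' : ι' → G} (e : ι' ≃ ι) (g : ι' → G)
    (hc : ∀ i, c' i = g i * c (e i) * (g i)⁻¹) (hrel : Rel R c)
    (hK : HasPrim2 (R := R) c) (hφ : IsPar c φ) (hψ : IsPar c ψ) :
    E2 c' φ ψ = E2 c φ ψ := by
  obtain ⟨κ, hκ⟩ := hK φ ψ hφ hψ
  have hrel' : Rel R c' := by
    have h1 := rel_conj (rel_reindex e hrel) g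
    have : c' = fun i => g i * (c ∘ e) i * (g i)⁻¹ := by funext i; exact hc i
    rw [this]; exact h1
  rw [E2_eq hrel hκ, E2_eq hrel' hκ]
  rw [← Fintype.sum_equiv e (fun i => κ (c (e i))) (fun j => κ (c j)) (fun _ => rfl)]
  refine Finset.sum_congr rfl fun i _ => ?_
  rw [hc i]
  refine hκ.conj (hφ.1.smul 2) hψ.1 ?_ (hψ.2 (e i)) (g i)
  simp [hφ.2 (e i)]

/-- **naturality** along any homomorphism `θ : G' →* G` (given a primitive on `G`). -/
theorem E2_comp_hom {G' : Type*} [Group G'] (θ : G' →* G) {c' : ι → G'} {c : ι → G}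
    (hc : ∀ j, θ (c' j) = c j) (hrel' : Rel R c') (hκ : IsPrimitive ((2 : R) • φ) ψ κ) :
    E2 c' (φ ∘ θ) (ψ ∘ θ) = E2 c φ ψ := by
  have := pairing_comp_hom' θ hc hrel' hκ
  exact this

/-- **(A4) naturality** under a group isomorphism carrying the cusp family to the cusp family. -/
theorem E2_comp_equiv {G' : Type*} [Group G'] (θ : G' ≃* G) {c' : ι → G'} {c : ι → G}
    (hc : ∀ j, θ (c' j) = c j) (hrel : Rel R c) (hK : HasPrim2 (R := R) c) (hφ : IsPar c φ)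
    (hψ : IsPar c ψ) :
    E2 c' (φ ∘ θ) (ψ ∘ θ) = E2 c φ ψ := by
  have hrel' : Rel R c' := by
    intro χ hχ
    have h1 : IsAddHom (χ ∘ θ.symm) := by
      intro a b; simp [hχ _ _]
    have := hrel _ h1
    simpa [← hc] using this
  obtain ⟨κ, hκ⟩ := hK φ ψ hφ hψ
  exact E2_comp_hom θ.toMonoidHom hc hrel' hκ

/-- (K2) transported along an isomorphism. -/
theorem hasPrim2_comp_equiv {G' : Type*} [Group G'] (θ : G' ≃* G) {c' : ι → G'} {c : ι → G}
    (hc : ∀ j, θ (c' j) = c j) (hK : HasPrim2 (R := R) c) : HasPrim2 (R := R) c' := by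
  intro φ' ψ' hφ' hψ'
  have hcs : ∀ j, θ.symm (c j) = c' j := fun j => by rw [← hc j, θ.symm_apply_apply]
  have h1 : IsPar c (φ' ∘ θ.symm) := isPar_comp_equiv θ.symm hcs hφ'
  have h2 : IsPar c (ψ' ∘ θ.symm) := isPar_comp_equiv θ.symm hcs hψ'
  obtain ⟨κ, hκ⟩ := hK _ _ h1 h2
  refine ⟨κ ∘ θ, ?_⟩
  intro a b
  have := hκ (θ a) (θ b)
  simp only [Pi.smul_apply, Function.comp_apply, smul_eq_mul, θ.symm_apply_apply,
    ← map_mul] at this ⊢
  exact this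

end Fermat.Agent.ES.I2.CuspPairingTwo25
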