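import Fermat.Agent.ES.I2.TransferAdj3
import Fermat.Agent.ES.LR.Degeneracy27

/-!
# (I2) glue: `res ⊣ cores` for `Degeneracy27.resAdd` / `coresAdd` (helper3)

`pairing_coresAdd` : for an injective `ι : G' →* G` with finite index range, a cusp family `c` of `G`
with `(REL)`, a family `c''` of `G'` mapping onto the induced cusp family of `ι.range`,
`x : Additive G →+ R` killing `c`, `y' : Additive G' →+ R` killing `c''` and a primitive of
`(x ∘ ι, y')`:  `pairing c x (coresAdd ι hι y') = pairing c'' (resAdd ι x) y'`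
(characters viewed as functions through `fn`).
-/

set_option autoImplicit false
set_option linter.unusedSectionVars false

namespace Fermat.Agent.ES.I2.DegAdj3

open MulAction Subgroup
open Fermat.Agent.ES.I2.CuspPairing25 Fermat.Agent.ES.I2.TransferAdj3
open Fermat.Agent.ES.LR.Degeneracy27

variable {G' G : Type*} [Group G'] [Group G] {R : Type*} [CommRing R]

/-- the function on `G` underlying an additive character. -/
def fn {K : Type*} [Group K] (φ : Additive K →+ R) : K → R := fun g => φ (Additive.ofMul g)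

@[simp] theorem fn_apply {K : Type*} [Group K] (φ : Additive K →+ R) (g : K) :
    fn φ g = φ (Additive.ofMul g) := rfl

theorem isAddHom_fn {K : Type*} [Group K] (φ : Additive K →+ R) : IsAddHom (fn φ) :=
  fun a b => by simp [fn, ofMul_mul]

theorem fn_resAdd (ι : G' →* G) (x : Additive G →+ R) : fn (resAdd ι x) = fn x ∘ ι := rfl

theorem toAdd_rangeChar (ι : G' →* G) (hι : Function.Injective ι) (y' : Additive G' →+ R)
    (h : ι.range) :
    Multiplicative.toAdd (rangeChar ι hι y' h) = fn y' ((MonoidHom.ofInjective hι).symm h) := rfl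

/-- `coresAdd` is `Section.cores` for any section. -/
theorem fn_coresAdd (ι : G' →* G) (hι : Function.Injective ι) [ι.range.FiniteIndex]
    [Fintype (G ⧸ ι.range)] (s : Section ι.range) (y' : Additive G' →+ R) :
    fn (coresAdd ι hι y') = s.cores (fn y' ∘ (MonoidHom.ofInjective hι).symm) := by
  funext g
  rw [fn_apply, coresAdd_apply, toAdd_transfer_eq_cor s.r s.hr, section_cores_eq]
  rfl

/-- **`res ⊣ cores` for `Degeneracy27`'s maps.** -/
theorem pairing_coresAdd (ι : G' →* G) (hι : Function.Injective ι) [ι.range.FiniteIndex]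
    [Fintype (G ⧸ ι.range)] (s : Section ι.range)
    {J : Type*} [Fintype J] (c : J → G)
    [∀ j, Fintype (orbitRel.Quotient (zpowers (c j)) (G ⧸ ι.range))]
    (hrel : Rel R c)
    (c'' : (Σ j : J, orbitRel.Quotient (zpowers (c j)) (G ⧸ ι.range)) → G')
    (hc'' : ∀ i, ι (c'' i) = (inducedCusp s.r s.hr c i : G))
    {x : Additive G →+ R} {y' : Additive G' →+ R} {κ'' : G' → R}
    (hx : ∀ j, x (Additive.ofMul (c j)) = 0) (hy' : ∀ i, y' (Additive.ofMul (c'' i)) = 0)
    (hκ'' : IsPrimitive (fn (resAdd ι x)) (fn y') κ'') :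
    pairing c (fn x) (fn (coresAdd ι hι y')) = pairing c'' (fn (resAdd ι x)) (fn y') := by
  rw [fn_coresAdd ι hι s]
  exact pairing_cores_of_injective ι hι s c hrel c'' hc'' ⟨isAddHom_fn x, hx⟩
    ⟨isAddHom_fn y', hy'⟩ hκ''

end Fermat.Agent.ES.I2.DegAdj3
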