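/-
Program L (S41), chapter (I2), coefficient change of the intrinsic cusp pairing (helper5).

For a ring homomorphism `f : R →+* S`: primitives, parabolicity and the pairings `pairing`, `E2` of
`CuspPairing25` / `CuspPairingTwo25` are compatible with `f`.  Specialised to `f = (ℤ → R)` and the
scalar extension `castPar : parabolicHoms ℤ Γ ℤ → parabolicHoms R Γ R` of `ParLattice11`, this is the
hypothesis `hEP` of `LatticeNondeg5.par_nondeg_mod_of_perfect` (with `u = 1`).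
-/
import Mathlib
import Fermat.Agent.ES.I2.CuspPairing25
import Fermat.Agent.ES.I2.CuspPairingTwo25
import Fermat.Agent.ES.I2.DegAdj3
import Fermat.Agent.ES.HEQ.ParLattice11

set_option autoImplicit false
set_option linter.unusedSectionVars false

namespace Fermat.Agent.ES.I2.CuspPairingMap5

open Fermat.Agent.ES.I2.CuspPairing25 Fermat.Agent.ES.I2.CuspPairingTwo25
open Fermat.Agent.ES.I2.DegAdj3

section Map

variable {G : Type*} [Group G] {R S : Type*} [CommRing R] [CommRing S] (f : R →+* S)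
  {ι : Type*} [Fintype ι]

theorem isAddHom_map {φ : G → R} (h : IsAddHom φ) : IsAddHom (f ∘ φ) := fun a b => by
  simp only [Function.comp_apply, h a b, map_add]

theorem isPrimitive_map {φ ψ κ : G → R} (h : IsPrimitive φ ψ κ) :
    IsPrimitive (f ∘ φ) (f ∘ ψ) (f ∘ κ) := fun a b => by
  simp only [Function.comp_apply, h a b, map_sub, map_add, map_mul]

theorem isPar_map {c : ι → G} {φ : G → R} (h : IsPar c φ) : IsPar c (f ∘ φ) :=
  ⟨isAddHom_map f h.1, fun j => by simp only [Function.comp_apply, h.2 j, map_zero]⟩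

theorem comp_smul (r : R) (φ : G → R) : f ∘ (r • φ) = f r • (f ∘ φ) := by
  funext g
  simp only [Function.comp_apply, Pi.smul_apply, smul_eq_mul, map_mul]

theorem comp_two_smul (φ : G → R) : f ∘ ((2 : R) • φ) = (2 : S) • (f ∘ φ) := by
  rw [comp_smul, map_ofNat]

/-- **the cusp pairing commutes with coefficient change**, whenever a primitive exists over `R`. -/
theorem pairing_map {c : ι → G} (hrelR : Rel R c) (hrelS : Rel S c) {φ ψ κ : G → R}
    (hκ : IsPrimitive φ ψ κ) : pairing c (f ∘ φ) (f ∘ ψ) = f (pairing c φ ψ) := by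
  rw [pairing_eq hrelS (isPrimitive_map f hκ), pairing_eq hrelR hκ, map_sum]
  rfl

/-- the doubled pairing `E2` commutes with coefficient change. -/
theorem E2_map {c : ι → G} (hrelR : Rel R c) (hrelS : Rel S c) {φ ψ κ : G → R}
    (hκ : IsPrimitive ((2 : R) • φ) ψ κ) : E2 c (f ∘ φ) (f ∘ ψ) = f (E2 c φ ψ) := by
  unfold E2
  rw [← comp_two_smul, pairing_map f hrelR hrelS hκ]

/-- `(K2)` over `R` gives the compatibility for all parabolic pairs. -/
theorem E2_map_of_hasPrim2 {c : ι → G} (hrelR : Rel R c) (hrelS : Rel S c)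
    (hK : HasPrim2 (R := R) c) {φ ψ : G → R} (hφ : IsPar c φ) (hψ : IsPar c ψ) :
    E2 c (f ∘ φ) (f ∘ ψ) = f (E2 c φ ψ) := by
  obtain ⟨κ, hκ⟩ := hK φ ψ hφ hψ
  exact E2_map f hrelR hrelS hκ

end Map

section Cast

open ModularCurve.Period Fermat.Agent.ES.HEQ.ParLattice11
open scoped MatrixGroups

variable (Γ : Subgroup SL(2, ℤ)) (R : Type*) [CommRing R] {ι : Type*} [Fintype ι]

/-- the function underlying `castPar x` is the cast of the function underlying `x`. -/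
theorem fn_castPar (x : ↥(parabolicHoms ℤ Γ ℤ)) :
    fn ((castPar Γ R x : ↥(parabolicHoms R Γ R)) : Additive Γ →+ R)
      = (Int.castRingHom R) ∘ fn ((x : ↥(parabolicHoms ℤ Γ ℤ)) : Additive Γ →+ ℤ) := rfl

/-- **`hEP`** (with `u = 1`): the `ℤ`-valued doubled pairing on `Λ` extends to the `R`-valued doubled
pairing on `parabolicHoms R Γ R` along `castPar`. -/
theorem cast_E2_eq (c : ι → Γ) (hrelZ : Rel ℤ c) (hrelR : Rel R c)
    (x y : ↥(parabolicHoms ℤ Γ ℤ)) {κ : Γ → ℤ}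
    (hκ : IsPrimitive ((2 : ℤ) • fn ((x : ↥(parabolicHoms ℤ Γ ℤ)) : Additive Γ →+ ℤ))
      (fn ((y : ↥(parabolicHoms ℤ Γ ℤ)) : Additive Γ →+ ℤ)) κ) :
    ((E2 c (fn ((x : ↥(parabolicHoms ℤ Γ ℤ)) : Additive Γ →+ ℤ))
        (fn ((y : ↥(parabolicHoms ℤ Γ ℤ)) : Additive Γ →+ ℤ)) : ℤ) : R)
      = E2 c (fn ((castPar Γ R x : ↥(parabolicHoms R Γ R)) : Additive Γ →+ R))
          (fn ((castPar Γ R y : ↥(parabolicHoms R Γ R)) : Additive Γ →+ R)) := by
  rw [fn_castPar, fn_castPar, E2_map (Int.castRingHom R) hrelZ hrelR hκ]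
  rfl

/-- a parabolic hom kills every family of elements of trace `±2`. -/
theorem isPar_fn_of_trace (c : ι → Γ)
    (hc : ∀ j, (((c j : Γ) : SL(2, ℤ)) : Matrix (Fin 2) (Fin 2) ℤ).trace ^ 2 = 4)
    (x : ↥(parabolicHoms R Γ R)) :
    IsPar c (fn ((x : ↥(parabolicHoms R Γ R)) : Additive Γ →+ R)) :=
  ⟨isAddHom_fn _, fun j => x.2 (c j) (hc j)⟩

/-- `hEP` for all of `Λ`, from `(K2)` over `ℤ` and a cusp family of parabolic elements. -/
theorem cast_E2_eq_of_hasPrim2 (c : ι → Γ)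
    (hc : ∀ j, (((c j : Γ) : SL(2, ℤ)) : Matrix (Fin 2) (Fin 2) ℤ).trace ^ 2 = 4)
    (hrelZ : Rel ℤ c) (hrelR : Rel R c) (hK : HasPrim2 (R := ℤ) c)
    (x y : ↥(parabolicHoms ℤ Γ ℤ)) :
    ((E2 c (fn ((x : ↥(parabolicHoms ℤ Γ ℤ)) : Additive Γ →+ ℤ))
        (fn ((y : ↥(parabolicHoms ℤ Γ ℤ)) : Additive Γ →+ ℤ)) : ℤ) : R)
      = E2 c (fn ((castPar Γ R x : ↥(parabolicHoms R Γ R)) : Additive Γ →+ R))
          (fn ((castPar Γ R y : ↥(parabolicHoms R Γ R)) : Additive Γ →+ R)) := by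
  obtain ⟨κ, hκ⟩ := hK _ _ (isPar_fn_of_trace Γ ℤ c hc x) (isPar_fn_of_trace Γ ℤ c hc y)
  exact cast_E2_eq Γ R c hrelZ hrelR x y hκ

end Cast

end Fermat.Agent.ES.I2.CuspPairingMap5
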