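import Fermat.Agent.ES.I2.DegAdj3
import Fermat.Agent.ES.I2.CuspPairingTwo25
import Fermat.Agent.ES.I2.CuspSys13
import Fermat.Agent.ES.LR.DegeneracyPar27

/-!
# (I2) (ADJ), abstract core: `res ⊣ cores` for the doubled cusp pairing `E2` (helper3)

`E2_adj` : `ι : G' →* G` injective with finite index range, `c` a cusp family of `G` with (REL),
`c'` a cusp family of `G'` with (REL) and (K2), and a MATCHING `hmatch` of the `ι`-preimage of the
induced cusp family of `ι.range` (`TransferAdj3.inducedCusp`) with `c'` up to reindexing and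
conjugation:  `E2 c' (fn (resAdd ι y)) (fn x) = E2 c (fn y) (fn (coresAdd ι hι x))`
for additive characters `y` of `G` killing `c` and `x` of `G'` killing `c'`
(`resAdd`, `coresAdd` of `Degeneracy27`; `E2` of `CuspPairingTwo25`; `fn` of `DegAdj3`).
-/

set_option autoImplicit false
set_option linter.unusedSectionVars false

namespace Fermat.Agent.ES.I2.EAdjCore3

open MulAction Subgroup
open Fermat.Agent.ES.I2.CuspPairing25 Fermat.Agent.ES.I2.CuspPairingTwo25
open Fermat.Agent.ES.I2.TransferAdj3 Fermat.Agent.ES.I2.DegAdj3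
open Fermat.Agent.ES.LR.Degeneracy27

section Abstract

variable {G' G : Type*} [Group G'] [Group G] {R : Type*} [CommRing R]

theorem fn_two_smul {K : Type*} [Group K] (y : Additive K →+ R) :
    fn ((2 : ℕ) • y) = (2 : R) • fn y := by
  funext g
  simp [fn, two_mul]

/-- **abstract (ADJ)**: `ι : G' →* G` injective with finite index range, `c` a cusp family of `G`
with (REL), `c'` a cusp family of `G'` with (REL) and (K2), and a MATCHING of the `ι`-preimage of the
induced family of `ι.range` with `c'` up to reindexing and conjugation.  Then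
`E2 c' (y ∘ ι) x = E2 c y (cores x)`. -/
theorem E2_adj (ι : G' →* G) (hι : Function.Injective ι) [ι.range.FiniteIndex]
    [Fintype (G ⧸ ι.range)] (s : Section ι.range)
    {J : Type*} [Fintype J] (c : J → G)
    [∀ j, Fintype (orbitRel.Quotient (zpowers (c j)) (G ⧸ ι.range))]
    (hrel : Rel R c) {J' : Type*} [Fintype J'] (c' : J' → G') (hrel' : Rel R c')
    (hK' : HasPrim2 (R := R) c')
    (e : (Σ j : J, orbitRel.Quotient (zpowers (c j)) (G ⧸ ι.range)) ≃ J')
    (γ : (Σ j : J, orbitRel.Quotient (zpowers (c j)) (G ⧸ ι.range)) → G')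
    (hmatch : ∀ i, ι (γ i * c' (e i) * (γ i)⁻¹) = (inducedCusp s.r s.hr c i : G))
    {y : Additive G →+ R} {x : Additive G' →+ R}
    (hy : ∀ j, y (Additive.ofMul (c j)) = 0) (hx : ∀ j', x (Additive.ofMul (c' j')) = 0) :
    E2 c' (fn (resAdd ι y)) (fn x) = E2 c (fn y) (fn (coresAdd ι hι x)) := by
  -- the conjugated family
  set c'' : (Σ j : J, orbitRel.Quotient (zpowers (c j)) (G ⧸ ι.range)) → G' :=
    fun i => γ i * c' (e i) * (γ i)⁻¹ with hc''
  have hxc'' : ∀ i, x (Additive.ofMul (c'' i)) = 0 := by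
    intro i
    have := (isAddHom_fn x).map_conj (γ i) (c' (e i))
    simp only [fn_apply] at this
    rw [hc'']
    simp only
    rw [this, hx]
  -- `y ∘ ι` kills `c'`
  have hyind : ∀ i, y (Additive.ofMul ((inducedCusp s.r s.hr c i : ι.range) : G)) = 0 := by
    intro i
    exact phi_inducedCusp s.r s.hr (isAddHom_fn y) c hy i
  have hyc' : ∀ j', (resAdd ι y) (Additive.ofMul (c' j')) = 0 := by
    intro j'
    obtain ⟨i, rfl⟩ := e.surjective j'
    have h1 := hyind i
    rw [← hmatch i] at h1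
    have h2 := (isAddHom_fn (resAdd ι y)).map_conj (γ i) (c' (e i))
    simp only [fn_apply, resAdd_apply] at h2
    rw [resAdd_apply, ← h2]
    exact h1
  -- a primitive on `G'`
  obtain ⟨κ', hκ'⟩ := hK' (fn (resAdd ι y)) (fn x) ⟨isAddHom_fn _, hyc'⟩ ⟨isAddHom_fn _, hx⟩
  have hκ'' : IsPrimitive (fn (resAdd ι ((2 : ℕ) • y))) (fn x) κ' := by
    have : fn (resAdd ι ((2 : ℕ) • y)) = (2 : R) • fn (resAdd ι y) := by
      rw [map_nsmul, fn_two_smul]
    rw [this]
    exact hκ'
  have h2y : ∀ j, ((2 : ℕ) • y) (Additive.ofMul (c j)) = 0 := by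
    intro j
    simp [hy j]
  have key := pairing_coresAdd ι hι s c hrel c'' hmatch h2y hxc'' hκ''
  have hrel'' : Rel R c'' := by
    intro χ hχ
    have h1 : ∀ i, χ (c'' i) = χ (c' (e i)) := fun i => hχ.map_conj (γ i) (c' (e i))
    simp_rw [h1]
    rw [← hrel' χ hχ]
    exact Fintype.sum_equiv e _ _ (fun _ => rfl)
  have hκ2 : IsPrimitive ((2 : R) • fn (resAdd ι y)) (fn x) κ' := hκ'
  have hL : E2 c' (fn (resAdd ι y)) (fn x) = ∑ j', κ' (c' j') := E2_eq hrel' hκ2
  have hR : E2 c (fn y) (fn (coresAdd ι hι x)) = ∑ i, κ' (c'' i) := by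
    unfold E2
    rw [← fn_two_smul y, key, pairing_eq hrel'' hκ'']
  rw [hL, hR]
  have h3 : ∀ i, κ' (c'' i) = κ' (c' (e i)) := by
    intro i
    refine hκ2.conj ((isAddHom_fn _).smul 2) (isAddHom_fn x) ?_ (hx (e i)) (γ i)
    simp only [Pi.smul_apply, fn_apply, smul_eq_mul]
    rw [hyc', mul_zero]
  simp_rw [h3]
  exact (Fintype.sum_equiv e _ _ (fun _ => rfl)).symm

end Abstract

end Fermat.Agent.ES.I2.EAdjCore3
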