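import Mathlib
import Fermat.Agent.ES.I2.PSL2Free11

set_option autoImplicit false

/-!
# Cocycles on a group with the universal property of `C₂ * C₃` (helper11, Program L, (I2))

For a group `G` generated by `S₀` (`S₀² = 1`) and `U₀` (`U₀³ = 1`) such that every pair `(s, u)` of
elements with `s² = 1`, `u³ = 1` in a semidirect product `V ⋊ G` is hit by a homomorphism from `G`,
and a `G`-module `V`: every pair `a ∈ ker (1 + S₀)`, `b ∈ ker (1 + U₀ + U₀²)` extends uniquely to a
1-cocycle `z : G → V` (`z (g h) = z g + g • z h`) with `z S₀ = a`, `z U₀ = b`.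
Instantiated at `G = PSL(2, ℤ)` with `PSL2Free11.existsUnique_lift`.
-/

namespace Fermat.Agent.ES.I2.PSL2Cocycle11

open Fermat.Agent.ES.I2.PSL2Free11

variable {G : Type*} [Group G] {V : Type*} [AddCommGroup V] [DistribMulAction G V]

/-- 1-cocycles for a left action. -/
def IsCocycle (z : G → V) : Prop := ∀ g h : G, z (g * h) = z g + g • z h

theorem IsCocycle.map_one {z : G → V} (hz : IsCocycle z) : z 1 = 0 := by
  have := hz 1 1
  rw [one_mul, one_smul] at this
  simpa using this

theorem IsCocycle.map_inv {z : G → V} (hz : IsCocycle z) (g : G) : z g⁻¹ = - (g⁻¹ • z g) := by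
  have := hz g⁻¹ g
  rw [inv_mul_cancel, hz.map_one] at this
  exact eq_neg_of_add_eq_zero_left this.symm

/-- Two cocycles which agree on a generating set are equal. -/
theorem IsCocycle.ext_of_closure {z z' : G → V} (hz : IsCocycle z) (hz' : IsCocycle z')
    {s : Set G} (hs : Subgroup.closure s = ⊤) (h : ∀ g ∈ s, z g = z' g) : z = z' := by
  funext g
  have hg : g ∈ Subgroup.closure s := by rw [hs]; trivial
  induction hg using Subgroup.closure_induction with
  | mem x hx => exact h x hx
  | one => rw [hz.map_one, hz'.map_one]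
  | mul x y _ _ hx hy => rw [hz, hz', hx, hy]
  | inv x _ hx => rw [hz.map_inv, hz'.map_inv, hx]

/-- The action as a homomorphism to `MulAut (Multiplicative V)`. -/
def phi (G : Type*) [Group G] (V : Type*) [AddCommGroup V] [DistribMulAction G V] :
    G →* MulAut (Multiplicative V) :=
  (MulAutMultiplicative V).symm.toMonoidHom.comp (DistribMulAction.toAddAut G V)

theorem phi_apply (g : G) (v : V) :
    phi G V g (Multiplicative.ofAdd v) = Multiplicative.ofAdd (g • v) := rfl

/-- The semidirect product `V ⋊ G`. -/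
abbrev SD (G : Type*) [Group G] (V : Type*) [AddCommGroup V] [DistribMulAction G V] : Type _ :=
  SemidirectProduct (Multiplicative V) G (phi G V)

/-- The element `(a, g)` of `V ⋊ G`. -/
def pt (a : V) (g : G) : SD G V := ⟨Multiplicative.ofAdd a, g⟩

theorem pt_mul (a b : V) (g h : G) : pt a g * pt b h = pt (a + g • b) (g * h) := by
  apply SemidirectProduct.ext
  · rfl
  · rfl

theorem pt_one : (pt (0 : V) (1 : G)) = 1 := rfl

theorem pt_sq (a : V) (g : G) (hg : g ^ 2 = 1) (ha : a + g • a = 0) : pt a g ^ 2 = 1 := by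
  rw [pow_two, pt_mul, ha, ← pow_two, hg, pt_one]

theorem pt_cube (b : V) (g : G) (hg : g ^ 3 = 1) (hb : b + g • b + g ^ 2 • b = 0) :
    pt b g ^ 3 = 1 := by
  rw [pow_succ, pow_two, pt_mul, pt_mul, ← pt_one]
  congr 1
  · rw [← pow_two]; exact hb
  · rw [← pow_two, ← pow_succ, hg]

/-- **Cocycle extension** for a group with the universal property of `C₂ * C₃` (the universal
property is only used for the semidirect product `V ⋊ G`). -/
theorem existsUnique_cocycle_of_lift (S₀ U₀ : G) (hS : S₀ ^ 2 = 1) (hU : U₀ ^ 3 = 1)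
    (hgen : Subgroup.closure {S₀, U₀} = ⊤)
    (hlift : ∀ s u : SD G V, s ^ 2 = 1 → u ^ 3 = 1 → ∃ f : G →* SD G V, f S₀ = s ∧ f U₀ = u)
    (a b : V) (ha : a + S₀ • a = 0) (hb : b + U₀ • b + U₀ ^ 2 • b = 0) :
    ∃! z : G → V, IsCocycle z ∧ z S₀ = a ∧ z U₀ = b := by
  obtain ⟨f, hfS, hfU⟩ := hlift (pt a S₀) (pt b U₀) (pt_sq a S₀ hS ha) (pt_cube b U₀ hU hb)
  have hright : ∀ g : G, (f g).right = g := by
    have : (SemidirectProduct.rightHom.comp f) = MonoidHom.id G := by
      apply MonoidHom.eq_of_eqOn_dense hgen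
      rintro x (rfl | rfl)
      · show (f _).right = _
        rw [hfS]; rfl
      · show (f _).right = _
        rw [hfU]; rfl
    intro g
    exact DFunLike.congr_fun this g
  refine ⟨fun g => Multiplicative.toAdd (f g).left, ⟨?_, ?_, ?_⟩, ?_⟩
  · intro g h
    show Multiplicative.toAdd (f (g * h)).left = _
    rw [map_mul, SemidirectProduct.mul_left, hright g]
    rfl
  · show Multiplicative.toAdd (f S₀).left = a
    rw [hfS]; rfl
  · show Multiplicative.toAdd (f U₀).left = b
    rw [hfU]; rfl
  · rintro z' ⟨hz', h1, h2⟩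
    have hz : IsCocycle (fun g => Multiplicative.toAdd (f g).left : G → V) := by
      intro g h
      show Multiplicative.toAdd (f (g * h)).left = _
      rw [map_mul, SemidirectProduct.mul_left, hright g]
      rfl
    apply IsCocycle.ext_of_closure hz' hz hgen
    rintro x (rfl | rfl)
    · rw [h1]; show a = Multiplicative.toAdd (f x).left; rw [hfS]; rfl
    · rw [h2]; show b = Multiplicative.toAdd (f x).left; rw [hfU]; rfl

/-- **Cocycle extension for `PSL(2, ℤ)`**: `a ∈ ker (1 + S̄)`, `b ∈ ker (1 + Ū + Ū²)` extend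
uniquely to a 1-cocycle. -/
theorem existsUnique_cocycle {V : Type*} [AddCommGroup V] [DistribMulAction Q V]
    (a b : V) (ha : a + Sb • a = 0) (hb : b + Ub • b + Ub ^ 2 • b = 0) :
    ∃! z : Q → V, IsCocycle z ∧ z Sb = a ∧ z Ub = b :=
  existsUnique_cocycle_of_lift Sb Ub Sb_sq Ub_cube closure_Sb_Ub
    (fun s u hs hu => (existsUnique_lift s u hs hu).exists) a b ha hb

end Fermat.Agent.ES.I2.PSL2Cocycle11
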