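import Mathlib
import Fermat.Agent.ES.I2.PSL2Cocycle11
import Fermat.Agent.ES.I2.CuspPairing25

/-!
# (I2), (B2)(K): existence of the primitive `K` of a cup product (helper25)

`I2_PROOF25.md`, Part B, step (B2).  `G` is a group generated by `σ` (`σ² = 1`) and `τ` (`τ³ = 1`)
with the cocycle-extension property of `C₂ * C₃` (for `PSL(2,ℤ)`: helper11's
`PSL2Cocycle11.existsUnique_cocycle`), acting on a commutative ring `A` by ring automorphisms
(in the application `A = X → R`).  For `1`-cocycles `φt ψt : G → A` with `φt τ = τ • β - β` there is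
`K : G → A` with

  `K (a * b) = K a + a • K b - φt a * a • ψt b`,  `K σ = -(⅟2 * (φt σ * ψt σ))`,  `K τ = β * ψt τ`.

Trick: `(K, ψt)` is a `1`-cocycle with values in the unipotent extension module
`TwMod φt = A × A`, `g ⋆ (x, y) = (g • x - φt g * g • y, g • y)`.

* `exists_K` : the statement above (abstract `G`), `exists_K_PSL2` : for `PSL(2,ℤ)`.
* `IsCupPrim.isPrimitive_eval`, `isAddHom_eval` : evaluating at a point fixed by `Γ ≤ G` gives a primitive in the sense of
  `CuspPairing25.IsPrimitive` on `Γ`.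
* `IsCupPrim.map_pow` : `K (t ^ n) = ∑ i in range n, t ^ i • K t` if `φt t = 0`.
* `IsCupPrim.sum_K_T` : the formula `S (K (σ * τ)) = S ((β + ⅟2 * φt τ) * ψt τ)` for a `G`-invariant additive
  functional `S`.
-/

namespace Fermat.Agent.ES.I2.PrimExists25

open Fermat.Agent.ES.I2.PSL2Cocycle11 Fermat.Agent.ES.I2.CuspPairing25

variable {G : Type*} [Group G] {A : Type*} [CommRing A] [MulSemiringAction G A]

/-- the unipotent extension module `A × A` (type synonym; the action depends on `φt`). -/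
def TwMod (_φt : G → A) : Type _ := A × A

instance (φt : G → A) : AddCommGroup (TwMod φt) := inferInstanceAs (AddCommGroup (A × A))

/-- the twisted action `g ⋆ (x, y) = (g • x - φt g * g • y, g • y)`. -/
def twSMul (φt : G → A) (g : G) (w : TwMod φt) : TwMod φt :=
  ((g • (show A × A from w).1 - φt g * g • (show A × A from w).2, g • (show A × A from w).2) : A × A)

theorem twSMul_fst (φt : G → A) (g : G) (w : TwMod φt) :
    (show A × A from twSMul φt g w).1
      = g • (show A × A from w).1 - φt g * g • (show A × A from w).2 := rfl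

theorem twSMul_snd (φt : G → A) (g : G) (w : TwMod φt) :
    (show A × A from twSMul φt g w).2 = g • (show A × A from w).2 := rfl

/-- the twisted action is a distributive action when `φt` is a cocycle. -/
@[reducible] def twAction {φt : G → A} (hφ : IsCocycle φt) : DistribMulAction G (TwMod φt) where
  smul := twSMul φt
  one_smul w := by
    show twSMul φt 1 w = w
    apply Prod.ext
    · rw [twSMul_fst, hφ.map_one, one_smul, zero_mul, sub_zero]
    · rw [twSMul_snd, one_smul]
  mul_smul g h w := by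
    show twSMul φt (g * h) w = twSMul φt g (twSMul φt h w)
    apply Prod.ext
    · rw [twSMul_fst, twSMul_fst, twSMul_fst, twSMul_snd, hφ g h, smul_sub, smul_mul', mul_smul,
        mul_smul]
      ring
    · rw [twSMul_snd, twSMul_snd, twSMul_snd, mul_smul]
  smul_zero g := by
    show twSMul φt g 0 = 0
    apply Prod.ext
    · rw [twSMul_fst]
      show g • (0 : A) - φt g * g • (0 : A) = 0
      rw [smul_zero, mul_zero, sub_zero]
    · rw [twSMul_snd]
      show g • (0 : A) = 0
      rw [smul_zero]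
  smul_add g w w' := by
    show twSMul φt g (w + w') = twSMul φt g w + twSMul φt g w'
    apply Prod.ext
    · show g • ((show A × A from w).1 + (show A × A from w').1)
          - φt g * g • ((show A × A from w).2 + (show A × A from w').2)
        = (g • (show A × A from w).1 - φt g * g • (show A × A from w).2)
          + (g • (show A × A from w').1 - φt g * g • (show A × A from w').2)
      rw [smul_add, smul_add]; ring
    · show g • ((show A × A from w).2 + (show A × A from w').2)
        = g • (show A × A from w).2 + g • (show A × A from w').2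
      rw [smul_add]


theorem twAction_smul {φt : G → A} (hφ : IsCocycle φt) (g : G) (w : TwMod φt) :
    (letI := twAction hφ; g • w) = twSMul φt g w := rfl

/-- cocycle-extension property of `(G, σ, τ)` for the module `TwMod φt`
(what `PSL2Cocycle11.existsUnique_cocycle` provides for `PSL(2,ℤ)`). -/
def CocycleExt (σ τ : G) {φt : G → A} (hφ : IsCocycle φt) : Prop :=
  letI := twAction hφ
  ∀ a b : TwMod φt, a + σ • a = 0 → b + τ • b + τ ^ 2 • b = 0 →
    ∃ z : G → TwMod φt, IsCocycle z ∧ z σ = a ∧ z τ = b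

/-- `ψ (σ) + σ • ψ (σ) = 0` for an involution. -/
theorem cocycle_invol {ψt : G → A} (hψ : IsCocycle ψt) {σ : G} (hσ : σ ^ 2 = 1) :
    σ • ψt σ = -ψt σ := by
  have := hψ σ σ
  rw [← pow_two, hσ, hψ.map_one] at this
  exact eq_neg_of_add_eq_zero_right this.symm

/-- `ψ τ + τ • ψ τ + τ² • ψ τ = 0` for an element of order three. -/
theorem cocycle_cube {ψt : G → A} (hψ : IsCocycle ψt) {τ : G} (hτ : τ ^ 3 = 1) :
    ψt τ + τ • ψt τ + τ ^ 2 • ψt τ = 0 := by
  have h3 : ψt (τ ^ 3) = ψt τ + τ • ψt τ + τ ^ 2 • ψt τ := by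
    rw [pow_succ', pow_two, hψ, hψ, smul_add, mul_smul, add_assoc]
  rw [← h3, hτ, hψ.map_one]

theorem cocycle_sq (φt : G → A) (hφ : IsCocycle φt) (τ : G) :
    φt (τ ^ 2) = φt τ + τ • φt τ := by
  rw [pow_two, hφ]

/-- `K` is a primitive of the cup product `φt ∪ ψt` (cochain form of (K)). -/
def IsCupPrim (φt ψt K : G → A) : Prop :=
  ∀ a b, K (a * b) = K a + a • K b - φt a * a • ψt b

/-- **(B2)(K)**: existence of the primitive `K` of the cup product `φt ∪ ψt`. -/
theorem exists_K [Invertible (2 : A)] {σ τ : G} (hσ : σ ^ 2 = 1) (hτ : τ ^ 3 = 1)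
    (hgen : Subgroup.closure {σ, τ} = ⊤) {φt ψt : G → A} (hφ : IsCocycle φt)
    (hψ : IsCocycle ψt) (hext : CocycleExt σ τ hφ) (β : A) (hβ : φt τ = τ • β - β) :
    ∃ K : G → A, IsCupPrim φt ψt K ∧
      K σ = -(⅟2 * (φt σ * ψt σ)) ∧ K τ = β * ψt τ := by
  let _ := twAction hφ
  have h2 : (2 : A) * ⅟2 = 1 := mul_invOf_self 2
  have hσφ := cocycle_invol hφ hσ
  have hσψ := cocycle_invol hψ hσ
  have hτψ := cocycle_cube hψ hτ
  have hσ2 : σ • (⅟2 : A) = ⅟2 := by
    have h : σ • ((2 : A) * ⅟2) = 1 := by rw [h2, smul_one]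
    rw [smul_mul'] at h
    have h2' : σ • (2 : A) = 2 := by
      have : (2 : A) = 1 + 1 := by norm_num
      rw [this, smul_add, smul_one]
    rw [h2'] at h
    calc σ • (⅟2 : A) = (⅟2 * 2) * σ • (⅟2 : A) := by rw [invOf_mul_self, one_mul]
      _ = ⅟2 * (2 * σ • (⅟2 : A)) := by ring
      _ = ⅟2 := by rw [h, mul_one]
  -- the two generator values
  let a₀ : TwMod φt := ((-(⅟2 * (φt σ * ψt σ)), ψt σ) : A × A)
  let b₀ : TwMod φt := ((β * ψt τ, ψt τ) : A × A)
  have ha₀ : a₀ + σ • a₀ = 0 := by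
    apply Prod.ext
    · show -(⅟2 * (φt σ * ψt σ)) + (σ • (-(⅟2 * (φt σ * ψt σ))) - φt σ * σ • ψt σ) = 0
      rw [smul_neg, smul_mul', smul_mul', hσ2, hσφ, hσψ]
      linear_combination (-(φt σ * ψt σ)) * h2
    · show ψt σ + σ • ψt σ = 0
      rw [hσψ, add_neg_cancel]
  have hb₀ : b₀ + τ • b₀ + τ ^ 2 • b₀ = 0 := by
    apply Prod.ext
    · show β * ψt τ + (τ • (β * ψt τ) - φt τ * τ • ψt τ)
          + (τ ^ 2 • (β * ψt τ) - φt (τ ^ 2) * τ ^ 2 • ψt τ) = 0
      rw [cocycle_sq φt hφ, hβ, smul_mul', smul_mul', smul_sub, ← mul_smul, ← pow_two]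
      linear_combination β * hτψ
    · show ψt τ + τ • ψt τ + τ ^ 2 • ψt τ = 0
      exact hτψ
  obtain ⟨z, hz, hzσ, hzτ⟩ := hext a₀ b₀ ha₀ hb₀
  -- second component of `z` is `ψt`
  have hz2 : IsCocycle (fun g => (show A × A from z g).2) := by
    intro g h
    show (show A × A from z (g * h)).2 = _
    rw [hz g h]
    rfl
  have hsnd : (fun g => (show A × A from z g).2) = ψt := by
    apply IsCocycle.ext_of_closure hz2 hψ hgen
    rintro x (rfl | rfl)
    · show (show A × A from z x).2 = _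
      rw [hzσ]
    · show (show A × A from z x).2 = _
      rw [hzτ]
  refine ⟨fun g => (show A × A from z g).1, ?_, ?_, ?_⟩
  · intro a b
    show (show A × A from z (a * b)).1 = _
    rw [hz a b]
    show (show A × A from z a).1
        + (a • (show A × A from z b).1 - φt a * a • (show A × A from z b).2) = _
    have := congrFun hsnd b
    simp only at this
    rw [this]
    ring
  · show (show A × A from z σ).1 = _
    rw [hzσ]
  · show (show A × A from z τ).1 = _
    rw [hzτ]

theorem IsCupPrim.map_one {φt ψt K : G → A} (hK : IsCupPrim φt ψt K) (hφ : IsCocycle φt) :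
    K 1 = 0 := by
  have := hK 1 1
  rw [mul_one, one_smul, hφ.map_one, zero_mul, sub_zero] at this
  simpa using this

/-- `K (t ^ n) = ∑_{i<n} t ^ i • K t` when `φt t = 0`. -/
theorem IsCupPrim.map_pow {φt ψt K : G → A} (hK : IsCupPrim φt ψt K) (hφ : IsCocycle φt)
    {t : G} (ht : φt t = 0) (n : ℕ) :
    K (t ^ n) = ∑ i ∈ Finset.range n, t ^ i • K t := by
  have hφn : ∀ n : ℕ, φt (t ^ n) = 0 := by
    intro n
    induction n with
    | zero => rw [pow_zero, hφ.map_one]
    | succ n ih => rw [pow_succ, hφ, ih, ht, smul_zero, add_zero]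
  induction n with
  | zero => rw [pow_zero, hK.map_one hφ, Finset.range_zero, Finset.sum_empty]
  | succ n ih =>
    rw [pow_succ, hK, ih, hφn, zero_mul, sub_zero, Finset.sum_range_succ]

/-- evaluation at a point fixed by `Γ`: a primitive on `Γ` in the sense of `CuspPairing25`. -/
theorem IsCupPrim.isPrimitive_eval {φt ψt K : G → A} (hK : IsCupPrim φt ψt K)
    {R : Type*} [CommRing R] (Γ : Subgroup G) (ε : A →+* R)
    (hε : ∀ γ ∈ Γ, ∀ f : A, ε (γ • f) = ε f) :
    IsPrimitive (fun γ : Γ => ε (φt γ)) (fun γ : Γ => ε (ψt γ)) (fun γ : Γ => ε (K γ)) := by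
  intro a b
  show ε (K ((a : G) * (b : G))) = _
  rw [hK, map_sub, map_add, map_mul, hε a a.2, hε a a.2]

/-- evaluation of a cocycle at a point fixed by `Γ` is additive on `Γ`. -/
theorem isAddHom_eval {φt : G → A} (hφ : IsCocycle φt)
    {R : Type*} [CommRing R] (Γ : Subgroup G) (ε : A →+* R)
    (hε : ∀ γ ∈ Γ, ∀ f : A, ε (γ • f) = ε f) :
    IsAddHom (fun γ : Γ => ε (φt γ)) := by
  intro a b
  show ε (φt ((a : G) * (b : G))) = _
  rw [hφ, map_add, hε a a.2]

/-- **the formula of (B3)**: for a `G`-invariant additive functional `S` (`S = ∑_x`) and cocycles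
killing `T = σ * τ`:  `S (K T) = S ((β + ⅟2 φt τ) * ψt τ)`. -/
theorem IsCupPrim.sum_K_T [Invertible (2 : A)] {φt ψt K : G → A} (hK : IsCupPrim φt ψt K)
    (hφ : IsCocycle φt) (hψ : IsCocycle ψt) {σ τ : G} (hσ : σ ^ 2 = 1)
    (hφT : φt (σ * τ) = 0) (hψT : ψt (σ * τ) = 0) (β : A)
    (hKσ : K σ = -(⅟2 * (φt σ * ψt σ))) (hKτ : K τ = β * ψt τ)
    {R : Type*} [AddCommGroup R] (S : A →+ R) (hS : ∀ (g : G) (f : A), S (g • f) = S f) :
    S (K (σ * τ)) = S ((β + ⅟2 * φt τ) * ψt τ) := by
  have hσφ := cocycle_invol hφ hσ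
  have hσψ := cocycle_invol hψ hσ
  -- `σ • φt τ = - φt σ`, hence `φt σ = φt τ`-type relations
  have h1 : σ • φt τ = -φt σ := by
    have := hφ σ τ
    rw [hφT] at this
    exact eq_neg_of_add_eq_zero_right this.symm
  have h2 : σ • ψt τ = -ψt σ := by
    have := hψ σ τ
    rw [hψT] at this
    exact eq_neg_of_add_eq_zero_right this.symm
  have h3 : φt τ = φt σ := by
    have : σ • σ • φt τ = σ • (-φt σ) := by rw [h1]
    rw [← mul_smul, ← pow_two, hσ, one_smul, smul_neg, hσφ, neg_neg] at this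
    exact this
  have h4 : ψt τ = ψt σ := by
    have : σ • σ • ψt τ = σ • (-ψt σ) := by rw [h2]
    rw [← mul_smul, ← pow_two, hσ, one_smul, smul_neg, hσψ, neg_neg] at this
    exact this
  have h2' : (2 : A) * ⅟2 = 1 := mul_invOf_self 2
  rw [hK, hKσ, hKτ, h2, map_sub, map_add, hS, h3, h4, ← map_add, ← map_sub]
  congr 1
  linear_combination (-(φt σ * ψt σ)) * h2'

/-- **(B2)(K) for `PSL(2,ℤ)`** (`σ = Sb`, `τ = Ub`, `Sb * Ub = mkQ T`). -/
theorem exists_K_PSL2 {A : Type*} [CommRing A] [MulSemiringAction PSL2Free11.Q A]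
    [Invertible (2 : A)] {φt ψt : PSL2Free11.Q → A} (hφ : IsCocycle φt)
    (hψ : IsCocycle ψt) (β : A) (hβ : φt PSL2Free11.Ub = PSL2Free11.Ub • β - β) :
    ∃ K : PSL2Free11.Q → A, IsCupPrim φt ψt K ∧
      K PSL2Free11.Sb = -(⅟2 * (φt PSL2Free11.Sb * ψt PSL2Free11.Sb)) ∧
      K PSL2Free11.Ub = β * ψt PSL2Free11.Ub := by
  refine exists_K PSL2Free11.Sb_sq PSL2Free11.Ub_cube PSL2Free11.closure_Sb_Ub hφ hψ ?_ β hβ
  intro a b ha hb
  let _ := twAction hφ
  obtain ⟨z, ⟨hz, h1, h2⟩, -⟩ := existsUnique_cocycle (V := TwMod φt) a b ha hb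
  exact ⟨z, hz, h1, h2⟩

end Fermat.Agent.ES.I2.PrimExists25
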