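import Mathlib
import Fermat.Agent.ES.I2.PrimExists25
import Fermat.Agent.ES.I2.Model13
import Fermat.Agent.ES.LR.LemmaA21

/-!
# (I2), (B2)(K) in the vocabulary of `Model13` and `LemmaA21` (helper25)

`PrimExists25.exists_K` specialised to the module `A = X → R` with the action
`Model13.act g f x = f (g⁻¹ • x)`:

* `exists_cupPrimitive` : abstract group `G` generated by `σ` (`σ² = 1`), `τ` (`τ³ = 1`) with the
  universal lifting property of `C₂ * C₃` (as a hypothesis), cocycles `z z'` with `z τ = act τ β - β`: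
  there is `K` with `Model13.IsCupPrimitive z z' K`, `K σ = -(⅟2 (z σ)(z' σ))`, `K τ = β * z' τ`.
* `exists_cupPrimitive_PSL2` : the same for `PSL(2,ℤ)`, `σ = Sb`, `τ = Ub` (unconditional).
* `isCupPrimitive_iff`, `isCocycle_iff` : `Model13` form `↔` `LemmaA21` (pointwise) form.
-/

namespace Fermat.Agent.ES.I2.PrimExistsFun25

open Fermat.Agent.ES.I2 Fermat.Agent.ES.LR

universe u v w

variable {G : Type u} [Group G] {X : Type v} [MulAction G X] {R : Type w} [CommRing R]

/-- `Model13.act` as a `MulSemiringAction` on `X → R` (not an instance). -/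
@[reducible] def funAction (G : Type u) [Group G] (X : Type v) [MulAction G X] (R : Type w)
    [CommRing R] : MulSemiringAction G (X → R) where
  smul g f := Model13.act g f
  one_smul f := Model13.act_one f
  mul_smul a b f := Model13.act_mul a b f
  smul_zero g := map_zero (Model13.act g)
  smul_add g f f' := map_add (Model13.act g) f f'
  smul_one g := by funext x; rfl
  smul_mul g f f' := Model13.act_mul_pointwise g f f'

/-- `2` is invertible in `X → R`. -/
@[reducible] def invertibleTwoFun (X : Type v) (R : Type w) [CommRing R] [Invertible (2 : R)] :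
    Invertible (2 : X → R) where
  invOf := fun _ => ⅟(2 : R)
  invOf_mul_self := by funext x; exact invOf_mul_self (2 : R)
  mul_invOf_self := by funext x; exact mul_invOf_self (2 : R)

theorem isCocycle_iff (z : G → X → R) : Model13.IsCocycle z ↔ LemmaA21.IsCocycle z := by
  constructor
  · intro h g k ω
    rw [h g k]; rfl
  · intro h g k
    funext ω
    rw [h g k ω]; rfl

theorem isCupPrimitive_iff (z z' K : G → X → R) :
    Model13.IsCupPrimitive z z' K ↔ LemmaA21.IsCupPrimitive z z' K := by
  constructor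
  · intro h g k ω
    rw [h g k]; rfl
  · intro h g k
    funext ω
    rw [h g k ω]; rfl

/-- **(B2)(K)**, `Model13` vocabulary, abstract group with the universal property of `C₂ * C₃`. -/
theorem exists_cupPrimitive [Invertible (2 : R)] {σ τ : G} (hσ : σ ^ 2 = 1) (hτ : τ ^ 3 = 1)
    (hgen : Subgroup.closure {σ, τ} = ⊤)
    (hlift : ∀ (K : Type (max u v w)) [Group K] (s t : K), s ^ 2 = 1 → t ^ 3 = 1 →
      ∃ f : G →* K, f σ = s ∧ f τ = t)
    {z z' : G → X → R} (hz : Model13.IsCocycle z) (hz' : Model13.IsCocycle z')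
    (β : X → R) (hβ : z τ = Model13.act τ β - β) :
    ∃ K : G → X → R, Model13.IsCupPrimitive z z' K ∧
      (∀ x, K σ x = -(⅟2 * (z σ x * z' σ x))) ∧ K τ = β * z' τ := by
  let _ : MulSemiringAction G (X → R) := funAction G X R
  let _ : Invertible (2 : X → R) := invertibleTwoFun X R
  have hφ : PSL2Cocycle11.IsCocycle z := hz
  have hψ : PSL2Cocycle11.IsCocycle z' := hz'
  have hext : PrimExists25.CocycleExt σ τ hφ := by
    intro a b ha hb
    let _ := PrimExists25.twAction hφ
    obtain ⟨c, ⟨hc, h1, h2⟩, -⟩ :=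
      PSL2Cocycle11.existsUnique_cocycle_of_lift (V := PrimExists25.TwMod z) σ τ hσ hτ hgen
        (fun s t hs ht => hlift _ s t hs ht) a b ha hb
    exact ⟨c, hc, h1, h2⟩
  obtain ⟨K, hK, hKσ, hKτ⟩ := PrimExists25.exists_K hσ hτ hgen hφ hψ hext β hβ
  refine ⟨K, hK, ?_, hKτ⟩
  intro x
  rw [hKσ]
  rfl

/-- **(B2)(K) for `PSL(2,ℤ)`**, `Model13` vocabulary. -/
theorem exists_cupPrimitive_PSL2 {X : Type v} [MulAction PSL2Free11.Q X] [Invertible (2 : R)]
    {z z' : PSL2Free11.Q → X → R} (hz : Model13.IsCocycle z) (hz' : Model13.IsCocycle z')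
    (β : X → R) (hβ : z PSL2Free11.Ub = Model13.act PSL2Free11.Ub β - β) :
    ∃ K : PSL2Free11.Q → X → R, Model13.IsCupPrimitive z z' K ∧
      (∀ x, K PSL2Free11.Sb x = -(⅟2 * (z PSL2Free11.Sb x * z' PSL2Free11.Sb x))) ∧
      K PSL2Free11.Ub = β * z' PSL2Free11.Ub :=
  exists_cupPrimitive PSL2Free11.Sb_sq PSL2Free11.Ub_cube PSL2Free11.closure_Sb_Ub
    (fun _ _ s t hs ht => (PSL2Free11.existsUnique_lift s t hs ht).exists) hz hz' β hβ

end Fermat.Agent.ES.I2.PrimExistsFun25
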