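import Mathlib
import Fermat.Agent.ES.I2.PrimExistsFun25

/-!
# (I2), (B2)(K), integral form: cup primitives with prescribed values (helper25)

`PrimExists25.exists_K` needs `⅟2`.  Here is the general form: for ANY `kσ kτ` with
`kσ + σ • kσ = C(σ,σ)` and `kτ + τ • kτ + τ² • kτ = C(τ,τ) + C(τ²,τ)` (`C(a,b) = φt a * a • ψt b`)
there is a cup primitive `K` with `K σ = kσ`, `K τ = kτ`.  Special case without division: the
DOUBLED cup product `(2 φt) ∪ ψt` has the primitive with `K σ = -(φt σ * ψt σ)`,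
`K τ = 2 * β * ψt τ` (`φt τ = τ • β - β`), over any commutative ring (e.g. `ℤ`), and then
`S (K (σ τ)) = S ((2 β + φt τ) * ψt τ)` for a `G`-invariant additive functional `S`.

`Model13` forms: `exists_cupPrimitive_two`, `exists_cupPrimitive_two_PSL2`, `eps_K_T_two`.
-/

namespace Fermat.Agent.ES.I2.PrimExistsGen25

open Fermat.Agent.ES.I2 Fermat.Agent.ES.I2.PSL2Cocycle11 Fermat.Agent.ES.I2.PrimExists25

section Abstract

variable {G : Type*} [Group G] {A : Type*} [CommRing A] [MulSemiringAction G A]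

/-- **(B2)(K), general form**: cup primitive with prescribed values at the generators. -/
theorem exists_K_gen {σ τ : G} (hgen : Subgroup.closure {σ, τ} = ⊤) {φt ψt : G → A}
    (hφ : IsCocycle φt) (hψ : IsCocycle ψt) (hσ : σ ^ 2 = 1) (hτ : τ ^ 3 = 1)
    (hext : CocycleExt σ τ hφ) (kσ kτ : A)
    (h2 : kσ + σ • kσ = φt σ * σ • ψt σ)
    (h3 : kτ + τ • kτ + τ ^ 2 • kτ = φt τ * τ • ψt τ + φt (τ ^ 2) * τ ^ 2 • ψt τ) :
    ∃ K : G → A, IsCupPrim φt ψt K ∧ K σ = kσ ∧ K τ = kτ := by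
  let _ := twAction hφ
  have hσψ := cocycle_invol hψ hσ
  have hτψ := cocycle_cube hψ hτ
  let a₀ : TwMod φt := ((kσ, ψt σ) : A × A)
  let b₀ : TwMod φt := ((kτ, ψt τ) : A × A)
  have ha₀ : a₀ + σ • a₀ = 0 := by
    apply Prod.ext
    · show kσ + (σ • kσ - φt σ * σ • ψt σ) = 0
      linear_combination h2
    · show ψt σ + σ • ψt σ = 0
      rw [hσψ, add_neg_cancel]
  have hb₀ : b₀ + τ • b₀ + τ ^ 2 • b₀ = 0 := by
    apply Prod.ext
    · show kτ + (τ • kτ - φt τ * τ • ψt τ) + (τ ^ 2 • kτ - φt (τ ^ 2) * τ ^ 2 • ψt τ) = 0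
      linear_combination h3
    · show ψt τ + τ • ψt τ + τ ^ 2 • ψt τ = 0
      exact hτψ
  obtain ⟨z, hz, hzσ, hzτ⟩ := hext a₀ b₀ ha₀ hb₀
  have hz2 : IsCocycle (fun g => (show A × A from z g).2) := by
    intro g h
    show (show A × A from z (g * h)).2 = _
    rw [hz g h]
    rfl
  have hsnd : (fun g => (show A × A from z g).2) = ψt := by
    apply IsCocycle.ext_of_closure hz2 hψ hgen
    rintro x (rfl | rfl)
    · show (show A × A from z x).2 = _
      rw [hzσ]
    · show (show A × A from z x).2 = _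
      rw [hzτ]
  refine ⟨fun g => (show A × A from z g).1, ?_, ?_, ?_⟩
  · intro a b
    show (show A × A from z (a * b)).1 = _
    rw [hz a b]
    show (show A × A from z a).1
        + (a • (show A × A from z b).1 - φt a * a • (show A × A from z b).2) = _
    have := congrFun hsnd b
    simp only at this
    rw [this]
    ring
  · show (show A × A from z σ).1 = _
    rw [hzσ]
  · show (show A × A from z τ).1 = _
    rw [hzτ]

theorem isCocycle_two_mul {φt : G → A} (hφ : IsCocycle φt) : IsCocycle (fun g => 2 * φt g) := by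
  intro g h
  show 2 * φt (g * h) = 2 * φt g + g • (2 * φt h)
  have h2' : g • (2 : A) = 2 := by
    have : (2 : A) = 1 + 1 := by norm_num
    rw [this, smul_add, smul_one]
  rw [hφ g h, smul_mul', h2']
  ring

/-- **doubled cup product, no division**: `K σ = -(φt σ * ψt σ)`, `K τ = 2 * β * ψt τ`. -/
theorem exists_K_two {σ τ : G} (hgen : Subgroup.closure {σ, τ} = ⊤) {φt ψt : G → A}
    (hφ : IsCocycle φt) (hψ : IsCocycle ψt) (hσ : σ ^ 2 = 1) (hτ : τ ^ 3 = 1)
    (hext : CocycleExt σ τ (isCocycle_two_mul hφ)) (β : A) (hβ : φt τ = τ • β - β) :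
    ∃ K : G → A, IsCupPrim (fun g => 2 * φt g) ψt K ∧ K σ = -(φt σ * ψt σ) ∧
      K τ = 2 * β * ψt τ := by
  have hσφ := cocycle_invol hφ hσ
  have hσψ := cocycle_invol hψ hσ
  have hτψ := cocycle_cube hψ hτ
  have h2' : ∀ g : G, g • (2 : A) = 2 := by
    intro g
    have : (2 : A) = 1 + 1 := by norm_num
    rw [this, smul_add, smul_one]
  refine exists_K_gen hgen (isCocycle_two_mul hφ) hψ hσ hτ hext _ _ ?_ ?_
  · show -(φt σ * ψt σ) + σ • (-(φt σ * ψt σ)) = 2 * φt σ * σ • ψt σ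
    rw [smul_neg, smul_mul', hσφ, hσψ]
    ring
  · show 2 * β * ψt τ + τ • (2 * β * ψt τ) + τ ^ 2 • (2 * β * ψt τ)
      = 2 * φt τ * τ • ψt τ + 2 * φt (τ ^ 2) * τ ^ 2 • ψt τ
    rw [cocycle_sq φt hφ, hβ, smul_mul', smul_mul', smul_mul', smul_mul', h2', h2', smul_sub,
      ← mul_smul, ← pow_two]
    linear_combination (2 * β) * hτψ

/-- the value of `S (K (σ τ))` for the doubled primitive: `S ((2 β + φt τ) * ψt τ)`. -/
theorem sum_K_T_two {φt ψt K : G → A} (hK : IsCupPrim (fun g => 2 * φt g) ψt K)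
    (hφ : IsCocycle φt) (hψ : IsCocycle ψt) {σ τ : G} (hσ : σ ^ 2 = 1)
    (hφT : φt (σ * τ) = 0) (hψT : ψt (σ * τ) = 0) (β : A)
    (hKσ : K σ = -(φt σ * ψt σ)) (hKτ : K τ = 2 * β * ψt τ)
    {R : Type*} [AddCommGroup R] (S : A →+ R) (hS : ∀ (g : G) (f : A), S (g • f) = S f) :
    S (K (σ * τ)) = S ((2 * β + φt τ) * ψt τ) := by
  have hσφ := cocycle_invol hφ hσ
  have hσψ := cocycle_invol hψ hσ
  have h1 : σ • φt τ = -φt σ := by
    have := hφ σ τ
    rw [hφT] at this
    exact eq_neg_of_add_eq_zero_right this.symm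
  have h2 : σ • ψt τ = -ψt σ := by
    have := hψ σ τ
    rw [hψT] at this
    exact eq_neg_of_add_eq_zero_right this.symm
  have h3 : φt τ = φt σ := by
    have : σ • σ • φt τ = σ • (-φt σ) := by rw [h1]
    rw [← mul_smul, ← pow_two, hσ, one_smul, smul_neg, hσφ, neg_neg] at this
    exact this
  have h4 : ψt τ = ψt σ := by
    have : σ • σ • ψt τ = σ • (-ψt σ) := by rw [h2]
    rw [← mul_smul, ← pow_two, hσ, one_smul, smul_neg, hσψ, neg_neg] at this
    exact this
  rw [hK, hKσ, hKτ, h2, map_sub, map_add, hS, h3, h4, ← map_add, ← map_sub]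
  congr 1
  ring

end Abstract

section Fun

open Fermat.Agent.ES.I2.PrimExistsFun25

universe u v w

variable {G : Type u} [Group G] {X : Type v} [MulAction G X] {R : Type w} [CommRing R]

/-- **doubled (K)**, `Model13` vocabulary, abstract group with the lifting property of `C₂ * C₃`,
over ANY commutative ring. -/
theorem exists_cupPrimitive_two {σ τ : G} (hσ : σ ^ 2 = 1) (hτ : τ ^ 3 = 1)
    (hgen : Subgroup.closure {σ, τ} = ⊤)
    (hlift : ∀ (K : Type (max u v w)) [Group K] (s t : K), s ^ 2 = 1 → t ^ 3 = 1 →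
      ∃ f : G →* K, f σ = s ∧ f τ = t)
    {z z' : G → X → R} (hz : Model13.IsCocycle z) (hz' : Model13.IsCocycle z')
    (β : X → R) (hβ : z τ = Model13.act τ β - β) :
    ∃ K : G → X → R, Model13.IsCupPrimitive (fun g => 2 * z g) z' K ∧
      K σ = -(z σ * z' σ) ∧ K τ = 2 * β * z' τ := by
  let _ : MulSemiringAction G (X → R) := funAction G X R
  have hφ : PSL2Cocycle11.IsCocycle z := hz
  have hψ : PSL2Cocycle11.IsCocycle z' := hz'
  have hext : PrimExists25.CocycleExt σ τ (isCocycle_two_mul hφ) := by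
    intro a b ha hb
    let _ := PrimExists25.twAction (isCocycle_two_mul hφ)
    obtain ⟨c, ⟨hc, h1, h2⟩, -⟩ :=
      PSL2Cocycle11.existsUnique_cocycle_of_lift
        (V := PrimExists25.TwMod (fun g => 2 * z g)) σ τ hσ hτ hgen
        (fun s t hs ht => hlift _ s t hs ht) a b ha hb
    exact ⟨c, hc, h1, h2⟩
  obtain ⟨K, hK, hKσ, hKτ⟩ := exists_K_two hgen hφ hψ hσ hτ hext β hβ
  exact ⟨K, hK, hKσ, hKτ⟩

/-- **doubled (K) for `PSL(2,ℤ)`**, `Model13` vocabulary, any commutative ring (e.g. `ℤ`). -/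
theorem exists_cupPrimitive_two_PSL2 {X : Type v} [MulAction PSL2Free11.Q X]
    {z z' : PSL2Free11.Q → X → R} (hz : Model13.IsCocycle z) (hz' : Model13.IsCocycle z')
    (β : X → R) (hβ : z PSL2Free11.Ub = Model13.act PSL2Free11.Ub β - β) :
    ∃ K : PSL2Free11.Q → X → R, Model13.IsCupPrimitive (fun g => 2 * z g) z' K ∧
      K PSL2Free11.Sb = -(z PSL2Free11.Sb * z' PSL2Free11.Sb) ∧
      K PSL2Free11.Ub = 2 * β * z' PSL2Free11.Ub :=
  exists_cupPrimitive_two PSL2Free11.Sb_sq PSL2Free11.Ub_cube PSL2Free11.closure_Sb_Ub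
    (fun _ _ s t hs ht => (PSL2Free11.existsUnique_lift s t hs ht).exists) hz hz' β hβ

/-- **the formula**: in the gauge `z (σ τ) = 0 = z' (σ τ)`,
`eps (K (σ τ)) = form (2 β + z τ) (z' τ)` for the doubled primitive. -/
theorem eps_K_T_two [Fintype X] {σ τ : G} (hσ : σ ^ 2 = 1) {z z' K : G → X → R}
    (hz : Model13.IsCocycle z) (hz' : Model13.IsCocycle z')
    (hK : Model13.IsCupPrimitive (fun g => 2 * z g) z' K)
    (hzT : z (σ * τ) = 0) (hzT' : z' (σ * τ) = 0) (β : X → R)
    (hKσ : K σ = -(z σ * z' σ)) (hKτ : K τ = 2 * β * z' τ) :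
    Model13.eps (K (σ * τ)) = Model13.form (2 * β + z τ) (z' τ) := by
  let _ : MulSemiringAction G (X → R) := funAction G X R
  have hφ : PSL2Cocycle11.IsCocycle z := hz
  have hψ : PSL2Cocycle11.IsCocycle z' := hz'
  have hK' : IsCupPrim (fun g => 2 * z g) z' K := hK
  let S : (X → R) →+ R :=
    { toFun := Model13.eps
      map_zero' := by simp [Model13.eps]
      map_add' := fun f g => by simp [Model13.eps, Finset.sum_add_distrib] }
  have hS : ∀ (g : G) (f : X → R), S (g • f) = S f := fun g f => Model13.eps_act g f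
  have := sum_K_T_two hK' hφ hψ hσ hzT hzT' β hKσ hKτ S hS
  rw [Model13.form_eq_eps]
  exact this

end Fun

end Fermat.Agent.ES.I2.PrimExistsGen25
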