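/-
(I2), MODEL side — integral `ker (1 + τ + τ²) = im (τ - 1)` on functions (helper17).

For an element `τ` of order dividing `3` of a group acting on a set `X` and a function
`v : X → R` with `v + τ v + τ² v = 0` which vanishes at the `τ`-fixed points (automatic if `R`
has no `3`-torsion), there is `β : X → R` with `τ β - β = v`.  No finiteness, no division.
Vocabulary of `Model13` (`act g f x = f (g⁻¹ • x)`).
-/
import Mathlib
import Fermat.Agent.ES.I2.Model13

set_option autoImplicit false

namespace Fermat.Agent.ES.I2.TauPrim17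

open Fermat.Agent.ES.I2.Model13

section pure

variable {X : Type*} {A : Type*} [AddCommGroup A]

/-- the orbit relation of a self-map of order dividing `3`. -/
def orbSetoid (s : X → X) (hs : ∀ x, s (s (s x)) = x) : Setoid X where
  r x y := y = x ∨ y = s x ∨ y = s (s x)
  iseqv :=
    { refl := fun x => Or.inl rfl
      symm := by
        rintro x y (h | h | h)
        · exact Or.inl h.symm
        · right; right; rw [h, hs]
        · right; left; rw [h, hs]
      trans := by
        rintro x y z (rfl | rfl | rfl) (rfl | rfl | rfl) <;> simp [hs] }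

/-- **primitive along a map of order `3`**: if `v x + v (s x) + v (s (s x)) = 0` for all `x` and
`v` vanishes at the fixed points of `s`, then `v x = β (s x) - β x` for some `β`. -/
theorem exists_prim_fun (s : X → X) (hs : ∀ x, s (s (s x)) = x) (v : X → A)
    (hv : ∀ x, v x + v (s x) + v (s (s x)) = 0) (hfix : ∀ x, s x = x → v x = 0) :
    ∃ β : X → A, ∀ x, β (s x) - β x = v x := by
  classical
  let c : X → X := fun x => (Quotient.mk (orbSetoid s hs) x).out
  have hc : ∀ x, x = c x ∨ x = s (c x) ∨ x = s (s (c x)) := fun x =>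
    Quotient.mk_out (s := orbSetoid s hs) x
  have hcs : ∀ x, c (s x) = c x := by
    intro x
    show (Quotient.mk (orbSetoid s hs) (s x)).out = (Quotient.mk (orbSetoid s hs) x).out
    congr 1
    exact Quotient.sound (Or.inr (Or.inr (hs x).symm))
  refine ⟨fun x => if x = c x then 0 else if x = s (c x) then v (c x)
    else v (c x) + v (s (c x)), fun x => ?_⟩
  have h1 := hc x
  simp only [hcs]
  generalize c x = r at h1 ⊢
  by_cases hsr : s r = r
  · have hx : x = r := by
      rcases h1 with h | h | h
      · exact h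
      · rw [h, hsr]
      · rw [h, hsr, hsr]
    subst hx
    simp [hsr, hfix x hsr]
  · have h2 : s (s r) ≠ r := fun h => hsr (by
      have := congrArg s h
      rw [hs] at this
      exact this.symm)
    have h3 : s (s r) ≠ s r := fun h => hsr (by
      have := congrArg s (congrArg s h)
      rw [hs, hs] at this
      exact this)
    rcases h1 with rfl | rfl | rfl
    · simp [hsr]
    · simp [hsr, h2, h3]
    · rw [hs]
      simp only [if_true, h2, h3, if_false, zero_sub]
      rw [neg_eq_iff_add_eq_zero]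
      exact hv r

end pure

variable {G : Type*} [Group G] {X : Type*} [MulAction G X] {R : Type*} [CommRing R]

theorem inv_smul_cube {τ : G} (hτ : τ ^ 3 = 1) (x : X) : τ⁻¹ • τ⁻¹ • τ⁻¹ • x = x := by
  rw [← mul_smul, ← mul_smul, ← mul_inv_rev, ← mul_inv_rev, ← mul_assoc, ← pow_three', hτ, inv_one,
    one_smul]

theorem sq_inv_smul (τ : G) (x : X) : (τ ^ 2)⁻¹ • x = τ⁻¹ • τ⁻¹ • x := by
  rw [pow_two, mul_inv_rev, mul_smul]

/-- **`ker (1 + τ + τ²) ⊆ im (τ - 1)`**, any coefficient ring, for functions vanishing at the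
`τ`-fixed points. -/
theorem exists_act_sub_eq_of_fixed (τ : G) (hτ : τ ^ 3 = 1) (v : X → R)
    (hv : v + act τ v + act (τ ^ 2) v = 0) (hfix : ∀ x, τ • x = x → v x = 0) :
    ∃ β : X → R, act τ β - β = v := by
  obtain ⟨β, hβ⟩ := exists_prim_fun (fun x : X => τ⁻¹ • x) (fun x => inv_smul_cube hτ x) v
    (fun x => by
      have := congrFun hv x
      simpa only [Pi.add_apply, act_apply, sq_inv_smul, Pi.zero_apply] using this)
    (fun x hx => hfix x (by
      have h : τ⁻¹ • x = x := hx
      rw [inv_smul_eq_iff] at h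
      exact h.symm))
  exact ⟨β, funext fun x => hβ x⟩

/-- **`ker (1 + τ + τ²) = im (τ - 1)`** on functions with values in a ring without `3`-torsion
(`ℤ`, `ℤ_(p)`, `ℤ[1/2]`, a field of characteristic `≠ 3`). -/
theorem exists_act_sub_eq (τ : G) (hτ : τ ^ 3 = 1) (h3 : ∀ r : R, 3 • r = 0 → r = 0) (v : X → R)
    (hv : v + act τ v + act (τ ^ 2) v = 0) : ∃ β : X → R, act τ β - β = v := by
  refine exists_act_sub_eq_of_fixed τ hτ v hv (fun x hx => h3 _ ?_)
  have hx' : τ⁻¹ • x = x := by rw [inv_smul_eq_iff]; exact hx.symm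
  have := congrFun hv x
  simp only [Pi.add_apply, act_apply, sq_inv_smul, Pi.zero_apply, hx'] at this
  rw [← this]
  simp only [succ_nsmul, zero_nsmul, zero_add]

/-- the converse: `im (τ - 1) ⊆ ker (1 + τ + τ²)`. -/
theorem norm_act_sub (τ : G) (hτ : τ ^ 3 = 1) (β : X → R) :
    (act τ β - β) + act τ (act τ β - β) + act (τ ^ 2) (act τ β - β) = 0 := by
  have h3 : act (τ ^ 2) (act τ β) = β := by
    rw [← act_mul, ← pow_succ, hτ, act_one]
  have h2 : act (τ ^ 2) β = act τ (act τ β) := by rw [pow_two, act_mul]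
  rw [map_sub, map_sub, h3, h2]
  abel

/-- a function in `im (τ - 1)` vanishes at the `τ`-fixed points. -/
theorem act_sub_apply_of_fixed (τ : G) (β : X → R) {x : X} (hx : τ • x = x) :
    (act τ β - β) x = 0 := by
  have hx' : τ⁻¹ • x = x := by rw [inv_smul_eq_iff]; exact hx.symm
  simp [hx']

/-- the value of a cocycle at an element of order `3` lies in `ker (1 + τ + τ²)`. -/
theorem isCocycle_norm_eq_zero {z : G → X → R} (hz : IsCocycle z) {τ : G} (hτ : τ ^ 3 = 1) :
    z τ + act τ (z τ) + act (τ ^ 2) (z τ) = 0 := by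
  have h := hz.map_one
  rw [← hτ, pow_succ', pow_two, hz, hz, map_add, ← act_mul, ← pow_two] at h
  rw [← h]
  abel

/-- the value of a cocycle at an element of order `3` is a coboundary value `τ β - β`
(coefficients without `3`-torsion). -/
theorem isCocycle_exists_prim {z : G → X → R} (hz : IsCocycle z) {τ : G} (hτ : τ ^ 3 = 1)
    (h3 : ∀ r : R, 3 • r = 0 → r = 0) : ∃ β : X → R, z τ = act τ β - β := by
  obtain ⟨β, hβ⟩ := exists_act_sub_eq τ hτ h3 (z τ) (isCocycle_norm_eq_zero hz hτ)
  exact ⟨β, hβ.symm⟩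

/-- the value of a cocycle at an element of order `3` is a coboundary value `τ β - β`
(any coefficients, cocycle vanishing at the `τ`-fixed points). -/
theorem isCocycle_exists_prim_of_fixed {z : G → X → R} (hz : IsCocycle z) {τ : G}
    (hτ : τ ^ 3 = 1) (hfix : ∀ x, τ • x = x → z τ x = 0) : ∃ β : X → R, z τ = act τ β - β := by
  obtain ⟨β, hβ⟩ := exists_act_sub_eq_of_fixed τ hτ (z τ) (isCocycle_norm_eq_zero hz hτ) hfix
  exact ⟨β, hβ.symm⟩

/-- the order `2` analogue with `2` invertible: `ker (1 + σ) = im (σ - 1)`. -/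
theorem exists_act_sub_eq_two (σ : G) [Invertible (2 : R)] (v : X → R)
    (hv : v + act σ v = 0) : ∃ β : X → R, act σ β - β = v := by
  refine ⟨-(⅟(2:R)) • v, ?_⟩
  have h : act σ v = -v := eq_neg_of_add_eq_zero_right hv
  rw [map_smul, h]
  funext x
  simp only [Pi.sub_apply, Pi.smul_apply, Pi.neg_apply, smul_eq_mul]
  have : (2:R) * ⅟(2:R) = 1 := mul_invOf_self _
  linear_combination (v x) * this

end Fermat.Agent.ES.I2.TauPrim17
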