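import Mathlib
import Fermat.Agent.ES.I2.Gamma0Model11
import Fermat.Agent.ES.I2.TauPrim17
import Fermat.Agent.ES.I2.PrimExistsGen25
import Fermat.Agent.ES.I2.CuspPairingTwo25

/-!
# (I2), (K2) for every subgroup of `SL(2,ℤ)` (helper25)

For ANY subgroup `Γ ≤ SL(2,ℤ)` and ANY two additive functions `φ ψ : Γ → R` (`R` a commutative ring
without `2`- and `3`-torsion, e.g. `ℤ`) the doubled cup product `(2 φ) ∪ ψ` has a primitive:

  `∃ κ : Γ → R, κ (a b) = κ a + κ b - 2 φ a * ψ b`.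

No parabolicity, no finiteness of the index, no adapted section is needed.  Proof: Shapiro cocycles
`z = sh s (push φ)`, `z' = sh s (push ψ)` on `Q = PSL(2,ℤ)` acting on `XQ Γ`; `z Ub = Ub β - β`
(`TauPrim17`); the integral cup primitive `K` of `PrimExistsGen25`; `κ γ := K (toStab γ) x0`.

* `exists_sec` : normalised sections exist for a pretransitive action.
* `exists_primitive_two_stab` : (K2) on a point stabiliser of a `PSL(2,ℤ)`-set.
* `exists_primitive_two` / `exists_primitive_two_fun` : (K2) on `Γ ≤ SL(2,ℤ)`.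
* `hasPrim2` : `CuspPairingTwo25.HasPrim2 c` for every family `c` in `Γ`.
-/

namespace Fermat.Agent.ES.I2.HasPrimGamma25

open Fermat.Agent.ES.I2 Fermat.Agent.ES.I2.CuspPairing25 Fermat.Agent.ES.I2.PSL2Free11
open Matrix MatrixGroups

variable {R : Type*} [CommRing R]

/-- normalised sections of the orbit map exist for a pretransitive action. -/
theorem exists_sec {G : Type*} [Group G] {X : Type*} [MulAction G X]
    [MulAction.IsPretransitive G X] (x0 : X) : Nonempty (Model13.Sec G x0) := by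
  classical
  choose r hr using fun x => MulAction.exists_smul_eq G x0 x
  refine ⟨⟨fun x => if x = x0 then 1 else r x, ?_, by simp⟩⟩
  intro x
  by_cases h : x = x0
  · simp [h]
  · simp [h, hr]

/-- **(K2) on a point stabiliser** of a `PSL(2,ℤ)`-set. -/
theorem exists_primitive_two_stab {X : Type*} [MulAction Q X] {x0 : X} (s : Model13.Sec Q x0)
    (h3 : ∀ r : R, 3 • r = 0 → r = 0)
    (φb ψb : Additive (MulAction.stabilizer Q x0) →+ R) :
    ∃ κ : MulAction.stabilizer Q x0 → R,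
      IsPrimitive ((2 : R) • fun γ => φb (Additive.ofMul γ)) (fun γ => ψb (Additive.ofMul γ)) κ := by
  have hz := Model13.isCocycle_sh s φb
  have hz' := Model13.isCocycle_sh s ψb
  obtain ⟨β, hβ⟩ := TauPrim17.isCocycle_exists_prim hz Ub_cube h3
  obtain ⟨K, hK, -, -⟩ := PrimExistsGen25.exists_cupPrimitive_two_PSL2 hz hz' β hβ
  refine ⟨fun γ => K (γ : Q) x0, ?_⟩
  intro a b
  have hfix : ((a : Q))⁻¹ • x0 = x0 := by
    rw [inv_smul_eq_iff]; exact (MulAction.mem_stabilizer_iff.mp a.2).symm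
  have h := congrFun (hK (a : Q) (b : Q)) x0
  simp only [Pi.sub_apply, Pi.add_apply, Pi.mul_apply, Model13.act_apply, hfix] at h
  show K ((a * b : MulAction.stabilizer Q x0) : Q) x0 = _
  rw [Subgroup.coe_mul, h]
  simp only [Pi.smul_apply, smul_eq_mul]
  rw [Model13.sh_base s φb a, Model13.sh_base s ψb b]
  rfl

/-- **(K2) on any `Γ ≤ SL(2,ℤ)`**, bundled homs. -/
theorem exists_primitive_two (Γ : Subgroup SL(2, ℤ)) (h2 : ∀ r : R, 2 • r = 0 → r = 0)
    (h3 : ∀ r : R, 3 • r = 0 → r = 0) (φ ψ : Additive Γ →+ R) :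
    ∃ κ : Γ → R,
      IsPrimitive ((2 : R) • fun γ => φ (Additive.ofMul γ)) (fun γ => ψ (Additive.ofMul γ)) κ := by
  obtain ⟨s⟩ := exists_sec (G := Q) (Gamma0Model11.x0 Γ)
  obtain ⟨κb, hκb⟩ := exists_primitive_two_stab s h3 (Gamma0Model11.push Γ h2 φ)
    (Gamma0Model11.push Γ h2 ψ)
  refine ⟨κb ∘ Gamma0Model11.toStab Γ, ?_⟩
  intro a b
  have := hκb (Gamma0Model11.toStab Γ a) (Gamma0Model11.toStab Γ b)
  simp only [Pi.smul_apply, smul_eq_mul, Gamma0Model11.push_toStab, ← map_mul] at this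
  simp only [Function.comp_apply, Pi.smul_apply, smul_eq_mul]
  exact this

/-- the additive hom attached to an additive function. -/
def toAddHom {G : Type*} [Group G] {φ : G → R} (hφ : IsAddHom φ) : Additive G →+ R where
  toFun a := φ (Additive.toMul a)
  map_zero' := hφ.map_one
  map_add' a b := hφ (Additive.toMul a) (Additive.toMul b)

theorem toAddHom_apply {G : Type*} [Group G] {φ : G → R} (hφ : IsAddHom φ) (g : G) :
    toAddHom hφ (Additive.ofMul g) = φ g := rfl

/-- **(K2) on any `Γ ≤ SL(2,ℤ)`**, plain additive functions. -/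
theorem exists_primitive_two_fun (Γ : Subgroup SL(2, ℤ)) (h2 : ∀ r : R, 2 • r = 0 → r = 0)
    (h3 : ∀ r : R, 3 • r = 0 → r = 0) {φ ψ : Γ → R} (hφ : IsAddHom φ) (hψ : IsAddHom ψ) :
    ∃ κ : Γ → R, IsPrimitive ((2 : R) • φ) ψ κ :=
  exists_primitive_two Γ h2 h3 (toAddHom hφ) (toAddHom hψ)

/-- **(K2)** in the vocabulary of `CuspPairingTwo25`, for every family `c`. -/
theorem hasPrim2 (Γ : Subgroup SL(2, ℤ)) (h2 : ∀ r : R, 2 • r = 0 → r = 0)
    (h3 : ∀ r : R, 3 • r = 0 → r = 0) {ι : Type*} [Fintype ι] (c : ι → Γ) :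
    CuspPairingTwo25.HasPrim2 (R := R) c :=
  fun _ _ hφ hψ => exists_primitive_two_fun Γ h2 h3 hφ.1 hψ.1

/-- (K2) over `ℤ`. -/
theorem hasPrim2_int (Γ : Subgroup SL(2, ℤ)) {ι : Type*} [Fintype ι] (c : ι → Γ) :
    CuspPairingTwo25.HasPrim2 (R := ℤ) c :=
  hasPrim2 Γ (fun r hr => by simpa using hr) (fun r hr => by simpa using hr) c

end Fermat.Agent.ES.I2.HasPrimGamma25
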