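import Mathlib
import Fermat.Agent.ES.I2.CuspSys13
import Fermat.Agent.ES.I2.CuspRel15
import Fermat.Agent.ES.I2.CuspPairingTwo25
import Fermat.Agent.ES.I2.HasPrimGamma25
import Fermat.Agent.ES.I2.DegAdj3

/-!
# (I2), (DEF): the integral alternating form `E` on `parabolicHoms ℤ Γ ℤ` (helper25)

For a finite index subgroup `Γ ≤ SL(2,ℤ)`:

  `EΓ Γ x y := E2 (cuspFam Γ) (fn x) (fn y) = pairing (cuspFam Γ) (2 • fn x) (fn y)`  (over `ℤ`),

`cuspFam Γ` = Mathlib's `⟨T⟩`-orbit family (`CuspSys13`), `E2` the doubled cusp pairing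
(`CuspPairingTwo25`).  (REL) is `CuspRel15.prod_orbit_eq_one`, (K2) is `HasPrimGamma25.hasPrim2_int`.

* `rel_cuspFam : Rel ℤ (cuspFam Γ)`, `isPar_cuspFam : IsPar (cuspFam Γ) (fn x)` for parabolic `x`.
* `EΓ Γ : LinearMap.BilinForm ℤ (parabolicHoms ℤ Γ ℤ)`, `EΓ_apply`, `EΓ_eq_sum` (any primitive of
  `(2 • fn x, fn y)`), `EΓ_alt`, `EΓ_skew`.
* `EΓ_eq_E2_of_famEquiv` : `EΓ` can be computed with any family equivalent (reindexing +
  conjugation in `Γ`) to `cuspFam Γ`.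
* `EE M := EΓ (Gamma0 M)` : the form of the (I2) contract of `L_PLAN27_v2`, `EE_alt`.
-/

set_option linter.unusedSectionVars false

namespace Fermat.Agent.ES.I2.EDef25

open Matrix MatrixGroups MulAction Subgroup ModularCurve.Period CongruenceSubgroup
open Fermat.Agent.ES.I2 Fermat.Agent.ES.I2.CuspPairing25 Fermat.Agent.ES.I2.CuspPairingTwo25
open Fermat.Agent.ES.I2.CuspSys13 Fermat.Agent.ES.I2.DegAdj3

variable (Γ : Subgroup SL(2, ℤ)) [Γ.FiniteIndex]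

/-- the index type of `cuspFam Γ` (the `⟨T⟩`-orbits on `SL(2,ℤ) ⧸ Γ`) is finite. -/
noncomputable instance instFintypeCusps :
    Fintype (orbitRel.Quotient (zpowers (ModularGroup.T : SL(2, ℤ))) (SL(2, ℤ) ⧸ Γ)) := by
  classical
  haveI : Finite (SL(2, ℤ) ⧸ Γ) := Subgroup.finite_quotient_of_finiteIndex
  exact Fintype.ofFinite _

/-- **(REL)** for the canonical cusp family. -/
theorem rel_cuspFam : Rel ℤ (cuspFam Γ) := by
  intro χ hχ
  have htriv : ∀ f : SL(2, ℤ) →* Multiplicative ℤ, f = 1 :=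
    CuspRel15.sl2z_hom_multiplicative_eq_one (fun a n hn han => by
      rcases smul_eq_zero.mp han with h0 | h0
      · omega
      · exact h0)
  let χ' : Γ →* Multiplicative ℤ :=
    { toFun := fun g => Multiplicative.ofAdd (χ g)
      map_one' := by rw [hχ.map_one]; rfl
      map_mul' := fun a b => by rw [hχ a b]; rfl }
  have key := CuspRel15.prod_orbit_eq_one Γ htriv χ' (ModularGroup.T : SL(2, ℤ))
  have h2 := congrArg Multiplicative.toAdd key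
  rw [toAdd_prod] at h2
  exact h2

/-- a conjugate of a power of `T` has trace `2`. -/
theorem trace_inv_T_pow_mul (g : SL(2, ℤ)) (n : ℕ) :
    ((g⁻¹ * ModularGroup.T ^ n * g : SL(2, ℤ)) : Matrix (Fin 2) (Fin 2) ℤ).trace = 2 := by
  have h := Gamma0Model11.trace_conj_T_pow g⁻¹ n
  rw [inv_inv] at h
  exact h

/-- parabolic homs kill the canonical cusp family. -/
theorem isPar_cuspFam {R : Type*} [CommRing R] {x : Additive Γ →+ R}
    (hx : IsParabolicHom Γ x) : IsPar (cuspFam Γ) (fn x) := by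
  refine ⟨isAddHom_fn x, fun q => ?_⟩
  apply hx
  rw [coe_cuspFam, trace_inv_T_pow_mul]
  norm_num

theorem isPar_cuspFam_mem {x : Additive Γ →+ ℤ} (hx : x ∈ parabolicHoms ℤ Γ ℤ) :
    IsPar (cuspFam Γ) (fn x) :=
  isPar_cuspFam Γ (mem_parabolicHoms_iff.mp hx)

theorem fn_add {K : Type*} [Group K] {R : Type*} [CommRing R] (x y : Additive K →+ R) :
    fn (x + y) = fn x + fn y := rfl

theorem fn_smul {K : Type*} [Group K] {R : Type*} [CommRing R] (r : R) (x : Additive K →+ R) :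
    fn (r • x) = r • fn x := rfl

/-- **the integral alternating form** on `parabolicHoms ℤ Γ ℤ`. -/
noncomputable def EΓ : LinearMap.BilinForm ℤ ↥(parabolicHoms ℤ Γ ℤ) :=
  LinearMap.mk₂ ℤ (fun x y => E2 (cuspFam Γ) (fn (x : Additive Γ →+ ℤ)) (fn (y : Additive Γ →+ ℤ)))
    (fun x x' y => by
      show E2 (cuspFam Γ) (fn ((x : Additive Γ →+ ℤ) + (x' : Additive Γ →+ ℤ))) _ = _
      rw [fn_add]
      exact E2_add_left (rel_cuspFam Γ) (HasPrimGamma25.hasPrim2_int Γ _)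
        (isPar_cuspFam_mem Γ x.2) (isPar_cuspFam_mem Γ x'.2) (isPar_cuspFam_mem Γ y.2))
    (fun r x y => by
      show E2 (cuspFam Γ) (fn (r • (x : Additive Γ →+ ℤ))) _ = r • _
      rw [fn_smul, smul_eq_mul]
      exact E2_smul_left (rel_cuspFam Γ) (HasPrimGamma25.hasPrim2_int Γ _)
        (isPar_cuspFam_mem Γ x.2) (isPar_cuspFam_mem Γ y.2) r)
    (fun x y y' => by
      show E2 (cuspFam Γ) _ (fn ((y : Additive Γ →+ ℤ) + (y' : Additive Γ →+ ℤ))) = _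
      rw [fn_add]
      exact E2_add_right (rel_cuspFam Γ) (HasPrimGamma25.hasPrim2_int Γ _)
        (isPar_cuspFam_mem Γ x.2) (isPar_cuspFam_mem Γ y.2) (isPar_cuspFam_mem Γ y'.2))
    (fun r x y => by
      show E2 (cuspFam Γ) _ (fn (r • (y : Additive Γ →+ ℤ))) = r • _
      rw [fn_smul, smul_eq_mul]
      exact E2_smul_right (rel_cuspFam Γ) (HasPrimGamma25.hasPrim2_int Γ _)
        (isPar_cuspFam_mem Γ x.2) (isPar_cuspFam_mem Γ y.2) r)

theorem EΓ_apply (x y : ↥(parabolicHoms ℤ Γ ℤ)) :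
    EΓ Γ x y = E2 (cuspFam Γ) (fn (x : Additive Γ →+ ℤ)) (fn (y : Additive Γ →+ ℤ)) := rfl

/-- `EΓ` can be computed with ANY primitive of `(2 • fn x, fn y)`. -/
theorem EΓ_eq_sum (x y : ↥(parabolicHoms ℤ Γ ℤ)) {κ : Γ → ℤ}
    (hκ : IsPrimitive ((2 : ℤ) • fn (x : Additive Γ →+ ℤ)) (fn (y : Additive Γ →+ ℤ)) κ) :
    EΓ Γ x y = ∑ q, κ (cuspFam Γ q) := by
  rw [EΓ_apply, E2_eq (rel_cuspFam Γ) hκ]

/-- **alternating**. -/
theorem EΓ_alt (x : ↥(parabolicHoms ℤ Γ ℤ)) : EΓ Γ x x = 0 := by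
  rw [EΓ_apply]
  exact E2_self (rel_cuspFam Γ) (isPar_cuspFam_mem Γ x.2)

/-- skew-symmetric. -/
theorem EΓ_skew (x y : ↥(parabolicHoms ℤ Γ ℤ)) : EΓ Γ y x = -EΓ Γ x y := by
  rw [EΓ_apply, EΓ_apply]
  exact E2_swap (rel_cuspFam Γ) (HasPrimGamma25.hasPrim2_int Γ _) (isPar_cuspFam_mem Γ x.2)
    (isPar_cuspFam_mem Γ y.2)

/-- `EΓ` computed with any family equivalent to `cuspFam Γ` (reindexing + `Γ`-conjugation),
in the shape of `CuspSys13.FamEquiv` for families of elements of `↥Γ`. -/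
theorem EΓ_eq_E2_of_famEquiv {J : Type*} [Fintype J] (c' : J → Γ)
    (h : FamEquiv (⊤ : Subgroup Γ) c' (cuspFam Γ)) (x y : ↥(parabolicHoms ℤ Γ ℤ)) :
    EΓ Γ x y = E2 c' (fn (x : Additive Γ →+ ℤ)) (fn (y : Additive Γ →+ ℤ)) := by
  obtain ⟨e, he⟩ := h
  choose η _ hη using he
  rw [EΓ_apply]
  symm
  refine E2_congr_family e (fun j => (η j)⁻¹) (fun j => ?_) (rel_cuspFam Γ)
    (HasPrimGamma25.hasPrim2_int Γ _) (isPar_cuspFam_mem Γ x.2) (isPar_cuspFam_mem Γ y.2)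
  rw [← hη j]
  group

/-- the same for a family with values in `SL(2,ℤ)` all of whose members lie in `Γ`. -/
theorem EΓ_eq_E2_of_famEquiv' {J : Type*} [Fintype J] (c' : J → Γ)
    (h : FamEquiv Γ (fun j => ((c' j : Γ) : SL(2, ℤ)))
      (fun q => ((cuspFam Γ q : Γ) : SL(2, ℤ)))) (x y : ↥(parabolicHoms ℤ Γ ℤ)) :
    EΓ Γ x y = E2 c' (fn (x : Additive Γ →+ ℤ)) (fn (y : Additive Γ →+ ℤ)) := by
  apply EΓ_eq_E2_of_famEquiv
  obtain ⟨e, he⟩ := h
  refine ⟨e, fun j => ?_⟩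
  obtain ⟨η, hη, h1⟩ := he j
  exact ⟨⟨η, hη⟩, Subgroup.mem_top _, Subtype.ext h1⟩

section Gamma0

/-- **the form of the (I2) contract**: `EE M : LinearMap.BilinForm ℤ ↥(Lam M)`
(`Lam M = parabolicHoms ℤ (Gamma0 M) ℤ`). -/
noncomputable def EE (M : ℕ) [NeZero M] :
    LinearMap.BilinForm ℤ ↥(parabolicHoms ℤ (Gamma0 M) ℤ) :=
  EΓ (Gamma0 M)

theorem EE_alt (M : ℕ) [NeZero M] (y : ↥(parabolicHoms ℤ (Gamma0 M) ℤ)) : EE M y y = 0 :=
  EΓ_alt (Gamma0 M) y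

theorem EE_skew (M : ℕ) [NeZero M] (x y : ↥(parabolicHoms ℤ (Gamma0 M) ℤ)) :
    EE M y x = -EE M x y :=
  EΓ_skew (Gamma0 M) x y

theorem EE_apply (M : ℕ) [NeZero M] (x y : ↥(parabolicHoms ℤ (Gamma0 M) ℤ)) :
    EE M x y = E2 (cuspFam (Gamma0 M)) (fn (x : Additive (Gamma0 M) →+ ℤ))
      (fn (y : Additive (Gamma0 M) →+ ℤ)) := rfl

end Gamma0

end Fermat.Agent.ES.I2.EDef25
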