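import Mathlib
import Fermat.Agent.ES.I2.EAdjCore3
import Fermat.Agent.ES.I2.EDef25
import Fermat.Agent.ES.I2.Complete15
import Fermat.Agent.ES.I2.CuspFamAdj2
import Fermat.Agent.ES.I2.TwistPP26

/-!
# (I2) (ADJ): `res ⊣ cores` for the integral alternating form `EE` (helper3)

* `isCuspFam_cuspFam` (F1): for a finite index `Γ ≤ SL(2,ℤ)` containing `-1`, the canonical family
  `CuspSys13.cuspFam Γ` is a cusp family for the predicate `PosPar2.PU Γ` (positive unipotents)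
  (`PosPar2.isCuspFam_of_reps` + `Complete15.isComplete_orbFam`).
* `E2_adj_cuspFam`: for `ι : Γ' →* Γ` injective with finite index range containing `± 1`,
  preserving and reflecting positive unipotents:
  `E2 (cuspFam Γ') (fn (resAdd ι y)) (fn x) = E2 (cuspFam Γ) (fn y) (fn (coresAdd ι hι x))`
  for parabolic `y`, `x` (`EAdjCore3.E2_adj` + `CuspFamAdj2.isCuspFam_inducedCusp` +
  `TwistPP26.exists_match`).
* `EE_adj1`, `EE_adj2`: the LITERAL (ADJ) items of the (I2) contract (`Assemble12c.result_of_I2`):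
  `EE (M * ℓ) (ikPar M ℓ ℤ ℤ y) x = EE M y (tkPar M ℓ ℤ ℤ x)`, `k = 1, 2`.
-/

set_option autoImplicit false
set_option linter.unusedSectionVars false

namespace Fermat.Agent.ES.I2.EAdj3

open Matrix MatrixGroups MulAction Subgroup ModularCurve.Period CongruenceSubgroup
open Fermat.Agent.ES.I2.CuspPairing25 Fermat.Agent.ES.I2.CuspPairingTwo25
open Fermat.Agent.ES.I2.CuspSys13 Fermat.Agent.ES.I2.DegAdj3
open Fermat.Agent.ES.I2.CuspFam2 Fermat.Agent.ES.I2.PosPar2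
open Fermat.Agent.ES.I2.EDef25
open Fermat.Agent.ES.LR.Degeneracy27 Fermat.Agent.ES.LR.DegeneracyPar27

/-- **(F1)**: the canonical family `cuspFam Γ` (Mathlib's `⟨T⟩`-orbit family) is a cusp family for
the positive unipotents of `Γ`. -/
theorem isCuspFam_cuspFam (Γ : Subgroup SL(2, ℤ)) [Γ.FiniteIndex] (hneg : -1 ∈ Γ) :
    IsCuspFam (PU Γ) (cuspFam Γ) := by
  have hc := Complete15.isComplete_orbFam Γ (ModularGroup.T : SL(2, ℤ))
  have h := isCuspFam_of_reps hneg _ _ hc.pos hc.mem hc.min hc.cover hc.disj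
  refine CuspFamAdj2.IsCuspFam.reindex h (Equiv.refl _) (fun q => ?_)
  exact Subtype.ext (Complete15.coe_cuspFam_eq Γ q)

/-- **(ADJ), general form** for the canonical cusp families. -/
theorem E2_adj_cuspFam {Γ Γ' : Subgroup SL(2, ℤ)} [Γ.FiniteIndex] [Γ'.FiniteIndex]
    (hneg : -1 ∈ Γ) (hneg' : -1 ∈ Γ') (ι : Γ' →* Γ) (hι : Function.Injective ι)
    [ι.range.FiniteIndex] (hZ : signSub Γ ≤ ι.range) (hP : ∀ g, PU Γ (ι g) ↔ PU Γ' g)
    {y : Additive Γ →+ ℤ} (hy : y ∈ parabolicHoms ℤ Γ ℤ)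
    {x : Additive Γ' →+ ℤ} (hx : x ∈ parabolicHoms ℤ Γ' ℤ) :
    E2 (cuspFam Γ') (fn (resAdd ι y)) (fn x) = E2 (cuspFam Γ) (fn y) (fn (coresAdd ι hι x)) := by
  classical
  have : Finite (Γ ⧸ ι.range) := Subgroup.finite_quotient_of_finiteIndex
  let _ : Fintype (Γ ⧸ ι.range) := Fintype.ofFinite _
  let _ : ∀ j, Fintype (orbitRel.Quotient (zpowers (cuspFam Γ j)) (Γ ⧸ ι.range)) :=
    fun j => Fintype.ofFinite _
  let s : Section ι.range := Section.out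
  have hcΓ := isCuspFam_cuspFam Γ hneg
  have hcΓ' := isCuspFam_cuspFam Γ' hneg'
  have hd := CuspFamAdj2.isCuspFam_inducedCusp s.r s.hr (cuspStr Γ hneg) hZ (cuspFam Γ) hcΓ
  obtain ⟨e, γ, hmatch⟩ := TwistPP26.exists_match ι hι (PU Γ') (PU Γ) hP hd hcΓ'
  exact EAdjCore3.E2_adj ι hι s (cuspFam Γ) (rel_cuspFam Γ) (cuspFam Γ') (rel_cuspFam Γ')
    (HasPrimGamma25.hasPrim2_int Γ' _) e γ hmatch (isPar_cuspFam_mem Γ hy).2
    (isPar_cuspFam_mem Γ' hx).2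

section Gamma0

/-- **(ADJ), `k = 1`** (literal item `E_adj1` of `Assemble12c.result_of_I2`). -/
theorem EE_adj1 (M ℓ : ℕ) [NeZero M] [NeZero ℓ] (_hℓ : ℓ.Prime) (_hℓM : ¬ ℓ ∣ M)
    (y : ↥(parabolicHoms ℤ (Gamma0 M) ℤ)) (x : ↥(parabolicHoms ℤ (Gamma0 (M * ℓ)) ℤ)) :
    EE (M * ℓ) (i1Par M ℓ ℤ ℤ y) x = EE M y (t1Par M ℓ ℤ ℤ x) :=
  E2_adj_cuspFam (CuspFamAdj2.neg_one_mem_Gamma0 M) (CuspFamAdj2.neg_one_mem_Gamma0 (M * ℓ))
    (inclH M ℓ) (inclH_injective M ℓ) (CuspFamAdj2.signSub_le_range_inclH M ℓ)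
    (TwistPP26.PU_inclH_iff M ℓ) y.2 x.2

/-- **(ADJ), `k = 2`** (literal item `E_adj2` of `Assemble12c.result_of_I2`). -/
theorem EE_adj2 (M ℓ : ℕ) [NeZero M] [NeZero ℓ] (_hℓ : ℓ.Prime) (_hℓM : ¬ ℓ ∣ M)
    (y : ↥(parabolicHoms ℤ (Gamma0 M) ℤ)) (x : ↥(parabolicHoms ℤ (Gamma0 (M * ℓ)) ℤ)) :
    EE (M * ℓ) (i2Par M ℓ ℤ ℤ y) x = EE M y (t2Par M ℓ ℤ ℤ x) :=
  E2_adj_cuspFam (CuspFamAdj2.neg_one_mem_Gamma0 M) (CuspFamAdj2.neg_one_mem_Gamma0 (M * ℓ))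
    (twistH M ℓ) (twistH_injective M ℓ) (CuspFamAdj2.signSub_le_range_twistH M ℓ)
    (TwistPP26.PU_twistH_iff M ℓ) y.2 x.2

end Gamma0

end Fermat.Agent.ES.I2.EAdj3
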