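import Mathlib
import Fermat.Agent.ES.I2.EDef25
import Fermat.Agent.ES.LR.DegeneracyPar27

/-!
# (I2), (ADJ) glue: `res ⊣ cores` for the form `EΓ`, modulo the cusp-family matching (helper25)

For finite index subgroups `Γ' Γ ≤ SL(2,ℤ)` and an injective homomorphism `ι : Γ' →* Γ` with finite
index range (`inclH`, `twistH`): if the `ι`-preimage `pullFam ι hι s` of the induced cusp family
(`TransferAdj3.inducedCusp`) of `cuspFam Γ` is equivalent (reindexing + conjugation in `Γ'`) to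
`cuspFam Γ'`, then

  `EΓ Γ' (resAdd ι y) x = EΓ Γ y (coresAdd ι hι x)`.

Instantiated: `EE_adj1`, `EE_adj2` of the (I2) contract from the two matchings `Match1 N q`,
`Match2 N q`.
-/

set_option linter.unusedSectionVars false

namespace Fermat.Agent.ES.I2.EAdjGlue25

open Matrix MatrixGroups MulAction Subgroup ModularCurve.Period CongruenceSubgroup
open Fermat.Agent.ES.I2 Fermat.Agent.ES.I2.CuspPairing25 Fermat.Agent.ES.I2.CuspPairingTwo25
open Fermat.Agent.ES.I2.CuspSys13 Fermat.Agent.ES.I2.DegAdj3 Fermat.Agent.ES.I2.TransferAdj3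
open Fermat.Agent.ES.I2.EDef25
open Fermat.Agent.ES.LR.Degeneracy27 Fermat.Agent.ES.LR.DegeneracyPar27

section General

variable {Γ Γ' : Subgroup SL(2, ℤ)} [Γ.FiniteIndex] [Γ'.FiniteIndex]

/-- the `ι`-preimage of the cusp family induced on `ι.range` by `cuspFam Γ`. -/
noncomputable def pullFam (ι : Γ' →* Γ) (hι : Function.Injective ι) (s : Section ι.range) :
    (Σ j : orbitRel.Quotient (zpowers (ModularGroup.T : SL(2, ℤ))) (SL(2, ℤ) ⧸ Γ),
      orbitRel.Quotient (zpowers (cuspFam Γ j)) (Γ ⧸ ι.range)) → Γ' :=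
  fun i => (MonoidHom.ofInjective hι).symm (inducedCusp s.r s.hr (cuspFam Γ) i)

theorem map_pullFam (ι : Γ' →* Γ) (hι : Function.Injective ι) (s : Section ι.range)
    (i : Σ j : orbitRel.Quotient (zpowers (ModularGroup.T : SL(2, ℤ))) (SL(2, ℤ) ⧸ Γ),
      orbitRel.Quotient (zpowers (cuspFam Γ j)) (Γ ⧸ ι.range)) :
    ι (pullFam ι hι s i) = ((inducedCusp s.r s.hr (cuspFam Γ) i : ι.range) : Γ) := by
  have := (MonoidHom.ofInjective hι).apply_symm_apply (inducedCusp s.r s.hr (cuspFam Γ) i)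
  exact congrArg Subtype.val this

theorem fn_add_self {K : Type*} [Group K] (y : Additive K →+ ℤ) :
    fn (y + y) = (2 : ℤ) • fn y := by
  funext g
  simp only [fn_apply, AddMonoidHom.add_apply, Pi.smul_apply, smul_eq_mul]
  ring

/-- **`res ⊣ cores` for `EΓ`**, given the matching of cusp families. -/
theorem EΓ_adj (ι : Γ' →* Γ) (hι : Function.Injective ι) [ι.range.FiniteIndex]
    [Fintype (Γ ⧸ ι.range)] (s : Section ι.range)
    [∀ j, Fintype (orbitRel.Quotient (zpowers (cuspFam Γ j)) (Γ ⧸ ι.range))]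
    (hmatch : FamEquiv (⊤ : Subgroup Γ') (pullFam ι hι s) (cuspFam Γ'))
    (y : ↥(parabolicHoms ℤ Γ ℤ)) (x : ↥(parabolicHoms ℤ Γ' ℤ))
    (hy : resAdd ι (y : Additive Γ →+ ℤ) ∈ parabolicHoms ℤ Γ' ℤ)
    (hx : coresAdd ι hι (x : Additive Γ' →+ ℤ) ∈ parabolicHoms ℤ Γ ℤ) :
    EΓ Γ' ⟨resAdd ι (y : Additive Γ →+ ℤ), hy⟩ x
      = EΓ Γ y ⟨coresAdd ι hι (x : Additive Γ' →+ ℤ), hx⟩ := by
  -- the left side on the pulled back family
  rw [EΓ_eq_E2_of_famEquiv Γ' (pullFam ι hι s) hmatch, EΓ_apply]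
  show pairing (pullFam ι hι s) ((2 : ℤ) • fn (resAdd ι (y : Additive Γ →+ ℤ)))
      (fn (x : Additive Γ' →+ ℤ))
    = pairing (cuspFam Γ) ((2 : ℤ) • fn (y : Additive Γ →+ ℤ))
      (fn (coresAdd ι hι (x : Additive Γ' →+ ℤ)))
  rw [← fn_add_self, ← fn_add_self, ← map_add]
  -- a primitive on `Γ'`
  obtain ⟨κ, hκ⟩ := HasPrimGamma25.exists_primitive_two Γ' (R := ℤ)
    (fun r hr => by simpa using hr) (fun r hr => by simpa using hr)
    (resAdd ι (y : Additive Γ →+ ℤ)) (x : Additive Γ' →+ ℤ)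
  have hκ'' : IsPrimitive (fn (resAdd ι ((y : Additive Γ →+ ℤ) + (y : Additive Γ →+ ℤ))))
      (fn (x : Additive Γ' →+ ℤ)) κ := by
    rw [map_add, fn_add_self]
    exact hκ
  -- `x` kills the pulled back family (it is conjugate to the canonical one)
  have hx0 : ∀ i, (x : Additive Γ' →+ ℤ) (Additive.ofMul (pullFam ι hι s i)) = 0 := by
    intro i
    obtain ⟨e, he⟩ := hmatch
    obtain ⟨η, -, h1⟩ := he i
    have h2 := (isPar_cuspFam_mem Γ' x.2).2 (e i)
    rw [← h1, (isAddHom_fn (x : Additive Γ' →+ ℤ)).map_conj] at h2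
    exact h2
  have hy0 : ∀ j, ((y : Additive Γ →+ ℤ) + (y : Additive Γ →+ ℤ))
      (Additive.ofMul (cuspFam Γ j)) = 0 := by
    intro j
    have := (isPar_cuspFam_mem Γ y.2).2 j
    simp only [fn_apply] at this
    rw [AddMonoidHom.add_apply, this, add_zero]
  exact (pairing_coresAdd ι hι s (cuspFam Γ) (rel_cuspFam Γ) (pullFam ι hι s)
    (map_pullFam ι hι s) hy0 hx0 hκ'').symm

end General

section Gamma0

variable (N q : ℕ) [NeZero N] [NeZero q]

/-- the matching for the first degeneracy map: the `inclH`-preimage of the induced family of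
`cuspFam (Gamma0 N)` is equivalent to `cuspFam (Gamma0 (N * q))` (for ONE section). -/
def Match1 : Prop :=
  ∃ (_ : Fintype (Gamma0 N ⧸ (inclH N q).range)) (s : Section (inclH N q).range),
    FamEquiv (⊤ : Subgroup (Gamma0 (N * q))) (pullFam (inclH N q) (inclH_injective N q) s)
      (cuspFam (Gamma0 (N * q)))

/-- the matching for the second degeneracy map (`twistH` = conjugation by `diag(q,1)`). -/
def Match2 : Prop :=
  ∃ (_ : Fintype (Gamma0 N ⧸ (twistH N q).range)) (s : Section (twistH N q).range),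
    FamEquiv (⊤ : Subgroup (Gamma0 (N * q))) (pullFam (twistH N q) (twistH_injective N q) s)
      (cuspFam (Gamma0 (N * q)))

/-- **`E_adj1`** of the (I2) contract, from the matching. -/
theorem EE_adj1 (h : Match1 N q) (y : ↥(parabolicHoms ℤ (Gamma0 N) ℤ))
    (x : ↥(parabolicHoms ℤ (Gamma0 (N * q)) ℤ)) :
    EE (N * q) (i1Par N q ℤ ℤ y) x = EE N y (t1Par N q ℤ ℤ x) := by
  classical
  obtain ⟨_, s, hs⟩ := h
  have : ∀ j, Fintype (orbitRel.Quotient (zpowers (cuspFam (Gamma0 N) j))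
      (Gamma0 N ⧸ (inclH N q).range)) := fun j => Fintype.ofFinite _
  exact EΓ_adj (inclH N q) (inclH_injective N q) s hs y x (i1Par N q ℤ ℤ y).2 (t1Par N q ℤ ℤ x).2

/-- **`E_adj2`** of the (I2) contract, from the matching. -/
theorem EE_adj2 (h : Match2 N q) (y : ↥(parabolicHoms ℤ (Gamma0 N) ℤ))
    (x : ↥(parabolicHoms ℤ (Gamma0 (N * q)) ℤ)) :
    EE (N * q) (i2Par N q ℤ ℤ y) x = EE N y (t2Par N q ℤ ℤ x) := by
  classical
  obtain ⟨_, s, hs⟩ := h
  have : ∀ j, Fintype (orbitRel.Quotient (zpowers (cuspFam (Gamma0 N) j))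
      (Gamma0 N ⧸ (twistH N q).range)) := fun j => Fintype.ofFinite _
  exact EΓ_adj (twistH N q) (twistH_injective N q) s hs y x (i2Par N q ℤ ℤ y).2 (t2Par N q ℤ ℤ x).2

end Gamma0

end Fermat.Agent.ES.I2.EAdjGlue25
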