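import Mathlib
import Fermat.Agent.ES.I2.EAdjGlue25
import Fermat.Agent.ES.I2.Complete15
import Fermat.Agent.ES.I2.CuspFamAdj2

/-!
# (I2), (ADJ) CLOSED: `E_adj1`, `E_adj2` unconditionally (helper25)

* `isCuspFam_cuspFam` (F1): for a finite index `Γ ≤ SL(2,ℤ)` containing `-1`, Mathlib's orbit family
  `CuspSys13.cuspFam Γ` is a cusp family (`CuspFam2.IsCuspFam (PosPar2.PU Γ)`): from
  `Complete15.isComplete_orbFam` + `PosPar2.isCuspFam_of_reps`.
* `match1 N q : Match1 N q` (one line from `Complete15.famEquiv_cuspFam_of_incl`),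
  `match2 N q : Match2 N q` (F1 + `CuspFamAdj2.isCuspFam_twistH` + `IsCuspFam.exists_equiv`).
* `E_adj1`, `E_adj2`: the adjunctions of the (I2) contract in the literal shape consumed by
  `Assemble12c.result_of_I2`.
-/

namespace Fermat.Agent.ES.I2.EAdjFinal25

open Matrix MatrixGroups MulAction Subgroup ModularCurve.Period CongruenceSubgroup
open Fermat.Agent.ES.I2 Fermat.Agent.ES.I2.EAdjGlue25 Fermat.Agent.ES.I2.CuspSys13
open Fermat.Agent.ES.I2.CuspPairing25 Fermat.Agent.ES.I2.CuspFam2 Fermat.Agent.ES.I2.PosPar2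
open Fermat.Agent.ES.I2.EDef25
open Fermat.Agent.ES.LR.Degeneracy27 Fermat.Agent.ES.LR.DegeneracyPar27

/-- **(F1)** the canonical orbit family is a cusp family. -/
theorem isCuspFam_cuspFam (Γ : Subgroup SL(2, ℤ)) [Γ.FiniteIndex]
    (hneg : (-1 : SL(2, ℤ)) ∈ Γ) : IsCuspFam (PU Γ) (cuspFam Γ) := by
  have hc := Complete15.isComplete_orbFam Γ (ModularGroup.T : SL(2, ℤ))
  have h := isCuspFam_of_reps (Γ := Γ) hneg _ _ hc.pos hc.mem hc.min hc.cover hc.disj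
  convert h using 1
  funext q
  apply Subtype.ext
  exact Complete15.coe_cuspFam_eq Γ q

/-- the matching for the first degeneracy map. -/
theorem match1 (N q : ℕ) [NeZero N] [NeZero q] : Match1 N q := by
  classical
  refine ⟨Fintype.ofFinite _, Section.out, ?_⟩
  exact Complete15.famEquiv_cuspFam_of_incl (inclH N q) (fun _ => rfl) _ _ _
    (map_pullFam (inclH N q) (inclH_injective N q) Section.out)

/-- the matching for the second degeneracy map (conjugation by `diag(q,1)`). -/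
theorem match2 (N q : ℕ) [NeZero N] [NeZero q] : Match2 N q := by
  classical
  let inst : Fintype (Gamma0 N ⧸ (twistH N q).range) := Fintype.ofFinite _
  refine ⟨inst, Section.out, ?_⟩
  have : ∀ j, Fintype (orbitRel.Quotient (zpowers (cuspFam (Gamma0 N) j))
      (Gamma0 N ⧸ (twistH N q).range)) := fun j => Fintype.ofFinite _
  have h1 := CuspFamAdj2.isCuspFam_twistH N q (Section.out (H := (twistH N q).range)).r
    (Section.out (H := (twistH N q).range)).hr (cuspFam (Gamma0 N))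
    (isCuspFam_cuspFam (Gamma0 N) (Gamma0Model11.neg_one_mem_Gamma0 N))
    (pullFam (twistH N q) (twistH_injective N q) Section.out)
    (map_pullFam (twistH N q) (twistH_injective N q) Section.out)
  have h2 := isCuspFam_cuspFam (Gamma0 (N * q)) (Gamma0Model11.neg_one_mem_Gamma0 (N * q))
  obtain ⟨e, he⟩ := h1.exists_equiv h2
  refine ⟨e, fun i => ?_⟩
  obtain ⟨γ, hγ⟩ := he i
  refine ⟨γ⁻¹, Subgroup.mem_top _, ?_⟩
  rw [hγ]
  group

/-- **`E_adj1`** (unconditional). -/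
theorem EE_adj1' (N q : ℕ) [NeZero N] [NeZero q] (y : ↥(parabolicHoms ℤ (Gamma0 N) ℤ))
    (x : ↥(parabolicHoms ℤ (Gamma0 (N * q)) ℤ)) :
    EE (N * q) (i1Par N q ℤ ℤ y) x = EE N y (t1Par N q ℤ ℤ x) :=
  EE_adj1 N q (match1 N q) y x

/-- **`E_adj2`** (unconditional). -/
theorem EE_adj2' (N q : ℕ) [NeZero N] [NeZero q] (y : ↥(parabolicHoms ℤ (Gamma0 N) ℤ))
    (x : ↥(parabolicHoms ℤ (Gamma0 (N * q)) ℤ)) :
    EE (N * q) (i2Par N q ℤ ℤ y) x = EE N y (t2Par N q ℤ ℤ x) :=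
  EE_adj2 N q (match2 N q) y x

/-- `E_adj1` in the literal shape of `Assemble12c.result_of_I2`. -/
theorem E_adj1 : ∀ (M ℓ : ℕ) [NeZero M] [NeZero ℓ], ℓ.Prime → ¬ ℓ ∣ M →
    ∀ (y : ↥(parabolicHoms ℤ (Gamma0 M) ℤ)) (x : ↥(parabolicHoms ℤ (Gamma0 (M * ℓ)) ℤ)),
      EE (M * ℓ) (i1Par M ℓ ℤ ℤ y) x = EE M y (t1Par M ℓ ℤ ℤ x) :=
  fun M ℓ _ _ _ _ y x => EE_adj1' M ℓ y x

/-- `E_adj2` in the literal shape of `Assemble12c.result_of_I2`. -/
theorem E_adj2 : ∀ (M ℓ : ℕ) [NeZero M] [NeZero ℓ], ℓ.Prime → ¬ ℓ ∣ M →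
    ∀ (y : ↥(parabolicHoms ℤ (Gamma0 M) ℤ)) (x : ↥(parabolicHoms ℤ (Gamma0 (M * ℓ)) ℤ)),
      EE (M * ℓ) (i2Par M ℓ ℤ ℤ y) x = EE M y (t2Par M ℓ ℤ ℤ x) :=
  fun M ℓ _ _ _ _ y x => EE_adj2' M ℓ y x

end Fermat.Agent.ES.I2.EAdjFinal25
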