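import Mathlib
import Fermat.Agent.ES.I2.PSL2Free11

set_option autoImplicit false

/-!
# (I2) leaf: homomorphisms from `PSL(2, ℤ)` to commutative groups without `6`-torsion are trivial
(helper11).  This is the hypothesis `htriv` of the cusp relation (REL) for `G := PSL(2, ℤ)`.
-/

namespace Fermat.Agent.ES.I2.PSL2Ab11

open Fermat.Agent.ES.I2.PSL2Free11

/-- a homomorphism from `PSL(2, ℤ)` to a commutative group without `6`-torsion is trivial. -/
theorem hom_eq_one {A : Type*} [CommGroup A] (h6 : ∀ a : A, a ^ 6 = 1 → a = 1) (f : Q →* A) :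
    f = 1 := by
  have hS : f Sb = 1 := by
    apply h6
    have : f Sb ^ 2 = 1 := by rw [← map_pow, Sb_sq, map_one]
    calc f Sb ^ 6 = (f Sb ^ 2) ^ 3 := by rw [← pow_mul]
      _ = 1 := by rw [this, one_pow]
  have hU : f Ub = 1 := by
    apply h6
    have : f Ub ^ 3 = 1 := by rw [← map_pow, Ub_cube, map_one]
    calc f Ub ^ 6 = (f Ub ^ 3) ^ 2 := by rw [← pow_mul]
      _ = 1 := by rw [this, one_pow]
  have hle : Subgroup.closure ({Sb, Ub} : Set Q) ≤ f.ker := by
    rw [Subgroup.closure_le]
    rintro x (rfl | rfl)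
    · exact hS
    · exact hU
  rw [closure_Sb_Ub] at hle
  ext x
  exact hle (Subgroup.mem_top x)

/-- additive form: homomorphisms `PSL(2, ℤ) → R` vanish when `R` has no `6`-torsion. -/
theorem hom_multiplicative_eq_one {R : Type*} [AddCommGroup R]
    (h6 : ∀ r : R, 6 • r = 0 → r = 0) (f : Q →* Multiplicative R) : f = 1 := by
  apply hom_eq_one
  intro a ha
  have : (6 : ℕ) • Multiplicative.toAdd a = 0 := by
    have := congrArg Multiplicative.toAdd ha
    simpa using this
  have h := h6 _ this
  exact Multiplicative.toAdd.injective h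

/-- `Additive` form. -/
theorem addHom_eq_zero {R : Type*} [AddCommGroup R]
    (h6 : ∀ r : R, 6 • r = 0 → r = 0) (f : Additive Q →+ R) : f = 0 := by
  have h := hom_multiplicative_eq_one h6 (AddMonoidHom.toMultiplicativeRight f)
  apply AddMonoidHom.ext
  intro x
  have := DFunLike.congr_fun h (Additive.toMul x)
  simpa using congrArg Multiplicative.toAdd this

/-- a ring of characteristic zero without zero divisors has no `6`-torsion. -/
theorem six_nsmul_eq_zero {R : Type*} [Ring R] [NoZeroDivisors R] [CharZero R] (r : R)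
    (h : 6 • r = 0) : r = 0 := by
  rw [nsmul_eq_mul] at h
  rcases mul_eq_zero.mp h with h | h
  · exact absurd h (by exact_mod_cast (by norm_num : (6 : ℕ) ≠ 0))
  · exact h

end Fermat.Agent.ES.I2.PSL2Ab11
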