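/-
Program L (S41), chapter (I2), MODEL side (helper21): the integral (doubled) cusp pairing on the
`PSL(2,ℤ)`-model in closed form.

`Q = PSL(2,ℤ)` acts on a finite transitive set `X` with base point `x0`; `D : CuspData (Sb * Ub) x0 J`
(`AdaptedSec21`) gives the adapted section `D.sec` and the cusp family `D.c` of the stabiliser
`Γ̄ = stabilizer Q x0`.  For a commutative ring `R` without `6`-torsion:

* `rel`      : (REL) `CuspPairing25.Rel R D.c`;
* `hasPrim2` : (K2) `CuspPairingTwo25.HasPrim2 D.c` (integral primitives of `(2φ) ∪ ψ`);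
* `E2_eq_form` : for parabolic `φ ψ` and `β` with `v_φ = Ub ⋆ β - β`,
      `E2 D.c φ ψ = ⟨2 β + v_φ, v_ψ⟩`,   `v_φ = sh D.sec φ Sb` the symbol of `φ`.
-/
import Mathlib
import Fermat.Agent.ES.I2.AdaptedSec21
import Fermat.Agent.ES.I2.PrimExistsGen25
import Fermat.Agent.ES.I2.CuspPairingTwo25
import Fermat.Agent.ES.I2.TauPrim17
import Fermat.Agent.ES.I2.PSL2Ab11

set_option autoImplicit false
set_option linter.unusedSectionVars false

namespace Fermat.Agent.ES.I2.ModelForm21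

open Fermat.Agent.ES.I2 Fermat.Agent.ES.I2.PSL2Free11 Fermat.Agent.ES.I2.AdaptedSec21
open MulAction

variable {G : Type*} [Group G] {X : Type*} [MulAction G X] {R : Type*} [CommRing R]

/-- an additive homomorphism on (the additive version of) a group as a plain function. -/
def fn {K : Type*} [Group K] (φ : Additive K →+ R) : K → R := fun g => φ (Additive.ofMul g)

@[simp] theorem fn_apply {K : Type*} [Group K] (φ : Additive K →+ R) (g : K) :
    fn φ g = φ (Additive.ofMul g) := rfl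

theorem isAddHom_fn {K : Type*} [Group K] (φ : Additive K →+ R) : CuspPairing25.IsAddHom (fn φ) :=
  fun a b => by simp [fn]

/-- a function with `IsAddHom` as an additive homomorphism. -/
def ofFn {K : Type*} [Group K] (φ : K → R) (hφ : CuspPairing25.IsAddHom φ) : Additive K →+ R :=
  AddMonoidHom.mk' (fun a => φ (Additive.toMul a)) (fun _ _ => hφ _ _)

@[simp] theorem fn_ofFn {K : Type*} [Group K] (φ : K → R) (hφ : CuspPairing25.IsAddHom φ) :
    fn (ofFn φ hφ) = φ := rfl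

theorem two_smul_fn {K : Type*} [Group K] (φ : Additive K →+ R) :
    (2 : R) • fn φ = fn ((2 : R) • φ) := by
  funext g; simp [fn]

/-- the Shapiro cocycle of `2 • φ`. -/
theorem sh_two_smul {x0 : X} (s : Model13.Sec G x0) (φ : Additive (stabilizer G x0) →+ R) :
    Model13.sh s ((2 : R) • φ) = fun g => 2 * Model13.sh s φ g := by
  funext g x
  simp [Model13.sh]

section PSL2

variable {X : Type*} [MulAction Q X] [Fintype X] [MulAction.IsPretransitive Q X] {x0 : X}
  {J : Type*} [Fintype J] (D : CuspData (Sb * Ub) x0 J)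

theorem Sb_mul_self : Sb * Sb = 1 := by rw [← pow_two]; exact Sb_sq

theorem Ub_mul_self_mul : Ub * Ub * Ub = 1 := by
  have := Ub_cube
  rwa [pow_succ, pow_two] at this

/-- **(REL)** on the model, for `R` without `6`-torsion. -/
theorem rel (h6 : ∀ r : R, 6 • r = 0 → r = 0) : CuspPairing25.Rel R D.c :=
  D.rel (PSL2Ab11.hom_multiplicative_eq_one h6)

theorem three_torsion_free (h6 : ∀ r : R, 6 • r = 0 → r = 0) : ∀ r : R, 3 • r = 0 → r = 0 := by
  intro r hr
  apply h6
  have : (6 : ℕ) • r = (2 : ℕ) • ((3 : ℕ) • r) := by rw [smul_smul]; norm_num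
  rw [this, hr, smul_zero]

/-- existence of the doubled cup primitive of the Shapiro cocycles (adapted section), with the
prescribed values at `Sb`, `Ub`. -/
theorem exists_K (φ ψ : Additive (stabilizer Q x0) →+ R) (β : X → R)
    (hβ : Model13.sh D.sec φ Ub = Model13.act Ub β - β) :
    ∃ K : Q → X → R,
      Model13.IsCupPrimitive (Model13.sh D.sec ((2 : R) • φ)) (Model13.sh D.sec ψ) K ∧
      K Sb = -(Model13.sh D.sec φ Sb * Model13.sh D.sec ψ Sb) ∧
      K Ub = 2 * β * Model13.sh D.sec ψ Ub := by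
  obtain ⟨K, hK, hKσ, hKτ⟩ := PrimExistsGen25.exists_cupPrimitive_two_PSL2
    (Model13.isCocycle_sh D.sec φ) (Model13.isCocycle_sh D.sec ψ) β hβ
  refine ⟨K, ?_, hKσ, hKτ⟩
  rw [sh_two_smul]
  exact hK

/-- **the closed form of the doubled pairing**: `E2(φ, ψ) = ⟨2β + v_φ, v_ψ⟩`. -/
theorem E2_eq_form (h6 : ∀ r : R, 6 • r = 0 → r = 0)
    (φ ψ : Additive (stabilizer Q x0) →+ R)
    (hφ : ∀ j, φ (Additive.ofMul (D.c j)) = 0) (hψ : ∀ j, ψ (Additive.ofMul (D.c j)) = 0)
    (β : X → R) (hβ : Model13.sh D.sec φ Ub = Model13.act Ub β - β) :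
    CuspPairingTwo25.E2 D.c (fn φ) (fn ψ)
      = Model13.form (2 * β + Model13.sh D.sec φ Sb) (Model13.sh D.sec ψ Sb) := by
  obtain ⟨K, hK, hKσ, hKτ⟩ := exists_K D φ ψ β hβ
  have h2φ : ∀ j, ((2 : R) • φ) (Additive.ofMul (D.c j)) = 0 := fun j => by
    simp [hφ j]
  have h1 := D.pairing_eq_eps ((2 : R) • φ) ψ h2φ hψ hK (rel D h6)
  have hzT := D.sh_T_eq_zero φ hφ
  have hzT' := D.sh_T_eq_zero ψ hψ
  have hK' : Model13.IsCupPrimitive (fun g => 2 * Model13.sh D.sec φ g) (Model13.sh D.sec ψ) K := by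
    rw [← sh_two_smul]; exact hK
  have h2 := PrimExistsGen25.eps_K_T_two Sb_sq (Model13.isCocycle_sh D.sec φ)
    (Model13.isCocycle_sh D.sec ψ) hK' hzT hzT' β hKσ hKτ
  have h3 := D.sh_U_eq_sh_S Sb_mul_self φ hφ
  have h4 := D.sh_U_eq_sh_S Sb_mul_self ψ hψ
  rw [CuspPairingTwo25.E2, two_smul_fn]
  show CuspPairing25.pairing D.c (fun γ => ((2 : R) • φ) (Additive.ofMul γ))
    (fun γ => ψ (Additive.ofMul γ)) = _
  rw [h1, h2, h3, h4]

/-- a `β` always exists (`R` without `3`-torsion). -/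
theorem exists_beta (h3 : ∀ r : R, 3 • r = 0 → r = 0) (φ : Additive (stabilizer Q x0) →+ R) :
    ∃ β : X → R, Model13.sh D.sec φ Ub = Model13.act Ub β - β :=
  TauPrim17.isCocycle_exists_prim (Model13.isCocycle_sh D.sec φ) Ub_cube h3

/-- **(K2)** on the model: every pair of parabolic homs `(φ, ψ)` has a primitive of `(2φ) ∪ ψ`. -/
theorem hasPrim2 (h3 : ∀ r : R, 3 • r = 0 → r = 0) :
    CuspPairingTwo25.HasPrim2 (R := R) D.c := by
  intro φ ψ hφ hψ
  obtain ⟨β, hβ⟩ := exists_beta D h3 (ofFn φ hφ.1)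
  obtain ⟨K, hK, -, -⟩ := exists_K D (ofFn φ hφ.1) (ofFn ψ hψ.1) β hβ
  have := CuspData.isPrimitive_eval D.sec ((2 : R) • ofFn φ hφ.1) (ofFn ψ hψ.1) hK
  refine ⟨fun γ => K (γ : Q) x0, ?_⟩
  have e1 : (fun γ : stabilizer Q x0 => ((2 : R) • ofFn φ hφ.1) (Additive.ofMul γ))
      = (2 : R) • φ := by
    funext γ; simp [ofFn]
  have e2 : (fun γ : stabilizer Q x0 => (ofFn ψ hψ.1) (Additive.ofMul γ)) = ψ := rfl
  rw [e1, e2] at this
  exact this

end PSL2

end Fermat.Agent.ES.I2.ModelForm21
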