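/-
(I2) SEAM (helper13): the form `EΓ Γ` of `EDef25` (doubled cusp pairing over `ℤ` for the canonical
cusp family `cuspFam Γ` of `Γ ≤ SL(2,ℤ)`) equals the doubled pairing `E2 D.c` of the
`PSL(2,ℤ)`-model (`Gamma0Model11`), for ANY cusp data `D` of the model, after pushing the
homomorphisms forward to the stabiliser of the base point.

chain: `cuspFam Γ` is the family of a complete system (`Complete15.isComplete_orbFam`), the lifts
of the model cusp data are a complete system (`CuspDataDict11.isComplete_of_cuspData`), two complete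
systems are equivalent (`Complete15.isComplete_famEquiv`), `EΓ` may be computed with any equivalent
family (`EDef25.EΓ_eq_E2_of_famEquiv'`), and `E2` is natural along `toStab`
(`CuspPairingTwo25.E2_comp_hom`, `CuspDataDict11.toStab_cSL`).
-/
import Mathlib
import Fermat.Agent.ES.I2.EDef25
import Fermat.Agent.ES.I2.Complete15
import Fermat.Agent.ES.I2.CuspDataDict11
import Fermat.Agent.ES.I2.ModelForm21

set_option autoImplicit false

namespace Fermat.Agent.ES.I2.ESeam13

open Matrix MatrixGroups ModularGroup MulAction Subgroup ModularCurve.Period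
open Fermat.Agent.ES.I2.PSL2Free11 Fermat.Agent.ES.I2.Gamma0Model11
open Fermat.Agent.ES.I2.AdaptedSec21 Fermat.Agent.ES.I2.CuspPairing25
open Fermat.Agent.ES.I2.CuspPairingTwo25 Fermat.Agent.ES.I2.CuspSys13
open Fermat.Agent.ES.I2.CuspDataDict11

variable {Γ : Subgroup SL(2, ℤ)} [Γ.FiniteIndex]

/-- the lifted model family is equivalent to the canonical cusp family. -/
theorem famEquiv_cSL_cuspFam (hneg : (-1 : SL(2, ℤ)) ∈ Γ) {J : Type*}
    (D : CuspData (Sb * Ub) (x0 Γ) J) (r : J → SL(2, ℤ)) (hr : ∀ j, mkQ (r j) = (D.g j)⁻¹) :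
    FamEquiv Γ (fun j => ((cSL hneg D r hr j : Γ) : SL(2, ℤ)))
      (fun q => ((cuspFam Γ q : Γ) : SL(2, ℤ))) := by
  have h := Complete15.isComplete_famEquiv (isComplete_of_cuspData hneg D r hr)
    (Complete15.isComplete_orbFam Γ (T : SL(2, ℤ)))
  have e2 : (fun q => ((cuspFam Γ q : Γ) : SL(2, ℤ))) =
      fun q : orbitRel.Quotient (zpowers (T : SL(2, ℤ))) (SL(2, ℤ) ⧸ Γ) =>
        q.out.out⁻¹ * T ^ Function.minimalPeriod ((T : SL(2, ℤ)) • ·) q.out * (q.out.out⁻¹)⁻¹ :=
    funext (Complete15.coe_cuspFam_eq Γ)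
  rw [e2]
  exact h

/-- **the seam**: `EΓ Γ x y` is the doubled cusp pairing of the model for the pushed-forward
homomorphisms, for any cusp data `D` of the model. -/
theorem EΓ_eq_model (hneg : (-1 : SL(2, ℤ)) ∈ Γ) {J : Type*} [Fintype J]
    (D : CuspData (Sb * Ub) (x0 Γ) J) (h2 : ∀ r : ℤ, 2 • r = 0 → r = 0)
    (x y : ↥(parabolicHoms ℤ Γ ℤ)) :
    EDef25.EΓ Γ x y =
      E2 D.c (ModelForm21.fn (push Γ h2 (x : Additive Γ →+ ℤ)))
        (ModelForm21.fn (push Γ h2 (y : Additive Γ →+ ℤ))) := by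
  obtain ⟨r, hr⟩ := exists_lift D
  rw [EDef25.EΓ_eq_E2_of_famEquiv' Γ (cSL hneg D r hr) (famEquiv_cSL_cuspFam hneg D r hr) x y]
  -- the homomorphisms factor through `toStab`
  have hf : ∀ z : Additive Γ →+ ℤ,
      DegAdj3.fn z = ModelForm21.fn (push Γ h2 z) ∘ (toStab Γ) := by
    intro z
    funext γ
    show z (Additive.ofMul γ) = push Γ h2 z (Additive.ofMul (toStab Γ γ))
    rw [push_toStab]
  -- a primitive on the model
  have h3 : ∀ r : ℤ, 3 • r = 0 → r = 0 := by
    intro r hr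
    rcases smul_eq_zero.mp hr with h0 | h0
    · omega
    · exact h0
  have htf : ∀ (a : ℤ) (n : ℕ), 0 < n → n • a = 0 → a = 0 := by
    intro a n hn han
    rcases smul_eq_zero.mp han with h0 | h0
    · omega
    · exact h0
  have hparx : IsPar D.c (ModelForm21.fn (push Γ h2 (x : Additive Γ →+ ℤ))) := by
    refine ⟨ModelForm21.isAddHom_fn _, fun j => ?_⟩
    show push Γ h2 _ (Additive.ofMul (D.c j)) = 0
    rw [← toStab_cSL hneg D r hr j, push_toStab]
    apply x.2
    rw [coe_cSL, trace_conj_T_pow]; norm_num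
  have hpary : IsPar D.c (ModelForm21.fn (push Γ h2 (y : Additive Γ →+ ℤ))) := by
    refine ⟨ModelForm21.isAddHom_fn _, fun j => ?_⟩
    show push Γ h2 _ (Additive.ofMul (D.c j)) = 0
    rw [← toStab_cSL hneg D r hr j, push_toStab]
    apply y.2
    rw [coe_cSL, trace_conj_T_pow]; norm_num
  obtain ⟨κ, hκ⟩ := ModelForm21.hasPrim2 D h3 _ _ hparx hpary
  rw [hf x, hf y]
  exact E2_comp_hom (toStab Γ) (toStab_cSL hneg D r hr) (rel_cSL hneg D r hr ℤ htf) hκ

end Fermat.Agent.ES.I2.ESeam13
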