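/-
Program L (S41), chapter (I2), final bookkeeping leaf (helper5): from "the model pairing `P` is perfect
over a ring `R` in which `2` is invertible" to the two lattice statements of the (I2) contract
(`E_nondeg_mod`, `E_nondeg` of `L_PLAN27_v2.md`).

* (LB1) `nondeg_mod_of_perfect` : `L` a `ℤ`-lattice with basis `b`, `L_R` an `R`-module with basis
  `b_R`, `c : L →+ L_R` with `c (b i) = b_R i`, `E` a `ℤ`-valued form on `L`, `P` a perfect `R`-form on
  `L_R` with `(E x y : R) = u * P (c x) (c y)`, `u` a unit; `p` a prime which is NOT a unit of `R`.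
  Then `(∀ y, p ∣ E x y) → ∃ x', x = p • x'`.
* (LB2) `nondeg_of_nondeg_mod` : non-degenerate mod `p` ⇒ non-degenerate.
* (LB3) `par_nondeg_mod_of_perfect`, `par_nondeg_of_nondeg_mod` : `L = parabolicHoms ℤ Γ ℤ`,
  `L_R = parabolicHoms R Γ R`, `c = castPar` (`ParLattice11`), for a finitely generated `Γ ≤ SL(2,ℤ)`.
* `not_isUnit_natCast_away_two` : an odd prime is not a unit of `ℤ[1/2] = Localization.Away 2`.
-/
import Mathlib
import Fermat.Agent.ES.HEQ.ParLattice11

set_option autoImplicit false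

namespace Fermat.Agent.ES.I2.LatticeNondeg5

/-- `p R ∩ ℤ = p ℤ` when `p` is a prime which is not a unit of `R`. -/
theorem dvd_of_cast_eq_mul {R : Type*} [CommRing R] {p : ℕ} (hp : p.Prime)
    (hpR : ¬ IsUnit ((p : ℕ) : R)) {n : ℤ} {r : R} (h : (n : R) = (p : R) * r) : (p : ℤ) ∣ n := by
  by_contra hdvd
  have hcop : IsCoprime n (p : ℤ) := by
    have hpi : Prime (p : ℤ) := Nat.prime_iff_prime_int.mp hp
    exact ((hpi.irreducible.coprime_iff_not_dvd).mpr hdvd).symm
  obtain ⟨a, b, hab⟩ := hcop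
  apply hpR
  have h1 : ((a * n + b * p : ℤ) : R) = 1 := by rw [hab]; simp
  push_cast at h1
  rw [h] at h1
  exact IsUnit.of_mul_eq_one ((a : R) * r + b) (by linear_combination h1)

section LB1

variable {L : Type*} [AddCommGroup L] {n : Type*} [Fintype n] (b : Module.Basis n ℤ L)
  {R : Type*} [CommRing R] {LR : Type*} [AddCommGroup LR] [Module R LR] (bR : Module.Basis n R LR)
  (c : L →+ LR) (hc : ∀ i, c (b i) = bR i)

include hc in
theorem repr_c (x : L) (i : n) : bR.repr (c x) i = ((b.repr x i : ℤ) : R) := by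
  classical
  have hx : x = ∑ j, b.repr x j • b j := (b.sum_repr x).symm
  conv_lhs => rw [hx]
  rw [map_sum]
  simp only [map_zsmul, hc, map_sum, Finsupp.coe_finsetSum, Finset.sum_apply]
  rw [Finset.sum_eq_single i]
  · simp
  · intro j _ hji
    simp [hji]
  · intro hi
    exact absurd (Finset.mem_univ i) hi

include hc in
/-- **(LB1)** a `ℤ`-valued form `E` on a lattice `L` whose scalar extension (up to a unit `u`) is a
perfect form `P` over a ring `R` in which the prime `p` is not a unit, is non-degenerate mod `p`. -/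
theorem nondeg_mod_of_perfect (E : LinearMap.BilinForm ℤ L) (P : LinearMap.BilinForm R LR)
    (u : R) (hu : IsUnit u) (hEP : ∀ x y, ((E x y : ℤ) : R) = u * P (c x) (c y))
    (hinj : ∀ z, (∀ w, P z w = 0) → z = 0)
    (hsurj : ∀ f : LR →ₗ[R] R, ∃ z, ∀ w, P z w = f w)
    {p : ℕ} (hp : p.Prime) (hpR : ¬ IsUnit ((p : ℕ) : R)) (x : L)
    (hx : ∀ y, (p : ℤ) ∣ E x y) : ∃ x', x = (p : ℤ) • x' := by
  classical
  let f : LR →ₗ[R] R := bR.constr R (fun i => (((E x (b i)) / (p : ℤ) : ℤ) : R))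
  have hf : ∀ w, (p : R) * f w = u * P (c x) w := by
    intro w
    have h : (p : R) • f = u • (P (c x)) := by
      apply bR.ext
      intro i
      simp only [LinearMap.smul_apply, smul_eq_mul, f, Module.Basis.constr_basis]
      rw [← hc i, ← hEP]
      have h2 := Int.mul_ediv_cancel' (hx (b i))
      exact_mod_cast congrArg (Int.cast : ℤ → R) h2
    exact LinearMap.congr_fun h w
  obtain ⟨z, hz⟩ := hsurj f
  obtain ⟨v, rfl⟩ := hu
  have hcx : (v : R) • c x = (p : R) • z := by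
    have h0 : (v : R) • c x - (p : R) • z = 0 := hinj _ (fun w => by
      rw [map_sub, LinearMap.sub_apply, map_smul, map_smul, LinearMap.smul_apply,
        LinearMap.smul_apply, hz, smul_eq_mul, smul_eq_mul, ← hf w, sub_self])
    exact sub_eq_zero.mp h0
  have hcoord : ∀ i, (p : ℤ) ∣ b.repr x i := by
    intro i
    have h1 := congrArg (fun y => bR.repr y i) hcx
    simp only [map_smul, Finsupp.smul_apply, smul_eq_mul, repr_c b bR c hc] at h1
    refine dvd_of_cast_eq_mul hp hpR (r := ((v⁻¹ : Rˣ) : R) * bR.repr z i) ?_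
    calc ((b.repr x i : ℤ) : R)
        = ((v⁻¹ : Rˣ) : R) * ((v : R) * ((b.repr x i : ℤ) : R)) := by
          rw [← mul_assoc, Units.inv_mul, one_mul]
      _ = (p : R) * (((v⁻¹ : Rˣ) : R) * bR.repr z i) := by rw [h1]; ring
  refine ⟨∑ i, (b.repr x i / (p : ℤ)) • b i, ?_⟩
  rw [Finset.smul_sum]
  conv_lhs => rw [← b.sum_repr x]
  refine Finset.sum_congr rfl fun i _ => ?_
  rw [smul_smul, Int.mul_ediv_cancel' (hcoord i)]

end LB1

/-- an integer divisible by all powers of a prime is zero. -/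
theorem int_eq_zero_of_forall_pow_dvd {p : ℕ} (hp : p.Prime) {n : ℤ}
    (h : ∀ k : ℕ, (p : ℤ) ^ k ∣ n) : n = 0 := by
  refine Int.eq_zero_of_abs_lt_dvd (h n.natAbs) ?_
  have h1 : n.natAbs < p ^ n.natAbs := Nat.lt_pow_self hp.one_lt
  have h2 : ((n.natAbs : ℕ) : ℤ) < ((p ^ n.natAbs : ℕ) : ℤ) := by exact_mod_cast h1
  rw [Int.natCast_natAbs] at h2
  exact_mod_cast h2

/-- **(LB2)** a form on a lattice which is non-degenerate mod `p` is non-degenerate. -/
theorem nondeg_of_nondeg_mod {L : Type*} [AddCommGroup L] [Module.Free ℤ L] [Module.Finite ℤ L]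
    (E : LinearMap.BilinForm ℤ L) {p : ℕ} (hp : p.Prime)
    (h : ∀ x, (∀ y, (p : ℤ) ∣ E x y) → ∃ x', x = (p : ℤ) • x') (x : L)
    (hx : ∀ y, E x y = 0) : x = 0 := by
  classical
  let b := Module.Free.chooseBasis ℤ L
  have hp0 : (p : ℤ) ≠ 0 := by exact_mod_cast hp.ne_zero
  have key : ∀ k : ℕ, ∀ x : L, (∀ y, E x y = 0) → ∀ i, (p : ℤ) ^ k ∣ b.repr x i := by
    intro k
    induction k with
    | zero => intro x _ i; simp
    | succ k ih =>
      intro x hx i
      obtain ⟨x', rfl⟩ := h x (fun y => by rw [hx y]; exact dvd_zero _)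
      have hx' : ∀ y, E x' y = 0 := by
        intro y
        have h1 := hx y
        rw [map_smul, LinearMap.smul_apply, smul_eq_mul] at h1
        exact (mul_eq_zero.mp h1).resolve_left hp0
      obtain ⟨m, hm⟩ := ih x' hx' i
      rw [map_smul, Finsupp.smul_apply, smul_eq_mul, hm, pow_succ]
      exact ⟨m, by ring⟩
  apply b.repr.injective
  ext i
  rw [map_zero, Finsupp.zero_apply]
  exact int_eq_zero_of_forall_pow_dvd hp (fun k => key k x hx i)

/-! ### (LB3) specialisation to the parabolic lattices -/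

section Par

open ModularCurve.Period Fermat.Agent.ES.HEQ.ParLattice11
open scoped MatrixGroups

/-- **(LB3)** `Λ = parabolicHoms ℤ Γ ℤ`, `Λ_R = parabolicHoms R Γ R`, comparison map `castPar`. -/
theorem par_nondeg_mod_of_perfect (Γ : Subgroup SL(2, ℤ)) (hΓ : Γ.FG) (R : Type*) [CommRing R]
    [IsAddTorsionFree R] (E : LinearMap.BilinForm ℤ ↥(parabolicHoms ℤ Γ ℤ))
    (P : LinearMap.BilinForm R ↥(parabolicHoms R Γ R)) (u : R) (hu : IsUnit u)
    (hEP : ∀ x y, ((E x y : ℤ) : R) = u * P (castPar Γ R x) (castPar Γ R y))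
    (hinj : ∀ z, (∀ w, P z w = 0) → z = 0)
    (hsurj : ∀ f : ↥(parabolicHoms R Γ R) →ₗ[R] R, ∃ z, ∀ w, P z w = f w)
    {p : ℕ} (hp : p.Prime) (hpR : ¬ IsUnit ((p : ℕ) : R)) (x : ↥(parabolicHoms ℤ Γ ℤ))
    (hx : ∀ y, (p : ℤ) ∣ E x y) : ∃ x', x = (p : ℤ) • x' :=
  nondeg_mod_of_perfect (lamBasis hΓ) (parBasis R hΓ) (castPar Γ R).toAddMonoidHom
    (fun i => by rw [lamBasis_apply, parBasis_apply]; rfl) E P u hu hEP hinj hsurj hp hpR x hx

/-- `Λ` is non-degenerate for `E` as soon as it is non-degenerate mod one prime. -/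
theorem par_nondeg_of_nondeg_mod (Γ : Subgroup SL(2, ℤ)) (hΓ : Γ.FG)
    (E : LinearMap.BilinForm ℤ ↥(parabolicHoms ℤ Γ ℤ)) {p : ℕ} (hp : p.Prime)
    (h : ∀ x, (∀ y, (p : ℤ) ∣ E x y) → ∃ x', x = (p : ℤ) • x') (x : ↥(parabolicHoms ℤ Γ ℤ))
    (hx : ∀ y, E x y = 0) : x = 0 :=
  haveI := finite_par hΓ
  haveI := free_par hΓ
  nondeg_of_nondeg_mod E hp h x hx

end Par

/-! ### non-units -/

/-- an element killed by a ring homomorphism to a nontrivial ring is not a unit. -/
theorem not_isUnit_of_map_eq_zero {R S : Type*} [CommRing R] [CommRing S] [Nontrivial S]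
    (φ : R →+* S) {r : R} (h : φ r = 0) : ¬ IsUnit r := fun hr =>
  not_isUnit_zero (h ▸ hr.map φ)

/-- an odd prime is not a unit of `ℤ[1/2]`. -/
theorem not_isUnit_natCast_away_two {p : ℕ} (hp : p.Prime) (hp2 : p ≠ 2) :
    ¬ IsUnit ((p : ℕ) : Localization.Away (2 : ℤ)) := by
  have : Fact p.Prime := ⟨hp⟩
  have h2 : IsUnit ((Int.castRingHom (ZMod p)) 2) := by
    have hcop : Nat.Coprime 2 p := (Nat.coprime_primes Nat.prime_two hp).mpr (Ne.symm hp2)
    have := (ZMod.unitOfCoprime 2 hcop).isUnit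
    simpa using this
  refine not_isUnit_of_map_eq_zero (IsLocalization.Away.lift (2 : ℤ) h2) ?_
  have : ((p : ℕ) : Localization.Away (2 : ℤ))
      = algebraMap ℤ (Localization.Away (2 : ℤ)) (p : ℤ) := by simp
  rw [this, IsLocalization.Away.lift_eq]
  simp

end Fermat.Agent.ES.I2.LatticeNondeg5
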