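/-
(I2), MODEL side — INTEGRAL Manin duality on a permutation module (helper29).  Mathlib only.

`Ω` a finite set, `S U : Equiv.Perm Ω` with `S² = 1`, `U³ = 1`, `⟨S, U⟩` transitive (`IsConn`);
`R` a PID domain in which `2` is invertible and `3 ≠ 0` (`ℤ[1/2]`, `ℤ_(p)`, `ℤ_p` for odd `p`
INCLUDING `p = 3`, fields of characteristic `≠ 2, 3`).  `V = Ω → R` with the operators
`v ↦ v ∘ S`, `v ↦ v ∘ U` and the dot product.

* `Symb R S U`  : `v + v∘S = 0`, `v + v∘U + v∘U∘U = 0`   (Manin symbols)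
* `Bdry R S U`  : `w∘S - w` with `w∘S = w∘U`              (boundary symbols)
* `exists_comp_sub_of_orth` : `(V^g)^⊥ = im (g - 1)` integrally, for every permutation `g`
* `exists_prim`  : every symbol is `β∘U - β` (also at `p = 3`)
* `pair`         : the Manin pairing `⟨β + v/2, v'⟩` (`v = β∘U - β`), bilinear, skew, vanishing on
                   boundary symbols
* `pair_radical`, `pair_surj`, `pairQ_bijective` : the pairing is PERFECT on `Symb / Bdry` over `R`
  (no dimension count, no reduction mod `p`).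

Proof ingredients: `V^S + V^U` is saturated (transitivity); a saturated submodule `N` of `Ω → R`
over a PID satisfies `N^⊥⊥ = N`; `im (g - 1)` is saturated (orbit representatives); functionals on
a saturated submodule extend to `Ω → R`.
-/
import Mathlib

set_option autoImplicit false

namespace Fermat.Agent.ES.I2.PermManin29

open Matrix

variable {Ω : Type*} {R : Type*} [CommRing R]

/-! ### general lemmas on `Ω → R` over a PID -/

section general

/-- every linear functional on `Ω → R` is a dot product -/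
theorem exists_dot_of_linear [Fintype Ω] [DecidableEq Ω] (φ : (Ω → R) →ₗ[R] R) :
    ∃ u : Ω → R, ∀ v, φ v = u ⬝ᵥ v := by
  refine ⟨fun i => φ (fun j => if i = j then 1 else 0), fun v => ?_⟩
  rw [LinearMap.pi_apply_eq_sum_univ φ v, dotProduct]
  exact Finset.sum_congr rfl fun i _ => by rw [smul_eq_mul, mul_comm]

/-- the quotient by a saturated submodule is torsion free -/
theorem isTorsionFree_quotient [IsDomain R] (N : Submodule R (Ω → R))
    (hsat : ∀ r : R, r ≠ 0 → ∀ x, r • x ∈ N → x ∈ N) :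
    Module.IsTorsionFree R ((Ω → R) ⧸ N) := by
  refine Module.IsTorsionFree.of_smul_eq_zero ?_
  intro r m h
  induction m using Submodule.Quotient.induction_on with
  | H y =>
    by_cases hr : r = 0
    · exact Or.inl hr
    · right
      rw [← Submodule.Quotient.mk_smul, Submodule.Quotient.mk_eq_zero] at h
      exact (Submodule.Quotient.mk_eq_zero _).2 (hsat r hr y h)

/-- double orthogonal of a saturated submodule of `Ω → R` over a PID. -/
theorem mem_of_forall_dot_eq_zero [Fintype Ω] [IsDomain R] [IsPrincipalIdealRing R]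
    (N : Submodule R (Ω → R))
    (hsat : ∀ r : R, r ≠ 0 → ∀ x, r • x ∈ N → x ∈ N) (x : Ω → R)
    (hx : ∀ u : Ω → R, (∀ n ∈ N, u ⬝ᵥ n = 0) → u ⬝ᵥ x = 0) : x ∈ N := by
  classical
  have : Module.IsTorsionFree R ((Ω → R) ⧸ N) := isTorsionFree_quotient N hsat
  have : Module.Free R ((Ω → R) ⧸ N) := Module.free_of_finite_type_torsion_free'
  by_contra hxN
  have h0 : N.mkQ x ≠ 0 := by
    simpa [Submodule.Quotient.mk_eq_zero] using hxN
  obtain ⟨φ, hφ⟩ := Module.Projective.exists_dual_ne_zero R h0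
  obtain ⟨u, hu⟩ := exists_dot_of_linear (φ.comp N.mkQ)
  apply hφ
  have h1 := hx u (fun n hn => by
    rw [← hu]; simp [(Submodule.Quotient.mk_eq_zero N).2 hn])
  rw [← hu] at h1
  exact h1

/-- functionals on a saturated submodule of `Ω → R` over a PID are dot products -/
theorem exists_dot_of_linear_on [Fintype Ω] [IsDomain R] [IsPrincipalIdealRing R]
    (N : Submodule R (Ω → R))
    (hsat : ∀ r : R, r ≠ 0 → ∀ x, r • x ∈ N → x ∈ N) (lam : N →ₗ[R] R) :
    ∃ x : Ω → R, ∀ n : N, lam n = x ⬝ᵥ (n : Ω → R) := by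
  classical
  have : Module.IsTorsionFree R ((Ω → R) ⧸ N) := isTorsionFree_quotient N hsat
  have : Module.Free R ((Ω → R) ⧸ N) := Module.free_of_finite_type_torsion_free'
  obtain ⟨s, hs⟩ := N.mkQ.exists_rightInverse_of_surjective (Submodule.range_mkQ N)
  have hmem : ∀ x : Ω → R,
      ((LinearMap.id - s ∘ₗ N.mkQ : (Ω → R) →ₗ[R] (Ω → R))) x ∈ N := by
    intro x
    rw [← Submodule.Quotient.mk_eq_zero, LinearMap.sub_apply, Submodule.Quotient.mk_sub]
    have := LinearMap.congr_fun hs (N.mkQ x)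
    simp only [LinearMap.comp_apply, LinearMap.id_apply, Submodule.mkQ_apply] at this ⊢
    rw [this, sub_self]
  let ρ : (Ω → R) →ₗ[R] N := LinearMap.codRestrict N (LinearMap.id - s ∘ₗ N.mkQ) hmem
  obtain ⟨x, hx⟩ := exists_dot_of_linear (lam ∘ₗ ρ)
  refine ⟨x, fun n => ?_⟩
  rw [← hx]
  have : ρ (n : Ω → R) = n := by
    apply Subtype.ext
    simp only [ρ, LinearMap.codRestrict_apply, LinearMap.sub_apply, LinearMap.id_apply,
      LinearMap.comp_apply]
    rw [Submodule.mkQ_apply, (Submodule.Quotient.mk_eq_zero N).2 n.2, map_zero, sub_zero]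
  rw [LinearMap.comp_apply, this]

/-- the range of `y ↦ y ∘ g - y` is saturated (any domain) -/
theorem exists_comp_sub_of_smul [IsDomain R] (g : Equiv.Perm Ω) (r : R) (hr : r ≠ 0)
    (u y : Ω → R) (h : r • u = y ∘ g - y) : ∃ y' : Ω → R, u = y' ∘ g - y' := by
  classical
  have h1 : ∀ x, y (g x) - y x = r * u x := fun x => by
    have := congrFun h x
    simpa [eq_comm] using this
  have h2 : ∀ (n : ℕ) x, r ∣ y ((g ^ n) x) - y x := by
    intro n
    induction n with
    | zero => intro x; simp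
    | succ n ih =>
      intro x
      have e : y ((g ^ (n+1)) x) - y x
          = (y (g ((g^n) x)) - y ((g^n) x)) + (y ((g^n) x) - y x) := by
        rw [pow_succ', Equiv.Perm.mul_apply]; ring
      rw [e, h1]
      exact dvd_add (dvd_mul_right _ _) (ih x)
  have h3 : ∀ (k : ℤ) x, r ∣ y ((g ^ k) x) - y x := by
    intro k x
    cases k with
    | ofNat n => simpa using h2 n x
    | negSucc n =>
      have h := h2 (n+1) ((g ^ (Int.negSucc n)) x)
      have e : (g ^ (n+1)) ((g ^ (Int.negSucc n)) x) = x := by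
        rw [zpow_negSucc]; simp
      rw [e] at h
      have := (dvd_neg (a := r)).2 h
      simpa using this
  let rep : Ω → Ω := fun x => Quotient.out (Quotient.mk (Equiv.Perm.SameCycle.setoid g) x)
  have hrep1 : ∀ x, rep (g x) = rep x := by
    intro x
    have : Quotient.mk (Equiv.Perm.SameCycle.setoid g) (g x)
        = Quotient.mk (Equiv.Perm.SameCycle.setoid g) x :=
      Quotient.sound (Equiv.Perm.sameCycle_apply_left.2 (Equiv.Perm.SameCycle.refl g x))
    simp only [rep, this]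
  have hrep2 : ∀ x, g.SameCycle (rep x) x := fun x =>
    Quotient.mk_out (s := Equiv.Perm.SameCycle.setoid g) x
  have h4 : ∀ x, r ∣ y x - y (rep x) := by
    intro x
    obtain ⟨k, hk⟩ := hrep2 x
    have := h3 k (rep x)
    rwa [hk] at this
  choose y' hy' using h4
  refine ⟨y', funext fun x => ?_⟩
  have : r * u x = r * (y' (g x) - y' x) := by
    have a1 := hy' (g x)
    have a2 := hy' x
    rw [hrep1] at a1
    rw [← h1]
    linear_combination a1 - a2
  simpa using mul_left_cancel₀ hr this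

/-- adjointness of composition with a permutation -/
theorem comp_dot [Fintype Ω] (g : Equiv.Perm Ω) (v w : Ω → R) :
    (v ∘ g) ⬝ᵥ w = v ⬝ᵥ (w ∘ g.symm) := by
  have h := comp_equiv_symm_dotProduct v w g.symm
  rw [Equiv.symm_symm] at h
  exact h

theorem comp_dot_comp [Fintype Ω] (g : Equiv.Perm Ω) (v w : Ω → R) :
    (v ∘ g) ⬝ᵥ (w ∘ g) = v ⬝ᵥ w := comp_equiv_dotProduct_comp_equiv v w g

/-- **`(V^g)^⊥ = im (g - 1)` over a PID**: a function orthogonal to all `g`-invariant functions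
is of the form `y ∘ g - y` (integrally; `g` any permutation). -/
theorem exists_comp_sub_of_orth [Fintype Ω] [IsDomain R] [IsPrincipalIdealRing R]
    (g : Equiv.Perm Ω) (u : Ω → R) (h : ∀ w : Ω → R, w ∘ g = w → u ⬝ᵥ w = 0) :
    ∃ y : Ω → R, y ∘ g - y = u := by
  classical
  let N : Submodule R (Ω → R) := LinearMap.range (LinearMap.funLeft R R g - LinearMap.id)
  have hN : ∀ z, z ∈ N ↔ ∃ y : Ω → R, y ∘ g - y = z := by
    intro z
    simp only [N, LinearMap.mem_range]
    exact Iff.rfl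
  have hu : u ∈ N := by
    refine mem_of_forall_dot_eq_zero N ?_ u ?_
    · intro r hr x hx
      obtain ⟨y, hy⟩ := (hN _).1 hx
      obtain ⟨y', hy'⟩ := exists_comp_sub_of_smul g r hr x y hy.symm
      exact (hN _).2 ⟨y', hy'.symm⟩
    · intro u' hu'
      have h1 : u' ∘ g.symm = u' := by
        have : ∀ y : Ω → R, (u' ∘ g.symm - u') ⬝ᵥ y = 0 := by
          intro y
          have := hu' (y ∘ g - y) ((hN _).2 ⟨y, rfl⟩)
          rw [dotProduct_sub, dotProduct_comm u' (y ∘ g), comp_dot, dotProduct_comm] at this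
          rw [sub_dotProduct]; exact this
        have := dotProduct_eq_zero _ this
        exact sub_eq_zero.1 this
      have h2 : u' ∘ g = u' := by
        conv_lhs => rw [← h1]
        funext x; simp
      rw [dotProduct_comm]; exact h u' h2
  exact (hN _).1 hu

end general

/-! ### symbols, boundary symbols -/

section main

variable (R) (S U : Equiv.Perm Ω)

/-- Manin symbols: `v + v∘S = 0`, `v + v∘U + v∘U∘U = 0`. -/
def Symb : Submodule R (Ω → R) :=
  LinearMap.ker (LinearMap.id + LinearMap.funLeft R R S) ⊓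
    LinearMap.ker (LinearMap.id + LinearMap.funLeft R R U +
      LinearMap.funLeft R R U ∘ₗ LinearMap.funLeft R R U)

/-- Boundary symbols: `w∘S - w` with `w∘S = w∘U`. -/
def Bdry : Submodule R (Ω → R) :=
  (LinearMap.ker (LinearMap.funLeft R R S - LinearMap.funLeft R R U)).map
    (LinearMap.funLeft R R S - LinearMap.id)

/-- `V^S + V^U`. -/
def InvSum : Submodule R (Ω → R) :=
  LinearMap.ker (LinearMap.funLeft R R S - LinearMap.id) ⊔
    LinearMap.ker (LinearMap.funLeft R R U - LinearMap.id)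

variable {R S U}

theorem mem_Symb {v : Ω → R} :
    v ∈ Symb R S U ↔ (∀ x, v x + v (S x) = 0) ∧ ∀ x, v x + v (U x) + v (U (U x)) = 0 := by
  simp only [Symb, Submodule.mem_inf, LinearMap.mem_ker, LinearMap.add_apply,
    LinearMap.id_apply, LinearMap.comp_apply]
  constructor
  · rintro ⟨h1, h2⟩
    exact ⟨fun x => by simpa [LinearMap.funLeft_apply] using congrFun h1 x,
      fun x => by simpa [LinearMap.funLeft_apply] using congrFun h2 x⟩
  · rintro ⟨h1, h2⟩
    exact ⟨funext fun x => by simpa [LinearMap.funLeft_apply] using h1 x,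
      funext fun x => by simpa [LinearMap.funLeft_apply] using h2 x⟩

theorem mem_Bdry {v : Ω → R} :
    v ∈ Bdry R S U ↔ ∃ w : Ω → R, (∀ x, w (S x) = w (U x)) ∧ ∀ x, v x = w (S x) - w x := by
  simp only [Bdry, Submodule.mem_map, LinearMap.mem_ker, LinearMap.sub_apply,
    LinearMap.id_apply]
  constructor
  · rintro ⟨w, h1, h2⟩
    refine ⟨w, fun x => ?_, fun x => ?_⟩
    · have := congrFun h1 x
      simpa [LinearMap.funLeft_apply, sub_eq_zero] using this
    · have := congrFun h2 x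
      simpa [LinearMap.funLeft_apply] using this.symm
  · rintro ⟨w, h1, h2⟩
    refine ⟨w, funext fun x => ?_, funext fun x => ?_⟩
    · simpa [LinearMap.funLeft_apply, sub_eq_zero] using h1 x
    · simpa [LinearMap.funLeft_apply] using (h2 x).symm

theorem mem_InvSum {x : Ω → R} :
    x ∈ InvSum R S U ↔ ∃ a b : Ω → R, (∀ y, a (S y) = a y) ∧ (∀ y, b (U y) = b y) ∧
      ∀ y, x y = a y + b y := by
  simp only [InvSum, Submodule.mem_sup, LinearMap.mem_ker, LinearMap.sub_apply,
    LinearMap.id_apply]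
  constructor
  · rintro ⟨a, ha, b, hb, rfl⟩
    refine ⟨a, b, fun y => ?_, fun y => ?_, fun y => rfl⟩
    · simpa [LinearMap.funLeft_apply, sub_eq_zero] using congrFun ha y
    · simpa [LinearMap.funLeft_apply, sub_eq_zero] using congrFun hb y
  · rintro ⟨a, b, ha, hb, hx⟩
    refine ⟨a, funext fun y => ?_, b, funext fun y => ?_, funext fun y => (hx y).symm⟩
    · simpa [LinearMap.funLeft_apply, sub_eq_zero] using ha y
    · simpa [LinearMap.funLeft_apply, sub_eq_zero] using hb y

theorem Bdry_le_Symb (hS : ∀ x, S (S x) = x) (hU : ∀ x, U (U (U x)) = x) :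
    Bdry R S U ≤ Symb R S U := by
  intro v hv
  obtain ⟨w, h1, h2⟩ := mem_Bdry.1 hv
  refine mem_Symb.2 ⟨fun x => ?_, fun x => ?_⟩
  · rw [h2 x, h2 (S x), hS]; ring
  · rw [h2 x, h2 (U x), h2 (U (U x)), h1 x, h1 (U x), h1 (U (U x)), hU]; ring

/-- `Symb` is saturated -/
theorem Symb_sat [IsDomain R] (r : R) (hr : r ≠ 0) (x : Ω → R) (hx : r • x ∈ Symb R S U) :
    x ∈ Symb R S U := by
  obtain ⟨h1, h2⟩ := mem_Symb.1 hx
  refine mem_Symb.2 ⟨fun y => ?_, fun y => ?_⟩
  · have := h1 y
    simp only [Pi.smul_apply, smul_eq_mul, ← mul_add] at this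
    exact (mul_eq_zero.1 this).resolve_left hr
  · have := h2 y
    simp only [Pi.smul_apply, smul_eq_mul, ← mul_add] at this
    exact (mul_eq_zero.1 this).resolve_left hr

/-! ### connectedness -/

/-- connectedness of the `⟨S,U⟩`-set `Ω` in induction-principle form -/
def IsConn (S U : Equiv.Perm Ω) : Prop :=
  ∀ P : Ω → Prop, (∀ x, P x → P (S x)) → (∀ x, P x → P (U x)) → ∀ x y, P x → P y

theorem isConn_of_closure (hS : ∀ x, S (S x) = x) (hU : ∀ x, U (U (U x)) = x)
    (h : ∀ x y, ∃ g ∈ Subgroup.closure ({S, U} : Set (Equiv.Perm Ω)), g x = y) :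
    IsConn S U := by
  intro P h1 h2 x y hx
  obtain ⟨g, hg, rfl⟩ := h x y
  have key : (∀ z, P z → P (g z)) ∧ (∀ z, P z → P (g⁻¹ z)) := by
    induction hg using Subgroup.closure_induction with
    | mem k hk =>
      rcases hk with rfl | hk
      · refine ⟨h1, fun z hz => ?_⟩
        have : k⁻¹ z = k z := by
          rw [Equiv.Perm.inv_eq_iff_eq]; exact (hS z).symm
        rw [this]; exact h1 z hz
      · rw [Set.mem_singleton_iff] at hk
        subst hk
        refine ⟨h2, fun z hz => ?_⟩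
        have : k⁻¹ z = k (k z) := by
          rw [Equiv.Perm.inv_eq_iff_eq]; exact (hU z).symm
        rw [this]; exact h2 _ (h2 z hz)
    | one => exact ⟨fun z hz => hz, fun z hz => by simpa using hz⟩
    | mul a b _ _ ha hb =>
      refine ⟨fun z hz => ?_, fun z hz => ?_⟩
      · rw [Equiv.Perm.mul_apply]; exact ha.1 _ (hb.1 z hz)
      · rw [_root_.mul_inv_rev, Equiv.Perm.mul_apply]; exact hb.2 _ (ha.2 z hz)
    | inv a _ ha => exact ⟨ha.2, by simpa using ha.1⟩
  exact key.1 x hx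

/-! ### orthogonality -/

theorem dot_invS [Fintype Ω] [Invertible (2 : R)] {v a : Ω → R}
    (hv : ∀ x, v x + v (S x) = 0) (ha : ∀ x, a (S x) = a x) : v ⬝ᵥ a = 0 := by
  have h1 : v ⬝ᵥ a = ∑ x, v (S x) * a (S x) :=
    (Equiv.sum_comp S (fun x => v x * a x)).symm
  have h2 : ∑ x, v (S x) * a (S x) = - (v ⬝ᵥ a) := by
    rw [dotProduct, ← Finset.sum_neg_distrib]
    refine Finset.sum_congr rfl fun x _ => ?_
    rw [ha x]
    linear_combination (a x) * hv x
  have h3 : (2 : R) * (v ⬝ᵥ a) = 0 := by linear_combination h1 + h2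
  calc v ⬝ᵥ a = ⅟(2 : R) * (2 * (v ⬝ᵥ a)) := by rw [← mul_assoc, invOf_mul_self, one_mul]
    _ = 0 := by rw [h3, mul_zero]

theorem dot_invU [Fintype Ω] [IsDomain R] (h3 : (3 : R) ≠ 0) {v b : Ω → R}
    (hv : ∀ x, v x + v (U x) + v (U (U x)) = 0) (hb : ∀ x, b (U x) = b x) : v ⬝ᵥ b = 0 := by
  have h1 : v ⬝ᵥ b = ∑ x, v (U x) * b (U x) :=
    (Equiv.sum_comp U (fun x => v x * b x)).symm
  have h2 : v ⬝ᵥ b = ∑ x, v (U (U x)) * b (U (U x)) := by
    rw [h1]
    exact (Equiv.sum_comp U (fun x => v (U x) * b (U x))).symm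
  have h4 : (3 : R) * (v ⬝ᵥ b) = 0 := by
    have : (3 : R) * (v ⬝ᵥ b) = v ⬝ᵥ b + ∑ x, v (U x) * b (U x)
        + ∑ x, v (U (U x)) * b (U (U x)) := by
      rw [← h1, ← h2]; ring
    rw [this, dotProduct, ← Finset.sum_add_distrib, ← Finset.sum_add_distrib]
    refine Finset.sum_eq_zero fun x _ => ?_
    rw [hb (U x), hb x]
    linear_combination (b x) * hv x
  exact (mul_eq_zero.1 h4).resolve_left h3

theorem mem_Symb_of_orth [Fintype Ω] (hS : ∀ x, S (S x) = x) (hU : ∀ x, U (U (U x)) = x)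
    {u : Ω → R}
    (h1 : ∀ a : Ω → R, (∀ y, a (S y) = a y) → u ⬝ᵥ a = 0)
    (h2 : ∀ b : Ω → R, (∀ y, b (U y) = b y) → u ⬝ᵥ b = 0) :
    (∀ x, u x + u (S x) = 0) ∧ ∀ x, u x + u (U x) + u (U (U x)) = 0 := by
  classical
  constructor
  · intro x
    have := h1 (Pi.single x 1 + Pi.single (S x) 1) (fun y => by
      have e : (S y = x) ↔ (y = S x) :=
        ⟨fun h => by rw [← h, hS], fun h => by rw [h, hS]⟩
      simp only [Pi.add_apply, Pi.single_apply, e, EmbeddingLike.apply_eq_iff_eq]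
      rw [add_comm])
    simpa [dotProduct_add] using this
  · intro x
    have := h2 (Pi.single x 1 + Pi.single (U x) 1 + Pi.single (U (U x)) 1) (fun y => by
      have e : (U y = x) ↔ (y = U (U x)) :=
        ⟨fun h => by rw [← h, hU], fun h => by rw [h, hU]⟩
      simp only [Pi.add_apply, Pi.single_apply, e, EmbeddingLike.apply_eq_iff_eq]
      ring)
    simpa [dotProduct_add] using this

/-- `V^S + V^U` is saturated. -/
theorem sat_invSum [IsDomain R] (hconn : IsConn S U) (r : R) (hr : r ≠ 0) (x a b : Ω → R)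
    (ha : ∀ y, a (S y) = a y) (hb : ∀ y, b (U y) = b y) (hx : ∀ y, r * x y = a y + b y) :
    ∃ a' b' : Ω → R, (∀ y, a' (S y) = a' y) ∧ (∀ y, b' (U y) = b' y) ∧
      ∀ y, x y = a' y + b' y := by
  rcases isEmpty_or_nonempty Ω with hΩ | ⟨⟨x₀⟩⟩
  · exact ⟨x, 0, fun y => (hΩ.false y).elim, fun y => (hΩ.false y).elim,
      fun y => (hΩ.false y).elim⟩
  have hdiv : ∀ y, r ∣ a y - a x₀ := by
    intro y₀
    refine hconn (fun y => r ∣ a y - a x₀) ?_ ?_ x₀ y₀ ?_
    · intro y hy; rw [ha]; exact hy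
    · intro y hy
      have e : a (U y) - a x₀ = r * (x (U y) - x y) + (a y - a x₀) := by
        have e1 := hx (U y)
        have e2 := hx y
        rw [hb] at e1
        linear_combination (-1 : R) * e1 + e2
      rw [e]
      exact dvd_add (dvd_mul_right _ _) hy
    · simp
  choose a' ha' using hdiv
  refine ⟨a', fun y => x y - a' y, fun y => ?_, fun y => ?_, fun y => by ring⟩
  · have e1 := ha' (S y)
    have e2 := ha' y
    rw [ha] at e1
    exact mul_left_cancel₀ hr (by rw [← e1, e2])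
  · have e1 := ha' (U y)
    have e2 := ha' y
    have e3 := hx (U y)
    have e4 := hx y
    rw [hb] at e3
    refine mul_left_cancel₀ hr ?_
    linear_combination e3 + e1 - e4 - e2

/-- `Symb^⊥ = V^S + V^U` over a PID. -/
theorem exists_inv_add_inv_of_orth [Fintype Ω] [IsDomain R] [IsPrincipalIdealRing R]
    (hS : ∀ x, S (S x) = x) (hU : ∀ x, U (U (U x)) = x) (hconn : IsConn S U) (x : Ω → R)
    (hx : ∀ v : Ω → R, (∀ y, v y + v (S y) = 0) → (∀ y, v y + v (U y) + v (U (U y)) = 0) →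
      v ⬝ᵥ x = 0) :
    ∃ a b : Ω → R, (∀ y, a (S y) = a y) ∧ (∀ y, b (U y) = b y) ∧ ∀ y, x y = a y + b y := by
  rw [← mem_InvSum]
  refine mem_of_forall_dot_eq_zero _ ?_ x ?_
  · intro r hr z hz
    obtain ⟨a, b, ha, hb, hab⟩ := mem_InvSum.1 hz
    exact mem_InvSum.2 (sat_invSum hconn r hr z a b ha hb (fun y => by
      rw [← hab y]; rfl))
  · intro u hu
    obtain ⟨h1, h2⟩ := mem_Symb_of_orth (u := u) hS hU
      (fun a ha => hu a (mem_InvSum.2 ⟨a, 0, ha, fun _ => rfl, fun y => by simp⟩))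
      (fun b hb => hu b (mem_InvSum.2 ⟨0, b, fun _ => rfl, hb, fun y => by simp⟩))
    exact hx u h1 h2

/-- integral primitive: a symbol is `β∘U - β` (also when `3` is not invertible). -/
theorem exists_prim [Fintype Ω] [IsDomain R] [IsPrincipalIdealRing R] (h3 : (3 : R) ≠ 0)
    {v : Ω → R} (hv : ∀ x, v x + v (U x) + v (U (U x)) = 0) :
    ∃ β : Ω → R, β ∘ U - β = v :=
  exists_comp_sub_of_orth U v (fun _ hw => dot_invU h3 hv (fun x => congrFun hw x))

/-! ### the two halves of perfectness, element level -/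

/-- **injectivity core**: if `β + v/2` (`v = β∘U - β` a symbol) is orthogonal to all symbols,
then `v` is a boundary symbol. -/
theorem inj_core [Fintype Ω] [IsDomain R] [IsPrincipalIdealRing R] [Invertible (2 : R)]
    (hS : ∀ x, S (S x) = x) (hU : ∀ x, U (U (U x)) = x) (hconn : IsConn S U)
    (β : Ω → R)
    (hv1 : ∀ x, (β ∘ U - β) x + (β ∘ U - β) (S x) = 0)
    (H : ∀ v' : Ω → R, (∀ y, v' y + v' (S y) = 0) → (∀ y, v' y + v' (U y) + v' (U (U y)) = 0) →
      (β + ⅟(2 : R) • (β ∘ U - β)) ⬝ᵥ v' = 0) :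
    ∃ w : Ω → R, (∀ x, w (S x) = w (U x)) ∧ ∀ x, (β ∘ U - β) x = w (S x) - w x := by
  obtain ⟨s, t, hs, ht, hst⟩ := exists_inv_add_inv_of_orth hS hU hconn
    (β + ⅟(2 : R) • (β ∘ U - β)) (fun v' h1 h2 => by rw [dotProduct_comm]; exact H v' h1 h2)
  have h2 : (2 : R) * ⅟(2 : R) = 1 := mul_invOf_self _
  simp only [Pi.add_apply, Pi.smul_apply, Pi.sub_apply, Function.comp_apply, smul_eq_mul]
    at hst hv1 ⊢
  have hwU : ∀ x, (β (U x) - t (U x)) - (β x - t x) = β (U x) - β x := fun x => by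
    rw [ht]; ring
  have hwS : ∀ x, (β (S x) - t (S x)) - (β x - t x) = β (U x) - β x := fun x => by
    have e1 := hst x
    have e2 := hst (S x)
    have e3 := hv1 x
    rw [hs] at e2
    linear_combination e2 - e1 - ⅟(2 : R) * e3 + (β (U x) - β x) * h2
  refine ⟨fun x => β x - t x, fun x => ?_, fun x => (hwS x).symm⟩
  linear_combination hwS x - hwU x

/-- **surjectivity core**: a vector `x` orthogonal to the boundary symbols is represented,
on symbols, by `β + v/2` for a symbol `v = β∘U - β`. -/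
theorem surj_core [Fintype Ω] [IsDomain R] [IsPrincipalIdealRing R] [Invertible (2 : R)]
    (hS : ∀ x, S (S x) = x) (hU : ∀ x, U (U (U x)) = x)
    (x : Ω → R)
    (hx : ∀ w : Ω → R, (∀ y, w (S y) = w (U y)) → x ⬝ᵥ (w ∘ S - w) = 0) :
    ∃ β : Ω → R, (∀ y, (β ∘ U - β) y + (β ∘ U - β) (S y) = 0) ∧
      (∀ y, (β ∘ U - β) y + (β ∘ U - β) (U y) + (β ∘ U - β) (U (U y)) = 0) ∧
      ∀ v' : Ω → R, (∀ y, v' y + v' (S y) = 0) →
        (β + ⅟(2 : R) • (β ∘ U - β)) ⬝ᵥ v' = x ⬝ᵥ v' := by
  have h2 : (2 : R) * ⅟(2 : R) = 1 := mul_invOf_self _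
  -- `x∘S - x` is orthogonal to the `U*S`-invariants
  have h1 : ∀ w : Ω → R, w ∘ (U * S) = w → (x ∘ S - x) ⬝ᵥ w = 0 := by
    intro w hw
    have hw' : ∀ y, w (S y) = w (U y) := fun y => by
      have := congrFun hw (S y)
      simp only [Function.comp_apply, Equiv.Perm.mul_apply, hS] at this
      exact this.symm
    have e1 : (x ∘ S) ⬝ᵥ w = x ⬝ᵥ (w ∘ S) := by
      have := Equiv.sum_comp S (fun y => x (S y) * w y)
      simp only [hS] at this
      simp only [dotProduct, Function.comp_apply]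
      rw [← this]
    rw [sub_dotProduct, e1, ← dotProduct_sub]
    exact hx w hw'
  obtain ⟨β, hβ⟩ := exists_comp_sub_of_orth (U * S) (x ∘ S - x) h1
  have rel : ∀ z, β (U (S z)) - β z = x (S z) - x z := fun z => by
    have := congrFun hβ z
    simpa using this
  refine ⟨β, fun y => ?_, fun y => ?_, fun v' hv' => ?_⟩
  · simp only [Pi.sub_apply, Function.comp_apply]
    have r1 := rel y
    have r2 := rel (S y)
    rw [hS] at r2
    linear_combination r1 + r2
  · simp only [Pi.sub_apply, Function.comp_apply, hU]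
    ring
  · have hA : ∀ y, (β + ⅟(2 : R) • (β ∘ U - β) - x) (S y)
        = (β + ⅟(2 : R) • (β ∘ U - β) - x) y := by
      intro y
      simp only [Pi.add_apply, Pi.smul_apply, Pi.sub_apply, Function.comp_apply, smul_eq_mul]
      have r1 := rel y
      have r2 := rel (S y)
      rw [hS] at r2
      linear_combination ⅟(2 : R) * r1 - ⅟(2 : R) * r2
        - (β (S y) - β y - x (S y) + x y) * h2
    have := dot_invS hv' hA
    rw [dotProduct_comm, sub_dotProduct, sub_eq_zero] at this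
    exact this

/-! ### the bundled pairing -/

section pairing

variable [Fintype Ω]

/-- the dot product of a primitive with a symbol does not depend on the primitive -/
theorem dot_prim_indep [IsDomain R] (h3 : (3 : R) ≠ 0) {β β' v' : Ω → R}
    (h : β ∘ U - β = β' ∘ U - β')
    (hv' : ∀ x, v' x + v' (U x) + v' (U (U x)) = 0) : β ⬝ᵥ v' = β' ⬝ᵥ v' := by
  have hb : ∀ x, (β - β') (U x) = (β - β') x := fun x => by
    have := congrFun h x
    simp only [Pi.sub_apply, Function.comp_apply] at this ⊢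
    linear_combination this
  have := dot_invU h3 hv' hb
  rw [dotProduct_comm, sub_dotProduct, sub_eq_zero] at this
  exact this

/-- a chosen primitive `β` of `v` (`β∘U - β = v`), `0` if there is none -/
noncomputable def prim (U : Equiv.Perm Ω) (v : Ω → R) : Ω → R := by
  classical exact if h : ∃ β : Ω → R, β ∘ U - β = v then h.choose else 0

omit [Fintype Ω] in
theorem prim_spec {v : Ω → R} (h : ∃ β : Ω → R, β ∘ U - β = v) :
    prim U v ∘ U - prim U v = v := by
  classical
  unfold prim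
  rw [dif_pos h]
  exact h.choose_spec

variable [IsDomain R] [Invertible (2 : R)]

/-- the pairing as a function -/
noncomputable def pairFun (U : Equiv.Perm Ω) (v v' : Ω → R) : R :=
  (prim U v + ⅟(2 : R) • v) ⬝ᵥ v'

theorem pairFun_eq (h3 : (3 : R) ≠ 0) {v v' β : Ω → R}
    (hv' : ∀ x, v' x + v' (U x) + v' (U (U x)) = 0) (hβ : β ∘ U - β = v) :
    pairFun U v v' = (β + ⅟(2 : R) • v) ⬝ᵥ v' := by
  unfold pairFun
  rw [add_dotProduct, add_dotProduct]
  congr 1
  exact dot_prim_indep h3 ((prim_spec ⟨β, hβ⟩).trans hβ.symm) hv'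

variable [IsPrincipalIdealRing R]

variable (S) in
/-- **the Manin pairing** on symbols, `pair v v' = ⟨β + v/2, v'⟩` for any `β` with
`β∘U - β = v`. -/
noncomputable def pair (h3 : (3 : R) ≠ 0) : Symb R S U →ₗ[R] Symb R S U →ₗ[R] R :=
  LinearMap.mk₂ R (fun v v' => pairFun U (v : Ω → R) (v' : Ω → R))
    (fun v₁ v₂ v' => by
      obtain ⟨β₁, h1⟩ := exists_prim h3 (mem_Symb.1 v₁.2).2
      obtain ⟨β₂, h2⟩ := exists_prim h3 (mem_Symb.1 v₂.2).2
      have hv' := (mem_Symb.1 v'.2).2
      rw [pairFun_eq h3 hv' h1, pairFun_eq h3 hv' h2,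
        pairFun_eq h3 hv' (β := β₁ + β₂) (v := ((v₁ + v₂ : Symb R S U) : Ω → R))
          (by rw [Submodule.coe_add, ← h1, ← h2]; funext x; simp; ring)]
      rw [Submodule.coe_add, ← add_dotProduct]
      congr 1
      rw [smul_add]; abel)
    (fun c v v' => by
      obtain ⟨β, h1⟩ := exists_prim h3 (mem_Symb.1 v.2).2
      have hv' := (mem_Symb.1 v'.2).2
      rw [pairFun_eq h3 hv' h1,
        pairFun_eq h3 hv' (β := c • β) (v := ((c • v : Symb R S U) : Ω → R))
          (by rw [Submodule.coe_smul, ← h1]; funext x; simp; ring)]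
      rw [Submodule.coe_smul, smul_comm, ← smul_add, smul_dotProduct])
    (fun v v₁ v₂ => by
      unfold pairFun
      rw [Submodule.coe_add, dotProduct_add])
    (fun c v v' => by
      unfold pairFun
      rw [Submodule.coe_smul, dotProduct_smul])

theorem pair_apply (h3 : (3 : R) ≠ 0) (v v' : Symb R S U) (β : Ω → R)
    (hβ : β ∘ U - β = (v : Ω → R)) :
    pair S h3 v v' = (β + ⅟(2 : R) • (v : Ω → R)) ⬝ᵥ (v' : Ω → R) := by
  simp only [pair, LinearMap.mk₂_apply]
  exact pairFun_eq h3 (mem_Symb.1 v'.2).2 hβ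

/-- symmetric formula `pair v v' = ½ (⟨β, β'∘U⟩ - ⟨β∘U, β'⟩)`. -/
theorem pair_apply' (h3 : (3 : R) ≠ 0) (v v' : Symb R S U) (β β' : Ω → R)
    (hβ : β ∘ U - β = (v : Ω → R)) (hβ' : β' ∘ U - β' = (v' : Ω → R)) :
    pair S h3 v v' = ⅟(2 : R) * (β ⬝ᵥ (β' ∘ U) - (β ∘ U) ⬝ᵥ β') := by
  have h2 : (2 : R) * ⅟(2 : R) = 1 := mul_invOf_self _
  rw [pair_apply h3 v v' β hβ, ← hβ, ← hβ']
  simp only [add_dotProduct, smul_dotProduct, dotProduct_sub, sub_dotProduct, smul_eq_mul,
    comp_dot_comp]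
  linear_combination (β ⬝ᵥ β' - β ⬝ᵥ (β' ∘ U)) * h2

theorem pair_skew (h3 : (3 : R) ≠ 0) (v v' : Symb R S U) :
    pair S h3 v v' = - pair S h3 v' v := by
  obtain ⟨β, hβ⟩ := exists_prim h3 (mem_Symb.1 v.2).2
  obtain ⟨β', hβ'⟩ := exists_prim h3 (mem_Symb.1 v'.2).2
  rw [pair_apply' h3 v v' β β' hβ hβ', pair_apply' h3 v' v β' β hβ' hβ,
    dotProduct_comm β' (β ∘ U), dotProduct_comm (β' ∘ U) β]
  ring

theorem pair_self (h3 : (3 : R) ≠ 0) (v : Symb R S U) : pair S h3 v v = 0 := by
  have h := pair_skew h3 v v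
  have h2 : (2 : R) * pair S h3 v v = 0 := by linear_combination h
  calc pair S h3 v v = ⅟(2 : R) * (2 * pair S h3 v v) := by
        rw [← mul_assoc, invOf_mul_self, one_mul]
    _ = 0 := by rw [h2, mul_zero]

theorem pair_eq_zero_of_mem_Bdry_left (hS : ∀ x, S (S x) = x) (h3 : (3 : R) ≠ 0)
    (v v' : Symb R S U) (hv : (v : Ω → R) ∈ Bdry R S U) : pair S h3 v v' = 0 := by
  obtain ⟨w, h1, h2⟩ := mem_Bdry.1 hv
  have hw : w ∘ U - w = (v : Ω → R) := by
    funext x
    simp only [Pi.sub_apply, Function.comp_apply]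
    rw [h2 x, h1 x]
  rw [pair_apply h3 v v' w hw, dotProduct_comm]
  refine dot_invS (mem_Symb.1 v'.2).1 (fun y => ?_)
  have h2' : (2 : R) * ⅟(2 : R) = 1 := mul_invOf_self _
  simp only [Pi.add_apply, Pi.smul_apply, smul_eq_mul]
  rw [h2 y, h2 (S y), hS]
  linear_combination (w y - w (S y)) * h2'

theorem pair_eq_zero_of_mem_Bdry_right (hS : ∀ x, S (S x) = x) (h3 : (3 : R) ≠ 0)
    (v v' : Symb R S U) (hv' : (v' : Ω → R) ∈ Bdry R S U) : pair S h3 v v' = 0 := by
  rw [pair_skew, pair_eq_zero_of_mem_Bdry_left hS h3 v' v hv', neg_zero]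

/-- **the radical of the Manin pairing is the space of boundary symbols** (over `R`). -/
theorem pair_radical (hS : ∀ x, S (S x) = x) (hU : ∀ x, U (U (U x)) = x) (hconn : IsConn S U)
    (h3 : (3 : R) ≠ 0) (v : Symb R S U) (H : ∀ v' : Symb R S U, pair S h3 v v' = 0) :
    (v : Ω → R) ∈ Bdry R S U := by
  obtain ⟨β, hβ⟩ := exists_prim h3 (mem_Symb.1 v.2).2
  have hv := mem_Symb.1 v.2
  obtain ⟨w, h1, h2⟩ := inj_core hS hU hconn β (by rw [hβ]; exact hv.1)
    (fun v' h1 h2 => by
      have := H ⟨v', mem_Symb.2 ⟨h1, h2⟩⟩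
      rw [pair_apply h3 v _ β hβ] at this
      rw [hβ]; exact this)
  rw [hβ] at h2
  exact mem_Bdry.2 ⟨w, h1, h2⟩

/-- **every functional on symbols killing the boundary symbols is `pair v ·`** (over `R`). -/
theorem pair_surj (hS : ∀ x, S (S x) = x) (hU : ∀ x, U (U (U x)) = x)
    (h3 : (3 : R) ≠ 0) (lam : Symb R S U →ₗ[R] R)
    (H : ∀ v : Symb R S U, (v : Ω → R) ∈ Bdry R S U → lam v = 0) :
    ∃ v : Symb R S U, ∀ v' : Symb R S U, lam v' = pair S h3 v v' := by
  obtain ⟨x, hx⟩ := exists_dot_of_linear_on (Symb R S U) Symb_sat lam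
  obtain ⟨β, hβ1, hβ2, hβ3⟩ := surj_core hS hU x (fun w hw => by
    have hb : (w ∘ S - w) ∈ Bdry R S U := mem_Bdry.2 ⟨w, hw, fun _ => rfl⟩
    have := H ⟨w ∘ S - w, Bdry_le_Symb hS hU hb⟩ hb
    rw [hx] at this
    exact this)
  refine ⟨⟨β ∘ U - β, mem_Symb.2 ⟨hβ1, hβ2⟩⟩, fun v' => ?_⟩
  rw [pair_apply h3 _ v' β rfl, hx]
  exact (hβ3 v' (mem_Symb.1 v'.2).1).symm

/-! ### the quotient `Symb / Bdry` -/

variable (R S U) in
/-- the boundary symbols as a submodule of the symbols -/
def bdryS : Submodule R (Symb R S U) := (Bdry R S U).comap (Symb R S U).subtype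

omit [Fintype Ω] [IsDomain R] [Invertible (2 : R)] [IsPrincipalIdealRing R] in
theorem mem_bdryS {v : Symb R S U} : v ∈ bdryS R S U ↔ (v : Ω → R) ∈ Bdry R S U := Iff.rfl

variable (S) in
/-- the Manin pairing on `Symb / Bdry`. -/
noncomputable def pairQ (hS : ∀ x, S (S x) = x) (h3 : (3 : R) ≠ 0) :
    (Symb R S U ⧸ bdryS R S U) →ₗ[R] (Symb R S U ⧸ bdryS R S U) →ₗ[R] R :=
  (bdryS R S U).liftQ
    ((bdryS R S U).liftQ (pair S h3).flip (fun v' hv' => by
      rw [LinearMap.mem_ker]
      ext v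
      simp only [LinearMap.flip_apply, LinearMap.zero_apply]
      exact pair_eq_zero_of_mem_Bdry_right hS h3 v v' hv')).flip
    (fun v hv => by
      rw [LinearMap.mem_ker]
      refine LinearMap.ext fun q => ?_
      obtain ⟨v', rfl⟩ := Submodule.mkQ_surjective _ q
      simp only [LinearMap.flip_apply, Submodule.mkQ_apply, Submodule.liftQ_apply,
        LinearMap.zero_apply]
      exact pair_eq_zero_of_mem_Bdry_left hS h3 v v' hv)

theorem pairQ_mk (hS : ∀ x, S (S x) = x) (h3 : (3 : R) ≠ 0) (v v' : Symb R S U) :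
    pairQ S hS h3 (Submodule.Quotient.mk v) (Submodule.Quotient.mk v') = pair S h3 v v' := by
  simp only [pairQ, Submodule.liftQ_apply, LinearMap.flip_apply]

/-- **integral Manin duality**: the Manin pairing on `Symb / Bdry` is perfect over `R`. -/
theorem pairQ_bijective (hS : ∀ x, S (S x) = x) (hU : ∀ x, U (U (U x)) = x)
    (hconn : IsConn S U) (h3 : (3 : R) ≠ 0) :
    Function.Bijective (pairQ S hS h3 :
      (Symb R S U ⧸ bdryS R S U) → Module.Dual R (Symb R S U ⧸ bdryS R S U)) := by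
  constructor
  · rw [injective_iff_map_eq_zero]
    intro q hq
    obtain ⟨v, rfl⟩ := Submodule.mkQ_surjective _ q
    rw [Submodule.mkQ_apply, Submodule.Quotient.mk_eq_zero, mem_bdryS]
    refine pair_radical hS hU hconn h3 v (fun v' => ?_)
    rw [← pairQ_mk hS h3, ← Submodule.mkQ_apply, hq, LinearMap.zero_apply]
  · intro μ
    obtain ⟨v, hv⟩ := pair_surj hS hU h3 (μ ∘ₗ (bdryS R S U).mkQ) (fun v hv => by
      rw [LinearMap.comp_apply, Submodule.mkQ_apply,
        (Submodule.Quotient.mk_eq_zero _).2 (mem_bdryS.2 hv), map_zero])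
    refine ⟨Submodule.Quotient.mk v, ?_⟩
    refine LinearMap.ext fun q => ?_
    obtain ⟨v', rfl⟩ := Submodule.mkQ_surjective _ q
    rw [Submodule.mkQ_apply, pairQ_mk, ← hv v', LinearMap.comp_apply, Submodule.mkQ_apply]

end pairing

end main

end Fermat.Agent.ES.I2.PermManin29
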