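/-
(I2), MODEL side — adapter `PermManin29` ↔ `Model13` (helper29).

`Model13` uses a group `G` acting on `X` with `act g f x = f (g⁻¹ • x)`, `form`, `symb R σ τ`
(`v + act σ v = 0`, `v ⊥ V^τ`) and `bdry R σ τ` (`act σ ρ - ρ`, `act (σ * τ) ρ = ρ`).
With `pm g := MulAction.toPerm g⁻¹` one has `act g f = f ∘ pm g`, `form = ⬝ᵥ`, and for `σ² = 1`,
`τ³ = 1`, `R` a domain with `3 ≠ 0`: `symb R σ τ = Symb R (pm σ) (pm τ)`,
`bdry R σ τ = Bdry R (pm σ) (pm τ)`.  The integral Manin duality of `PermManin29` is restated in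
`Model13` vocabulary: `mpair`, `mpair_apply` (`= form (β + ⅟2 • v) v'`, `act τ β - β = v`),
`mpair_skew`, `mpair_radical`, `mpair_surj`, `mpairQ_bijective`.
-/
import Mathlib
import Fermat.Agent.ES.I2.Model13
import Fermat.Agent.ES.I2.PermManin29

set_option autoImplicit false

namespace Fermat.Agent.ES.I2.PermManinModel29

open Matrix
open Fermat.Agent.ES.I2.Model13 Fermat.Agent.ES.I2.PermManin29

variable {G : Type*} [Group G] {X : Type*} [MulAction G X] {R : Type*} [CommRing R]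

/-! ### generic: a bilinear form on a quotient -/

section quot

variable {M : Type*} [AddCommGroup M] [Module R M]

/-- a bilinear form vanishing on `B` on both sides descends to `M ⧸ B`. -/
def quotForm (B : Submodule R M) (P : M →ₗ[R] M →ₗ[R] R)
    (hl : ∀ v ∈ B, ∀ v', P v v' = 0) (hr : ∀ v, ∀ v' ∈ B, P v v' = 0) :
    (M ⧸ B) →ₗ[R] (M ⧸ B) →ₗ[R] R :=
  B.liftQ
    (B.liftQ P.flip (fun v' hv' => by
      rw [LinearMap.mem_ker]
      refine LinearMap.ext fun v => ?_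
      simp only [LinearMap.flip_apply, LinearMap.zero_apply]
      exact hr v v' hv')).flip
    (fun v hv => by
      rw [LinearMap.mem_ker]
      refine LinearMap.ext fun q => ?_
      obtain ⟨v', rfl⟩ := Submodule.mkQ_surjective _ q
      simp only [LinearMap.flip_apply, Submodule.mkQ_apply, Submodule.liftQ_apply,
        LinearMap.zero_apply]
      exact hl v hv v')

theorem quotForm_mk (B : Submodule R M) (P : M →ₗ[R] M →ₗ[R] R)
    (hl : ∀ v ∈ B, ∀ v', P v v' = 0) (hr : ∀ v, ∀ v' ∈ B, P v v' = 0) (v v' : M) :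
    quotForm B P hl hr (Submodule.Quotient.mk v) (Submodule.Quotient.mk v') = P v v' := by
  simp only [quotForm, Submodule.liftQ_apply, LinearMap.flip_apply]

/-- radical `= B` and representability of functionals killing `B` ⇒ the quotient form is
perfect. -/
theorem quotForm_bijective (B : Submodule R M) (P : M →ₗ[R] M →ₗ[R] R)
    (hl : ∀ v ∈ B, ∀ v', P v v' = 0) (hr : ∀ v, ∀ v' ∈ B, P v v' = 0)
    (hrad : ∀ v, (∀ v', P v v' = 0) → v ∈ B)
    (hsurj : ∀ lam : M →ₗ[R] R, (∀ v ∈ B, lam v = 0) → ∃ v, ∀ v', lam v' = P v v') :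
    Function.Bijective (quotForm B P hl hr : (M ⧸ B) → Module.Dual R (M ⧸ B)) := by
  constructor
  · rw [injective_iff_map_eq_zero]
    intro q hq
    obtain ⟨v, rfl⟩ := Submodule.mkQ_surjective _ q
    rw [Submodule.mkQ_apply, Submodule.Quotient.mk_eq_zero]
    refine hrad v (fun v' => ?_)
    rw [← quotForm_mk B P hl hr, ← Submodule.mkQ_apply, hq, LinearMap.zero_apply]
  · intro μ
    obtain ⟨v, hv⟩ := hsurj (μ ∘ₗ B.mkQ) (fun v hv => by
      rw [LinearMap.comp_apply, Submodule.mkQ_apply,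
        (Submodule.Quotient.mk_eq_zero _).2 hv, map_zero])
    refine ⟨Submodule.Quotient.mk v, ?_⟩
    refine LinearMap.ext fun q => ?_
    obtain ⟨v', rfl⟩ := Submodule.mkQ_surjective _ q
    rw [Submodule.mkQ_apply, quotForm_mk, ← hv v', LinearMap.comp_apply, Submodule.mkQ_apply]

end quot

/-! ### the dictionary -/

/-- the permutation `x ↦ g⁻¹ • x`, so that `act g f = f ∘ pm g`. -/
def pm (g : G) : Equiv.Perm X := MulAction.toPerm g⁻¹

@[simp] theorem pm_apply (g : G) (x : X) : pm g x = g⁻¹ • x := rfl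

theorem act_eq_comp (g : G) (f : X → R) : act g f = f ∘ pm g := rfl

theorem form_eq_dot [Fintype X] (f f' : X → R) : form f f' = f ⬝ᵥ f' := rfl

theorem pm_sq {σ : G} (hσ : σ ^ 2 = 1) (x : X) : pm σ (pm σ x) = x := by
  rw [pm_apply, pm_apply, ← mul_smul, ← _root_.mul_inv_rev, ← pow_two, hσ, inv_one, one_smul]

theorem pm_cube {τ : G} (hτ : τ ^ 3 = 1) (x : X) : pm τ (pm τ (pm τ x)) = x := by
  have : τ⁻¹ * (τ⁻¹ * τ⁻¹) = 1 := by
    rw [← _root_.mul_inv_rev, ← _root_.mul_inv_rev, ← pow_two, ← pow_succ, hτ, inv_one]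
  rw [pm_apply, pm_apply, pm_apply, ← mul_smul, ← mul_smul, mul_assoc, this, one_smul]

theorem isConn_pm {σ τ : G} (hσ : σ ^ 2 = 1) (hτ : τ ^ 3 = 1)
    (hgen : Subgroup.closure ({σ, τ} : Set G) = ⊤) [MulAction.IsPretransitive G X] :
    IsConn (pm σ : Equiv.Perm X) (pm τ) := by
  intro P h1 h2 x y hx
  obtain ⟨g, rfl⟩ := MulAction.exists_smul_eq G x y
  have hg : g ∈ Subgroup.closure ({σ, τ} : Set G) := by rw [hgen]; trivial
  have hσ' : σ⁻¹ = σ := inv_eq_of_mul_eq_one_left (by rw [← pow_two, hσ])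
  have hτ' : τ⁻¹ * τ⁻¹ = τ := by
    rw [← _root_.mul_inv_rev]
    exact inv_eq_of_mul_eq_one_left (by rw [← pow_two, ← pow_succ', hτ])
  have key : (∀ z, P z → P (g • z)) ∧ (∀ z, P z → P (g⁻¹ • z)) := by
    induction hg using Subgroup.closure_induction with
    | mem k hk =>
      rcases hk with rfl | hk
      · refine ⟨fun z hz => ?_, fun z hz => h1 z hz⟩
        have := h1 z hz
        rwa [pm_apply, hσ'] at this
      · rw [Set.mem_singleton_iff] at hk
        subst hk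
        refine ⟨fun z hz => ?_, fun z hz => h2 z hz⟩
        have := h2 _ (h2 z hz)
        rwa [pm_apply, pm_apply, ← mul_smul, hτ'] at this
    | one => exact ⟨fun z hz => by simpa using hz, fun z hz => by simpa using hz⟩
    | mul a b _ _ ha hb =>
      refine ⟨fun z hz => ?_, fun z hz => ?_⟩
      · rw [mul_smul]; exact ha.1 _ (hb.1 z hz)
      · rw [_root_.mul_inv_rev, mul_smul]; exact hb.2 _ (ha.2 z hz)
    | inv a _ ha => exact ⟨ha.2, by simpa using ha.1⟩
  exact key.1 x hx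

theorem symb_eq_Symb [Fintype X] [IsDomain R] (h3 : (3 : R) ≠ 0) (σ : G) {τ : G}
    (hτ : τ ^ 3 = 1) :
    (symb R σ τ : Submodule R (X → R)) = Symb R (pm σ) (pm τ) := by
  classical
  ext v
  rw [Model13.mem_symb, PermManin29.mem_Symb]
  constructor
  · rintro ⟨h1, h2⟩
    refine ⟨fun x => ?_, fun x => ?_⟩
    · have := congrFun h1 x
      simpa using this
    · have hU := pm_cube (X := X) hτ
      have := h2 (Pi.single x 1 + Pi.single (pm τ x) 1 + Pi.single (pm τ (pm τ x)) 1)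
        (funext fun y => by
          have e : (pm τ y = x) ↔ (y = pm τ (pm τ x)) :=
            ⟨fun h => by rw [← h, hU], fun h => by rw [h, hU]⟩
          rw [act_eq_comp]
          simp only [Function.comp_apply, Pi.add_apply, Pi.single_apply, e,
            EmbeddingLike.apply_eq_iff_eq]
          ring)
      rw [form_eq_dot] at this
      simpa [dotProduct_add] using this
  · rintro ⟨h1, h2⟩
    refine ⟨funext fun x => by simpa using h1 x, fun w hw => ?_⟩
    rw [form_eq_dot]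
    exact dot_invU h3 h2 (fun x => congrFun hw x)

theorem bdry_eq_Bdry [Fintype X] {σ : G} (hσ : σ ^ 2 = 1) (τ : G) :
    (bdry R σ τ : Submodule R (X → R)) = Bdry R (pm σ) (pm τ) := by
  have hσ' : σ⁻¹ = σ := inv_eq_of_mul_eq_one_left (by rw [← pow_two, hσ])
  ext v
  rw [Model13.mem_bdry, PermManin29.mem_Bdry]
  constructor
  · rintro ⟨ρ, h1, h2⟩
    refine ⟨ρ, fun x => ?_, fun x => by rw [h2]; rfl⟩
    have := congrFun h1 (σ • x)
    simp only [act_apply, _root_.mul_inv_rev, mul_smul, inv_smul_smul] at this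
    rw [pm_apply, pm_apply, this, hσ']
  · rintro ⟨w, h1, h2⟩
    refine ⟨w, funext fun y => ?_, funext fun x => h2 x⟩
    have := h1 (σ⁻¹ • y)
    simp only [pm_apply] at this
    simp only [act_apply, _root_.mul_inv_rev, mul_smul]
    rw [← this, ← mul_smul, ← _root_.mul_inv_rev, ← pow_two, hσ, inv_one, one_smul]

/-! ### the pairing in `Model13` vocabulary -/

section pairing

variable [Fintype X] [IsDomain R] [IsPrincipalIdealRing R] {σ τ : G}

/-- every symbol is `act τ β - β`, integrally (no hypothesis on `σ`, `τ`, `2`, `3`). -/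
theorem exists_prim_of_mem_symb {v : X → R} (hv : v ∈ symb (X := X) R σ τ) :
    ∃ β : X → R, act τ β - β = v :=
  exists_comp_sub_of_orth (pm τ : Equiv.Perm X) v
    (fun w hw => (Model13.mem_symb.1 hv).2 w hw)

variable [Invertible (2 : R)]

variable (σ) in
/-- `Model13.symb` and `PermManin29.Symb` are the same submodule. -/
def toSymb (h3 : (3 : R) ≠ 0) (hτ : τ ^ 3 = 1) :
    symb (X := X) R σ τ ≃ₗ[R] Symb R (pm σ : Equiv.Perm X) (pm τ) :=
  LinearEquiv.ofEq _ _ (symb_eq_Symb h3 σ hτ)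

omit [IsPrincipalIdealRing R] [Invertible (2 : R)] in
@[simp] theorem coe_toSymb (h3 : (3 : R) ≠ 0) (hτ : τ ^ 3 = 1) (v : symb (X := X) R σ τ) :
    ((toSymb σ h3 hτ v : Symb R (pm σ : Equiv.Perm X) (pm τ)) : X → R) = v := rfl

omit [IsPrincipalIdealRing R] [Invertible (2 : R)] in
@[simp] theorem coe_toSymb_symm (h3 : (3 : R) ≠ 0) (hτ : τ ^ 3 = 1)
    (v : Symb R (pm σ : Equiv.Perm X) (pm τ)) :
    (((toSymb σ h3 hτ).symm v : symb (X := X) R σ τ) : X → R) = v := rfl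

variable (σ) in
/-- **the Manin pairing** on `Model13.symb`. -/
noncomputable def mpair (h3 : (3 : R) ≠ 0) (hτ : τ ^ 3 = 1) :
    symb (X := X) R σ τ →ₗ[R] symb (X := X) R σ τ →ₗ[R] R :=
  (pair (pm σ : Equiv.Perm X) h3).compl₁₂
    (toSymb σ h3 hτ).toLinearMap (toSymb σ h3 hτ).toLinearMap

theorem mpair_eq (h3 : (3 : R) ≠ 0) (hτ : τ ^ 3 = 1) (v v' : symb (X := X) R σ τ) :
    mpair σ h3 hτ v v'
      = pair (pm σ : Equiv.Perm X) h3 (toSymb σ h3 hτ v) (toSymb σ h3 hτ v') := rfl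

theorem mpair_apply (h3 : (3 : R) ≠ 0) (hτ : τ ^ 3 = 1) (v v' : symb (X := X) R σ τ)
    (β : X → R) (hβ : act τ β - β = (v : X → R)) :
    mpair σ h3 hτ v v' = form (β + ⅟(2 : R) • (v : X → R)) (v' : X → R) := by
  have hβ' : β ∘ (pm τ : Equiv.Perm X) - β
      = ((toSymb σ h3 hτ v : Symb R (pm σ : Equiv.Perm X) (pm τ)) : X → R) := hβ
  rw [mpair_eq, pair_apply h3 _ _ β hβ', form_eq_dot]
  rfl

theorem mpair_apply' (h3 : (3 : R) ≠ 0) (hτ : τ ^ 3 = 1) (v v' : symb (X := X) R σ τ)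
    (β β' : X → R) (hβ : act τ β - β = (v : X → R)) (hβ' : act τ β' - β' = (v' : X → R)) :
    mpair σ h3 hτ v v' = ⅟(2 : R) * (form β (act τ β') - form (act τ β) β') := by
  have h1 : β ∘ (pm τ : Equiv.Perm X) - β
      = ((toSymb σ h3 hτ v : Symb R (pm σ : Equiv.Perm X) (pm τ)) : X → R) := hβ
  have h2 : β' ∘ (pm τ : Equiv.Perm X) - β'
      = ((toSymb σ h3 hτ v' : Symb R (pm σ : Equiv.Perm X) (pm τ)) : X → R) := hβ'
  rw [mpair_eq, pair_apply' h3 _ _ β β' h1 h2]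
  rfl

theorem mpair_skew (h3 : (3 : R) ≠ 0) (hτ : τ ^ 3 = 1) (v v' : symb (X := X) R σ τ) :
    mpair σ h3 hτ v v' = - mpair σ h3 hτ v' v := by
  rw [mpair_eq, mpair_eq, pair_skew]

theorem mpair_self (h3 : (3 : R) ≠ 0) (hτ : τ ^ 3 = 1) (v : symb (X := X) R σ τ) :
    mpair σ h3 hτ v v = 0 := by
  rw [mpair_eq, pair_self]

theorem mpair_eq_zero_of_mem_bdry_left (hσ : σ ^ 2 = 1) (h3 : (3 : R) ≠ 0) (hτ : τ ^ 3 = 1)
    (v v' : symb (X := X) R σ τ) (hv : (v : X → R) ∈ bdry (X := X) R σ τ) :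
    mpair σ h3 hτ v v' = 0 := by
  rw [mpair_eq]
  exact pair_eq_zero_of_mem_Bdry_left (pm_sq hσ) h3 _ _
    (by rw [← bdry_eq_Bdry hσ]; exact hv)

theorem mpair_eq_zero_of_mem_bdry_right (hσ : σ ^ 2 = 1) (h3 : (3 : R) ≠ 0) (hτ : τ ^ 3 = 1)
    (v v' : symb (X := X) R σ τ) (hv' : (v' : X → R) ∈ bdry (X := X) R σ τ) :
    mpair σ h3 hτ v v' = 0 := by
  rw [mpair_eq]
  exact pair_eq_zero_of_mem_Bdry_right (pm_sq hσ) h3 _ _
    (by rw [← bdry_eq_Bdry hσ]; exact hv')

/-- **the radical of the Manin pairing is `bdry`** (over `R`). -/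
theorem mpair_radical (hσ : σ ^ 2 = 1) (hτ : τ ^ 3 = 1)
    (hgen : Subgroup.closure ({σ, τ} : Set G) = ⊤) [MulAction.IsPretransitive G X]
    (h3 : (3 : R) ≠ 0) (v : symb (X := X) R σ τ)
    (H : ∀ v' : symb (X := X) R σ τ, mpair σ h3 hτ v v' = 0) :
    (v : X → R) ∈ bdry (X := X) R σ τ := by
  rw [bdry_eq_Bdry hσ]
  refine pair_radical (pm_sq hσ) (pm_cube hτ) (isConn_pm hσ hτ hgen) h3
    (toSymb σ h3 hτ v) (fun v' => ?_)
  have := H ((toSymb σ h3 hτ).symm v')
  rw [mpair_eq, LinearEquiv.apply_symm_apply] at this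
  exact this

/-- **every functional on `symb` killing `bdry` is `mpair v ·`** (over `R`). -/
theorem mpair_surj (hσ : σ ^ 2 = 1) (hτ : τ ^ 3 = 1) (h3 : (3 : R) ≠ 0)
    (lam : symb (X := X) R σ τ →ₗ[R] R)
    (H : ∀ v : symb (X := X) R σ τ, (v : X → R) ∈ bdry (X := X) R σ τ → lam v = 0) :
    ∃ v : symb (X := X) R σ τ, ∀ v' : symb (X := X) R σ τ, lam v' = mpair σ h3 hτ v v' := by
  obtain ⟨v, hv⟩ := pair_surj (pm_sq hσ) (pm_cube hτ) h3
    (lam ∘ₗ (toSymb σ h3 hτ).symm.toLinearMap) (fun v hv => by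
      refine H _ ?_
      rw [bdry_eq_Bdry hσ]
      exact hv)
  refine ⟨(toSymb σ h3 hτ).symm v, fun v' => ?_⟩
  rw [mpair_eq, LinearEquiv.apply_symm_apply, ← hv]
  simp

/-! ### the quotient `symb / bdry` -/

variable (R σ τ) in
/-- `bdry` as a submodule of `symb`. -/
def bdryM : Submodule R (symb (X := X) R σ τ) := (bdry (X := X) R σ τ).comap (symb (X := X) R σ τ).subtype

omit [IsDomain R] [IsPrincipalIdealRing R] [Invertible (2 : R)] in
theorem mem_bdryM {v : symb (X := X) R σ τ} : v ∈ bdryM R σ τ ↔ (v : X → R) ∈ bdry (X := X) R σ τ := Iff.rfl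

variable (σ) in
/-- the Manin pairing on `symb ⧸ bdry`. -/
noncomputable def mpairQ (hσ : σ ^ 2 = 1) (h3 : (3 : R) ≠ 0) (hτ : τ ^ 3 = 1) :
    (symb (X := X) R σ τ ⧸ bdryM R σ τ) →ₗ[R] (symb (X := X) R σ τ ⧸ bdryM R σ τ) →ₗ[R] R :=
  quotForm (bdryM R σ τ) (mpair σ h3 hτ)
    (fun v hv v' => mpair_eq_zero_of_mem_bdry_left hσ h3 hτ v v' hv)
    (fun v v' hv' => mpair_eq_zero_of_mem_bdry_right hσ h3 hτ v v' hv')

theorem mpairQ_mk (hσ : σ ^ 2 = 1) (h3 : (3 : R) ≠ 0) (hτ : τ ^ 3 = 1) (v v' : symb (X := X) R σ τ) :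
    mpairQ σ hσ h3 hτ (Submodule.Quotient.mk v) (Submodule.Quotient.mk v')
      = mpair σ h3 hτ v v' := quotForm_mk _ _ _ _ v v'

/-- **integral Manin duality in `Model13` vocabulary**: the Manin pairing on `symb ⧸ bdry` is
perfect over `R`. -/
theorem mpairQ_bijective (hσ : σ ^ 2 = 1) (hτ : τ ^ 3 = 1)
    (hgen : Subgroup.closure ({σ, τ} : Set G) = ⊤) [MulAction.IsPretransitive G X]
    (h3 : (3 : R) ≠ 0) :
    Function.Bijective (mpairQ σ hσ h3 hτ :
      (symb (X := X) R σ τ ⧸ bdryM R σ τ) → Module.Dual R (symb (X := X) R σ τ ⧸ bdryM R σ τ)) :=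
  quotForm_bijective _ _ _ _
    (fun v H => mpair_radical hσ hτ hgen h3 v H)
    (fun lam H => mpair_surj hσ hτ h3 lam H)

end pairing

end Fermat.Agent.ES.I2.PermManinModel29
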