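/-
(I2), MODEL side — the statement `[N]` (direct integral nondegeneracy of the doubled Manin form)
in `Model13` vocabulary (helper20): `PermManinInt20.exists_bdry_add_smul_of_dvd` transported through
helper29's dictionary `PermManinModel29` (`pm g = toPerm g⁻¹`, `act g f = f ∘ pm g`, `form = ⬝ᵥ`,
`symb = Symb`, `bdry = Bdry`, `IsConn` from transitivity).  It is literally the hypothesis `hN` of
helper21's `ModelNondeg21.nondeg_mod`.
-/
import Mathlib
import Fermat.Agent.ES.I2.PermManinInt20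
import Fermat.Agent.ES.I2.PermManinModel29
import Fermat.Agent.ES.I2.PSL2Free11

set_option autoImplicit false

namespace Fermat.Agent.ES.I2.ModelN20

open Fermat.Agent.ES.I2 Fermat.Agent.ES.I2.Model13 Fermat.Agent.ES.I2.PermManin29
open Fermat.Agent.ES.I2.PermManinModel29

/-- **`[N]` in `Model13` vocabulary**, any group `G` with generators `σ` (order 2), `τ` (order 3)
acting transitively on a finite set `X`, `R` a PID domain with `3 ≠ 0`, `p` prime, `¬ p ∣ 2`. -/
theorem exists_bdry_add_smul {G : Type*} [Group G] {X : Type*} [MulAction G X] [Fintype X]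
    [MulAction.IsPretransitive G X] {R : Type*} [CommRing R] [IsDomain R]
    [IsPrincipalIdealRing R] {σ τ : G} (hσ : σ ^ 2 = 1) (hτ : τ ^ 3 = 1)
    (hgen : Subgroup.closure ({σ, τ} : Set G) = ⊤) (h3 : (3 : R) ≠ 0)
    {p : R} (hp : Prime p) (hp2 : ¬ p ∣ 2) (β v : X → R) (hv : v ∈ symb (X := X) R σ τ)
    (hβ : act τ β - β = v)
    (H : ∀ v' ∈ symb (X := X) R σ τ, p ∣ form (2 * β + v) v') :
    ∃ b ∈ bdry (X := X) R σ τ, ∃ u ∈ symb (X := X) R σ τ, v = b + p • u := by
  rw [symb_eq_Symb h3 σ hτ] at hv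
  have h2 : (2 : X → R) * β = 2 • β := by
    funext x
    simp
  obtain ⟨b, hb, u, hu, hvu⟩ := PermManinInt20.exists_bdry_add_smul_of_dvd
    (S := pm σ) (U := pm τ) (pm_sq hσ) (pm_cube hτ) (isConn_pm hσ hτ hgen) hp hp2 β v hv hβ
    (fun v' hv' => by
      have := H v' (by rw [symb_eq_Symb h3 σ hτ]; exact hv')
      rwa [form_eq_dot, h2] at this)
  refine ⟨b, ?_, u, ?_, hvu⟩
  · rw [bdry_eq_Bdry hσ τ]; exact hb
  · rw [symb_eq_Symb h3 σ hτ]; exact hu

open PSL2Free11 in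
/-- **`hN` of `ModelNondeg21.nondeg_mod`**: `Q = PSL(2,ℤ)` acting transitively on a finite `X`,
`R = ℤ`, `p` an odd prime number. -/
theorem hN {X : Type*} [MulAction Q X] [Fintype X] [MulAction.IsPretransitive Q X]
    {p : ℕ} (hp : p.Prime) (hp2 : p ≠ 2) :
    ∀ β v : X → ℤ, v ∈ Model13.symb ℤ Sb Ub → Model13.act Ub β - β = v →
      (∀ v' ∈ Model13.symb ℤ Sb Ub, (p : ℤ) ∣ Model13.form (2 * β + v) v') →
      ∃ b ∈ Model13.bdry ℤ Sb Ub, ∃ u ∈ Model13.symb ℤ Sb Ub, v = b + (p : ℤ) • u := by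
  intro β v hv hβ H
  refine exists_bdry_add_smul Sb_sq Ub_cube closure_Sb_Ub (by norm_num)
    (Nat.prime_iff_prime_int.1 hp) ?_ β v hv hβ H
  intro h
  have h' : p ∣ 2 := by exact_mod_cast h
  exact hp2 ((Nat.prime_dvd_prime_iff_eq hp Nat.prime_two).1 h')

end Fermat.Agent.ES.I2.ModelN20
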