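/-
Program L (S41), chapter (I2), MODEL side, brick (B1) (helper1): **the Shapiro bridge**
between homomorphisms on the stabiliser `Γ` of a base point and symbols, in the vocabulary of
`Model13` (left actions).

`G` a group acting on `X`, `x0 : X`, `Γ = MulAction.stabilizer G x0`, `σ τ : G`, `T = σ * τ`.

* `IsPar T φ`   : `φ` kills every element of `Γ` conjugate in `G` to a power of `T`;
* `KillsConj τ φ` : `φ` kills every element of `Γ` conjugate in `G` to `τ` (automatic when `R` has
  no `3`-torsion and `τ ^ 3 = 1`);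
* `Adapted T s` : the section `s` has `s.tr T x` conjugate to a power of `T` for every `x`
  (`exists_adapted`), so that `sh s φ T = 0` for parabolic `φ` (`sh_T`);
* then `sh s φ σ = sh s φ τ` (`sh_σ_eq_sh_τ`) lies in `symb R σ τ` (`sh_σ_mem_symb`), it lies in
  `bdry R σ τ` only if `φ = 0` (`eq_zero_of_sh_σ_mem_bdry`), and its class modulo `bdry` does not
  depend on the adapted section (`sh_σ_sub_mem_bdry`);
* conversely (`exists_hom_of_mem_symb`), under the cocycle-extension hypothesis every symbol is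
  `sh s φ σ` modulo `bdry` for a parabolic `φ` killing the conjugates of `τ`.
-/
import Mathlib
import Fermat.Agent.ES.I2.Model13

set_option autoImplicit false
set_option linter.unusedSectionVars false

open scoped Classical

namespace Fermat.Agent.ES.I2.ShapiroBridge1

open Fermat.Agent.ES.I2.Model13 MulAction

variable {G : Type*} [Group G] {X : Type*} [MulAction G X] {R : Type*} [CommRing R] {x0 : X}

/-! ### parabolic homomorphisms -/

/-- `φ` kills every element of the stabiliser which is conjugate in `G` to a power of `T`. -/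
def IsPar (T : G) (φ : Additive (stabilizer G x0) →+ R) : Prop :=
  ∀ (g : G) (n : ℕ) (h : g * T ^ n * g⁻¹ ∈ stabilizer G x0),
    φ (Additive.ofMul ⟨g * T ^ n * g⁻¹, h⟩) = 0

/-- `φ` kills every element of the stabiliser which is conjugate in `G` to `τ`. -/
def KillsConj (τ : G) (φ : Additive (stabilizer G x0) →+ R) : Prop :=
  ∀ (g : G) (h : g * τ * g⁻¹ ∈ stabilizer G x0), φ (Additive.ofMul ⟨g * τ * g⁻¹, h⟩) = 0

theorem IsPar.zpow {T : G} {φ : Additive (stabilizer G x0) →+ R} (hφ : IsPar T φ) (g : G) (n : ℤ)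
    (h : g * T ^ n * g⁻¹ ∈ stabilizer G x0) :
    φ (Additive.ofMul ⟨g * T ^ n * g⁻¹, h⟩) = 0 := by
  cases n with
  | ofNat m =>
    have h' : g * T ^ m * g⁻¹ ∈ stabilizer G x0 := by simpa using h
    have := hφ g m h'
    convert this using 3
    simp
  | negSucc m =>
    have e : g * T ^ (Int.negSucc m) * g⁻¹ = (g * T ^ (m + 1) * g⁻¹)⁻¹ := by
      rw [zpow_negSucc]; group
    have h' : g * T ^ (m + 1) * g⁻¹ ∈ stabilizer G x0 := by
      have := (stabilizer G x0).inv_mem h
      rwa [e, inv_inv] at this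
    have h0 := hφ g (m + 1) h'
    have e2 : (⟨g * T ^ (Int.negSucc m) * g⁻¹, h⟩ : stabilizer G x0)
        = (⟨g * T ^ (m + 1) * g⁻¹, h'⟩ : stabilizer G x0)⁻¹ := Subtype.ext e
    rw [e2, ofMul_inv, map_neg, h0, neg_zero]

theorem IsPar.add {T : G} {φ ψ : Additive (stabilizer G x0) →+ R} (hφ : IsPar T φ)
    (hψ : IsPar T ψ) : IsPar T (φ + ψ) := fun g n h => by
  rw [AddMonoidHom.add_apply, hφ g n h, hψ g n h, add_zero]

theorem KillsConj.add {τ : G} {φ ψ : Additive (stabilizer G x0) →+ R} (hφ : KillsConj τ φ)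
    (hψ : KillsConj τ ψ) : KillsConj τ (φ + ψ) := fun g h => by
  rw [AddMonoidHom.add_apply, hφ g h, hψ g h, add_zero]

/-- when `R` has no `3`-torsion, every homomorphism kills the conjugates of an element of order
dividing `3`. -/
theorem killsConj_of_torsionFree {τ : G} (hτ : τ ^ 3 = 1) (h3 : ∀ r : R, 3 • r = 0 → r = 0)
    (φ : Additive (stabilizer G x0) →+ R) : KillsConj τ φ := by
  intro g h
  apply h3
  have e : (⟨g * τ * g⁻¹, h⟩ : stabilizer G x0) ^ 3 = 1 := by
    apply Subtype.ext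
    show (g * τ * g⁻¹) ^ 3 = 1
    rw [conj_pow, hτ, mul_one, mul_inv_cancel]
  have := congrArg φ (congrArg Additive.ofMul e)
  rw [ofMul_pow, map_nsmul, ofMul_one, map_zero] at this
  exact this

/-! ### adapted sections -/

/-- the section `s` is adapted to `T`: every `s.tr T x` is conjugate to a power of `T`. -/
def Adapted (T : G) (s : Sec G x0) : Prop :=
  ∀ x : X, ∃ (g : G) (n : ℤ), (s.tr T x : G) = g * T ^ n * g⁻¹

/-- the orbit relation of `⟨T⟩` on `X`. -/
def orbSetoid (T : G) : Setoid X where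
  r x y := ∃ k : ℤ, T ^ k • x = y
  iseqv := ⟨fun x => ⟨0, by simp⟩,
    fun ⟨k, hk⟩ => ⟨-k, by rw [← hk, ← mul_smul, ← zpow_add]; simp⟩,
    fun ⟨k, hk⟩ ⟨l, hl⟩ => ⟨l + k, by rw [zpow_add, mul_smul, hk, hl]⟩⟩

theorem orbSetoid_r {T : G} {x y : X} : (orbSetoid T).r x y ↔ ∃ k : ℤ, T ^ k • x = y := Iff.rfl

/-- **Adapted sections exist** (`r (T^k • x_j) = T^k g_j` on the `⟨T⟩`-orbit of `x_j = g_j • x0`). -/
theorem exists_adapted [IsPretransitive G X] (T : G) : ∃ s : Sec G x0, Adapted T s := by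
  -- base point of the `⟨T⟩`-orbit
  let q : X → Quotient (orbSetoid (X := X) T) := Quotient.mk _
  let b : X → X := fun x => if q x = q x0 then x0 else (q x).out
  have hbq : ∀ x, q (b x) = q x := by
    intro x
    by_cases h : q x = q x0
    · simp only [b, if_pos h]; exact h.symm
    · simp only [b, if_neg h]; exact Quotient.out_eq _
  have hbconst : ∀ x y, q x = q y → b x = b y := by
    intro x y h
    simp only [b, h]
  have hb0 : b x0 = x0 := by simp only [b, if_true]
  -- exponents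
  have hk : ∀ x, ∃ k : ℤ, T ^ k • b x = x := fun x => Quotient.exact (hbq x)
  choose k0 hk0 using hk
  let k : X → ℤ := fun x => if x = x0 then 0 else k0 x
  have hk' : ∀ x, T ^ k x • b x = x := by
    intro x
    by_cases h : x = x0
    · subst h; simp only [k, if_true, zpow_zero, one_smul, hb0]
    · simp only [k, if_neg h]; exact hk0 x
  -- transporters
  have hg : ∀ y : X, ∃ g : G, g • x0 = y := fun y => exists_smul_eq G x0 y
  choose g0 hg0 using hg
  let gg : X → G := fun y => if y = x0 then 1 else g0 y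
  have hgg : ∀ y, gg y • x0 = y := by
    intro y
    by_cases h : y = x0
    · subst h; simp only [gg, if_true, one_smul]
    · simp only [gg, if_neg h]; exact hg0 y
  refine ⟨⟨fun x => T ^ k x * gg (b x), ?_, ?_⟩, ?_⟩
  · intro x
    rw [mul_smul, hgg, hk']
  · simp only [k, gg, hb0, if_true, zpow_zero, one_mul]
  · intro x
    have hq : q (T⁻¹ • x) = q x := Quotient.sound ⟨1, by simp⟩
    have hb : b (T⁻¹ • x) = b x := hbconst _ _ hq
    refine ⟨(gg (b x))⁻¹, 1 - k x + k (T⁻¹ • x), ?_⟩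
    show (T ^ k x * gg (b x))⁻¹ * T * (T ^ k (T⁻¹ • x) * gg (b (T⁻¹ • x))) = _
    rw [hb, inv_inv, zpow_add, zpow_sub, zpow_one]
    group

/-! ### the symbol of a parabolic homomorphism -/

/-- helper21's shape of adaptedness (`AdaptedSec21.CuspData.sec_adapted`) implies `Adapted`. -/
theorem adapted_of_one_or {T : G} {s : Sec G x0}
    (h : ∀ x : X, s.tr T x = 1 ∨ ∃ (g : G) (n : ℕ), (s.tr T x : G) = g * T ^ n * g⁻¹) :
    Adapted T s := by
  intro x
  rcases h x with h1 | ⟨g, n, hg⟩
  · exact ⟨1, 0, by rw [h1]; simp⟩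
  · exact ⟨g, (n : ℤ), by rw [hg, zpow_natCast]⟩

/-! ### linearity of the Shapiro cocycle in the homomorphism -/

section Linear

variable (s : Sec G x0)

theorem sh_zero : sh s (0 : Additive (stabilizer G x0) →+ R) = 0 := rfl

theorem sh_add (φ ψ : Additive (stabilizer G x0) →+ R) : sh s (φ + ψ) = sh s φ + sh s ψ := rfl

theorem sh_neg (φ : Additive (stabilizer G x0) →+ R) : sh s (-φ) = - sh s φ := rfl

theorem sh_sub (φ ψ : Additive (stabilizer G x0) →+ R) : sh s (φ - ψ) = sh s φ - sh s ψ := by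
  funext g x
  simp only [sh, Pi.sub_apply, AddMonoidHom.sub_apply]

theorem sh_smul (r : R) (φ : Additive (stabilizer G x0) →+ R) : sh s (r • φ) = r • sh s φ := rfl

/-- the Shapiro cocycle at `g`, as an `R`-linear map in the homomorphism. -/
def shLin (g : G) : (Additive (stabilizer G x0) →+ R) →ₗ[R] (X → R) where
  toFun φ := sh s φ g
  map_add' _ _ := rfl
  map_smul' _ _ := rfl

@[simp] theorem shLin_apply (g : G) (φ : Additive (stabilizer G x0) →+ R) :
    shLin s g φ = sh s φ g := rfl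

end Linear

theorem IsPar.zero {T : G} : IsPar (x0 := x0) (R := R) T 0 := fun _ _ _ => rfl

theorem IsPar.smul {T : G} {φ : Additive (stabilizer G x0) →+ R} (hφ : IsPar T φ) (r : R) :
    IsPar T (r • φ) := fun g n h => by
  rw [AddMonoidHom.smul_apply, hφ g n h, smul_zero]

theorem KillsConj.zero {τ : G} : KillsConj (x0 := x0) (R := R) τ 0 := fun _ _ => rfl

theorem KillsConj.smul {τ : G} {φ : Additive (stabilizer G x0) →+ R} (hφ : KillsConj τ φ)
    (r : R) : KillsConj τ (r • φ) := fun g h => by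
  rw [AddMonoidHom.smul_apply, hφ g h, smul_zero]

/-- the submodule of parabolic homomorphisms killing the conjugates of `τ`. -/
def parSub (T τ : G) : Submodule R (Additive (stabilizer G x0) →+ R) where
  carrier := {φ | IsPar T φ ∧ KillsConj τ φ}
  zero_mem' := ⟨IsPar.zero, KillsConj.zero⟩
  add_mem' h h' := ⟨h.1.add h'.1, h.2.add h'.2⟩
  smul_mem' r _ h := ⟨h.1.smul r, h.2.smul r⟩

theorem mem_parSub {T τ : G} {φ : Additive (stabilizer G x0) →+ R} :
    φ ∈ parSub (x0 := x0) (R := R) T τ ↔ IsPar T φ ∧ KillsConj τ φ := Iff.rfl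

section Symbol

variable {σ τ : G} {s : Sec G x0} {φ : Additive (stabilizer G x0) →+ R}

/-- **(S1)** in the gauge of an adapted section the Shapiro cocycle of a parabolic homomorphism
vanishes at `T`. -/
theorem sh_T {T : G} (hs : Adapted T s) (hφ : IsPar T φ) : sh s φ T = 0 := by
  funext x
  obtain ⟨g, n, h⟩ := hs x
  show φ (Additive.ofMul (s.tr T x)) = 0
  have hm : g * T ^ n * g⁻¹ ∈ stabilizer G x0 := h ▸ (s.tr T x).2
  have e : s.tr T x = ⟨g * T ^ n * g⁻¹, hm⟩ := Subtype.ext h
  rw [e]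
  exact hφ.zpow g n hm

theorem sh_σ_add_act (hσ : σ ^ 2 = 1) : sh s φ σ + act σ (sh s φ σ) = 0 := by
  have h := isCocycle_sh s φ σ σ
  rw [← pow_two, hσ, (isCocycle_sh s φ).map_one] at h
  exact h.symm

/-- **(S2)** in the gauge `sh s φ T = 0` the values at `σ` and at `τ` coincide. -/
theorem sh_σ_eq_sh_τ (hσ : σ ^ 2 = 1) (h0 : sh s φ (σ * τ) = 0) : sh s φ σ = sh s φ τ := by
  have h1 := isCocycle_sh s φ σ τ
  rw [h0] at h1
  have h2 := sh_σ_add_act (s := s) (φ := φ) hσ
  have h3 : act σ (sh s φ τ) = act σ (sh s φ σ) := by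
    have e1 : act σ (sh s φ τ) = - sh s φ σ := by
      rw [eq_neg_iff_add_eq_zero, add_comm]; exact h1.symm
    have e2 : act σ (sh s φ σ) = - sh s φ σ := by
      rw [eq_neg_iff_add_eq_zero, add_comm]; exact h2
    rw [e1, e2]
  have h4 := congrArg (act σ⁻¹) h3
  rw [act_inv_act, act_inv_act] at h4
  exact h4.symm

theorem act_τ_eq_act_σ (hσ : σ ^ 2 = 1) {ρ : X → R} (hρ : act (σ * τ) ρ = ρ) :
    act τ ρ = act σ ρ := by
  have hinv : σ⁻¹ = σ := by
    rw [inv_eq_iff_mul_eq_one, ← pow_two, hσ]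
  rw [act_mul] at hρ
  have h := congrArg (act σ⁻¹) hρ
  rw [act_inv_act, hinv] at h
  exact h

/-- **(S4)** injectivity modulo boundary symbols: if the symbol of `φ` is a boundary symbol then
`φ = 0` (only generation by `σ`, `τ` is used). -/
theorem eq_zero_of_sh_σ_mem_bdry [Fintype X] (hgen : Subgroup.closure {σ, τ} = ⊤) (hσ : σ ^ 2 = 1)
    (h0 : sh s φ (σ * τ) = 0) (hb : sh s φ σ ∈ bdry R σ τ) : φ = 0 := by
  obtain ⟨ρ, hρ, hv⟩ := hb
  have hz : sh s φ = cob (G := G) ρ := by
    refine (isCocycle_sh s φ).eq_of_eqOn (isCocycle_cob ρ) hgen ?_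
    rintro g (rfl | rfl)
    · exact hv
    · rw [← sh_σ_eq_sh_τ hσ h0, hv]
      show act σ ρ - ρ = act g ρ - ρ
      rw [act_τ_eq_act_σ hσ hρ]
  refine AddMonoidHom.ext fun γ' => ?_
  obtain ⟨γ, rfl⟩ := Additive.ofMul.surjective γ'
  rw [← sh_base s φ γ, hz]
  have h : ((γ : G))⁻¹ • x0 = x0 := by
    rw [inv_smul_eq_iff]; exact (mem_stabilizer_iff.mp γ.2).symm
  simp [cob, h]

/-- the comparison of the Shapiro cocycles of two sections. -/
theorem sh_eq_add_cob (s s' : Sec G x0) (φ : Additive (stabilizer G x0) →+ R) :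
    ∃ m : X → R, sh s' φ = sh s φ + cob (G := G) m := by
  have hd : ∀ x, (s.r x)⁻¹ * s'.r x ∈ stabilizer G x0 := by
    intro x
    rw [mem_stabilizer_iff, mul_smul, s'.hr, inv_smul_eq_iff, s.hr]
  refine ⟨fun x => φ (Additive.ofMul ⟨(s.r x)⁻¹ * s'.r x, hd x⟩), ?_⟩
  funext g x
  have e : s'.tr g x = (⟨(s.r x)⁻¹ * s'.r x, hd x⟩ : stabilizer G x0)⁻¹ * s.tr g x
      * ⟨(s.r (g⁻¹ • x))⁻¹ * s'.r (g⁻¹ • x), hd (g⁻¹ • x)⟩ := by
    apply Subtype.ext
    simp only [Sec.tr, Subgroup.coe_mul, Subgroup.coe_inv]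
    group
  simp only [sh, Pi.add_apply, cob, Pi.sub_apply, act_apply, e, ofMul_mul, ofMul_inv, map_add,
    map_neg]
  ring

/-- **(S5)** the class of the symbol modulo boundary symbols does not depend on the section
(in the gauge `sh T = 0`). -/
theorem sh_σ_sub_mem_bdry [Fintype X] (s s' : Sec G x0) (h0 : sh s φ (σ * τ) = 0)
    (h0' : sh s' φ (σ * τ) = 0) : sh s' φ σ - sh s φ σ ∈ bdry R σ τ := by
  obtain ⟨m, hm⟩ := sh_eq_add_cob s s' φ
  refine ⟨m, ?_, ?_⟩
  · have h := congrFun hm (σ * τ)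
    rw [h0', Pi.add_apply, h0, zero_add] at h
    exact (sub_eq_zero.mp h.symm)
  · rw [hm]
    simp [cob]

end Symbol

/-! ### membership in the symbol space -/

section Symb3

theorem zpow_cases_of_pow_three {τ : G} (hτ : τ ^ 3 = 1) (k : ℤ) :
    τ ^ k = 1 ∨ τ ^ k = τ ∨ τ ^ k = τ ^ 2 := by
  have h3' : τ ^ (3 : ℤ) = 1 := by exact_mod_cast hτ
  have h1 : τ ^ k = τ ^ (k % 3) := by
    conv_lhs => rw [← Int.emod_add_mul_ediv k 3]
    rw [zpow_add, zpow_mul, h3', one_zpow, mul_one]
  have h2 := Int.emod_nonneg k (by norm_num : (3 : ℤ) ≠ 0)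
  have h3 := Int.emod_lt_of_pos k (by norm_num : (0 : ℤ) < 3)
  rw [h1]
  interval_cases (k % 3)
  · left; simp
  · right; left; simp
  · right; right; norm_cast

variable [Fintype X]

/-- a function with vanishing `τ`-norm (`τ ^ 3 = 1`) which vanishes at the fixed points of `τ` is
orthogonal to the `τ`-invariant functions (no division by `3`). -/
theorem form_eq_zero_of_norm_eq_zero {τ : G} (hτ : τ ^ 3 = 1) {b w : X → R}
    (hN : b + act τ b + act (τ ^ 2) b = 0) (hfix : ∀ x, τ • x = x → b x = 0)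
    (hw : act τ w = w) : form b w = 0 := by
  have hw1 : ∀ y, w (τ • y) = w y := by
    intro y
    have := congrFun hw (τ • y)
    rw [act_apply, inv_smul_smul] at this
    exact this.symm
  have hw2 : ∀ y, w (τ ^ 2 • y) = w y := by
    intro y
    rw [pow_two, mul_smul, hw1, hw1]
  unfold form
  refine Finset.sum_cancels_of_partition_cancels (orbSetoid (X := X) τ) ?_
  intro x _
  by_cases hx : τ • x = x
  · -- fixed point: the class is `{x}`
    have hpow : ∀ k : ℤ, τ ^ k • x = x := by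
      intro k
      rcases zpow_cases_of_pow_three hτ k with h | h | h
      · rw [h, one_smul]
      · rw [h, hx]
      · rw [h, pow_two, mul_smul, hx, hx]
    have hS : (Finset.univ.filter fun a => (orbSetoid (X := X) τ).r a x) = {x} := by
      ext a
      simp only [Finset.mem_filter, Finset.mem_univ, true_and, Finset.mem_singleton]
      constructor
      · rintro ⟨k, hk⟩
        have : a = τ ^ (-k) • x := by
          rw [← hk, ← mul_smul, ← zpow_add]; simp
        rw [this, hpow]
      · rintro rfl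
        exact ⟨0, by simp⟩
    rw [hS, Finset.sum_singleton, hfix x hx, zero_mul]
  · -- free orbit `{x, τ x, τ² x}`
    have h12 : x ≠ τ • x := fun h => hx h.symm
    have h13 : x ≠ τ ^ 2 • x := by
      intro h
      apply hx
      have := congrArg (fun y => τ • y) h
      beta_reduce at this
      rw [← mul_smul, ← pow_succ', hτ, one_smul] at this
      exact this
    have h23 : τ • x ≠ τ ^ 2 • x := by
      intro h
      apply h12
      have := congrArg (fun y => τ⁻¹ • y) h
      beta_reduce at this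
      rw [inv_smul_smul, pow_two, mul_smul, inv_smul_smul] at this
      exact this
    have hS : (Finset.univ.filter fun a => (orbSetoid (X := X) τ).r a x)
        = {x, τ • x, τ ^ 2 • x} := by
      ext a
      simp only [Finset.mem_filter, Finset.mem_univ, true_and, Finset.mem_insert,
        Finset.mem_singleton]
      constructor
      · rintro ⟨k, hk⟩
        have ha : a = τ ^ (-k) • x := by
          rw [← hk, ← mul_smul, ← zpow_add]; simp
        rcases zpow_cases_of_pow_three hτ (-k) with h | h | h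
        · left; rw [ha, h, one_smul]
        · right; left; rw [ha, h]
        · right; right; rw [ha, h]
      · rintro (rfl | rfl | rfl)
        · exact ⟨0, by simp⟩
        · exact ⟨-1, by simp⟩
        · refine ⟨1, ?_⟩
          rw [zpow_one, ← mul_smul, ← pow_succ', hτ, one_smul]
    rw [hS, Finset.sum_insert (by simp [h12, h13]), Finset.sum_insert (by simp [h23]),
      Finset.sum_singleton, hw1, hw2]
    have hN' := congrFun hN (τ ^ 2 • x)
    simp only [Pi.add_apply, act_apply, Pi.zero_apply] at hN'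
    have e1 : τ⁻¹ • τ ^ 2 • x = τ • x := by
      rw [pow_two, mul_smul, inv_smul_smul]
    have e2 : (τ ^ 2)⁻¹ • τ ^ 2 • x = x := inv_smul_smul _ _
    rw [e1, e2] at hN'
    linear_combination (w x) * hN'

variable {σ τ : G} {s : Sec G x0} {φ : Additive (stabilizer G x0) →+ R}

/-- **(S3)** the symbol `sh s φ σ = sh s φ τ` of a parabolic homomorphism killing the conjugates
of `τ` lies in `symb R σ τ`. -/
theorem sh_σ_mem_symb (hσ : σ ^ 2 = 1) (hτ : τ ^ 3 = 1) (h0 : sh s φ (σ * τ) = 0)
    (h3 : KillsConj τ φ) : sh s φ σ ∈ symb R σ τ := by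
  refine ⟨sh_σ_add_act hσ, fun w hw => ?_⟩
  rw [sh_σ_eq_sh_τ hσ h0]
  refine form_eq_zero_of_norm_eq_zero hτ ?_ ?_ hw
  · -- the norm relation from `τ ^ 3 = 1`
    have hz := isCocycle_sh s φ
    have h := hz (τ ^ 2) τ
    rw [← pow_succ, hτ, hz.map_one, pow_two, hz τ τ] at h
    rw [pow_two]
    exact h.symm
  · intro x hx
    show φ (Additive.ofMul (s.tr τ x)) = 0
    have hx' : τ⁻¹ • x = x := by rw [inv_smul_eq_iff, hx]
    have hm : (s.r x)⁻¹ * τ * ((s.r x)⁻¹)⁻¹ ∈ stabilizer G x0 := by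
      have := (s.tr τ x).2
      simp only [Sec.tr, hx'] at this
      simpa using this
    have e : s.tr τ x = ⟨(s.r x)⁻¹ * τ * ((s.r x)⁻¹)⁻¹, hm⟩ := by
      apply Subtype.ext
      simp only [Sec.tr, hx', inv_inv]
    rw [e]
    exact h3 _ hm

end Symb3

/-! ### the converse: from symbols to homomorphisms -/

section Converse

variable [Fintype X] {σ τ : G}

theorem form_single_right (f : X → R) (x : X) : form f (Pi.single x 1) = f x := by
  unfold form
  rw [Finset.sum_eq_single x]
  · simp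
  · intro y _ hy
    simp [hy]
  · intro h
    exact absurd (Finset.mem_univ x) h

/-- symbols have vanishing `τ`-norm. -/
theorem norm_eq_zero_of_mem_symb (hτ : τ ^ 3 = 1) {v : X → R} (hv : v ∈ symb R σ τ) :
    v + act τ v + act (τ ^ 2) v = 0 := by
  have key : ∀ w : X → R, form (v + act τ v + act (τ ^ 2) v) w = 0 := by
    intro w
    rw [form_add_left, form_add_left, form_act_left, form_act_left, ← form_add_right,
      ← form_add_right]
    apply hv.2
    rw [map_add, map_add, ← act_mul, ← act_mul]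
    have e1 : τ * τ⁻¹ = 1 := mul_inv_cancel τ
    have e3 : (τ ^ 2)⁻¹ = τ := by
      apply inv_eq_of_mul_eq_one_right
      rw [← pow_succ, hτ]
    have e2 : τ * (τ ^ 2)⁻¹ = τ⁻¹ := by
      rw [e3, eq_inv_iff_mul_eq_one, ← pow_two, ← pow_succ, hτ]
    rw [e1, e2, act_one, e3]
    abel
  funext x
  have h := key (Pi.single x 1)
  rw [form_single_right] at h
  exact h

/-- **(S6)** under the cocycle-extension hypothesis every symbol is, modulo boundary symbols, the
symbol of a parabolic homomorphism which kills the conjugates of `τ`. -/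
theorem exists_hom_of_mem_symb' (hτ : τ ^ 3 = 1)
    (hext : ∀ a b : X → R, a + act σ a = 0 → b + act τ b + act (τ ^ 2) b = 0 →
      ∃ z : G → X → R, IsCocycle z ∧ z σ = a ∧ z τ = b)
    {v : X → R} (hv : v ∈ symb R σ τ) {s : Sec G x0}
    (hs0 : ∀ φ : Additive (stabilizer G x0) →+ R, IsPar (σ * τ) φ → sh s φ (σ * τ) = 0) :
    ∃ φ : Additive (stabilizer G x0) →+ R, IsPar (σ * τ) φ ∧ KillsConj τ φ ∧
      sh s φ σ - v ∈ bdry R σ τ := by
  obtain ⟨z, hz, hzσ, hzτ⟩ := hext v v hv.1 (norm_eq_zero_of_mem_symb hτ hv)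
  have hzT : z (σ * τ) = 0 := by
    rw [hz, hzσ, hzτ]; exact hv.1
  have hzTn : ∀ n : ℕ, z ((σ * τ) ^ n) = 0 := by
    intro n
    induction n with
    | zero => rw [pow_zero]; exact hz.map_one
    | succ n ih => rw [pow_succ, hz, ih, hzT, map_zero, add_zero]
  -- the value of `z` at a conjugate lying in the stabiliser
  have hconj : ∀ (g t : G), g * t * g⁻¹ ∈ stabilizer G x0 →
      z (g * t * g⁻¹) x0 = z t (g⁻¹ • x0) := by
    intro g t hm
    have hfix : (g⁻¹)⁻¹ • (g * t)⁻¹ • x0 = x0 := by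
      rw [← mul_smul, inv_inv]
      have e : g * (g * t)⁻¹ = (g * t * g⁻¹)⁻¹ := by group
      rw [e, inv_smul_eq_iff]
      exact (mem_stabilizer_iff.mp hm).symm
    rw [hz, hz, hz.map_inv]
    simp only [Pi.add_apply, act_apply, Pi.neg_apply, map_neg, hfix]
    ring
  refine ⟨ev z hz, ?_, ?_, ?_⟩
  · intro g n h
    show z (g * (σ * τ) ^ n * g⁻¹) x0 = 0
    rw [hconj g _ h, hzTn]; rfl
  · intro g h
    show z (g * τ * g⁻¹) x0 = 0
    rw [hconj g τ h, hzτ]
    -- `g⁻¹ • x0` is a fixed point of `τ`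
    have hy : τ • (g⁻¹ • x0) = g⁻¹ • x0 := by
      have h1 : (g * τ * g⁻¹) • x0 = x0 := mem_stabilizer_iff.mp h
      rw [mul_smul, mul_smul] at h1
      have h2 := congrArg (fun y => g⁻¹ • y) h1
      beta_reduce at h2
      rw [inv_smul_smul] at h2
      exact h2
    have hinv : act τ (Pi.single (g⁻¹ • x0) (1 : R)) = Pi.single (g⁻¹ • x0) 1 := by
      funext x
      rw [act_apply]
      by_cases hx : x = g⁻¹ • x0
      · subst hx
        have : τ⁻¹ • g⁻¹ • x0 = g⁻¹ • x0 := by rw [inv_smul_eq_iff, hy]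
        rw [this]
      · have hx' : τ⁻¹ • x ≠ g⁻¹ • x0 := by
          intro h'
          apply hx
          rw [inv_smul_eq_iff, hy] at h'
          exact h'
        rw [Pi.single_eq_of_ne hx', Pi.single_eq_of_ne hx]
    have := hv.2 _ hinv
    rw [form_single_right] at this
    exact this
  · -- `sh s (ev z) = z + cob ρ`, `ρ x = z (s.r x) x`
    have hsh : sh s (ev z hz) = z + cob (G := G) (fun x => z (s.r x) x) := by
      funext g x
      show z ((s.r x)⁻¹ * g * s.r (g⁻¹ • x)) x0 = _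
      have e1 : ((s.r x)⁻¹)⁻¹ • x0 = x := by rw [inv_inv, s.hr]
      have e2 : ((s.r x)⁻¹ * g)⁻¹ • x0 = g⁻¹ • x := by
        rw [mul_inv_rev, inv_inv, mul_smul, s.hr]
      rw [hz, hz, hz.map_inv]
      simp only [Pi.add_apply, act_apply, Pi.neg_apply, cob, Pi.sub_apply, e2,
        inv_inv, s.hr]
      ring
    have hIsPar : IsPar (x0 := x0) (σ * τ) (ev z hz) := by
      intro g n h
      show z (g * (σ * τ) ^ n * g⁻¹) x0 = 0
      rw [hconj g _ h, hzTn]; rfl
    have h0 := hs0 _ hIsPar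
    refine ⟨fun x => z (s.r x) x, ?_, ?_⟩
    · have h := congrFun hsh (σ * τ)
      rw [h0, Pi.add_apply, hzT, zero_add] at h
      exact (sub_eq_zero.mp h.symm)
    · rw [hsh, Pi.add_apply, hzσ]
      simp [cob]

/-- **(S6)** for an adapted section. -/
theorem exists_hom_of_mem_symb (hτ : τ ^ 3 = 1)
    (hext : ∀ a b : X → R, a + act σ a = 0 → b + act τ b + act (τ ^ 2) b = 0 →
      ∃ z : G → X → R, IsCocycle z ∧ z σ = a ∧ z τ = b)
    {v : X → R} (hv : v ∈ symb R σ τ) {s : Sec G x0} (hs : Adapted (σ * τ) s) :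
    ∃ φ : Additive (stabilizer G x0) →+ R, IsPar (σ * τ) φ ∧ KillsConj τ φ ∧
      sh s φ σ - v ∈ bdry R σ τ :=
  exists_hom_of_mem_symb' hτ hext hv fun _ hφ => sh_T hs hφ

end Converse

end Fermat.Agent.ES.I2.ShapiroBridge1
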