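/-
Program L (S41), chapter (I2), MODEL side (helper21): NON-DEGENERACY MOD `p` of the integral
doubled cusp pairing `E2` on the `PSL(2,ℤ)`-model, over `ℤ`, no base change.

`Q = PSL(2,ℤ)` acts on a finite transitive `X`, base point `x0`, `D : CuspData (Sb * Ub) x0 J`,
`Γ̄ = stabilizer Q x0`, parabolic homs `ShapiroBridge1.IsPar (Sb * Ub)`.

* `form_bdry_eq_zero` : `⟨2β + v, b⟩ = 0` for `b ∈ bdry` (`v ∈ ker (1 + σ)`, `τ β - β = v`);
* `hext_PSL2`         : the cocycle-extension hypothesis of `ShapiroBridge1` (S6) for `Q`;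
* `dvd_form_of_dvd_E2`: if `p ∣ E2(φ, ψ)` for all parabolic `ψ` then `p ∣ ⟨2β + v_φ, v'⟩` for all
  symbols `v'`;
* **`nondeg_mod`** : given the linear-algebra statement `[N]` (hypothesis `hN`, = helper20's
  `PermManinInt20.exists_bdry_add_smul_of_dvd` in `Model13` vocabulary): if `p ∣ E2(φ, ψ)` for all
  parabolic `ψ`, then `φ = p • φ'` with `φ'` parabolic.
-/
import Mathlib
import Fermat.Agent.ES.I2.ModelForm21
import Fermat.Agent.ES.I2.ShapiroBridge1

set_option autoImplicit false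
set_option linter.unusedSectionVars false

namespace Fermat.Agent.ES.I2.ModelNondeg21

open Fermat.Agent.ES.I2 Fermat.Agent.ES.I2.PSL2Free11 Fermat.Agent.ES.I2.AdaptedSec21
open Fermat.Agent.ES.I2.Model13 Fermat.Agent.ES.I2.ShapiroBridge1 Fermat.Agent.ES.I2.ModelForm21
open MulAction

section General

variable {G : Type*} [Group G] {X : Type*} [MulAction G X] [Fintype X] {R : Type*} [CommRing R]

theorem form_act_right (g : G) (f f' : X → R) :
    Model13.form f (Model13.act g f') = Model13.form (Model13.act g⁻¹ f) f' := by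
  rw [Model13.form_act_left, inv_inv]

/-- `⟨2β + v, b⟩ = 0` for a boundary symbol `b`. -/
theorem form_bdry_eq_zero {σ τ : G} (hσ : σ * σ = 1) {β v b : X → R}
    (hv : v + Model13.act σ v = 0) (hβ : Model13.act τ β - β = v) (hb : b ∈ Model13.bdry R σ τ) :
    Model13.form (2 * β + v) b = 0 := by
  obtain ⟨ρ, hρ, rfl⟩ := Model13.mem_bdry.mp hb
  have hσσ : ∀ f : X → R, Model13.act σ (Model13.act σ f) = f := fun f => by
    rw [← Model13.act_mul, hσ, Model13.act_one]
  have hσinv : σ⁻¹ = σ := inv_eq_of_mul_eq_one_left hσ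
  -- `τ ρ = σ ρ`
  have hτρ : Model13.act τ ρ = Model13.act σ ρ := by
    have h := congrArg (Model13.act σ) hρ
    rw [Model13.act_mul, hσσ] at h
    exact h
  have hσv : Model13.act σ v = -v := eq_neg_of_add_eq_zero_right hv
  -- `τ⁻¹ β - β = - τ⁻¹ v`
  have h1 : Model13.act τ⁻¹ β - β = - Model13.act τ⁻¹ v := by
    have h := congrArg (Model13.act τ⁻¹) hβ
    rw [map_sub, Model13.act_inv_act] at h
    rw [← h]; abel
  have e1 : Model13.form β (Model13.act σ ρ) - Model13.form β ρ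
      = - Model13.form v (Model13.act σ ρ) := by
    rw [← hτρ, form_act_right, ← Model13.form_sub_left, h1, Model13.form_neg_left,
      ← form_act_right]
  have e2 : Model13.form v (Model13.act σ ρ) = - Model13.form v ρ := by
    rw [form_act_right, hσinv, hσv, Model13.form_neg_left]
  have e3 : Model13.form (2 * β + v) (Model13.act σ ρ - ρ)
      = 2 * (Model13.form β (Model13.act σ ρ) - Model13.form β ρ)
        + (Model13.form v (Model13.act σ ρ) - Model13.form v ρ) := by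
    have h2 : (2 : X → R) * β = (2 : R) • β := by
      funext x; simp
    rw [Model13.form_add_left, Model13.form_sub_right, Model13.form_sub_right, h2,
      Model13.form_smul_left, Model13.form_smul_left]
    ring
  rw [e3, e1, e2]
  ring

end General

section PSL2

variable {X : Type*} [MulAction Q X] [Fintype X] [MulAction.IsPretransitive Q X] {x0 : X}
  {J : Type*} [Fintype J] (D : CuspData (Sb * Ub) x0 J)

/-- the cocycle-extension hypothesis of `ShapiroBridge1` (S6), for `PSL(2,ℤ)` and any ring. -/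
theorem hext_PSL2 {R : Type*} [CommRing R] (a b : X → R) (ha : a + Model13.act Sb a = 0)
    (hb : b + Model13.act Ub b + Model13.act (Ub ^ 2) b = 0) :
    ∃ z : Q → X → R, Model13.IsCocycle z ∧ z Sb = a ∧ z Ub = b := by
  let _ : MulSemiringAction Q (X → R) := PrimExistsFun25.funAction Q X R
  obtain ⟨z, ⟨hz, h1, h2⟩, -⟩ := PSL2Cocycle11.existsUnique_cocycle (V := X → R) a b ha hb
  exact ⟨z, hz, h1, h2⟩

/-- a parabolic hom (in the sense of `ShapiroBridge1`) kills the cusp family `D.c`. -/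
theorem kills_c {R : Type*} [CommRing R] {φ : Additive (stabilizer Q x0) →+ R}
    (hφ : IsPar (Sb * Ub) φ) (j : J) : φ (Additive.ofMul (D.c j)) = 0 := by
  have hmem : (D.g j)⁻¹ * (Sb * Ub) ^ D.h j * ((D.g j)⁻¹)⁻¹ ∈ stabilizer Q x0 := by
    rw [inv_inv]; exact (D.c j).2
  have h := hφ (D.g j)⁻¹ (D.h j) hmem
  have e : (⟨(D.g j)⁻¹ * (Sb * Ub) ^ D.h j * ((D.g j)⁻¹)⁻¹, hmem⟩ : stabilizer Q x0) = D.c j := by
    apply Subtype.ext
    simp only [CuspData.coe_c, inv_inv]
  rw [e] at h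
  exact h

theorem sh_T_of_isPar {R : Type*} [CommRing R] {φ : Additive (stabilizer Q x0) →+ R}
    (hφ : IsPar (Sb * Ub) φ) : Model13.sh D.sec φ (Sb * Ub) = 0 :=
  D.sh_T_eq_zero φ (kills_c D hφ)

theorem six_torsion_free_int : ∀ r : ℤ, 6 • r = 0 → r = 0 := by
  intro r hr
  have h : (6 : ℤ) * r = 0 := by simpa using hr
  omega

/-- the symbol of a parabolic hom with values in `ℤ`. -/
theorem symbol_mem_symb {φ : Additive (stabilizer Q x0) →+ ℤ} (hφ : IsPar (Sb * Ub) φ) :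
    Model13.sh D.sec φ Sb ∈ Model13.symb ℤ Sb Ub :=
  sh_σ_mem_symb Sb_sq Ub_cube (sh_T_of_isPar D hφ)
    (killsConj_of_torsionFree Ub_cube (three_torsion_free six_torsion_free_int) φ)

/-- if `p ∣ E2(φ, ψ)` for all parabolic `ψ` then `p ∣ ⟨2β + v_φ, v'⟩` for every symbol `v'`. -/
theorem dvd_form_of_dvd_E2 (p : ℤ) {φ : Additive (stabilizer Q x0) →+ ℤ}
    (hφ : IsPar (Sb * Ub) φ) (β : X → ℤ)
    (hβ : Model13.sh D.sec φ Ub = Model13.act Ub β - β)
    (H : ∀ ψ : Additive (stabilizer Q x0) →+ ℤ, IsPar (Sb * Ub) ψ →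
      p ∣ CuspPairingTwo25.E2 D.c (fn φ) (fn ψ))
    {v' : X → ℤ} (hv' : v' ∈ Model13.symb ℤ Sb Ub) :
    p ∣ Model13.form (2 * β + Model13.sh D.sec φ Sb) v' := by
  obtain ⟨ψ, hψ, -, hψb⟩ := exists_hom_of_mem_symb' (σ := Sb) (τ := Ub) Ub_cube
    (fun a b ha hb => hext_PSL2 a b ha hb) hv' (s := D.sec)
    (fun ψ hψ => sh_T_of_isPar D hψ)
  have h1 := H ψ hψ
  rw [E2_eq_form D six_torsion_free_int φ ψ (kills_c D hφ) (kills_c D hψ) β hβ] at h1
  have hv : Model13.sh D.sec φ Sb + Model13.act Sb (Model13.sh D.sec φ Sb) = 0 :=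
    (symbol_mem_symb D hφ).1
  have hβ' : Model13.act Ub β - β = Model13.sh D.sec φ Sb := by
    rw [← hβ, D.sh_U_eq_sh_S Sb_mul_self φ (kills_c D hφ)]
  have h2 := form_bdry_eq_zero Sb_mul_self hv hβ' hψb
  rw [Model13.form_sub_right] at h2
  have h3 : Model13.form (2 * β + Model13.sh D.sec φ Sb) v'
      = Model13.form (2 * β + Model13.sh D.sec φ Sb) (Model13.sh D.sec ψ Sb) := by
    linarith
  rw [h3]
  exact h1

/-- **non-degeneracy mod `p` on the model**, given the linear-algebra statement `[N]`. -/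
theorem nondeg_mod (p : ℤ)
    (hN : ∀ β v : X → ℤ, v ∈ Model13.symb ℤ Sb Ub → Model13.act Ub β - β = v →
      (∀ v' ∈ Model13.symb ℤ Sb Ub, p ∣ Model13.form (2 * β + v) v') →
      ∃ b ∈ Model13.bdry ℤ Sb Ub, ∃ u ∈ Model13.symb ℤ Sb Ub, v = b + p • u)
    {φ : Additive (stabilizer Q x0) →+ ℤ} (hφ : IsPar (Sb * Ub) φ)
    (H : ∀ ψ : Additive (stabilizer Q x0) →+ ℤ, IsPar (Sb * Ub) ψ →
      p ∣ CuspPairingTwo25.E2 D.c (fn φ) (fn ψ)) :
    ∃ φ' : Additive (stabilizer Q x0) →+ ℤ, IsPar (Sb * Ub) φ' ∧ φ = p • φ' := by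
  obtain ⟨β, hβ⟩ := exists_beta D (three_torsion_free six_torsion_free_int) φ
  have hβ' : Model13.act Ub β - β = Model13.sh D.sec φ Sb := by
    rw [← hβ, D.sh_U_eq_sh_S Sb_mul_self φ (kills_c D hφ)]
  obtain ⟨b, hb, u, hu, hvu⟩ := hN β _ (symbol_mem_symb D hφ) hβ'
    (fun v' hv' => dvd_form_of_dvd_E2 D p hφ β hβ H hv')
  obtain ⟨φu, hφu, -, hub⟩ := exists_hom_of_mem_symb' (σ := Sb) (τ := Ub) Ub_cube
    (fun a b ha hb => hext_PSL2 a b ha hb) hu (s := D.sec)
    (fun ψ hψ => sh_T_of_isPar D hψ)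
  refine ⟨φu, hφu, ?_⟩
  -- `φ - p • φu` has a boundary symbol, hence vanishes (S4)
  have hpar : IsPar (Sb * Ub) (φ + (-p) • φu) := hφ.add (hφu.smul (-p))
  have hsymb : Model13.sh D.sec (φ + (-p) • φu) Sb ∈ Model13.bdry ℤ Sb Ub := by
    have e : Model13.sh D.sec (φ + (-p) • φu) Sb
        = b - p • (Model13.sh D.sec φu Sb - u) := by
      rw [ShapiroBridge1.sh_add, ShapiroBridge1.sh_smul, Pi.add_apply, Pi.smul_apply, hvu]
      simp only [smul_sub, neg_smul]
      abel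
    rw [e]
    exact Submodule.sub_mem _ hb (Submodule.smul_mem _ p hub)
  have h0 := eq_zero_of_sh_σ_mem_bdry (σ := Sb) (τ := Ub) closure_Sb_Ub Sb_sq
    (sh_T_of_isPar D hpar) hsymb
  have : φ = -((-p) • φu) := eq_neg_of_add_eq_zero_left h0
  rw [this, neg_smul, neg_neg]

end PSL2

end Fermat.Agent.ES.I2.ModelNondeg21
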