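/-
(I2)(ND) final wrapper + CONTRACT PACKAGE (helper13).

* `EΓ_nondeg_mod` : for a finite-index `Γ ≤ SL(2,ℤ)` containing `-1` and an odd prime `p`, the form
  `EDef25.EΓ Γ` on `parabolicHoms ℤ Γ ℤ` is non-degenerate mod `p`
  (`ESeam13.EΓ_eq_model` + `ModelNondeg21.nondeg_mod` + `ModelN20.hN` + the dictionary
  `Gamma0Model11.isParabolicHom_pull_iff` / `push` / `pull`).
* `EΓ_nondeg` : non-degeneracy over `ℤ` (`LatticeNondeg5.par_nondeg_of_nondeg_mod` at `p = 3`).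
* the six items of the (I2) contract of `Assemble12c.result_of_I2`, literally:
  `EE`, `E_alt`, `E_nondeg`, `E_nondeg_mod`, `E_adj1`, `E_adj2`.
-/
import Mathlib
import Fermat.Agent.ES.I2.ESeam13
import Fermat.Agent.ES.I2.ModelNondeg21
import Fermat.Agent.ES.I2.ModelN20
import Fermat.Agent.ES.I2.LatticeNondeg5
import Fermat.Agent.ES.I2.EAdj3

set_option autoImplicit false

namespace Fermat.Agent.ES.I2.ENondeg13

open Matrix MatrixGroups ModularGroup MulAction Subgroup ModularCurve.Period CongruenceSubgroup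
open Fermat.Agent.ES.I2.PSL2Free11 Fermat.Agent.ES.I2.Gamma0Model11
open Fermat.Agent.ES.I2.AdaptedSec21 Fermat.Agent.ES.I2.CuspPairing25
open Fermat.Agent.ES.I2.CuspPairingTwo25 Fermat.Agent.ES.I2.CuspSys13
open Fermat.Agent.ES.LR.DegeneracyPar27

section General

variable {Γ : Subgroup SL(2, ℤ)} [Γ.FiniteIndex]

/-- **(ND), mod `p`**: `EΓ Γ` is non-degenerate modulo every odd prime (`p = 3` included). -/
theorem EΓ_nondeg_mod (hneg : (-1 : SL(2, ℤ)) ∈ Γ) {p : ℕ} (hp : p.Prime) (hp2 : p ≠ 2)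
    (x : ↥(parabolicHoms ℤ Γ ℤ)) (H : ∀ y, (p : ℤ) ∣ EDef25.EΓ Γ x y) :
    ∃ x' : ↥(parabolicHoms ℤ Γ ℤ), x = (p : ℤ) • x' := by
  classical
  obtain ⟨D⟩ := exists_cuspData (G := Q) (X := XQ Γ) (Sb * Ub) (x0 Γ)
  have : Fintype (orbitRel.Quotient (zpowers (Sb * Ub)) (XQ Γ)) := Fintype.ofFinite _
  have h2 : ∀ r : ℤ, 2 • r = 0 → r = 0 := by
    intro r hr
    rcases smul_eq_zero.mp hr with h0 | h0
    · omega
    · exact h0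
  have hφ : ShapiroBridge1.IsPar (Sb * Ub) (push Γ h2 (x : Additive Γ →+ ℤ)) :=
    (isParabolicHom_pull_iff Γ (push Γ h2 (x : Additive Γ →+ ℤ))).mp
      (by rw [pull_push]; exact x.2)
  have H' : ∀ ψ : Additive (stabilizer Q (x0 Γ)) →+ ℤ, ShapiroBridge1.IsPar (Sb * Ub) ψ →
      (p : ℤ) ∣ E2 D.c (ModelForm21.fn (push Γ h2 (x : Additive Γ →+ ℤ))) (ModelForm21.fn ψ) := by
    intro ψ hψ
    have hy : pull Γ ℤ ψ ∈ parabolicHoms ℤ Γ ℤ := (isParabolicHom_pull_iff Γ ψ).mpr hψ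
    have h := H ⟨pull Γ ℤ ψ, hy⟩
    rw [ESeam13.EΓ_eq_model hneg D h2 x ⟨pull Γ ℤ ψ, hy⟩] at h
    simpa [push_pull] using h
  obtain ⟨φ', hφ', hx⟩ := ModelNondeg21.nondeg_mod D (p : ℤ) (ModelN20.hN hp hp2) hφ H'
  have hx' : pull Γ ℤ φ' ∈ parabolicHoms ℤ Γ ℤ := (isParabolicHom_pull_iff Γ φ').mpr hφ'
  refine ⟨⟨pull Γ ℤ φ', hx'⟩, ?_⟩
  apply Subtype.ext
  show (x : Additive Γ →+ ℤ) = (p : ℤ) • pull Γ ℤ φ'
  rw [← map_smul, ← hx, pull_push]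

/-- **(ND)** over `ℤ`. -/
theorem EΓ_nondeg (hneg : (-1 : SL(2, ℤ)) ∈ Γ) (hΓ : Γ.FG) (x : ↥(parabolicHoms ℤ Γ ℤ))
    (H : ∀ y, EDef25.EΓ Γ x y = 0) : x = 0 :=
  LatticeNondeg5.par_nondeg_of_nondeg_mod Γ hΓ (EDef25.EΓ Γ) Nat.prime_three
    (fun x hx => EΓ_nondeg_mod hneg Nat.prime_three (by norm_num) x hx) x H

end General

/-! ### the (I2) contract, literally as consumed by `Assemble12c.result_of_I2` -/

section Contract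

/- `Lam M` of `FaithInst26` is an `abbrev` for `parabolicHoms ℤ (Gamma0 M) ℤ`; we write the latter
to avoid the heavy import. -/

/-- the form. -/
noncomputable def EE (M : ℕ) [NeZero M] : LinearMap.BilinForm ℤ ↥(parabolicHoms ℤ (Gamma0 M) ℤ) := EDef25.EE M

theorem E_alt (M : ℕ) [NeZero M] (y : ↥(parabolicHoms ℤ (Gamma0 M) ℤ)) : EE M y y = 0 := EDef25.EE_alt M y

theorem E_nondeg_mod {p : ℕ} (hp : p.Prime) (hp2 : p ≠ 2) (M : ℕ) [NeZero M] (x : ↥(parabolicHoms ℤ (Gamma0 M) ℤ))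
    (H : ∀ y, (p : ℤ) ∣ EE M x y) : ∃ x', x = (p : ℤ) • x' :=
  EΓ_nondeg_mod (neg_one_mem_Gamma0 M) hp hp2 x H

theorem E_nondeg (M : ℕ) [NeZero M] (x : ↥(parabolicHoms ℤ (Gamma0 M) ℤ)) (H : ∀ y, EE M x y = 0) : x = 0 :=
  EΓ_nondeg (neg_one_mem_Gamma0 M) (Fermat.Agent.ES.HEQ.ParLattice11.fg_Gamma0 M) x H

theorem E_adj1 (M ℓ : ℕ) [NeZero M] [NeZero ℓ] (hℓ : ℓ.Prime) (hℓM : ¬ ℓ ∣ M)
    (y : ↥(parabolicHoms ℤ (Gamma0 M) ℤ)) (x : ↥(parabolicHoms ℤ (Gamma0 (M * ℓ)) ℤ)) :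
    EE (M * ℓ) (i1Par M ℓ ℤ ℤ y) x = EE M y (t1Par M ℓ ℤ ℤ x) :=
  EAdj3.EE_adj1 M ℓ hℓ hℓM y x

theorem E_adj2 (M ℓ : ℕ) [NeZero M] [NeZero ℓ] (hℓ : ℓ.Prime) (hℓM : ¬ ℓ ∣ M)
    (y : ↥(parabolicHoms ℤ (Gamma0 M) ℤ)) (x : ↥(parabolicHoms ℤ (Gamma0 (M * ℓ)) ℤ)) :
    EE (M * ℓ) (i2Par M ℓ ℤ ℤ y) x = EE M y (t2Par M ℓ ℤ ℤ x) :=
  EAdj3.EE_adj2 M ℓ hℓ hℓM y x

end Contract

end Fermat.Agent.ES.I2.ENondeg13
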