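/-
Program L (S41), chapter (I2), (ND) (helper21): **non-degeneracy mod `p` (and non-degeneracy) of
the integral form `EΓ Γ` on `parabolicHoms ℤ Γ ℤ`**, for a finite index `Γ ≤ SL(2,ℤ)`, from

* the MODEL statement `ModelNondeg21.nondeg_mod` (+ `[N]` = `ModelN20.hN`), and
* the SEAM: `EΓ Γ x y = E2 D.c (fn (push x)) (fn (push y))` for one cusp datum `D` of the model
  `XQ Γ = PSL(2,ℤ) ⧸ Γ̄` (hypothesis `hseam`; helper13's `EΓ_eq_model`).

* `isPar_iff_mem_parStab` : `ShapiroBridge1.IsPar (Sb * Ub)` is membership in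
  `Gamma0Model11.parStab`;
* `nondeg_mod_of_seam` : `(∀ y, p ∣ EΓ Γ x y) → ∃ x', x = p • x'` (`p` an odd prime);
* `nondeg_of_seam`     : `(∀ y, EΓ Γ x y = 0) → x = 0`;
* **`EΓ_nondeg_mod`, `EΓ_nondeg`** : the same UNCONDITIONALLY (seam = `ESeam13.EΓ_eq_model`,
  cusp datum from `AdaptedSec21.exists_cuspData`) for every finite index `Γ ∋ -1`;
* **`E_nondeg_mod`, `E_nondeg`** : the two (ND) items of the (I2) contract of
  `Assemble12c.result_of_I2`, literally, for `EE M = EDef25.EE M`.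
-/
import Mathlib
import Fermat.Agent.ES.I2.EDef25
import Fermat.Agent.ES.I2.ModelNondeg21
import Fermat.Agent.ES.I2.ModelN20
import Fermat.Agent.ES.I2.Gamma0Model11
import Fermat.Agent.ES.I2.LatticeNondeg5
import Fermat.Agent.ES.I2.ESeam13

set_option autoImplicit false
set_option linter.unusedSectionVars false

namespace Fermat.Agent.ES.I2.ENondeg21

open Matrix MatrixGroups ModularCurve.Period
open Fermat.Agent.ES.I2 Fermat.Agent.ES.I2.PSL2Free11 Fermat.Agent.ES.I2.AdaptedSec21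
open Fermat.Agent.ES.I2.Gamma0Model11

theorem two_torsion_free_int : ∀ r : ℤ, 2 • r = 0 → r = 0 := by
  intro r hr
  have h : (2 : ℤ) * r = 0 := by simpa using hr
  omega

variable (Γ : Subgroup SL(2, ℤ))

/-- `ShapiroBridge1.IsPar (Sb * Ub)` is membership in `Gamma0Model11.parStab`. -/
theorem isPar_iff_mem_parStab {R : Type*} [CommRing R]
    (φb : Additive (MulAction.stabilizer Q (x0 Γ)) →+ R) :
    ShapiroBridge1.IsPar (Sb * Ub) φb ↔ φb ∈ parStab Γ (R := R) := Iff.rfl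

variable [Γ.FiniteIndex]

/-- **(ND) mod `p`** from the seam. -/
theorem nondeg_mod_of_seam {J : Type*} [Fintype J] (D : CuspData (Sb * Ub) (x0 Γ) J)
    (hseam : ∀ x y : ↥(parabolicHoms ℤ Γ ℤ),
      EDef25.EΓ Γ x y = CuspPairingTwo25.E2 D.c
        (ModelForm21.fn (push Γ two_torsion_free_int (x : Additive Γ →+ ℤ)))
        (ModelForm21.fn (push Γ two_torsion_free_int (y : Additive Γ →+ ℤ))))
    {p : ℕ} (hp : p.Prime) (hp2 : p ≠ 2) (x : ↥(parabolicHoms ℤ Γ ℤ))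
    (H : ∀ y : ↥(parabolicHoms ℤ Γ ℤ), (p : ℤ) ∣ EDef25.EΓ Γ x y) :
    ∃ x' : ↥(parabolicHoms ℤ Γ ℤ), x = (p : ℤ) • x' := by
  set e := pullParEquiv Γ (R := ℤ) two_torsion_free_int with he
  have hφ : ShapiroBridge1.IsPar (Sb * Ub) (push Γ two_torsion_free_int (x : Additive Γ →+ ℤ)) :=
    (e.symm x).2
  obtain ⟨φ', hφ', hx⟩ := ModelNondeg21.nondeg_mod D (p : ℤ) (ModelN20.hN hp hp2) hφ
    (fun ψ hψ => by
      have h := H (e ⟨ψ, hψ⟩)
      rw [hseam] at h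
      have e1 : push Γ two_torsion_free_int ((e ⟨ψ, hψ⟩ : ↥(parabolicHoms ℤ Γ ℤ)) :
          Additive Γ →+ ℤ) = ψ := push_pull Γ two_torsion_free_int ψ
      rw [e1] at h
      exact h)
  refine ⟨e ⟨φ', hφ'⟩, ?_⟩
  have h1 : x = e (e.symm x) := (e.apply_symm_apply x).symm
  rw [h1, ← map_smul]
  congr 1
  apply Subtype.ext
  exact hx

/-- **(ND)** from the seam: `EΓ Γ` is non-degenerate. -/
theorem nondeg_of_seam {J : Type*} [Fintype J] (D : CuspData (Sb * Ub) (x0 Γ) J)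
    (hseam : ∀ x y : ↥(parabolicHoms ℤ Γ ℤ),
      EDef25.EΓ Γ x y = CuspPairingTwo25.E2 D.c
        (ModelForm21.fn (push Γ two_torsion_free_int (x : Additive Γ →+ ℤ)))
        (ModelForm21.fn (push Γ two_torsion_free_int (y : Additive Γ →+ ℤ))))
    (x : ↥(parabolicHoms ℤ Γ ℤ)) (H : ∀ y : ↥(parabolicHoms ℤ Γ ℤ), EDef25.EΓ Γ x y = 0) :
    x = 0 := by
  have hΓ : Γ.FG := by
    have : Group.FG SL(2, ℤ) := by
      rw [Group.fg_iff]
      exact ⟨{ModularGroup.S, ModularGroup.T}, _root_.SpecialLinearGroup.SL2Z_generators,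
        Set.toFinite _⟩
    have : Group.FG ↥Γ := Subgroup.fg_of_index_ne_zero Γ
    exact (Group.fg_iff_subgroup_fg Γ).mp inferInstance
  exact LatticeNondeg5.par_nondeg_of_nondeg_mod Γ hΓ (EDef25.EΓ Γ) Nat.prime_three
    (fun x' H' => nondeg_mod_of_seam Γ D hseam Nat.prime_three (by norm_num) x' H') x H

/-! ### unconditional statements -/

variable {Γ}

/-- **(ND) mod `p`** for `EΓ Γ`, any finite index `Γ ≤ SL(2,ℤ)` containing `-1`, `p` an odd prime. -/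
theorem EΓ_nondeg_mod (hneg : (-1 : SL(2, ℤ)) ∈ Γ) {p : ℕ} (hp : p.Prime) (hp2 : p ≠ 2)
    (x : ↥(parabolicHoms ℤ Γ ℤ))
    (H : ∀ y : ↥(parabolicHoms ℤ Γ ℤ), (p : ℤ) ∣ EDef25.EΓ Γ x y) :
    ∃ x' : ↥(parabolicHoms ℤ Γ ℤ), x = (p : ℤ) • x' := by
  classical
  obtain ⟨D⟩ := exists_cuspData (G := Q) (X := XQ Γ) (Sb * Ub) (x0 Γ)
  have : Fintype (MulAction.orbitRel.Quotient (Subgroup.zpowers (Sb * Ub)) (XQ Γ)) :=
    Fintype.ofFinite _
  exact nondeg_mod_of_seam Γ D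
    (fun x y => ESeam13.EΓ_eq_model hneg D two_torsion_free_int x y) hp hp2 x H

/-- **(ND)** for `EΓ Γ`, any finite index `Γ ≤ SL(2,ℤ)` containing `-1`. -/
theorem EΓ_nondeg (hneg : (-1 : SL(2, ℤ)) ∈ Γ) (x : ↥(parabolicHoms ℤ Γ ℤ))
    (H : ∀ y : ↥(parabolicHoms ℤ Γ ℤ), EDef25.EΓ Γ x y = 0) : x = 0 := by
  classical
  obtain ⟨D⟩ := exists_cuspData (G := Q) (X := XQ Γ) (Sb * Ub) (x0 Γ)
  have : Fintype (MulAction.orbitRel.Quotient (Subgroup.zpowers (Sb * Ub)) (XQ Γ)) :=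
    Fintype.ofFinite _
  exact nondeg_of_seam Γ D
    (fun x y => ESeam13.EΓ_eq_model hneg D two_torsion_free_int x y) x H

/-- **`E_nondeg_mod`** of the (I2) contract (`Assemble12c.result_of_I2`), literally. -/
theorem E_nondeg_mod {p : ℕ} (hp : p.Prime) (hp2 : p ≠ 2) :
    ∀ (M : ℕ) [NeZero M] (x : ↥(parabolicHoms ℤ (CongruenceSubgroup.Gamma0 M) ℤ)),
      (∀ y, (p : ℤ) ∣ EDef25.EE M x y) → ∃ x', x = (p : ℤ) • x' :=
  fun M _ x H => EΓ_nondeg_mod (neg_one_mem_Gamma0 M) hp hp2 x H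

/-- **`E_nondeg`** of the (I2) contract (`Assemble12c.result_of_I2`), literally. -/
theorem E_nondeg :
    ∀ (M : ℕ) [NeZero M] (x : ↥(parabolicHoms ℤ (CongruenceSubgroup.Gamma0 M) ℤ)),
      (∀ y, EDef25.EE M x y = 0) → x = 0 :=
  fun M _ x H => EΓ_nondeg (neg_one_mem_Gamma0 M) x H

end Fermat.Agent.ES.I2.ENondeg21
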