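/-
(I2) bookkeeping `ℤ ↔ R` (helper16): a `ℤ`-valued bilinear form on a lattice `Λ` which becomes
perfect after extension of scalars to a characteristic-zero domain `R` in which the prime `p`
is NOT a unit (e.g. `R = ℤ[1/2]` with `p` odd, or `R = ℤ_(p)`) is non-degenerate and
non-degenerate modulo `p` on `Λ` itself.
-/
import Mathlib
import Fermat.Agent.ES.HEQ.ParLattice11

set_option autoImplicit false

namespace Fermat.Agent.ES.I2.LatticeLocal16

open Module

section Abstract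

variable {ι : Type*} [Fintype ι]
variable {Λ V R : Type*} [AddCommGroup Λ] [CommRing R] [AddCommGroup V] [Module R V]

/-- Coordinates of `c x` in the `R`-basis are the casts of the coordinates of `x` in the
`ℤ`-basis. -/
theorem repr_comp (bΛ : Basis ι ℤ Λ) (bV : Basis ι R V) (c : Λ →ₗ[ℤ] V)
    (hc : ∀ i, c (bΛ i) = bV i) (x : Λ) (i : ι) :
    bV.repr (c x) i = ((bΛ.repr x i : ℤ) : R) := by
  classical
  have hx : c x = ∑ j, ((bΛ.repr x j : ℤ) : R) • bV j := by
    conv_lhs => rw [← bΛ.sum_repr x]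
    rw [map_sum]
    refine Finset.sum_congr rfl fun j _ => ?_
    rw [map_zsmul, hc, Int.cast_smul_eq_zsmul]
  rw [hx, Basis.repr_sum_self]

/-- `(p : R) ∣ (n : R)` forces `p ∣ n` in `ℤ` when `p` is a prime which is not a unit of `R`. -/
theorem int_dvd_of_cast_dvd {p : ℕ} (hp : p.Prime) (hpR : ¬ IsUnit (p : R)) (n : ℤ)
    (h : (p : R) ∣ (n : R)) : (p : ℤ) ∣ n := by
  by_contra hn
  have hcop : IsCoprime (p : ℤ) n :=
    (Nat.prime_iff_prime_int.mp hp).coprime_iff_not_dvd.mpr hn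
  obtain ⟨a, b, hab⟩ := hcop
  obtain ⟨r, hr⟩ := h
  apply hpR
  have h1 : ((a * (p : ℤ) + b * n : ℤ) : R) = 1 := by rw [hab, Int.cast_one]
  push_cast at h1
  rw [hr] at h1
  refine IsUnit.of_mul_eq_one ((a : R) + (b : R) * r) ?_
  rw [← h1]
  ring

variable [CharZero R]

/-- A vector of `Λ` is determined by the vanishing of `c x`. -/
theorem eq_zero_of_comp_eq_zero (bΛ : Basis ι ℤ Λ) (bV : Basis ι R V) (c : Λ →ₗ[ℤ] V)
    (hc : ∀ i, c (bΛ i) = bV i) (x : Λ) (hx : c x = 0) : x = 0 := by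
  apply bΛ.repr.injective
  ext i
  have h := repr_comp bΛ bV c hc x i
  rw [hx, map_zero, Finsupp.zero_apply] at h
  rw [map_zero, Finsupp.zero_apply]
  exact_mod_cast h.symm

theorem comp_injective (bΛ : Basis ι ℤ Λ) (bV : Basis ι R V) (c : Λ →ₗ[ℤ] V)
    (hc : ∀ i, c (bΛ i) = bV i) : Function.Injective c := by
  intro x y hxy
  have : c (x - y) = 0 := by rw [map_sub, hxy, sub_self]
  exact sub_eq_zero.mp (eq_zero_of_comp_eq_zero bΛ bV c hc _ this)

omit [CharZero R] in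
/-- If `c x = p • v` in `V` with `p` a prime non-unit of `R`, then `x ∈ p Λ`. -/
theorem exists_eq_smul_of_comp_eq_smul (bΛ : Basis ι ℤ Λ) (bV : Basis ι R V) (c : Λ →ₗ[ℤ] V)
    (hc : ∀ i, c (bΛ i) = bV i) {p : ℕ} (hp : p.Prime) (hpR : ¬ IsUnit (p : R))
    (x : Λ) (v : V) (hxv : c x = (p : R) • v) : ∃ x', x = (p : ℤ) • x' := by
  classical
  have hdvd : ∀ i, (p : ℤ) ∣ bΛ.repr x i := by
    intro i
    apply int_dvd_of_cast_dvd hp hpR
    rw [← repr_comp bΛ bV c hc x i, hxv, map_smul, Finsupp.smul_apply, smul_eq_mul]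
    exact dvd_mul_right _ _
  choose m hm using hdvd
  refine ⟨∑ i, m i • bΛ i, ?_⟩
  apply bΛ.repr.injective
  ext i
  rw [map_smul, Finsupp.smul_apply, Basis.repr_sum_self, smul_eq_mul, hm i]

end Abstract

section Forms

variable {ι : Type*} [Fintype ι]
variable {Λ V R : Type*} [AddCommGroup Λ] [CommRing R] [AddCommGroup V] [Module R V]

omit [Fintype ι] in
/-- Left slot: the extended form vanishes against everything as soon as it vanishes against the
lattice. -/
theorem form_ext_left (bV : Basis ι R V) (P : LinearMap.BilinForm R V) (v : V)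
    (h : ∀ i, P v (bV i) = 0) (w : V) : P v w = 0 := by
  have : P v = 0 := bV.ext fun i => by rw [h i, LinearMap.zero_apply]
  rw [this, LinearMap.zero_apply]

variable [CharZero R]

/-- **(I2) bookkeeping, abstract form.**  `E` is a `ℤ`-bilinear form on the lattice `Λ`, `P` an
`R`-bilinear form on `V` extending it along `c : Λ → V` (which carries a `ℤ`-basis to an
`R`-basis), and `P` is perfect on the left (`v ↦ P v ·` is bijective `V → V^∨`).  If the prime
`p` is not a unit of `R` then `E` is non-degenerate modulo `p` (and non-degenerate) on the left. -/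
theorem lattice_nondeg (bΛ : Basis ι ℤ Λ) (bV : Basis ι R V) (c : Λ →ₗ[ℤ] V)
    (hc : ∀ i, c (bΛ i) = bV i) (E : LinearMap.BilinForm ℤ Λ) (P : LinearMap.BilinForm R V)
    (hEP : ∀ x y, P (c x) (c y) = ((E x y : ℤ) : R))
    {p : ℕ} (hp : p.Prime) (hpR : ¬ IsUnit (p : R))
    (hsurj : ∀ f : V →ₗ[R] R, ∃ v, ∀ w, P v w = f w)
    (hinj : ∀ v, (∀ w, P v w = 0) → v = 0) :
    (∀ x : Λ, (∀ y, (p : ℤ) ∣ E x y) → ∃ x', x = (p : ℤ) • x') ∧
      (∀ x : Λ, (∀ y, E x y = 0) → x = 0) := by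
  classical
  refine ⟨fun x hx => ?_, fun x hx => ?_⟩
  · -- the functional `(1/p) E x ·`
    choose m hm using fun i => hx (bΛ i)
    obtain ⟨v, hv⟩ := hsurj (bV.constr R fun i => ((m i : ℤ) : R))
    have hxv : c x = (p : R) • v := by
      have h0 : c x - (p : R) • v = 0 := by
        apply hinj
        apply form_ext_left bV P
        intro i
        rw [map_sub, LinearMap.sub_apply, map_smul, LinearMap.smul_apply, hv, Basis.constr_basis,
          ← hc i, hEP, hm i, smul_eq_mul]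
        push_cast
        ring
      exact sub_eq_zero.mp h0
    exact exists_eq_smul_of_comp_eq_smul bΛ bV c hc hp hpR x v hxv
  · apply eq_zero_of_comp_eq_zero bΛ bV c hc
    apply hinj
    apply form_ext_left bV P
    intro i
    rw [← hc i, hEP, hx, Int.cast_zero]

/-- Right-sided version of `lattice_nondeg`. -/
theorem lattice_nondeg_right (bΛ : Basis ι ℤ Λ) (bV : Basis ι R V) (c : Λ →ₗ[ℤ] V)
    (hc : ∀ i, c (bΛ i) = bV i) (E : LinearMap.BilinForm ℤ Λ) (P : LinearMap.BilinForm R V)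
    (hEP : ∀ x y, P (c x) (c y) = ((E x y : ℤ) : R))
    {p : ℕ} (hp : p.Prime) (hpR : ¬ IsUnit (p : R))
    (hsurj : ∀ f : V →ₗ[R] R, ∃ v, ∀ w, P w v = f w)
    (hinj : ∀ v, (∀ w, P w v = 0) → v = 0) :
    (∀ x : Λ, (∀ y, (p : ℤ) ∣ E y x) → ∃ x', x = (p : ℤ) • x') ∧
      (∀ x : Λ, (∀ y, E y x = 0) → x = 0) :=
  lattice_nondeg bΛ bV c hc E.flip P.flip (fun x y => hEP y x) hp hpR hsurj hinj

/-- For an alternating (or symmetric up to sign) extended form the two one-sided perfectness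
statements are equivalent; convenience: alternating `P`, left perfectness ⇒ both conclusions on
both sides. -/
theorem lattice_nondeg_of_alt (bΛ : Basis ι ℤ Λ) (bV : Basis ι R V) (c : Λ →ₗ[ℤ] V)
    (hc : ∀ i, c (bΛ i) = bV i) (E : LinearMap.BilinForm ℤ Λ) (P : LinearMap.BilinForm R V)
    (hEP : ∀ x y, P (c x) (c y) = ((E x y : ℤ) : R))
    (hEalt : ∀ x, E x x = 0)
    {p : ℕ} (hp : p.Prime) (hpR : ¬ IsUnit (p : R))
    (hsurj : ∀ f : V →ₗ[R] R, ∃ v, ∀ w, P v w = f w)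
    (hinj : ∀ v, (∀ w, P v w = 0) → v = 0) :
    (∀ x : Λ, (∀ y, (p : ℤ) ∣ E x y) → ∃ x', x = (p : ℤ) • x') ∧
      (∀ x : Λ, (∀ y, E x y = 0) → x = 0) ∧
      (∀ x : Λ, (∀ y, (p : ℤ) ∣ E y x) → ∃ x', x = (p : ℤ) • x') ∧
      (∀ x : Λ, (∀ y, E y x = 0) → x = 0) := by
  have hskew : ∀ x y, E y x = - E x y := by
    intro x y
    have h := hEalt (x + y)
    simp only [map_add, LinearMap.add_apply, hEalt, zero_add, add_zero] at h
    linarith
  obtain ⟨h1, h2⟩ := lattice_nondeg bΛ bV c hc E P hEP hp hpR hsurj hinj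
  refine ⟨h1, h2, fun x hx => h1 x fun y => ?_, fun x hx => h2 x fun y => ?_⟩
  · have := hx y
    rw [hskew] at this
    exact (dvd_neg).mp this
  · have := hx y
    rw [hskew] at this
    exact neg_eq_zero.mp this

/-- `lattice_nondeg` with perfectness stated as bijectivity of `v ↦ P v ·`. -/
theorem lattice_nondeg_of_bijective (bΛ : Basis ι ℤ Λ) (bV : Basis ι R V) (c : Λ →ₗ[ℤ] V)
    (hc : ∀ i, c (bΛ i) = bV i) (E : LinearMap.BilinForm ℤ Λ) (P : LinearMap.BilinForm R V)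
    (hEP : ∀ x y, P (c x) (c y) = ((E x y : ℤ) : R))
    {p : ℕ} (hp : p.Prime) (hpR : ¬ IsUnit (p : R))
    (hP : Function.Bijective (P : V → V →ₗ[R] R)) :
    (∀ x : Λ, (∀ y, (p : ℤ) ∣ E x y) → ∃ x', x = (p : ℤ) • x') ∧
      (∀ x : Λ, (∀ y, E x y = 0) → x = 0) := by
  refine lattice_nondeg bΛ bV c hc E P hEP hp hpR (fun f => ?_) (fun v hv => ?_)
  · obtain ⟨v, hv⟩ := hP.2 f
    exact ⟨v, fun w => by rw [hv]⟩
  · apply hP.1
    rw [map_zero]
    exact LinearMap.ext hv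

end Forms

section Units

/-- A ring hom to a nontrivial ring killing `p` shows that `p` is not a unit. -/
theorem not_isUnit_natCast_of_ringHom {R S : Type*} [Semiring R] [Semiring S] [Nontrivial S]
    (g : R →+* S) {p : ℕ} (h : (p : S) = 0) : ¬ IsUnit (p : R) := by
  intro hu
  have := hu.map g
  rw [map_natCast, h] at this
  exact not_isUnit_zero this

/-- An odd prime is not a unit of `ℤ[1/2]`. -/
theorem not_isUnit_natCast_away_two {p : ℕ} (hp : p.Prime) (hp2 : p ≠ 2) :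
    ¬ IsUnit ((p : ℕ) : Localization.Away (2 : ℤ)) := by
  have : Fact p.Prime := Fact.mk hp
  have h2 : IsUnit (Int.castRingHom (ZMod p) 2) := by
    have : Int.castRingHom (ZMod p) 2 = ((2 : ℕ) : ZMod p) := by simp
    rw [this, ZMod.isUnit_iff_coprime]
    exact (Nat.coprime_primes Nat.prime_two hp).mpr (Ne.symm hp2)
  exact not_isUnit_natCast_of_ringHom (IsLocalization.Away.lift (2 : ℤ) h2)
    (ZMod.natCast_self p)

theorem isDomain_away_two : IsDomain (Localization.Away (2 : ℤ)) :=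
  IsLocalization.isDomain_localization
    (powers_le_nonZeroDivisors_of_noZeroDivisors (by norm_num))

theorem charZero_away_two : CharZero (Localization.Away (2 : ℤ)) :=
  charZero_of_injective_algebraMap
    (IsLocalization.injective (M := Submonoid.powers (2 : ℤ)) _
      (powers_le_nonZeroDivisors_of_noZeroDivisors (two_ne_zero)))

theorem isAddTorsionFree_away_two : IsAddTorsionFree (Localization.Away (2 : ℤ)) :=
  haveI := isDomain_away_two
  haveI := charZero_away_two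
  inferInstance

/-- `2` is a unit of `ℤ[1/2]`. -/
theorem isUnit_two_away_two : IsUnit (2 : Localization.Away (2 : ℤ)) := by
  have h := IsLocalization.Away.algebraMap_isUnit (S := Localization.Away (2 : ℤ)) (2 : ℤ)
  simpa using h

/-- `p` is not a unit of `ℤ_p`. -/
theorem not_isUnit_natCast_padicInt (p : ℕ) [Fact p.Prime] : ¬ IsUnit ((p : ℕ) : ℤ_[p]) :=
  PadicInt.p_nonunit

/-- `2` is a unit of `ℤ_p` for odd `p`. -/
theorem isUnit_two_padicInt (p : ℕ) [Fact p.Prime] (hp2 : p ≠ 2) : IsUnit (2 : ℤ_[p]) := by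
  have : (2 : ℤ_[p]) = ((2 : ℕ) : ℤ_[p]) := by norm_num
  rw [this, PadicInt.isUnit_iff, PadicInt.norm_natCast_eq_one_iff]
  exact (Nat.coprime_primes Fact.out Nat.prime_two).mpr hp2

/-- A prime is not a unit of `ℤ_(p)`. -/
theorem not_isUnit_natCast_atPrime {p : ℕ}
    (P : Ideal ℤ) [P.IsPrime] (hP : (p : ℤ) ∈ P) :
    ¬ IsUnit ((p : ℕ) : Localization.AtPrime P) := by
  intro hu
  have h1 : ((p : ℕ) : Localization.AtPrime P) = algebraMap ℤ (Localization.AtPrime P) (p : ℤ) := by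
    simp
  rw [h1, IsLocalization.AtPrime.isUnit_to_map_iff (Localization.AtPrime P) P] at hu
  exact hu hP

end Units

section Par

open ModularCurve.Period Fermat.Agent.ES.HEQ.ParLattice11 CongruenceSubgroup
open scoped MatrixGroups

variable {Γ : Subgroup SL(2, ℤ)}
variable (R : Type*) [CommRing R] [CharZero R] [IsAddTorsionFree R]

/-- **(I2) bookkeeping for parabolic homs.**  A `ℤ`-bilinear form `E` on `Λ = Hom_par(Γ, ℤ)`
whose scalar extension `P` to `Hom_par(Γ, R)` (along `castPar`) is left-perfect is non-degenerate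
modulo every prime `p` which is not a unit of `R`. -/
theorem par_nondeg (hΓ : Γ.FG) (E : LinearMap.BilinForm ℤ (parabolicHoms ℤ Γ ℤ))
    (P : LinearMap.BilinForm R (parabolicHoms R Γ R))
    (hEP : ∀ x y, P (castPar Γ R x) (castPar Γ R y) = ((E x y : ℤ) : R))
    {p : ℕ} (hp : p.Prime) (hpR : ¬ IsUnit (p : R))
    (hsurj : ∀ f : parabolicHoms R Γ R →ₗ[R] R, ∃ v, ∀ w, P v w = f w)
    (hinj : ∀ v, (∀ w, P v w = 0) → v = 0) :
    (∀ x : parabolicHoms ℤ Γ ℤ, (∀ y, (p : ℤ) ∣ E x y) → ∃ x', x = (p : ℤ) • x') ∧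
      (∀ x : parabolicHoms ℤ Γ ℤ, (∀ y, E x y = 0) → x = 0) :=
  lattice_nondeg (lamBasis hΓ) (parBasis R hΓ) (castPar Γ R)
    (fun i => by rw [lamBasis_apply, parBasis_apply]) E P hEP hp hpR hsurj hinj

/-- Specialisation to `Γ₀(M)`. -/
theorem par_nondeg_Gamma0 (M : ℕ) [NeZero M]
    (E : LinearMap.BilinForm ℤ (parabolicHoms ℤ (Gamma0 M) ℤ))
    (P : LinearMap.BilinForm R (parabolicHoms R (Gamma0 M) R))
    (hEP : ∀ x y, P (castPar (Gamma0 M) R x) (castPar (Gamma0 M) R y) = ((E x y : ℤ) : R))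
    {p : ℕ} (hp : p.Prime) (hpR : ¬ IsUnit (p : R))
    (hsurj : ∀ f : parabolicHoms R (Gamma0 M) R →ₗ[R] R, ∃ v, ∀ w, P v w = f w)
    (hinj : ∀ v, (∀ w, P v w = 0) → v = 0) :
    (∀ x : parabolicHoms ℤ (Gamma0 M) ℤ, (∀ y, (p : ℤ) ∣ E x y) → ∃ x', x = (p : ℤ) • x') ∧
      (∀ x : parabolicHoms ℤ (Gamma0 M) ℤ, (∀ y, E x y = 0) → x = 0) :=
  par_nondeg R (fg_Gamma0 M) E P hEP hp hpR hsurj hinj

/-- `ℤ[1/2]`-version: for an odd prime `p`, left-perfectness over `ℤ[1/2]` of the scalar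
extension gives non-degeneracy mod `p` on the lattice. -/
theorem par_nondeg_away_two (hΓ : Γ.FG) (E : LinearMap.BilinForm ℤ (parabolicHoms ℤ Γ ℤ))
    (P : LinearMap.BilinForm (Localization.Away (2 : ℤ))
      (parabolicHoms (Localization.Away (2 : ℤ)) Γ (Localization.Away (2 : ℤ))))
    (hEP : ∀ x y, P (castPar Γ _ x) (castPar Γ _ y) = ((E x y : ℤ) : Localization.Away (2 : ℤ)))
    {p : ℕ} (hp : p.Prime) (hp2 : p ≠ 2)
    (hsurj : ∀ f : parabolicHoms (Localization.Away (2 : ℤ)) Γ (Localization.Away (2 : ℤ))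
      →ₗ[Localization.Away (2 : ℤ)] Localization.Away (2 : ℤ), ∃ v, ∀ w, P v w = f w)
    (hinj : ∀ v, (∀ w, P v w = 0) → v = 0) :
    (∀ x : parabolicHoms ℤ Γ ℤ, (∀ y, (p : ℤ) ∣ E x y) → ∃ x', x = (p : ℤ) • x') ∧
      (∀ x : parabolicHoms ℤ Γ ℤ, (∀ y, E x y = 0) → x = 0) :=
  haveI := charZero_away_two
  haveI := isAddTorsionFree_away_two
  par_nondeg _ hΓ E P hEP hp (not_isUnit_natCast_away_two hp hp2) hsurj hinj

/-- `ℤ_p`-version: left-perfectness over `ℤ_p` of the scalar extension gives non-degeneracy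
mod `p` on the lattice. -/
theorem par_nondeg_padicInt (hΓ : Γ.FG) (p : ℕ) [Fact p.Prime]
    (E : LinearMap.BilinForm ℤ (parabolicHoms ℤ Γ ℤ))
    (P : LinearMap.BilinForm ℤ_[p] (parabolicHoms ℤ_[p] Γ ℤ_[p]))
    (hEP : ∀ x y, P (castPar Γ _ x) (castPar Γ _ y) = ((E x y : ℤ) : ℤ_[p]))
    (hsurj : ∀ f : parabolicHoms ℤ_[p] Γ ℤ_[p] →ₗ[ℤ_[p]] ℤ_[p], ∃ v, ∀ w, P v w = f w)
    (hinj : ∀ v, (∀ w, P v w = 0) → v = 0) :
    (∀ x : parabolicHoms ℤ Γ ℤ, (∀ y, (p : ℤ) ∣ E x y) → ∃ x', x = (p : ℤ) • x') ∧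
      (∀ x : parabolicHoms ℤ Γ ℤ, (∀ y, E x y = 0) → x = 0) :=
  par_nondeg _ hΓ E P hEP Fact.out (not_isUnit_natCast_padicInt p) hsurj hinj

end Par

end Fermat.Agent.ES.I2.LatticeLocal16
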