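/-
(I2) of Program L (S41): the cusp-family MATCHINGS for the two degeneracy maps, and hence the
adjunctions `E_adj1`, `E_adj2` of the (I2) contract, unconditionally  [helper15].

* `isCuspFam_cuspFam` (F1): the canonical cusp family `CuspSys13.cuspFam Γ` is a cusp family for the
  positive-unipotent predicate `PosPar2.PU Γ` (`-1 ∈ Γ`, finite index);
* `match1 : EAdjGlue25.Match1 N q`  (pure group theory: `Complete15.famEquiv_cuspFam_of_incl`);
* `match2 : EAdjGlue25.Match2 N q`  (`CuspFamAdj2.isCuspFam_twistH` + F1 + `IsCuspFam.exists_equiv`);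
* `EE_adj1`, `EE_adj2` : `EE (N*q) (i_kPar N q ℤ ℤ y) x = EE N y (t_kPar N q ℤ ℤ x)`.
-/
import Fermat.Agent.ES.I2.Complete15
import Fermat.Agent.ES.I2.EAdjGlue25
import Fermat.Agent.ES.I2.CuspFamAdj2

set_option autoImplicit false

namespace Fermat.Agent.ES.I2.Match15

open Matrix MatrixGroups MulAction Subgroup ModularCurve.Period CongruenceSubgroup
open Fermat.Agent.ES.I2 Fermat.Agent.ES.I2.CuspPairing25
open Fermat.Agent.ES.I2.CuspSys13 Fermat.Agent.ES.I2.TransferAdj3
open Fermat.Agent.ES.I2.CuspFam2 Fermat.Agent.ES.I2.PosPar2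
open Fermat.Agent.ES.I2.EDef25 Fermat.Agent.ES.I2.EAdjGlue25
open Fermat.Agent.ES.LR.Degeneracy27 Fermat.Agent.ES.LR.DegeneracyPar27

/-- **(F1)** the canonical cusp family is a cusp family for the positive-unipotent predicate. -/
theorem isCuspFam_cuspFam (Γ : Subgroup SL(2, ℤ)) [Γ.FiniteIndex] (hneg : -1 ∈ Γ) :
    IsCuspFam (PU Γ) (cuspFam Γ) := by
  have hc := Complete15.isComplete_orbFam Γ (ModularGroup.T : SL(2, ℤ))
  have h1 := isCuspFam_of_reps (Γ := Γ) hneg _ _ hc.pos hc.mem hc.min hc.cover hc.disj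
  have h2 : (fun q : orbitRel.Quotient (zpowers (ModularGroup.T : SL(2, ℤ))) (SL(2, ℤ) ⧸ Γ) =>
      (⟨q.out.out⁻¹ * ModularGroup.T ^ Function.minimalPeriod
        ((ModularGroup.T : SL(2, ℤ)) • ·) q.out * (q.out.out⁻¹)⁻¹, hc.mem q⟩ : Γ)) = cuspFam Γ := by
    funext q
    exact Subtype.ext (Complete15.coe_cuspFam_eq Γ q).symm
  rw [← h2]
  exact h1

/-- two cusp families are equivalent in the sense of `CuspSys13.FamEquiv`. -/
theorem famEquiv_of_isCuspFam {G : Type*} [Group G] {P : G → Prop} {J J' : Type*} {c : J → G}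
    {c' : J' → G} (hc : IsCuspFam P c) (hc' : IsCuspFam P c') :
    FamEquiv (⊤ : Subgroup G) c c' := by
  obtain ⟨e, he⟩ := hc.exists_equiv hc'
  refine ⟨e, fun j => ?_⟩
  obtain ⟨γ, hγ⟩ := he j
  refine ⟨γ⁻¹, Subgroup.mem_top _, ?_⟩
  rw [hγ]; group

variable (N q : ℕ) [NeZero N] [NeZero q]

/-- **the matching for `inclH`** (pure group theory). -/
theorem match1 : Match1 N q := by
  classical
  have hfin : Fintype (Gamma0 N ⧸ (inclH N q).range) := Subgroup.fintypeQuotientOfFiniteIndex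
  refine ⟨hfin, Section.out, ?_⟩
  exact Complete15.famEquiv_cuspFam_of_incl (inclH N q) (fun _ => rfl) _ _ _
    (map_pullFam (inclH N q) (inclH_injective N q) Section.out)

/-- **the matching for `twistH`** (conjugation by `diag(q,1)` preserves positive unipotents). -/
theorem match2 : Match2 N q := by
  classical
  have hfin : Fintype (Gamma0 N ⧸ (twistH N q).range) := Subgroup.fintypeQuotientOfFiniteIndex
  refine ⟨hfin, Section.out, ?_⟩
  have : ∀ j, Fintype (orbitRel.Quotient (zpowers (cuspFam (Gamma0 N) j))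
      (Gamma0 N ⧸ (twistH N q).range)) := fun j => Fintype.ofFinite _
  have h1 : IsCuspFam (PU (Gamma0 (N * q)))
      (pullFam (twistH N q) (twistH_injective N q) Section.out) :=
    CuspFamAdj2.isCuspFam_twistH N q _ _ (cuspFam (Gamma0 N))
      (isCuspFam_cuspFam (Gamma0 N) (CuspFamAdj2.neg_one_mem_Gamma0 N)) _
      (map_pullFam (twistH N q) (twistH_injective N q) Section.out)
  exact famEquiv_of_isCuspFam h1
    (isCuspFam_cuspFam (Gamma0 (N * q)) (CuspFamAdj2.neg_one_mem_Gamma0 (N * q)))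

/-- **`E_adj1`** of the (I2) contract. -/
theorem EE_adj1 (y : ↥(parabolicHoms ℤ (Gamma0 N) ℤ)) (x : ↥(parabolicHoms ℤ (Gamma0 (N * q)) ℤ)) :
    EE (N * q) (i1Par N q ℤ ℤ y) x = EE N y (t1Par N q ℤ ℤ x) :=
  EAdjGlue25.EE_adj1 N q (match1 N q) y x

/-- **`E_adj2`** of the (I2) contract. -/
theorem EE_adj2 (y : ↥(parabolicHoms ℤ (Gamma0 N) ℤ)) (x : ↥(parabolicHoms ℤ (Gamma0 (N * q)) ℤ)) :
    EE (N * q) (i2Par N q ℤ ℤ y) x = EE N y (t2Par N q ℤ ℤ x) :=
  EAdjGlue25.EE_adj2 N q (match2 N q) y x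

end Fermat.Agent.ES.I2.Match15
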