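/-
(I2), MODEL side — the DIRECT INTEGRAL form of the nondegeneracy of the Manin pairing (helper20),
on top of helper29's `PermManin29`.  No unit `2`, no `3 ≠ 0`: `R` is any PID domain, e.g. `R = ℤ`.

`Ω` finite, `S U : Equiv.Perm Ω`, `S² = 1`, `U³ = 1`, `⟨S, U⟩` transitive (`IsConn`), `p` a prime
element of `R` with `¬ p ∣ 2`.  For a symbol `v = β∘U - β`:

  `(∀ v' ∈ Symb, p ∣ ⟨2β + v, v'⟩)  →  v ∈ Bdry + p • Symb`.

(The doubled Manin pairing `⟨2β + v, v'⟩` is the integral model of `E M x y`.)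

Proof.  `v' ↦ ⟨2β+v, v'⟩ / p` is a functional on the saturated `Symb`, hence a dot product with
some `g`; so `2β + v - p g ∈ Symb^⊥ = V^S + V^U`, say `= s + t`.  Put `w = 2β - t`; then
`w∘U - w = 2v` and `w∘S - w = 2v + p (g∘S - g)`, so `w∘S - w∘U ∈ p V`.  The range of
`y ↦ y∘S - y∘U` is saturated, so `w = w' + p h` with `w'∘S = w'∘U`.  Hence
`2v = (w'∘S - w') + p (h∘U - h)`, the first term is a boundary symbol, the second one is then
`p` times a symbol (saturation of `Symb`), and `2` is invertible mod `p`.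
-/
import Mathlib
import Fermat.Agent.ES.I2.PermManin29

set_option autoImplicit false

namespace Fermat.Agent.ES.I2.PermManinInt20

open Matrix
open Fermat.Agent.ES.I2.PermManin29

variable {Ω : Type*} {R : Type*} [CommRing R] {S U : Equiv.Perm Ω}

/-- **Step 1.**  If `⟨x, v'⟩ ∈ pR` for all symbols `v'`, then `x ∈ V^S + V^U + p V`. -/
theorem exists_inv_add_inv_add_smul [Fintype Ω] [IsDomain R] [IsPrincipalIdealRing R]
    (hS : ∀ x, S (S x) = x) (hU : ∀ x, U (U (U x)) = x) (hconn : IsConn S U)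
    {p : R} (hp0 : p ≠ 0) (x : Ω → R)
    (H : ∀ v' ∈ Symb R S U, p ∣ x ⬝ᵥ v') :
    ∃ s t g : Ω → R, (∀ y, s (S y) = s y) ∧ (∀ y, t (U y) = t y) ∧
      ∀ y, x y = s y + t y + p * g y := by
  choose c hc using fun v' : Symb R S U => H v' v'.2
  let lam : Symb R S U →ₗ[R] R :=
    { toFun := c
      map_add' := fun a b => mul_left_cancel₀ hp0 (by
        rw [mul_add, ← hc, ← hc, ← hc, Submodule.coe_add, dotProduct_add])
      map_smul' := fun r a => mul_left_cancel₀ hp0 (by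
        rw [RingHom.id_apply, smul_eq_mul, mul_left_comm, ← hc, ← hc, Submodule.coe_smul,
          dotProduct_smul, smul_eq_mul]) }
  obtain ⟨g, hg⟩ := exists_dot_of_linear_on (Symb R S U) Symb_sat lam
  obtain ⟨s, t, hs, ht, hst⟩ := exists_inv_add_inv_of_orth hS hU hconn (x - p • g)
    (fun v h1 h2 => by
      have e1 := hc ⟨v, mem_Symb.2 ⟨h1, h2⟩⟩
      have e2 : c ⟨v, mem_Symb.2 ⟨h1, h2⟩⟩ = g ⬝ᵥ v := hg ⟨v, mem_Symb.2 ⟨h1, h2⟩⟩
      rw [dotProduct_sub, dotProduct_smul, smul_eq_mul, dotProduct_comm v x, dotProduct_comm v g,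
        e1, e2, sub_self])
  refine ⟨s, t, g, hs, ht, fun y => ?_⟩
  have := hst y
  simp only [Pi.sub_apply, Pi.smul_apply, smul_eq_mul] at this
  linear_combination this

/-- **Step 2.**  The range of `y ↦ y∘S - y∘U` is saturated: if `w∘S - w∘U = p k` then
`w = w' + p h` with `w'∘S = w'∘U`.  (`S`, `U` any permutations, `R` any domain.) -/
theorem exists_lift_of_comp_sub [IsDomain R] {p : R} (hp0 : p ≠ 0) (w k : Ω → R)
    (h : ∀ y, w (S y) - w (U y) = p * k y) :
    ∃ w' h' : Ω → R, (∀ y, w' (S y) = w' (U y)) ∧ ∀ y, w y = w' y + p * h' y := by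
  obtain ⟨y', hy'⟩ := exists_comp_sub_of_smul (U.symm * S) p hp0 k (w ∘ U) (by
    funext y
    simp only [Pi.smul_apply, smul_eq_mul, Pi.sub_apply, Function.comp_apply,
      Equiv.Perm.mul_apply, Equiv.apply_symm_apply]
    exact (h y).symm)
  have hk : ∀ y, k y = y' (U.symm (S y)) - y' y := fun y => by
    have := congrFun hy' y
    simpa only [Pi.sub_apply, Function.comp_apply, Equiv.Perm.mul_apply] using this
  refine ⟨fun y => w y - p * y' (U.symm y), fun y => y' (U.symm y), fun y => ?_, fun y => by ring⟩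
  have e := h y
  have e2 := hk y
  simp only [Equiv.symm_apply_apply]
  linear_combination e + p * e2

/-- **The direct integral form of the nondegeneracy of the (doubled) Manin pairing.**
`R` a PID domain (`ℤ` allowed), `p` prime with `¬ p ∣ 2`, `v = β∘U - β` a symbol: if
`⟨2β + v, v'⟩ ∈ pR` for all symbols `v'`, then `v ∈ Bdry + p • Symb`. -/
theorem exists_bdry_add_smul_of_dvd [Fintype Ω] [IsDomain R] [IsPrincipalIdealRing R]
    (hS : ∀ x, S (S x) = x) (hU : ∀ x, U (U (U x)) = x) (hconn : IsConn S U)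
    {p : R} (hp : Prime p) (hp2 : ¬ p ∣ 2) (β v : Ω → R) (hv : v ∈ Symb R S U)
    (hβ : β ∘ U - β = v)
    (H : ∀ v' ∈ Symb R S U, p ∣ (2 • β + v) ⬝ᵥ v') :
    ∃ b ∈ Bdry R S U, ∃ u ∈ Symb R S U, v = b + p • u := by
  have hp0 : p ≠ 0 := hp.ne_zero
  obtain ⟨hv1, hv2⟩ := mem_Symb.1 hv
  have hβ' : ∀ y, β (U y) - β y = v y := fun y => congrFun hβ y
  obtain ⟨s, t, g, hs, ht, hst⟩ := exists_inv_add_inv_add_smul hS hU hconn hp0 (2 • β + v) H
  simp only [Pi.add_apply, nsmul_eq_mul, Nat.cast_ofNat, Pi.mul_apply, Pi.ofNat_apply] at hst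
  -- `w = 2β - t`
  obtain ⟨w', h', hw', hw⟩ := exists_lift_of_comp_sub (S := S) (U := U) hp0
    (fun y => 2 * β y - t y) (fun y => g (S y) - g y) (fun y => by
      have e1 := hst (S y)
      have e2 := hst y
      have e3 := hv1 y
      have e4 := hβ' y
      rw [hs] at e1
      rw [ht]
      linear_combination e1 - e2 - 2 * e4 - e3)
  -- `2 v = (w'∘S - w') + p (h'∘U - h')`
  have h2v : ∀ y, 2 * v y = (w' (S y) - w' y) + p * (h' (U y) - h' y) := fun y => by
    have e1 := hw (U y)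
    have e2 := hw y
    have e4 := hβ' y
    rw [ht] at e1
    rw [hw' y]
    linear_combination e1 - e2 - 2 * e4
  have hb : (fun y => w' (S y) - w' y) ∈ Bdry R S U := mem_Bdry.2 ⟨w', hw', fun _ => rfl⟩
  have hu0 : (fun y => h' (U y) - h' y) ∈ Symb R S U := by
    refine Symb_sat p hp0 _ ?_
    have e : p • (fun y => h' (U y) - h' y) = (2 : R) • v - fun y => w' (S y) - w' y := by
      funext y
      simp only [Pi.smul_apply, smul_eq_mul, Pi.sub_apply]
      linear_combination - h2v y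
    rw [e]
    exact (Symb R S U).sub_mem ((Symb R S U).smul_mem _ hv) (Bdry_le_Symb hS hU hb)
  -- Bézout
  obtain ⟨a, c, hac⟩ := (hp.irreducible.coprime_iff_not_dvd).2 hp2
  refine ⟨c • (fun y => w' (S y) - w' y), (Bdry R S U).smul_mem _ hb,
    a • v + c • (fun y => h' (U y) - h' y),
    (Symb R S U).add_mem ((Symb R S U).smul_mem _ hv) ((Symb R S U).smul_mem _ hu0), ?_⟩
  funext y
  simp only [Pi.add_apply, Pi.smul_apply, smul_eq_mul]
  linear_combination (-(v y)) * hac + c * h2v y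

/-- the `ℤ`-corollary: `p` an odd prime number. -/
theorem exists_bdry_add_smul_of_dvd_int [Fintype Ω]
    (hS : ∀ x, S (S x) = x) (hU : ∀ x, U (U (U x)) = x) (hconn : IsConn S U)
    {p : ℕ} (hp : p.Prime) (hp2 : p ≠ 2) (β v : Ω → ℤ) (hv : v ∈ Symb ℤ S U)
    (hβ : β ∘ U - β = v)
    (H : ∀ v' ∈ Symb ℤ S U, (p : ℤ) ∣ (2 • β + v) ⬝ᵥ v') :
    ∃ b ∈ Bdry ℤ S U, ∃ u ∈ Symb ℤ S U, v = b + (p : ℤ) • u := by
  refine exists_bdry_add_smul_of_dvd hS hU hconn (Nat.prime_iff_prime_int.1 hp) ?_ β v hv hβ H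
  intro h
  have h' : p ∣ 2 := by exact_mod_cast h
  exact hp2 ((Nat.prime_dvd_prime_iff_eq hp Nat.prime_two).1 h')

end Fermat.Agent.ES.I2.PermManinInt20
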