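/-
Program L (S41), chapter (I2), MODEL side (helper21): the adapter between the `Model13` vocabulary
(`act`, `form`, `symb`, `bdry` for a `G`-set `X`) and the permutation vocabulary of `PermManin29`
(`Symb`, `Bdry`, `IsConn`, `⬝ᵥ` for two permutations), and the statement `[N]`
(`PermManinInt20.exists_bdry_add_smul_of_dvd_int`) in `Model13` vocabulary — the hypothesis `hN` of
`ModelNondeg21.nondeg_mod`.
-/
import Mathlib
import Fermat.Agent.ES.I2.Model13
import Fermat.Agent.ES.I2.ShapiroBridge1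
import Fermat.Agent.ES.I2.PermManinInt20

set_option autoImplicit false
set_option linter.unusedSectionVars false

namespace Fermat.Agent.ES.I2.PermAdapter21

open Fermat.Agent.ES.I2

variable {G : Type*} [Group G] {X : Type*} [MulAction G X] {R : Type*} [CommRing R]

/-- the permutation `x ↦ g⁻¹ • x` of `X`, so that `act g f = f ∘ pm g`. -/
def pm (g : G) : Equiv.Perm X := MulAction.toPerm g⁻¹

@[simp] theorem pm_apply (g : G) (x : X) : pm g x = g⁻¹ • x := rfl

theorem act_eq_comp (g : G) (f : X → R) : Model13.act g f = f ∘ pm g := rfl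

theorem form_eq_dot [Fintype X] (f f' : X → R) : Model13.form f f' = dotProduct f f' := rfl

theorem pm_sq {σ : G} (hσ : σ ^ 2 = 1) (x : X) : pm σ (pm σ x) = x := by
  have h : σ⁻¹ * σ⁻¹ = 1 := by
    rw [← mul_inv_rev, inv_eq_one, ← pow_two]
    exact hσ
  rw [pm_apply, pm_apply, ← mul_smul, h, one_smul]

theorem pm_cube {τ : G} (hτ : τ ^ 3 = 1) (x : X) : pm τ (pm τ (pm τ x)) = x := by
  have h : τ⁻¹ * (τ⁻¹ * τ⁻¹) = 1 := by
    rw [← mul_inv_rev, ← mul_inv_rev, inv_eq_one, ← pow_two, ← pow_succ]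
    exact hτ
  rw [pm_apply, pm_apply, pm_apply, ← mul_smul, ← mul_smul, mul_assoc, h, one_smul]

section Fin

variable [Fintype X] {σ τ : G}

/-- `Model13.symb` is `PermManin29.Symb` (`R` without `3`-torsion). -/
theorem mem_symb_iff (hτ : τ ^ 3 = 1) (h3 : ∀ r : R, 3 • r = 0 → r = 0) (v : X → R) :
    v ∈ Model13.symb R σ τ ↔ v ∈ PermManin29.Symb R (pm σ) (pm τ) := by
  rw [PermManin29.mem_Symb]
  have hsq : ∀ x : X, (τ ^ 2)⁻¹ • x = τ⁻¹ • τ⁻¹ • x := fun x => by
    rw [pow_two, mul_inv_rev, mul_smul]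
  constructor
  · intro hv
    refine ⟨fun x => ?_, fun x => ?_⟩
    · have := congrFun hv.1 x
      simpa using this
    · have := congrFun (ShapiroBridge1.norm_eq_zero_of_mem_symb hτ hv) x
      simpa [hsq] using this
  · rintro ⟨h1, h2⟩
    have hnorm : v + Model13.act τ v + Model13.act (τ ^ 2) v = 0 := by
      funext x
      have := h2 x
      simpa [hsq] using this
    refine Model13.mem_symb.mpr ⟨?_, fun w hw => ?_⟩
    · funext x
      have := h1 x
      simpa using this
    · refine ShapiroBridge1.form_eq_zero_of_norm_eq_zero hτ hnorm (fun x hx => ?_) hw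
      have hx' : τ⁻¹ • x = x := by rw [inv_smul_eq_iff, hx]
      have := h2 x
      simp only [pm_apply, hx'] at this
      apply h3
      rw [← this]
      simp only [nsmul_eq_mul, Nat.cast_ofNat]
      ring

/-- `Model13.bdry` is `PermManin29.Bdry`. -/
theorem mem_bdry_iff (hσ : σ ^ 2 = 1) (v : X → R) :
    v ∈ Model13.bdry R σ τ ↔ v ∈ PermManin29.Bdry R (pm σ) (pm τ) := by
  rw [PermManin29.mem_Bdry, Model13.mem_bdry]
  have hσinv : σ⁻¹ = σ := by
    apply inv_eq_of_mul_eq_one_left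
    rw [← pow_two]; exact hσ
  constructor
  · rintro ⟨ρ, hρ, rfl⟩
    refine ⟨ρ, fun x => ?_, fun x => rfl⟩
    have := congrFun hρ (σ • x)
    simp only [Model13.act_apply, mul_inv_rev, mul_smul, inv_smul_smul] at this
    simp only [pm_apply, hσinv]
    exact this.symm
  · rintro ⟨w, h1, h2⟩
    refine ⟨w, ?_, ?_⟩
    · funext x
      have := h1 (σ⁻¹ • x)
      simp only [pm_apply] at this
      simp only [Model13.act_apply, mul_inv_rev, mul_smul]
      rw [← this, ← mul_smul, ← mul_inv_rev, ← pow_two, hσ, inv_one, one_smul]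
    · funext x
      exact h2 x

/-- connectedness of `X` under `pm σ`, `pm τ` when `σ`, `τ` generate a transitive group. -/
theorem isConn (hσ : σ ^ 2 = 1) (hτ : τ ^ 3 = 1) (hgen : Subgroup.closure {σ, τ} = ⊤)
    [MulAction.IsPretransitive G X] : PermManin29.IsConn (pm (X := X) σ) (pm τ) := by
  intro P h1 h2 x y hx
  have hσinv : σ⁻¹ = σ := by
    apply inv_eq_of_mul_eq_one_left
    rw [← pow_two]; exact hσ
  have hτinv : τ⁻¹ * τ⁻¹ = τ := by
    rw [← mul_inv_rev, inv_eq_iff_eq_inv, eq_inv_iff_mul_eq_one, ← pow_two, ← pow_succ]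
    exact hτ
  -- closure under `σ`, `τ` and their inverses
  have hσP : ∀ z, P z → P (σ • z) := fun z hz => by
    have := h1 z hz
    rwa [pm_apply, hσinv] at this
  have hσP' : ∀ z, P z → P (σ⁻¹ • z) := fun z hz => h1 z hz
  have hτP' : ∀ z, P z → P (τ⁻¹ • z) := fun z hz => h2 z hz
  have hτP : ∀ z, P z → P (τ • z) := fun z hz => by
    have := hτP' _ (hτP' z hz)
    rwa [← mul_smul, hτinv] at this
  have key : ∀ g : G, (∀ z, P z → P (g • z)) ∧ (∀ z, P z → P (g⁻¹ • z)) := by
    intro g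
    have hg : g ∈ Subgroup.closure ({σ, τ} : Set G) := by rw [hgen]; trivial
    induction hg using Subgroup.closure_induction with
    | mem k hk =>
      rcases hk with rfl | rfl
      · exact ⟨hσP, hσP'⟩
      · exact ⟨hτP, hτP'⟩
    | one => exact ⟨fun z hz => by simpa using hz, fun z hz => by simpa using hz⟩
    | mul a b _ _ ha hb =>
      refine ⟨fun z hz => ?_, fun z hz => ?_⟩
      · rw [mul_smul]; exact ha.1 _ (hb.1 z hz)
      · rw [mul_inv_rev, mul_smul]; exact hb.2 _ (ha.2 z hz)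
    | inv a _ ha => exact ⟨ha.2, fun z hz => by rw [inv_inv]; exact ha.1 z hz⟩
  obtain ⟨g, rfl⟩ := MulAction.exists_smul_eq G x y
  exact (key g).1 x hx

/-- **`[N]` in `Model13` vocabulary** (over `ℤ`, `p` an odd prime): the hypothesis `hN` of
`ModelNondeg21.nondeg_mod`. -/
theorem hN_int {X : Type*} [MulAction G X] [Fintype X] [MulAction.IsPretransitive G X]
    {σ τ : G} (hσ : σ ^ 2 = 1) (hτ : τ ^ 3 = 1) (hgen : Subgroup.closure {σ, τ} = ⊤)
    {p : ℕ} (hp : p.Prime) (hp2 : p ≠ 2) (β v : X → ℤ)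
    (hv : v ∈ Model13.symb ℤ σ τ) (hβ : Model13.act τ β - β = v)
    (H : ∀ v' ∈ Model13.symb ℤ σ τ, (p : ℤ) ∣ Model13.form (2 * β + v) v') :
    ∃ b ∈ Model13.bdry ℤ σ τ, ∃ u ∈ Model13.symb ℤ σ τ, v = b + (p : ℤ) • u := by
  have h3 : ∀ r : ℤ, 3 • r = 0 → r = 0 := by
    intro r hr
    have h : (3 : ℤ) * r = 0 := by simpa using hr
    omega
  have e2 : (2 • β + v : X → ℤ) = 2 * β + v := by
    funext x; simp
  obtain ⟨b, hb, u, hu, hvu⟩ := PermManinInt20.exists_bdry_add_smul_of_dvd_int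
    (S := pm (X := X) σ) (U := pm τ) (pm_sq hσ) (pm_cube hτ) (isConn hσ hτ hgen) hp hp2 β v
    ((mem_symb_iff hτ h3 v).mp hv) hβ
    (fun v' hv' => by
      rw [e2, ← form_eq_dot]
      exact H v' ((mem_symb_iff hτ h3 v').mpr hv'))
  exact ⟨b, (mem_bdry_iff hσ b).mpr hb, u, (mem_symb_iff hτ h3 u).mpr hu, hvu⟩

end Fin

end Fermat.Agent.ES.I2.PermAdapter21
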