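/-
Program L (S41), chapter (I2), MODEL side (helper1): **the Shapiro isomorphism**
`{parabolic homomorphisms on Γ killing the conjugates of τ} ≃ₗ[R] symb ⧸ bdry`, packaged from
`ShapiroBridge1` (S3 + S4 + S6), and the transport of a perfect pairing on `symb ⧸ bdry` to the
homomorphisms.

`G` a group acting on a finite set `X`, `x0 : X`, `Γ = MulAction.stabilizer G x0`, `σ τ : G`,
`σ ^ 2 = 1`, `τ ^ 3 = 1`, `⟨σ, τ⟩ = G`, `T = σ * τ`; `s` a section in the gauge
`sh s φ T = 0` for all parabolic `φ` (e.g. an adapted section).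

* `bdry_le_symb`, `bdryS R σ τ : Submodule R (symb R σ τ)`;
* `symbOf s … : parSub (σ * τ) τ →ₗ[R] symb R σ τ`, `φ ↦ sh s φ σ`;
* `shQ s … : parSub (σ * τ) τ →ₗ[R] symb (X := X) R σ τ ⧸ bdryS R σ τ`, `shQ_injective`, `shQ_surjective`,
  `shEquiv`;
* `pairPar Q s … := Q ∘ (shQ × shQ)` for a bilinear `Q` on the quotient; `pairPar_injective`,
  `pairPar_surjective` when `Q` is perfect (`Function.Bijective Q`).
-/
import Mathlib
import Fermat.Agent.ES.I2.ShapiroBridge1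
import Fermat.Agent.ES.I2.PSL2Cocycle11

set_option autoImplicit false
set_option linter.unusedSectionVars false

open scoped Classical

namespace Fermat.Agent.ES.I2.ShapiroIso1

open Fermat.Agent.ES.I2.Model13 Fermat.Agent.ES.I2.ShapiroBridge1 MulAction

variable {G : Type*} [Group G] {X : Type*} [MulAction G X] [Fintype X] {R : Type*} [CommRing R]
  {x0 : X} {σ τ : G}

/-- boundary symbols are symbols. -/
theorem bdry_le_symb (hσ : σ ^ 2 = 1) : bdry (X := X) R σ τ ≤ symb R σ τ := by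
  rintro v ⟨ρ, hρ, rfl⟩
  have hτρ : act τ ρ = act σ ρ := act_τ_eq_act_σ hσ hρ
  refine ⟨?_, fun w hw => ?_⟩
  · rw [map_sub, ← act_mul, ← pow_two, hσ, act_one]
    abel
  · rw [← hτρ, form_sub_left, form_act_left]
    have hw' : act τ⁻¹ w = w := by
      have h := congrArg (act τ⁻¹) hw
      rw [act_inv_act] at h
      exact h.symm
    rw [hw', sub_self]

variable (R σ τ) in
/-- the boundary symbols as a submodule of the symbols. -/
def bdryS : Submodule R (symb (X := X) R σ τ) := (bdry R σ τ).comap (symb R σ τ).subtype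

theorem mem_bdryS {v : symb (X := X) R σ τ} : v ∈ bdryS R σ τ ↔ (v : X → R) ∈ bdry R σ τ := Iff.rfl

section Maps

variable (s : Sec G x0) (hσ : σ ^ 2 = 1) (hτ : τ ^ 3 = 1)
  (h0 : ∀ φ : Additive (stabilizer G x0) →+ R, IsPar (σ * τ) φ → sh s φ (σ * τ) = 0)

/-- the symbol `sh s φ σ` of a parabolic homomorphism killing the conjugates of `τ`, as a linear
map into the symbols. -/
def symbOf : parSub (x0 := x0) (R := R) (σ * τ) τ →ₗ[R] symb (X := X) R σ τ :=
  LinearMap.codRestrict (symb R σ τ) ((shLin s σ).comp (parSub (σ * τ) τ).subtype)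
    (fun φ => sh_σ_mem_symb hσ hτ (h0 φ.1 φ.2.1) φ.2.2)

@[simp] theorem coe_symbOf (φ : parSub (x0 := x0) (R := R) (σ * τ) τ) :
    (symbOf s hσ hτ h0 φ : X → R) = sh s φ.1 σ := rfl

/-- the class of the symbol modulo boundary symbols. -/
def shQ : parSub (x0 := x0) (R := R) (σ * τ) τ →ₗ[R] symb (X := X) R σ τ ⧸ bdryS R σ τ :=
  (bdryS R σ τ).mkQ.comp (symbOf s hσ hτ h0)

theorem shQ_apply (φ : parSub (x0 := x0) (R := R) (σ * τ) τ) :
    shQ s hσ hτ h0 φ = Submodule.Quotient.mk (symbOf s hσ hτ h0 φ) := rfl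

/-- **injectivity** (S4). -/
theorem shQ_injective (hgen : Subgroup.closure {σ, τ} = ⊤) :
    Function.Injective (shQ s hσ hτ h0) := by
  rw [injective_iff_map_eq_zero]
  intro φ hφ
  rw [shQ_apply, Submodule.Quotient.mk_eq_zero, mem_bdryS, coe_symbOf] at hφ
  exact Subtype.ext (eq_zero_of_sh_σ_mem_bdry hgen hσ (h0 φ.1 φ.2.1) hφ)

/-- **surjectivity** (S6), under the cocycle-extension hypothesis. -/
theorem shQ_surjective
    (hext : ∀ a b : X → R, a + act σ a = 0 → b + act τ b + act (τ ^ 2) b = 0 →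
      ∃ z : G → X → R, IsCocycle z ∧ z σ = a ∧ z τ = b) :
    Function.Surjective (shQ s hσ hτ h0) := by
  intro q
  obtain ⟨v, rfl⟩ := Submodule.mkQ_surjective _ q
  obtain ⟨φ, h1, h2, h3⟩ := exists_hom_of_mem_symb' hτ hext v.2 h0
  refine ⟨⟨φ, h1, h2⟩, ?_⟩
  rw [shQ_apply, Submodule.mkQ_apply, Submodule.Quotient.eq, mem_bdryS]
  exact h3

/-- **the Shapiro isomorphism** `Hom_par(Γ, R) ≃ symb ⧸ bdry`. -/
noncomputable def shEquiv (hgen : Subgroup.closure {σ, τ} = ⊤)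
    (hext : ∀ a b : X → R, a + act σ a = 0 → b + act τ b + act (τ ^ 2) b = 0 →
      ∃ z : G → X → R, IsCocycle z ∧ z σ = a ∧ z τ = b) :
    parSub (x0 := x0) (R := R) (σ * τ) τ ≃ₗ[R] symb (X := X) R σ τ ⧸ bdryS R σ τ :=
  LinearEquiv.ofBijective (shQ s hσ hτ h0)
    ⟨shQ_injective s hσ hτ h0 hgen, shQ_surjective s hσ hτ h0 hext⟩

theorem shEquiv_apply (hgen : Subgroup.closure {σ, τ} = ⊤)
    (hext : ∀ a b : X → R, a + act σ a = 0 → b + act τ b + act (τ ^ 2) b = 0 →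
      ∃ z : G → X → R, IsCocycle z ∧ z σ = a ∧ z τ = b)
    (φ : parSub (x0 := x0) (R := R) (σ * τ) τ) :
    shEquiv s hσ hτ h0 hgen hext φ = Submodule.Quotient.mk (symbOf s hσ hτ h0 φ) := rfl

/-! ### transport of a pairing -/

/-- the pairing on homomorphisms induced by a bilinear form on `symb ⧸ bdry`. -/
def pairPar (Q : (symb (X := X) R σ τ ⧸ bdryS R σ τ) →ₗ[R] (symb (X := X) R σ τ ⧸ bdryS R σ τ) →ₗ[R] R) :
    parSub (x0 := x0) (R := R) (σ * τ) τ →ₗ[R] parSub (x0 := x0) (R := R) (σ * τ) τ →ₗ[R] R :=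
  Q.compl₁₂ (shQ s hσ hτ h0) (shQ s hσ hτ h0)

theorem pairPar_apply
    (Q : (symb (X := X) R σ τ ⧸ bdryS R σ τ) →ₗ[R] (symb (X := X) R σ τ ⧸ bdryS R σ τ) →ₗ[R] R)
    (φ ψ : parSub (x0 := x0) (R := R) (σ * τ) τ) :
    pairPar s hσ hτ h0 Q φ ψ
      = Q (Submodule.Quotient.mk (symbOf s hσ hτ h0 φ))
          (Submodule.Quotient.mk (symbOf s hσ hτ h0 ψ)) := rfl

/-- left non-degeneracy of the transported pairing. -/
theorem pairPar_injective (hgen : Subgroup.closure {σ, τ} = ⊤)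
    (hext : ∀ a b : X → R, a + act σ a = 0 → b + act τ b + act (τ ^ 2) b = 0 →
      ∃ z : G → X → R, IsCocycle z ∧ z σ = a ∧ z τ = b)
    (Q : (symb (X := X) R σ τ ⧸ bdryS R σ τ) →ₗ[R] (symb (X := X) R σ τ ⧸ bdryS R σ τ) →ₗ[R] R)
    (hQ : Function.Injective Q)
    (φ : parSub (x0 := x0) (R := R) (σ * τ) τ)
    (h : ∀ ψ, pairPar s hσ hτ h0 Q φ ψ = 0) : φ = 0 := by
  apply shQ_injective s hσ hτ h0 hgen
  rw [map_zero]
  apply hQ
  rw [map_zero]
  refine LinearMap.ext fun q => ?_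
  obtain ⟨ψ, rfl⟩ := shQ_surjective s hσ hτ h0 hext q
  exact h ψ

/-- every functional on the homomorphisms is represented by the transported pairing, when the
pairing on `symb ⧸ bdry` is perfect. -/
theorem pairPar_surjective (hgen : Subgroup.closure {σ, τ} = ⊤)
    (hext : ∀ a b : X → R, a + act σ a = 0 → b + act τ b + act (τ ^ 2) b = 0 →
      ∃ z : G → X → R, IsCocycle z ∧ z σ = a ∧ z τ = b)
    (Q : (symb (X := X) R σ τ ⧸ bdryS R σ τ) →ₗ[R] (symb (X := X) R σ τ ⧸ bdryS R σ τ) →ₗ[R] R)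
    (hQ : Function.Surjective Q)
    (f : parSub (x0 := x0) (R := R) (σ * τ) τ →ₗ[R] R) :
    ∃ φ, ∀ ψ, pairPar s hσ hτ h0 Q φ ψ = f ψ := by
  set e := shEquiv s hσ hτ h0 hgen hext with he
  obtain ⟨q, hq⟩ := hQ (f.comp e.symm.toLinearMap)
  refine ⟨e.symm q, fun ψ => ?_⟩
  have h1 : shQ s hσ hτ h0 (e.symm q) = q := e.apply_symm_apply q
  have h2 : e.symm (shQ s hσ hτ h0 ψ) = ψ := e.symm_apply_apply ψ
  show Q (shQ s hσ hτ h0 (e.symm q)) (shQ s hσ hτ h0 ψ) = f ψ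
  rw [h1, hq, LinearMap.comp_apply, LinearEquiv.coe_coe, h2]

end Maps

/-! ### the instance `G = PSL(2, ℤ)`, `σ = S̄`, `τ = Ū` -/

section PSL2

open Fermat.Agent.ES.I2.PSL2Free11

/-- `Model13.act` as a `DistribMulAction` on `X → R` (not an instance). -/
@[reducible] def actDistrib (G : Type*) [Group G] (X : Type*) [MulAction G X] (R : Type*)
    [CommRing R] : DistribMulAction G (X → R) where
  smul g f := act g f
  one_smul f := act_one f
  mul_smul a b f := act_mul a b f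
  smul_zero g := map_zero (act g)
  smul_add g f f' := map_add (act g) f f'

/-- **cocycle extension for `PSL(2, ℤ)`** in `Model13` vocabulary: the hypothesis `hext` of
`ShapiroBridge1.exists_hom_of_mem_symb` holds for `G = Q`, `σ = Sb`, `τ = Ub`, any `Q`-set `X` and
any commutative ring `R`. -/
theorem hext_PSL2 {X : Type*} [MulAction Q X] {R : Type*} [CommRing R] (a b : X → R)
    (ha : a + act Sb a = 0) (hb : b + act Ub b + act (Ub ^ 2) b = 0) :
    ∃ z : Q → X → R, IsCocycle z ∧ z Sb = a ∧ z Ub = b := by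
  let _ : DistribMulAction Q (X → R) := actDistrib Q X R
  obtain ⟨z, ⟨hz, h1, h2⟩, -⟩ := PSL2Cocycle11.existsUnique_cocycle (V := X → R) a b ha hb
  exact ⟨z, hz, h1, h2⟩

variable {X : Type*} [MulAction Q X] [Fintype X] {R : Type*} [CommRing R] {x0 : X}
  (s : Sec Q x0)
  (h0 : ∀ φ : Additive (stabilizer Q x0) →+ R, IsPar (Sb * Ub) φ → sh s φ (Sb * Ub) = 0)

/-- **the Shapiro isomorphism for `PSL(2, ℤ)`**: parabolic homomorphisms on a point stabiliser
(killing the elliptic elements of order `3`) `≃ symb ⧸ bdry`. -/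
noncomputable def shEquivPSL2 :
    parSub (x0 := x0) (R := R) (Sb * Ub) Ub ≃ₗ[R] symb (X := X) R Sb Ub ⧸ bdryS R Sb Ub :=
  shEquiv s Sb_sq Ub_cube h0 closure_Sb_Ub hext_PSL2

theorem shEquivPSL2_apply (φ : parSub (x0 := x0) (R := R) (Sb * Ub) Ub) :
    shEquivPSL2 s h0 φ = Submodule.Quotient.mk (symbOf s Sb_sq Ub_cube h0 φ) := rfl

/-- (S4) for `PSL(2, ℤ)`. -/
theorem eq_zero_of_sh_mem_bdry_PSL2 {φ : Additive (stabilizer Q x0) →+ R}
    (hφ0 : sh s φ (Sb * Ub) = 0) (hb : sh s φ Sb ∈ bdry R Sb Ub) : φ = 0 :=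
  eq_zero_of_sh_σ_mem_bdry closure_Sb_Ub Sb_sq hφ0 hb

include h0 in
/-- (S6) for `PSL(2, ℤ)`. -/
theorem exists_hom_of_mem_symb_PSL2 {v : X → R} (hv : v ∈ symb R Sb Ub) :
    ∃ φ : Additive (stabilizer Q x0) →+ R, IsPar (Sb * Ub) φ ∧ KillsConj Ub φ ∧
      sh s φ Sb - v ∈ bdry R Sb Ub :=
  exists_hom_of_mem_symb' Ub_cube hext_PSL2 hv h0

end PSL2

end Fermat.Agent.ES.I2.ShapiroIso1
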